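/-
Extension of homomorphisms from a finitely generated extension of domains.
-/
import Mathlib.RingTheory.Algebraic.Integral
import Mathlib.FieldTheory.IsAlgClosed.Basic
import Mathlib.RingTheory.Adjoin.Polynomial.Basic

set_option autoImplicit false
set_option linter.unusedSectionVars false
set_option linter.style.haveILetI false

noncomputable section

namespace Fermat.Agent.MCurve.MW

open Polynomial

universe u v w

variable {K : Type w} [Field K] [IsAlgClosed K]

theorem exists_extend_one {A : Type u} {B : Type v} [CommRing A] [IsDomain A] [CommRing B]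
    [IsDomain B] [Algebra A B] (hinj : Function.Injective (algebraMap A B)) (b : B)
    (hb : Function.Surjective (aeval b : A[X] →ₐ[A] B)) {w₀ : B} (hw : w₀ ≠ 0) :
    ∃ u : A, u ≠ 0 ∧ ∀ φ : A →+* K, φ u ≠ 0 →
      ∃ ψ : B →+* K, ψ.comp (algebraMap A B) = φ ∧ ψ w₀ ≠ 0 := by
  classical
  have build : ∀ (φ : A →+* K) (α : K), (∀ q : A[X], aeval b q = 0 → q.eval₂ φ α = 0) →
      ∃ ψ : B →+* K, ψ.comp (algebraMap A B) = φ ∧ ∀ q, ψ (aeval b q) = q.eval₂ φ α := by
    intro φ α h
    let ψ := (aeval b : A[X] →ₐ[A] B).toRingHom.liftOfSurjective hb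
      ⟨eval₂RingHom φ α, fun q hq => h q hq⟩
    have hψ : ∀ q, ψ (aeval b q) = q.eval₂ φ α := fun q =>
      RingHom.liftOfSurjective_comp_apply _ hb _ q
    refine ⟨ψ, RingHom.ext fun c => ?_, hψ⟩
    rw [RingHom.comp_apply, ← aeval_C (x := b), hψ, eval₂_C]
  obtain ⟨q₀, hq₀⟩ := hb w₀
  by_cases halg : IsAlgebraic A b
  · have hall : ∀ q : A[X], IsAlgebraic A (aeval b q) := fun q => by
      induction q using Polynomial.induction_on' with
      | add p q hp hq => rw [map_add]; exact hp.add hq
      | monomial n c => rw [aeval_monomial]; exact (isAlgebraic_algebraMap c).mul (halg.pow n)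
    obtain ⟨r, hr, w', hw'⟩ := (hq₀ ▸ hall q₀ : IsAlgebraic A w₀).exists_nonzero_dvd
      (mem_nonZeroDivisors_of_ne_zero hw)
    have hex : ∃ n, ∃ p : A[X], p ≠ 0 ∧ aeval b p = 0 ∧ p.natDegree = n := by
      obtain ⟨p, hp, hp'⟩ := halg
      exact ⟨_, p, hp, hp', rfl⟩
    obtain ⟨p, hp, hpb, hpn⟩ := Nat.find_spec hex
    have hmin : ∀ q : A[X], q ≠ 0 → aeval b q = 0 → p.natDegree ≤ q.natDegree := fun q hq hq' =>
      hpn ▸ Nat.find_min' hex ⟨q, hq, hq', rfl⟩
    refine ⟨p.leadingCoeff * r, mul_ne_zero (leadingCoeff_ne_zero.mpr hp) hr, fun φ hφ => ?_⟩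
    rw [map_mul, mul_ne_zero_iff] at hφ
    have hpd : 0 < p.natDegree := by
      rw [pos_iff_ne_zero]
      intro h0
      rw [eq_C_of_natDegree_eq_zero h0, aeval_C] at hpb
      exact hp (by rw [eq_C_of_natDegree_eq_zero h0, (injective_iff_map_eq_zero _).mp hinj _ hpb,
        C_0])
    have hdeg : (p.map φ).degree ≠ 0 := by
      rw [degree_map_eq_of_leadingCoeff_ne_zero φ hφ.1, degree_eq_natDegree hp]
      exact_mod_cast hpd.ne'
    obtain ⟨α, hα⟩ := IsAlgClosed.exists_root (p.map φ) hdeg
    have hα' : p.eval₂ φ α = 0 := by rw [← eval_map]; exact hα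
    have hker : ∀ (n : ℕ) (q : A[X]), q.natDegree ≤ n → aeval b q = 0 → q.eval₂ φ α = 0 := by
      intro n
      induction n using Nat.strong_induction_on with
      | _ n ih =>
        intro q hqn hq
        rcases eq_or_ne q 0 with rfl | hq0
        · simp
        have hle := hmin q hq0 hq
        set q' := C p.leadingCoeff * q - C q.leadingCoeff * X ^ (q.natDegree - p.natDegree) * p
          with hq'
        have hev : q'.eval₂ φ α = φ p.leadingCoeff * q.eval₂ φ α := by
          rw [hq', eval₂_sub, eval₂_mul, eval₂_mul, eval₂_C, hα', mul_zero, sub_zero]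
        have haq : aeval b q' = 0 := by simp [hq', hq, hpb]
        have hz : q'.eval₂ φ α = 0 := by
          rcases eq_or_ne q' 0 with h0 | h0
          · simp [h0]
          have hl1 : C p.leadingCoeff * q ≠ 0 :=
            mul_ne_zero (C_ne_zero.mpr (leadingCoeff_ne_zero.mpr hp)) hq0
          have hlt : q'.natDegree < q.natDegree := by
            have h1 : (C p.leadingCoeff * q).degree =
                (C q.leadingCoeff * X ^ (q.natDegree - p.natDegree) * p).degree := by
              rw [degree_C_mul (leadingCoeff_ne_zero.mpr hp), degree_mul, degree_C_mul_X_pow _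
                (leadingCoeff_ne_zero.mpr hq0), degree_eq_natDegree hq0, degree_eq_natDegree hp,
                ← Nat.cast_add, Nat.sub_add_cancel hle]
            have h2 : (C p.leadingCoeff * q).leadingCoeff =
                (C q.leadingCoeff * X ^ (q.natDegree - p.natDegree) * p).leadingCoeff := by
              rw [leadingCoeff_mul, leadingCoeff_mul, leadingCoeff_C, leadingCoeff_C_mul_X_pow,
                mul_comm]
            have h3 := degree_sub_lt_left h1 hl1 h2
            rw [degree_C_mul (leadingCoeff_ne_zero.mpr hp)] at h3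
            exact natDegree_lt_natDegree h0 h3
          exact ih q'.natDegree (hlt.trans_le hqn) q' le_rfl haq
        rw [hev] at hz
        exact (mul_eq_zero.mp hz).resolve_left hφ.1
    obtain ⟨ψ, hψ, -⟩ := build φ α fun q hq => hker q.natDegree q le_rfl hq
    refine ⟨ψ, hψ, fun h0 => hφ.2 ?_⟩
    rw [← hψ, RingHom.comp_apply, hw', map_mul, h0, zero_mul]
  · have hq₀0 : q₀ ≠ 0 := fun h => hw (by rw [← hq₀, h, map_zero])
    refine ⟨q₀.leadingCoeff, leadingCoeff_ne_zero.mpr hq₀0, fun φ hφ => ?_⟩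
    have hne : q₀.map φ ≠ 0 := fun h => hφ (by
      simpa [coeff_map] using congrArg (fun p => p.coeff q₀.natDegree) h)
    obtain ⟨α, hα⟩ := Infinite.exists_notMem_finset (q₀.map φ).roots.toFinset
    obtain ⟨ψ, hψ, hψ'⟩ := build φ α fun q hq => by
      rw [transcendental_iff.mp halg q hq, eval₂_zero]
    refine ⟨ψ, hψ, fun h0 => hα (Multiset.mem_toFinset.mpr ((mem_roots hne).mpr ?_))⟩
    rw [IsRoot, eval_map, ← hψ', hq₀, h0]

/-- A homomorphism from a domain extends to a finitely generated extension outside a closed set. -/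
theorem exists_extend_gen {S : Type u} [CommRing S] [IsDomain S] (n : ℕ) :
    ∀ {B : Type v} [CommRing B] [IsDomain B] [Algebra S B],
      Function.Injective (algebraMap S B) → ∀ x : Fin n → B,
      Algebra.adjoin S (Set.range x) = ⊤ → ∀ {w₀ : B}, w₀ ≠ 0 →
      ∃ u : S, u ≠ 0 ∧ ∀ φ : S →+* K, φ u ≠ 0 →
        ∃ ψ : B →+* K, ψ.comp (algebraMap S B) = φ ∧ ψ w₀ ≠ 0 := by
  induction n with
  | zero =>
    intro B _ _ _ hinj x hx w₀ hw
    have hsurj : Function.Surjective (algebraMap S B) := fun y => by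
      have : y ∈ Algebra.adjoin S (Set.range x) := hx ▸ Algebra.mem_top
      rw [Set.range_eq_empty, Algebra.adjoin_empty] at this
      exact this
    let e := RingEquiv.ofBijective (algebraMap S B) ⟨hinj, hsurj⟩
    obtain ⟨u, rfl⟩ := hsurj w₀
    refine ⟨u, fun h => hw (by rw [h, map_zero]), fun φ hφ =>
      ⟨φ.comp e.symm.toRingHom, RingHom.ext fun s => ?_, ?_⟩⟩
    · simp [show algebraMap S B s = e s from rfl]
    · simpa [show algebraMap S B u = e u from rfl] using hφ
  | succ n ih =>
    intro B _ _ _ hinj x hx w₀ hw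
    let T := Algebra.adjoin S (Set.range fun i : Fin n => x i.castSucc)
    let x' : Fin n → T := fun i => ⟨x i.castSucc, Algebra.subset_adjoin ⟨i, rfl⟩⟩
    have hx' : Algebra.adjoin S (Set.range x') = ⊤ := by
      rw [show Set.range x' = ((↑) : T → B) ⁻¹' Set.range fun i : Fin n => x i.castSucc from ?_]
      · exact Algebra.adjoin_adjoin_coe_preimage
      ext t
      simp [x', Subtype.ext_iff]
    have hsurj : Function.Surjective (aeval (x (Fin.last n)) : T[X] →ₐ[T] B) := fun y => by
      have hy : y ∈ Algebra.adjoin S (Set.range x) := hx ▸ Algebra.mem_top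
      induction hy using Algebra.adjoin_induction with
      | mem y hy =>
        obtain ⟨i, rfl⟩ := hy
        induction i using Fin.lastCases with
        | last => exact ⟨Polynomial.X, aeval_X _⟩
        | cast i => exact ⟨C (x' i), aeval_C _ _⟩
      | algebraMap s => exact ⟨C (algebraMap S T s), by rw [aeval_C]; rfl⟩
      | add a b _ _ ha hb =>
        obtain ⟨p, rfl⟩ := ha
        obtain ⟨q, rfl⟩ := hb
        exact ⟨p + q, map_add _ _ _⟩
      | mul a b _ _ ha hb =>
        obtain ⟨p, rfl⟩ := ha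
        obtain ⟨q, rfl⟩ := hb
        exact ⟨p * q, map_mul _ _ _⟩
    obtain ⟨u₁, hu₁, hext₁⟩ :=
      exists_extend_one (K := K) Subtype.val_injective (x (Fin.last n)) hsurj hw
    obtain ⟨u, hu, hext⟩ := ih (B := T) (fun s t h => hinj (congrArg Subtype.val h)) x' hx' hu₁
    refine ⟨u, hu, fun φ hφ => ?_⟩
    obtain ⟨ψ₁, hψ₁, hψu⟩ := hext φ hφ
    obtain ⟨ψ, hψ, hψw⟩ := hext₁ ψ₁ hψu
    refine ⟨ψ, ?_, hψw⟩
    rw [← hψ₁, ← hψ, RingHom.comp_assoc]
    rfl

section Lift

variable {B : Type v} [CommRing B] [IsDomain B] [Algebra K B] {n : ℕ} (x : Fin n → B)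

theorem adjoin_over_eq_top (hx : Algebra.adjoin K (Set.range x) = ⊤) {S : Type u} [CommRing S]
    [Algebra S B] (hS : ∀ r : K, ∃ s : S, algebraMap S B s = algebraMap K B r) :
    Algebra.adjoin S (Set.range x) = ⊤ := by
  rw [eq_top_iff]
  intro b _
  have hb : b ∈ Algebra.adjoin K (Set.range x) := hx ▸ Algebra.mem_top
  induction hb using Algebra.adjoin_induction with
  | mem b hb => exact Algebra.subset_adjoin hb
  | algebraMap r => obtain ⟨s, hs⟩ := hS r; exact hs ▸ Subalgebra.algebraMap_mem _ _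
  | add a b _ _ ha hb => exact add_mem (ha trivial) (hb trivial)
  | mul a b _ _ ha hb => exact mul_mem (ha trivial) (hb trivial)

/-- Homomorphisms on the subring of a family lift, outside a closed set. -/
theorem exists_hom_lift (hx : Algebra.adjoin K (Set.range x) = ⊤) {ι : Type u} (y : ι → B) :
    ∃ p : MvPolynomial ι K, MvPolynomial.aeval y p ≠ 0 ∧ ∀ c : ι → K,
      (∀ r, MvPolynomial.aeval y r = 0 → r.eval c = 0) → p.eval c ≠ 0 →
        ∃ ψ : B →ₐ[K] K, ∀ i, ψ (y i) = c i := by
  set R := Algebra.adjoin K (Set.range y) with hR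
  have hinj : Function.Injective (algebraMap R B) := fun a b h => Subtype.ext h
  obtain ⟨u, hu, hext⟩ := exists_extend_gen (K := K) n hinj x
    (adjoin_over_eq_top x hx fun r => ⟨algebraMap K R r, rfl⟩) (one_ne_zero (α := B))
  let π : MvPolynomial ι K →ₐ[K] R :=
    MvPolynomial.aeval fun i => ⟨y i, Algebra.subset_adjoin ⟨i, rfl⟩⟩
  have hπ : ∀ p, (π p : B) = MvPolynomial.aeval y p := fun p =>
    MvPolynomial.comp_aeval_apply (fun i => (⟨y i, Algebra.subset_adjoin ⟨i, rfl⟩⟩ : R)) R.val p
  have hπs : Function.Surjective π := by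
    rintro ⟨r, hr⟩
    obtain ⟨p, hp⟩ := (Algebra.adjoin_range_eq_range_aeval K y).le hr
    exact ⟨p, Subtype.ext ((hπ p).trans hp)⟩
  obtain ⟨p, rfl⟩ := hπs u
  refine ⟨p, fun h0 => hu (Subtype.ext ((hπ p).trans h0)), fun c hc hpc => ?_⟩
  let φ : R →+* K := π.toRingHom.liftOfSurjective hπs
    ⟨MvPolynomial.eval c, fun r hr => hc r ((hπ r).symm.trans (congrArg Subtype.val hr))⟩
  have hφ : ∀ r, φ (π r) = r.eval c := fun r =>
    RingHom.liftOfSurjective_comp_apply _ hπs _ r
  obtain ⟨ψ, hψ, -⟩ := hext φ (by rw [hφ]; exact hpc)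
  have hψ' : ∀ r, ψ (MvPolynomial.aeval y r) = r.eval c := fun r => by
    rw [← hπ, ← hφ r, ← hψ]
    rfl
  have hK : ∀ r, ψ (algebraMap K _ r) = r := fun r => by
    simpa using hψ' (MvPolynomial.C r)
  exact ⟨{ ψ with commutes' := hK }, fun i => by
    show ψ (y i) = c i
    simpa using hψ' (MvPolynomial.X i)⟩

/-- A function transcendental over a family takes infinitely many values on some fibre. -/
theorem exists_infinite_values (hx : Algebra.adjoin K (Set.range x) = ⊤)
    (hsep : ∀ b : B, b ≠ 0 → ∃ ψ : B →ₐ[K] K, ψ b ≠ 0) {ι : Type u} (y : ι → B) (t : B)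
    (ht : Transcendental (Algebra.adjoin K (Set.range y)) t) :
    ∃ c : ι → K, {a | ∃ ψ : B →ₐ[K] K, (∀ i, ψ (y i) = c i) ∧ ψ t = a}.Infinite := by
  classical
  set R := Algebra.adjoin K (Set.range y) with hR
  letI : Algebra R[X] B := (aeval t).toRingHom.toAlgebra
  have hinj : Function.Injective (algebraMap R[X] B) := transcendental_iff_injective.mp ht
  have halgK : ∀ r : K, algebraMap R[X] B (C (algebraMap K R r)) = algebraMap K B r := fun r => by
    show aeval t _ = _
    rw [aeval_C]
    rfl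
  obtain ⟨u, hu, hext⟩ := exists_extend_gen (K := K) n hinj x
    (adjoin_over_eq_top x hx fun r => ⟨_, halgK r⟩) (one_ne_zero (α := B))
  obtain ⟨ψ₀, hψ₀⟩ := hsep (u.leadingCoeff : B) fun h =>
    hu (leadingCoeff_eq_zero.mp (Subtype.ext h))
  let φ₀ : R →+* K := ψ₀.toRingHom.comp R.val.toRingHom
  have hne : u.map φ₀ ≠ 0 := fun h0 => hψ₀ (by
    have := congrArg (fun p => coeff p u.natDegree) h0
    simpa [coeff_map, φ₀] using this)
  refine ⟨fun i => ψ₀ (y i), fun hfin => Set.infinite_univ (α := K)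
    ((hfin.union (u.map φ₀).roots.toFinset.finite_toSet).subset fun a _ => ?_)⟩
  by_cases ha : a ∈ (u.map φ₀).roots.toFinset
  · exact Or.inr ha
  refine Or.inl ?_
  obtain ⟨ψ, hψ, -⟩ := hext (eval₂RingHom φ₀ a) (fun h0 => ha (by
    rw [Multiset.mem_toFinset, mem_roots hne, IsRoot, eval_map]
    exact h0))
  have hK : ∀ r, ψ (algebraMap K _ r) = r := fun r => by
    rw [← halgK, ← RingHom.comp_apply, hψ, coe_eval₂RingHom, eval₂_C]
    exact ψ₀.commutes r
  refine ⟨{ ψ with commutes' := hK }, fun i => ?_, ?_⟩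
  · have := RingHom.congr_fun hψ (C ⟨y i, Algebra.subset_adjoin ⟨i, rfl⟩⟩)
    rw [RingHom.comp_apply, coe_eval₂RingHom, eval₂_C, RingHom.algebraMap_toAlgebra] at this
    simpa [φ₀] using this
  · have := RingHom.congr_fun hψ Polynomial.X
    rw [RingHom.comp_apply, coe_eval₂RingHom, eval₂_X, RingHom.algebraMap_toAlgebra] at this
    simpa using this

end Lift

end Fermat.Agent.MCurve.MW
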