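/-
The data of the height argument for the Mordell–Weil theorem: a point at infinity, an affine
coordinate with a single pole, tuples of affine points, polynomial functions on tuples with their
degree, and the Mumford coordinates of a regular class.
-/
import Fermat.Agent.MCurve.RiemannRoch.Curve
import Fermat.Agent.MCurve.RiemannRoch.Spaces
import Mathlib.LinearAlgebra.Lagrange
import Mathlib.LinearAlgebra.Vandermonde

set_option autoImplicit false
set_option linter.unusedSectionVars false

noncomputable section

namespace Fermat.Agent.MCurve.MW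

open AlgebraicCurve RR
open scoped Classical

variable {K F : Type*} [Field K] [Field F] [Algebra K F]

/-- The data: a place at infinity, Riemann's theorem, and a function whose only pole is there. -/
structure Setup (K F : Type*) [Field K] [Field F] [Algebra K F] where
  /-- The place at infinity. -/
  inf : Place K F
  /-- The genus. -/
  g : ℕ
  /-- The bound beyond which dimensions are exact. -/
  c : ℕ
  hR : IsRiemann K F g c
  hgc : g ≤ c
  /-- The affine coordinate. -/
  f : F
  f_fin : IsFinOver K f
  f_pole : ∀ v : Place K F, v ≠ inf → 0 ≤ v.ord f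
  f_inf : inf.ord f = -((c : ℤ) + 1)

variable [IsAlgClosed K] [∀ v : Place K F, v.FiniteResidue] [HasPrincipalDivisors K F]
  [Nonempty (Place K F)]

variable (X : Setup K F)

/-- The affine points. -/
abbrev Setup.Pt : Type _ := {v : Place K F // v ≠ X.inf}

/-- Tuples of `g` affine points. -/
abbrev Setup.Tup : Type _ := Fin X.g → X.Pt

/-- The functions with poles of order at most `n` at infinity only. -/
abbrev Setup.L (n : ℕ) : Submodule K F := riemannRochSpace (Finsupp.single X.inf (n : ℤ))

/-- The value of a function at a place (zero at a pole). -/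
def valAt (v : Place K F) (a : F) : K :=
  if h : a ∈ v.toValuationSubring then
    (haveI : Module.Finite K v.ResidueField := Place.FiniteResidue.finite
     exists_value v h).choose
  else 0

/-- The level at which the generators of the affine ring are taken. -/
def Setup.n₁ : ℕ := 3 * (X.c + 1)

/-- The generators of the affine ring. -/
def Setup.gen (k : Fin (Module.finrank K (X.L X.n₁))) : F := (Module.finBasis K (X.L X.n₁) k : F)

/-- The value of the affine coordinate at the points of a tuple. -/
def Setup.fv (Q : X.Tup) (i : Fin X.g) : K := valAt (Q i).1 X.f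

/-- The Vandermonde determinant of the values of the affine coordinate. -/
def Setup.V (Q : X.Tup) : K := (Matrix.vandermonde (X.fv Q)).det

/-- Products of values, one function at each point, with poles bounded by `n`. -/
def Setup.pfGens (n : ℕ) : Set (X.Tup → K) :=
  {Φ | ∃ a : Fin X.g → F, (∀ i, a i ∈ X.L n) ∧ Φ = fun Q => ∏ i, valAt (Q i).1 (a i)}

/-- Polynomial functions on tuples of degree at most `n` in each point. -/
def Setup.PF (n : ℕ) : Submodule K (X.Tup → K) := Submodule.span K (X.pfGens n)

/-- The divisor of a tuple. -/
def Setup.divT (Q : X.Tup) : Divisor K F := ∑ i, Finsupp.single (Q i).1 1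

theorem Setup.divT_sub_mem (Q : X.Tup) :
    X.divT Q - Finsupp.single X.inf (X.g : ℤ) ∈ Divisor.degZero (K := K) (F := F) := by
  rw [Divisor.mem_degZero, map_sub, Setup.divT, map_sum,
    show (∑ i, Divisor.degree (Finsupp.single (Q i).1 (1 : ℤ))) = ∑ _i : Fin X.g, (1 : ℤ) from
      Finset.sum_congr rfl fun i _ => degree_single_one _,
    Divisor.degree_single, deg_one]
  simp

/-- The class of a tuple. -/
def Setup.clT (Q : X.Tup) : Pic0 K F :=
  Pic0.mk ⟨X.divT Q - Finsupp.single X.inf (X.g : ℤ), X.divT_sub_mem Q⟩

/-- A regular tuple: distinct values of the coordinate, and no other effective divisor in the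
class. -/
def Setup.IsRegT (Q : X.Tup) : Prop := X.V Q ≠ 0 ∧ ell (X.divT Q) = 1

/-- A regular class. -/
def Setup.Reg (d : Pic0 K F) : Prop := ∃ Q : X.Tup, X.IsRegT Q ∧ X.clT Q = d

/-- The index type of the coordinates of a regular class. -/
abbrev Setup.Coord : Type := Fin X.g ⊕ (Fin (Module.finrank K (X.L X.n₁)) × Fin X.g)

/-- The coordinates of a tuple: the polynomial with roots the values of the coordinate, and the
polynomials interpolating the values of the generators. -/
def Setup.xT (Q : X.Tup) : X.Coord → K
  | .inl j => (∏ i, (Polynomial.X - Polynomial.C (X.fv Q i))).coeff j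
  | .inr kj => (Lagrange.interpolate Finset.univ (X.fv Q)
      fun i => valAt (Q i).1 (X.gen kj.1)).coeff kj.2

/-- The coordinates of a regular class. -/
def Setup.xc (d : Pic0 K F) : X.Coord → K :=
  if h : X.Reg d then X.xT h.choose else 0

/-- Formulas for the coordinates of the class `d + m [Q]`. -/
structure Setup.Formulas (d : Pic0 K F) (m D : ℕ) where
  /-- The formulas. -/
  ι : Type
  fintype_ι : Fintype ι
  /-- The denominators. -/
  den : ι → X.Tup → K
  /-- The numerators. -/
  num : ι → X.Coord → X.Tup → K
  den_mem : ∀ s, den s ∈ X.PF D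
  num_mem : ∀ s i, num s i ∈ X.PF D
  sound : ∀ s Q, den s Q ≠ 0 → X.V Q ≠ 0 ∧ X.Reg (d + m • X.clT Q) ∧
    ∀ i, X.xc (d + m • X.clT Q) i = num s i Q / den s Q
  complete : ∀ Q, X.V Q ≠ 0 → X.Reg (d + m • X.clT Q) → ∃ s, den s Q ≠ 0

end Fermat.Agent.MCurve.MW
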