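/-
Values at places, the spaces with poles at infinity only, and the algebra of polynomial functions
on tuples.
-/
import Fermat.Agent.MCurve.MW.Defs

set_option autoImplicit false
set_option linter.unusedSectionVars false

noncomputable section

namespace Fermat.Agent.MCurve.MW

open AlgebraicCurve RR
open scoped Classical
open Matrix

variable {K F : Type*} [Field K] [Field F] [Algebra K F] [IsAlgClosed K]
  [∀ v : Place K F, v.FiniteResidue] [HasPrincipalDivisors K F] [Nonempty (Place K F)]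

/-- Vanishing at a place. -/
def Van (v : Place K F) (a : F) : Prop := a = 0 ∨ 0 < v.ord a

theorem Van.mem {v : Place K F} {a : F} (h : Van v a) : a ∈ v.toValuationSubring := by
  rcases eq_or_ne a 0 with rfl | ha
  · exact zero_mem _
  · exact (mem_iff_ord_nonneg v ha).mpr (h.resolve_left ha).le

theorem Van.neg {v : Place K F} {a : F} (h : Van v a) : Van v (-a) := by
  unfold Van at *; rw [neg_eq_zero, MCurve.ord_neg]; exact h

theorem Van.add {v : Place K F} {a b : F} (h : Van v a) (h' : Van v b) : Van v (a + b) := by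
  rcases eq_or_ne (a + b) 0 with h0 | h0
  · exact Or.inl h0
  rcases eq_or_ne a 0 with rfl | ha
  · simpa using h'
  rcases eq_or_ne b 0 with rfl | hb
  · simpa using h
  have := MCurve.ord_add_le v ha hb h0
  have := h.resolve_left ha
  have := h'.resolve_left hb
  exact Or.inr (by omega)

theorem Van.mul {v : Place K F} {a b : F} (h : Van v a) (hb : b ∈ v.toValuationSubring) :
    Van v (a * b) := by
  rcases eq_or_ne a 0 with rfl | ha
  · exact Or.inl (zero_mul b)
  rcases eq_or_ne b 0 with rfl | hb0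
  · exact Or.inl (mul_zero a)
  have := h.resolve_left ha
  have := (mem_iff_ord_nonneg v hb0).mp hb
  exact Or.inr (by rw [v.ord_mul ha hb0]; omega)

theorem van_sub {v : Place K F} {a : F} {k : K} :
    (a = algebraMap K F k ∨ 0 < v.ord (a - algebraMap K F k)) ↔
      Van v (a - algebraMap K F k) := by
  rw [Van, sub_eq_zero]

theorem Van.const {v : Place K F} {k : K} (h : Van v (algebraMap K F k)) : k = 0 := by
  rcases h with h | h
  · exact (map_eq_zero _).mp h
  · rw [MCurve.ord_algebraMap] at h; omega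

theorem valAt_eq {v : Place K F} {a : F} {k : K}
    (h : a = algebraMap K F k ∨ 0 < v.ord (a - algebraMap K F k)) : valAt v a = k := by
  have hm : a ∈ v.toValuationSubring := by
    simpa using add_mem (van_sub.mp h).mem (v.algebraMap_mem' k)
  rw [valAt, dif_pos hm]
  generalize_proofs hex
  have := (van_sub.mp hex.choose_spec).add (van_sub.mp h).neg
  rw [show a - algebraMap K F hex.choose + -(a - algebraMap K F k) =
    algebraMap K F (k - hex.choose) by rw [map_sub]; ring] at this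
  exact (sub_eq_zero.mp this.const).symm

theorem valAt_spec {v : Place K F} {a : F} (h : a ∈ v.toValuationSubring) :
    a = algebraMap K F (valAt v a) ∨ 0 < v.ord (a - algebraMap K F (valAt v a)) := by
  have : Module.Finite K v.ResidueField := Place.FiniteResidue.finite
  obtain ⟨k, hk⟩ := exists_value v h
  rwa [valAt_eq hk]

theorem valAt_algebraMap (v : Place K F) (k : K) : valAt v (algebraMap K F k) = k := valAt_eq (Or.inl rfl)

theorem valAt_one (v : Place K F) : valAt v (1 : F) = 1 := by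
  simpa using valAt_algebraMap v (1 : K)

theorem valAt_add {v : Place K F} {a b : F} (ha : a ∈ v.toValuationSubring)
    (hb : b ∈ v.toValuationSubring) : valAt v (a + b) = valAt v a + valAt v b := by
  refine valAt_eq (van_sub.mpr ?_)
  have := (van_sub.mp (valAt_spec ha)).add (van_sub.mp (valAt_spec hb))
  rw [map_add]
  rwa [add_sub_add_comm]

theorem valAt_mul {v : Place K F} {a b : F} (ha : a ∈ v.toValuationSubring)
    (hb : b ∈ v.toValuationSubring) : valAt v (a * b) = valAt v a * valAt v b := by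
  refine valAt_eq (van_sub.mpr ?_)
  have := ((van_sub.mp (valAt_spec ha)).mul hb).add
    ((van_sub.mp (valAt_spec hb)).mul (v.algebraMap_mem' (valAt v a)))
  rw [map_mul]
  convert this using 1
  ring

theorem valAt_smul {v : Place K F} (k : K) {a : F} (ha : a ∈ v.toValuationSubring) :
    valAt v (k • a) = k * valAt v a := by
  rw [Algebra.smul_def, valAt_mul (v.algebraMap_mem' k) ha, valAt_algebraMap]

theorem valAt_sum {ι : Type*} {v : Place K F} (s : Finset ι) (a : ι → F)
    (ha : ∀ i ∈ s, a i ∈ v.toValuationSubring) :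
    valAt v (∑ i ∈ s, a i) = ∑ i ∈ s, valAt v (a i) := by
  induction s using Finset.induction_on with
  | empty => simpa using valAt_algebraMap v (0 : K)
  | @insert i s hi ih =>
    have hs : ∀ j ∈ s, a j ∈ v.toValuationSubring := fun j hj => ha j (Finset.mem_insert_of_mem hj)
    rw [Finset.sum_insert hi, Finset.sum_insert hi,
      valAt_add (ha i (Finset.mem_insert_self i s)) (sum_mem hs), ih hs]

theorem valAt_eq_zero_iff {v : Place K F} {a : F} (ha : a ∈ v.toValuationSubring) :
    valAt v a = 0 ↔ a = 0 ∨ 0 < v.ord a := by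
  refine ⟨fun h => ?_, fun h => valAt_eq (by simpa using h)⟩
  simpa [h] using valAt_spec ha

variable {X : Setup K F}

theorem Setup.mem_L {n : ℕ} {a : F} :
    a ∈ X.L n ↔ a = 0 ∨ (∀ v : Place K F, v ≠ X.inf → 0 ≤ v.ord a) ∧ -(n : ℤ) ≤ X.inf.ord a := by
  rw [Setup.L, mem_space_iff]
  refine or_congr Iff.rfl ⟨fun h => ⟨fun v hv => ?_, ?_⟩, fun h v => ?_⟩
  · simpa [Finsupp.single_eq_of_ne hv] using h v
  · simpa using h X.inf
  · rcases eq_or_ne v X.inf with rfl | hv
    · simpa using h.2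
    · simpa [Finsupp.single_eq_of_ne hv] using h.1 v hv

theorem Setup.mem_ring {n : ℕ} {a : F} (ha : a ∈ X.L n) {v : Place K F} (hv : v ≠ X.inf) :
    a ∈ v.toValuationSubring := by
  rcases eq_or_ne a 0 with rfl | h0
  · exact zero_mem _
  · exact (mem_iff_ord_nonneg v h0).mpr (((Setup.mem_L.mp ha).resolve_left h0).1 v hv)

theorem Setup.L_mono {n k : ℕ} (h : n ≤ k) : X.L n ≤ X.L k := fun a ha =>
  Setup.mem_L.mpr ((Setup.mem_L.mp ha).imp id fun h' => ⟨h'.1, by have := h'.2; omega⟩)

theorem Setup.one_mem_L (n : ℕ) : (1 : F) ∈ X.L n :=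
  Setup.mem_L.mpr (Or.inr ⟨fun v _ => by simp, by simp⟩)

theorem Setup.mul_mem_L {n k : ℕ} {a b : F} (ha : a ∈ X.L n) (hb : b ∈ X.L k) :
    a * b ∈ X.L (n + k) := by
  have := mul_mem_space ha hb
  rwa [← Finsupp.single_add, ← Nat.cast_add] at this

theorem Setup.f_pow_mem (j : ℕ) {n : ℕ} (h : j * (X.c + 1) ≤ n) : X.f ^ j ∈ X.L n :=
  Setup.mem_L.mpr (Or.inr ⟨fun v hv => by
      rw [MCurve.ord_pow]; exact mul_nonneg (Int.natCast_nonneg j) (X.f_pole v hv),
    by
      rw [MCurve.ord_pow, X.f_inf]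
      have : ((j * (X.c + 1) : ℕ) : ℤ) ≤ n := by exact_mod_cast h
      push_cast at this
      linarith⟩)

theorem Setup.gen_mem (k : Fin (Module.finrank K (X.L X.n₁))) : X.gen k ∈ X.L X.n₁ := (Module.finBasis K (X.L X.n₁) k).2

theorem Setup.span_gen : Submodule.span K (Set.range X.gen) = X.L X.n₁ := by
  have : Set.range X.gen =
      (X.L X.n₁).subtype '' Set.range (Module.finBasis K (X.L X.n₁)) := by
    rw [← Set.range_comp]; rfl
  rw [this, Submodule.span_image, Module.Basis.span_eq, Submodule.map_top, Submodule.range_subtype]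

theorem Setup.PF_mono {n k : ℕ} (h : n ≤ k) : X.PF n ≤ X.PF k :=
  Submodule.span_mono fun Φ ⟨a, ha, e⟩ => ⟨a, fun i => Setup.L_mono h (ha i), e⟩

theorem Setup.const_mem_PF (n : ℕ) (k : K) : (fun _ => k) ∈ X.PF n := by
  have h1 : (fun Q : X.Tup => ∏ i, valAt (Q i).1 (1 : F)) ∈ X.PF n :=
    Submodule.subset_span ⟨fun _ => 1, fun _ => Setup.one_mem_L n, rfl⟩
  convert Submodule.smul_mem _ k h1 using 1
  funext Q
  simp [valAt_one]

theorem Setup.val_mem_PF {n : ℕ} {a : F} (ha : a ∈ X.L n) (i : Fin X.g) :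
    (fun Q : X.Tup => valAt (Q i).1 a) ∈ X.PF n := by
  refine Submodule.subset_span ⟨Function.update (fun _ => 1) i a, fun j => ?_, funext fun Q => ?_⟩
  · rcases eq_or_ne j i with rfl | hj
    · simpa using ha
    · simpa [hj] using Setup.one_mem_L n
  · rw [Finset.prod_eq_single i (fun j _ hj => by simp [hj, valAt_one]) (by simp)]
    simp

theorem Setup.mul_mem_PF {n k : ℕ} {Φ Ψ : X.Tup → K} (hΦ : Φ ∈ X.PF n) (hΨ : Ψ ∈ X.PF k) :
    Φ * Ψ ∈ X.PF (n + k) := by
  have key : X.PF n * X.PF k ≤ X.PF (n + k) := by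
    rw [Setup.PF, Setup.PF, Submodule.span_mul_span]
    refine Submodule.span_mono ?_
    rintro _ ⟨_, ⟨a, ha, rfl⟩, _, ⟨b, hb, rfl⟩, rfl⟩
    refine ⟨fun i => a i * b i, fun i => Setup.mul_mem_L (ha i) (hb i), funext fun Q => ?_⟩
    simp only [Pi.mul_apply, ← Finset.prod_mul_distrib]
    exact Finset.prod_congr rfl fun i _ =>
      (valAt_mul (Setup.mem_ring (ha i) (Q i).2) (Setup.mem_ring (hb i) (Q i).2)).symm
  exact key (Submodule.mul_mem_mul hΦ hΨ)

theorem Setup.pow_mem_PF {n : ℕ} {Φ : X.Tup → K} (hΦ : Φ ∈ X.PF n) (j : ℕ) :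
    Φ ^ j ∈ X.PF (j * n) := by
  induction j with
  | zero => rw [pow_zero]; exact X.const_mem_PF (0 * n) 1
  | succ j ih => rw [pow_succ, Nat.succ_mul]; exact Setup.mul_mem_PF ih hΦ

theorem Setup.prod_mem_PF {ι : Type*} (s : Finset ι) (n : ι → ℕ) (Φ : ι → X.Tup → K)
    (hΦ : ∀ i ∈ s, Φ i ∈ X.PF (n i)) : (∏ i ∈ s, Φ i) ∈ X.PF (∑ i ∈ s, n i) := by
  induction s using Finset.induction_on with
  | empty => rw [Finset.prod_empty, Finset.sum_empty]; exact X.const_mem_PF 0 1
  | @insert i s hi ih =>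
    rw [Finset.prod_insert hi, Finset.sum_insert hi]
    exact Setup.mul_mem_PF (hΦ i (Finset.mem_insert_self i s))
      (ih fun j hj => hΦ j (Finset.mem_insert_of_mem hj))

theorem Setup.det_mem_PF {m : Type*} [Fintype m] [DecidableEq m] {n : ℕ}
    (M : X.Tup → Matrix m m K) (hM : ∀ i j, (fun Q => M Q i j) ∈ X.PF n) :
    (fun Q => (M Q).det) ∈ X.PF (Fintype.card m * n) := by
  have e : (fun Q => (M Q).det) = ∑ σ : Equiv.Perm m,
      (Equiv.Perm.sign σ : ℤ) • ∏ i, fun Q => M Q (σ i) i := by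
    funext Q
    simp [Matrix.det_apply, Finset.sum_apply, Finset.prod_apply, Units.smul_def]
  rw [e]
  refine sum_mem fun σ _ => zsmul_mem ?_ _
  have := X.prod_mem_PF Finset.univ (fun _ => n) (fun i Q => M Q (σ i) i) fun i _ => hM _ _
  simpa using this

/-- A polynomial in quotients, cleared of denominators. -/
theorem Setup.exists_cleared {σ : Type*} (P : MvPolynomial σ K) {N n : ℕ} (hP : P.totalDegree ≤ N)
    (Φ : σ → X.Tup → K) (Δ : X.Tup → K) (hΦ : ∀ i, Φ i ∈ X.PF n) (hΔ : Δ ∈ X.PF n) :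
    ∃ Ψ ∈ X.PF (N * n), ∀ Q, Δ Q ≠ 0 → Ψ Q = Δ Q ^ N * P.eval (fun i => Φ i Q / Δ Q) := by
  refine ⟨∑ s ∈ P.support, P.coeff s • ((∏ i ∈ s.support, Φ i ^ s i) *
    Δ ^ (N - ∑ i ∈ s.support, s i)), sum_mem fun s hs => Submodule.smul_mem _ _ ?_, fun Q hQ => ?_⟩
  · have hle : ∑ i ∈ s.support, s i ≤ N := (MvPolynomial.le_totalDegree hs).trans hP
    have := Setup.mul_mem_PF
      (X.prod_mem_PF s.support (fun i => s i * n) (fun i => Φ i ^ s i)
        fun i _ => Setup.pow_mem_PF (hΦ i) _)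
      (Setup.pow_mem_PF hΔ (N - ∑ i ∈ s.support, s i))
    rwa [← Finset.sum_mul, ← Nat.add_mul, Nat.add_sub_cancel' hle] at this
  · rw [MvPolynomial.eval_eq, Finset.mul_sum, Finset.sum_apply]
    refine Finset.sum_congr rfl fun s hs => ?_
    have hle : ∑ i ∈ s.support, s i ≤ N := (MvPolynomial.le_totalDegree hs).trans hP
    simp only [Pi.smul_apply, Pi.mul_apply, Finset.prod_apply, Pi.pow_apply, smul_eq_mul, div_pow]
    rw [Finset.prod_div_distrib, Finset.prod_pow_eq_pow_sum, ← pow_sub_mul_pow (Δ Q) hle]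
    field_simp

theorem Setup.fv_mem_PF (i : Fin X.g) : (fun Q => X.fv Q i) ∈ X.PF (X.c + 1) :=
  Setup.val_mem_PF (by simpa using X.f_pow_mem 1 (n := X.c + 1) (by omega)) i

theorem Setup.V_mem_PF : X.V ∈ X.PF (X.g * (X.g * (X.c + 1))) := by
  have := X.det_mem_PF (n := X.g * (X.c + 1)) (fun Q => Matrix.vandermonde (X.fv Q)) fun i j => by
    simp only [Matrix.vandermonde_apply]
    exact Setup.PF_mono (Nat.mul_le_mul_right _ j.2.le)
      (Setup.pow_mem_PF (X.fv_mem_PF i) (j : ℕ))
  rwa [Fintype.card_fin] at this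

theorem Setup.V_ne_zero_iff {Q : X.Tup} : X.V Q ≠ 0 ↔ Function.Injective (X.fv Q) := Matrix.det_vandermonde_ne_zero_iff

theorem Setup.coeff_prod_mem_PF (s : Finset (Fin X.g)) (j : ℕ) :
    (fun Q => (∏ i ∈ s, (Polynomial.X - Polynomial.C (X.fv Q i))).coeff j) ∈
      X.PF (s.card * (X.c + 1)) := by
  induction s using Finset.induction_on generalizing j with
  | empty => simpa using X.const_mem_PF _ ((1 : Polynomial K).coeff j)
  | @insert i s hi ih =>
    simp only [Finset.prod_insert hi, Finset.card_insert_of_notMem hi, sub_mul,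
      Polynomial.coeff_sub, Polynomial.coeff_C_mul]
    rw [Nat.succ_mul]
    refine sub_mem (Setup.PF_mono (Nat.le_add_right _ _) ?_) ?_
    · cases j with
      | zero => simpa using X.const_mem_PF _ 0
      | succ j => simpa [Polynomial.coeff_X_mul] using ih j
    · rw [add_comm]
      exact Setup.mul_mem_PF (X.fv_mem_PF i) (ih j)

/-- Cramer's rule for interpolation. -/
theorem cramer_vandermonde {g : ℕ} {v : Fin g → K} (hv : Function.Injective v) (r : Fin g → K)
    (j : Fin g) :
    Matrix.cramer (Matrix.vandermonde v) r j =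
      (Matrix.vandermonde v).det * (Lagrange.interpolate Finset.univ v r).coeff j := by
  set p := Lagrange.interpolate Finset.univ v r
  have hdeg : p.degree < g := by
    have := Lagrange.degree_interpolate_lt r (s := Finset.univ) hv.injOn
    rwa [Finset.card_univ, Fintype.card_fin] at this
  have hr : Matrix.vandermonde v *ᵥ (fun k : Fin g => p.coeff k) = r := by
    funext i
    have h1 := Lagrange.eval_interpolate_at_node r (s := Finset.univ) hv.injOn (Finset.mem_univ i)
    rcases eq_or_ne p 0 with hp | hp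
    · simp [p, hp] at h1
      simp [Matrix.mulVec, dotProduct, hp, ← h1]
    · rw [← h1, Polynomial.eval_eq_sum_range' ((Polynomial.natDegree_lt_iff_degree_lt hp).mpr hdeg),
        ← Fin.sum_univ_eq_sum_range (fun k => p.coeff k * v i ^ k) g]
      simp [Matrix.mulVec, dotProduct, mul_comm]
  rw [Matrix.cramer_eq_adjugate_mulVec, ← hr, Matrix.mulVec_mulVec, Matrix.adjugate_mul,
    Matrix.smul_mulVec, Matrix.one_mulVec]
  rfl

theorem Setup.cramer_mem_PF {m : Type*} [Fintype m] [DecidableEq m] {n : ℕ}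
    (M : X.Tup → Matrix m m K) (b : X.Tup → m → K) (hM : ∀ i j, (fun Q => M Q i j) ∈ X.PF n)
    (hb : ∀ i, (fun Q => b Q i) ∈ X.PF n) (j : m) :
    (fun Q => Matrix.cramer (M Q) (b Q) j) ∈ X.PF (Fintype.card m * n) := by
  simp only [Matrix.cramer_apply]
  refine X.det_mem_PF _ fun i k => ?_
  rcases eq_or_ne k j with rfl | hk
  · simpa [Matrix.updateCol_self] using hb i
  · simpa [Matrix.updateCol_ne hk] using hM i k

/-- The coordinates of a tuple, cleared of the Vandermonde determinant. -/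
theorem Setup.xT_cleared : ∃ D : ℕ, ∀ i : X.Coord, ∃ Φ ∈ X.PF D,
    ∀ Q, X.V Q ≠ 0 → Φ Q = X.V Q * X.xT Q i := by
  refine ⟨X.g * (X.g * (X.c + 1)) + X.g * (X.c + 1) + X.g * (X.n₁ + X.g * (X.c + 1)), fun i => ?_⟩
  rcases i with j | ⟨k, j⟩
  · refine ⟨X.V * fun Q => (∏ i, (Polynomial.X - Polynomial.C (X.fv Q i))).coeff j,
      Setup.PF_mono (Nat.le_add_right _ _) (Setup.mul_mem_PF X.V_mem_PF ?_), fun Q _ => rfl⟩
    simpa using X.coeff_prod_mem_PF Finset.univ (j : ℕ)
  · refine ⟨fun Q => Matrix.cramer (Matrix.vandermonde (X.fv Q))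
      (fun i => valAt (Q i).1 (X.gen k)) j, Setup.PF_mono (Nat.le_add_left _ _) ?_, fun Q hQ =>
        cramer_vandermonde (Setup.V_ne_zero_iff.mp hQ) _ j⟩
    have := X.cramer_mem_PF (fun Q => Matrix.vandermonde (X.fv Q))
      (fun Q i => valAt (Q i).1 (X.gen k)) (n := X.n₁ + X.g * (X.c + 1))
      (fun i l => by
        simp only [Matrix.vandermonde_apply]
        exact Setup.PF_mono ((Nat.mul_le_mul_right _ l.2.le).trans (Nat.le_add_left _ _))
          (Setup.pow_mem_PF (X.fv_mem_PF i) (l : ℕ)))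
      (fun i => Setup.PF_mono (Nat.le_add_right _ _) (Setup.val_mem_PF (X.gen_mem k) i)) j
    rwa [Fintype.card_fin] at this

theorem Setup.fv_injective {Q : X.Tup} (h : X.V Q ≠ 0) : Function.Injective Q := fun i j e =>
  Setup.V_ne_zero_iff.mp h (by rw [Setup.fv, Setup.fv, e])

theorem Setup.divT_apply (Q : X.Tup) (v : Place K F) :
    X.divT Q v = ((Finset.univ.filter fun i => (Q i).1 = v).card : ℤ) := by
  rw [Setup.divT, Finsupp.finsetSum_apply, Finset.card_eq_sum_ones, Finset.sum_filter]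
  push_cast
  exact Finset.sum_congr rfl fun i _ => Finsupp.single_apply

theorem Setup.divT_nonneg (Q : X.Tup) : 0 ≤ X.divT Q :=
  Finsupp.le_def.mpr fun v => by rw [X.divT_apply]; simp

theorem Setup.clT_eq_iff {Q Q' : X.Tup} :
    X.clT Q = X.clT Q' ↔ X.divT Q' - X.divT Q ∈ Divisor.principal (K := K) (F := F) := by
  rw [Setup.clT, Setup.clT, Pic0.mk, Pic0.mk, QuotientAddGroup.eq, AddSubgroup.mem_addSubgroupOf,
    AddSubgroup.coe_add, AddSubgroup.coe_neg]
  refine iff_of_eq (congrArg (· ∈ _) ?_)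
  show -(X.divT Q - _) + (X.divT Q' - _) = _
  abel

/-- Permuting the points of a tuple does not change its coordinates. -/
theorem Setup.xT_perm {Q Q' : X.Tup} (σ : Fin X.g ≃ Fin X.g) (h : ∀ i, Q' i = Q (σ i))
    (hV : X.V Q ≠ 0) : X.xT Q' = X.xT Q := by
  have hf : X.fv Q' = X.fv Q ∘ σ := funext fun i => by simp [Setup.fv, h]
  funext i
  rcases i with j | ⟨k, j⟩
  · refine congrArg (fun p => Polynomial.coeff p (j : ℕ)) ?_
    rw [hf]
    exact Equiv.prod_comp σ fun i => Polynomial.X - Polynomial.C (X.fv Q i)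
  · refine congrArg (fun p => Polynomial.coeff p (j : ℕ)) ?_
    have hinj := Setup.V_ne_zero_iff.mp hV
    refine (Lagrange.eq_interpolate_iff (s := Finset.univ) (v := X.fv Q)
      (f := Lagrange.interpolate Finset.univ (X.fv Q') fun i => valAt (Q' i).1 (X.gen k))
      (fun i => valAt (Q i).1 (X.gen k)) hinj.injOn).mp
      ⟨Lagrange.degree_interpolate_lt _ ?_, fun i _ => ?_⟩
    · rw [hf]; exact (hinj.comp σ.injective).injOn
    · have := Lagrange.eval_interpolate_at_node (fun i => valAt (Q' i).1 (X.gen k))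
        (s := Finset.univ) (v := X.fv Q') (by rw [hf]; exact (hinj.comp σ.injective).injOn)
        (Finset.mem_univ (σ.symm i))
      simpa [hf, h] using this

theorem Setup.IsRegT.reg {Q : X.Tup} (h : X.IsRegT Q) : X.Reg (X.clT Q) := ⟨Q, h, rfl⟩

theorem Setup.xc_clT {Q : X.Tup} (h : X.IsRegT Q) : X.xc (X.clT Q) = X.xT Q := by
  rw [Setup.xc, dif_pos h.reg]
  obtain ⟨hQ', hcl⟩ := h.reg.choose_spec
  set Q' := h.reg.choose
  have hd : X.divT Q' = X.divT Q :=
    effective_unique h.2 (X.divT_nonneg Q') (X.divT_nonneg Q) (Setup.clT_eq_iff.mp hcl.symm)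
      (by simp)
  have hex : ∀ i, ∃ k, (Q k).1 = (Q' i).1 := fun i => by
    have h1 : (1 : ℤ) ≤ X.divT Q (Q' i).1 := by
      rw [← hd, X.divT_apply]
      exact_mod_cast Finset.card_pos.mpr ⟨i, by simp⟩
    rw [X.divT_apply] at h1
    obtain ⟨k, hk⟩ := Finset.card_pos.mp (show 0 < _ by exact_mod_cast h1)
    exact ⟨k, (Finset.mem_filter.mp hk).2⟩
  choose σ hσ using hex
  have hinj : Function.Injective σ := fun i j e =>
    Setup.fv_injective hQ'.1 (Subtype.ext (by rw [← hσ i, ← hσ j, e]))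
  exact Setup.xT_perm (Equiv.ofBijective σ ⟨hinj, Finite.surjective_of_injective hinj⟩)
    (fun i => Subtype.ext (hσ i).symm) h.1

end Fermat.Agent.MCurve.MW
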