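/-
Unit C: the affine ring of the setup, polynomial functions on tuples as a domain, regular tuples.
-/
import Fermat.Agent.MCurve.MW.Basic

set_option autoImplicit false
set_option linter.unusedSectionVars false

noncomputable section

namespace Fermat.Agent.MCurve.MW

open AlgebraicCurve RR
open scoped Classical

variable {K F : Type*} [Field K] [Field F] [Algebra K F] [IsAlgClosed K]
  [∀ v : Place K F, v.FiniteResidue] [HasPrincipalDivisors K F] [Nonempty (Place K F)]

theorem exists_setup {x : F} (hx : IsFinOver K x) (inf : Place K F) :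
    ∃ X : Setup K F, X.inf = inf := by
  obtain ⟨g, c, hR⟩ := exists_isRiemann hx
  have hR' : IsRiemann K F g (max g c) :=
    ⟨hR.le, fun D hD => hR.eq D (le_trans (by exact_mod_cast le_max_right g c) hD)⟩
  obtain ⟨f, hf, hf0, hfi⟩ := hR'.exists_ord_eq
    (D := Finsupp.single inf ((max g c : ℕ) + 1 : ℤ))
    (by rw [Divisor.degree_single, deg_one]; simp) inf
  rw [Finsupp.single_eq_same] at hfi
  have hft : Transcendental K f := fun ha => by
    obtain ⟨a, rfl⟩ := exists_algebraMap_eq_of_isAlgebraic ha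
    rw [MCurve.ord_algebraMap] at hfi
    omega
  exact ⟨⟨inf, g, max g c, hR', le_max_left g c, f, hx.of_transcendental hft,
    fun v hv => by
      simpa [Finsupp.single_eq_of_ne hv] using ((mem_space_iff.mp hf).resolve_left hf0) v,
    hfi⟩, rfl⟩

/-- Two sections without a common zero generate the space of the sum. -/
theorem le_sup_map_mul {g c : ℕ} (hR : IsRiemann K F g c) {A B : Divisor K F} {s t : F}
    (hA : (c : ℤ) ≤ Divisor.degree A + Divisor.degree B)
    (hB : (c : ℤ) ≤ Divisor.degree B - Divisor.degree A) (hB' : (c : ℤ) ≤ Divisor.degree B)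
    (hs : s ∈ riemannRochSpace A) (ht : t ∈ riemannRochSpace A) (hs0 : s ≠ 0) (ht0 : t ≠ 0)
    (hst : ∀ v : Place K F, v.ord s = -A v ∨ v.ord t = -A v) :
    riemannRochSpace (A + B) ≤ (riemannRochSpace B).map (LinearMap.mulLeft K s) ⊔
      (riemannRochSpace B).map (LinearMap.mulLeft K t) := by
  have hinj : ∀ {u : F}, u ≠ 0 → Function.Injective (LinearMap.mulLeft K u) := fun hu a b h =>
    mul_left_cancel₀ hu h
  have hle : (riemannRochSpace B).map (LinearMap.mulLeft K s) ⊔
      (riemannRochSpace B).map (LinearMap.mulLeft K t) ≤ riemannRochSpace (A + B) := sup_le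
    (Submodule.map_le_iff_le_comap.mpr fun b hb => mul_mem_space hs hb)
    (Submodule.map_le_iff_le_comap.mpr fun b hb => mul_mem_space ht hb)
  refine (Submodule.eq_of_le_of_finrank_le hle ?_).ge
  have hd := Submodule.finrank_sup_add_finrank_inf_eq
    ((riemannRochSpace B).map (LinearMap.mulLeft K s))
    ((riemannRochSpace B).map (LinearMap.mulLeft K t))
  rw [(Submodule.equivMapOfInjective _ (hinj hs0) (riemannRochSpace B)).finrank_eq.symm,
    (Submodule.equivMapOfInjective _ (hinj ht0) (riemannRochSpace B)).finrank_eq.symm] at hd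
  have hinf : (riemannRochSpace B).map (LinearMap.mulLeft K s) ⊓
      (riemannRochSpace B).map (LinearMap.mulLeft K t) ≤
      (riemannRochSpace (B - A)).map (LinearMap.mulLeft K (s * t)) := by
    rintro z ⟨⟨a, ha, rfl⟩, b, hb, hba⟩
    change t * b = s * a at hba
    refine ⟨a / t, ?_, by
      show s * t * (a / t) = s * a
      field_simp⟩
    rcases eq_or_ne a 0 with rfl | ha0
    · simp
    have hb0 : b ≠ 0 := fun h => mul_ne_zero hs0 ha0 (by rw [← hba, h, mul_zero])
    refine mem_space_iff.mpr (Or.inr fun v => ?_)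
    rw [div_eq_mul_inv, v.ord_mul ha0 (inv_ne_zero ht0), v.ord_inv, Finsupp.sub_apply]
    have e := congrArg (v.ord ·) hba
    simp only [v.ord_mul ht0 hb0, v.ord_mul hs0 ha0] at e
    have h1 := ((mem_space_iff.mp ha).resolve_left ha0) v
    have h2 := ((mem_space_iff.mp hb).resolve_left hb0) v
    rcases hst v with h | h <;> omega
  have hi := Submodule.finrank_mono hinf
  rw [(Submodule.equivMapOfInjective _ (hinj (mul_ne_zero hs0 ht0)) _).finrank_eq.symm] at hi
  have e1 := hR.eq B hB'
  have e2 := hR.eq (B - A) (by rw [map_sub]; omega)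
  have e3 := hR.eq (A + B) (by rw [map_add]; omega)
  rw [map_sub] at e2
  rw [map_add] at e3
  simp only [ell] at *
  omega

variable (X : Setup K F)

theorem Setup.degree_L (n : ℕ) : Divisor.degree (Finsupp.single X.inf (n : ℤ)) = n := by
  rw [Divisor.degree_single, deg_one]; simp

theorem Setup.exists_poly_gen {n : ℕ} {a : F} (ha : a ∈ X.L n) :
    ∃ p : MvPolynomial (Fin (Module.finrank K (X.L X.n₁))) K,
      p.totalDegree ≤ n + 1 ∧ MvPolynomial.aeval X.gen p = a := by
  let M : ℕ → Submodule K F := fun n =>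
    (MvPolynomial.restrictTotalDegree (Fin (Module.finrank K (X.L X.n₁))) K (n + 1)).map
      (MvPolynomial.aeval X.gen).toLinearMap
  have hmem : ∀ {n : ℕ} {a : F}, a ∈ M n ↔ ∃ p : MvPolynomial _ K,
      p.totalDegree ≤ n + 1 ∧ MvPolynomial.aeval X.gen p = a := fun {n a} => by
    simp only [M, Submodule.mem_map, MvPolynomial.mem_restrictTotalDegree, AlgHom.toLinearMap_apply]
  have hbase : ∀ {n : ℕ}, n ≤ X.n₁ → X.L n ≤ M 0 := fun hn =>
    (Setup.L_mono hn).trans (X.span_gen ▸ Submodule.span_le.mpr (by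
      rintro _ ⟨k, rfl⟩
      exact hmem.mpr ⟨MvPolynomial.X k, (MvPolynomial.totalDegree_X k).le,
        MvPolynomial.aeval_X X.gen k⟩))
  suffices h : ∀ n, X.L n ≤ M n from hmem.mp (h n ha)
  intro n
  induction n using Nat.strong_induction_on with
  | _ n ih =>
    rcases le_or_gt n X.n₁ with hn | hn
    · intro a ha
      obtain ⟨p, hp, e⟩ := hmem.mp (hbase hn ha)
      exact hmem.mpr ⟨p, hp.trans (by omega), e⟩
    rw [Setup.n₁] at hn
    obtain ⟨m, rfl⟩ : ∃ m, n = (X.c + 1) + m := ⟨n - (X.c + 1), by omega⟩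
    have he : X.L (X.c + 1 + m) = X.L (X.c + 1) * X.L m := by
      rw [Setup.L, Setup.L, Setup.L, X.hR.space_mul (by rw [X.degree_L]; omega)
        (by rw [X.degree_L, X.degree_L]; omega), ← Finsupp.single_add, Nat.cast_add]
    rw [he, Submodule.mul_le]
    intro u hu v hv
    obtain ⟨p, hp, rfl⟩ := hmem.mp (hbase (by rw [Setup.n₁]; omega) hu)
    obtain ⟨q, hq, rfl⟩ := hmem.mp (ih m (by omega) hv)
    exact hmem.mpr ⟨p * q, (MvPolynomial.totalDegree_mul p q).trans (by omega), map_mul _ p q⟩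

theorem Setup.L_le_adjoin (n : ℕ) :
    X.L n ≤ Subalgebra.toSubmodule (Algebra.adjoin K (Set.range X.gen)) := fun a ha => by
  obtain ⟨p, -, rfl⟩ := X.exists_poly_gen ha
  rw [Subalgebra.mem_toSubmodule, Algebra.adjoin_range_eq_range_aeval]
  exact ⟨p, rfl⟩

theorem Setup.exists_mem_L {a : F} (ha : a ∈ Algebra.adjoin K (Set.range X.gen)) :
    ∃ n, a ∈ X.L n := by
  induction ha using Algebra.adjoin_induction with
  | mem x hx =>
    obtain ⟨k, rfl⟩ := hx
    exact ⟨_, X.gen_mem k⟩
  | algebraMap r =>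
    exact ⟨0, by rw [Algebra.algebraMap_eq_smul_one]; exact Submodule.smul_mem _ r (X.one_mem_L 0)⟩
  | add x y _ _ hx hy =>
    obtain ⟨n, hn⟩ := hx
    obtain ⟨k, hk⟩ := hy
    exact ⟨n + k, add_mem (Setup.L_mono (Nat.le_add_right n k) hn)
      (Setup.L_mono (Nat.le_add_left k n) hk)⟩
  | mul x y _ _ hx hy =>
    obtain ⟨n, hn⟩ := hx
    obtain ⟨k, hk⟩ := hy
    exact ⟨n + k, Setup.mul_mem_L hn hk⟩

theorem Setup.adjoin_mem_ring {a : F} (ha : a ∈ Algebra.adjoin K (Set.range X.gen))
    (P : X.Pt) : a ∈ P.1.toValuationSubring := by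
  obtain ⟨n, hn⟩ := X.exists_mem_L ha
  exact Setup.mem_ring hn P.2

/-- Evaluation at an affine point. -/
def Setup.evA (P : X.Pt) : Algebra.adjoin K (Set.range X.gen) →ₗ[K] K where
  toFun a := valAt P.1 (a : F)
  map_add' a b := valAt_add (X.adjoin_mem_ring a.2 P) (X.adjoin_mem_ring b.2 P)
  map_smul' k a := valAt_smul k (X.adjoin_mem_ring a.2 P)

/-- Finitely many affine zeros. -/
theorem Setup.finite_zeros {a : F} (ha : a ≠ 0) :
    ({P : X.Pt | Van P.1 a} : Set X.Pt).Finite :=
  ((divOf K a).support.finite_toSet.preimage Subtype.val_injective.injOn).subset fun P hP => by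
    have := hP.resolve_left ha
    simp only [Set.mem_preimage, Finset.mem_coe, Finsupp.mem_support_iff, divOf_apply]
    omega

/-- A nonconstant function of the affine ring has a zero. -/
theorem Setup.exists_zero_f_sub (t : K) : ∃ P : X.Pt, Van P.1 (X.f - algebraMap K F t) := by
  have hh : Transcendental K (X.f - algebraMap K F t) := fun h =>
    X.f_fin.transcendental (by simpa using h.add (isAlgebraic_algebraMap t))
  obtain ⟨v, hv⟩ := exists_zero hh
  refine ⟨⟨v, ?_⟩, Or.inr hv⟩
  rintro rfl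
  have hf0 : X.f ≠ 0 := fun h => by have := X.f_inf; rw [h, Place.ord_zero] at this; omega
  rcases eq_or_ne (algebraMap K F t) 0 with h | h
  · rw [h, sub_zero, X.f_inf] at hv; omega
  · rw [sub_eq_add_neg, MCurve.ord_add_eq _ hf0 (neg_ne_zero.mpr h)
      (by rw [MCurve.ord_neg, MCurve.ord_algebraMap, X.f_inf]; omega), X.f_inf] at hv
    omega

/-- The homomorphisms of the affine ring to `K` are the affine points. -/
theorem Setup.exists_point (φ : Algebra.adjoin K (Set.range X.gen) →ₐ[K] K) :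
    ∃ P : X.Pt, ∀ a, φ a = valAt P.1 (a : F) := by
  have hfL : X.f ∈ X.L (X.c + 1) := by simpa using X.f_pow_mem 1 (n := X.c + 1) (by omega)
  let F₀ : Algebra.adjoin K (Set.range X.gen) := ⟨X.f, X.L_le_adjoin _ hfL⟩
  let H : Algebra.adjoin K (Set.range X.gen) :=
    F₀ - algebraMap K (Algebra.adjoin K (Set.range X.gen)) (φ F₀)
  have hφH : φ H = 0 := by rw [map_sub, AlgHom.commutes]; exact sub_self _
  have hHv : (H : F) = X.f - algebraMap K F (φ F₀) := rfl
  have hH0 : (H : F) ≠ 0 := fun h => X.f_fin.transcendental (by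
    rw [show X.f = algebraMap K F (φ F₀) from sub_eq_zero.mp (hHv ▸ h)]
    exact isAlgebraic_algebraMap _)
  set Z := (X.finite_zeros hH0).toFinset
  have hZ : ∀ P : X.Pt, P ∈ Z ↔ Van P.1 (H : F) := fun P => Set.Finite.mem_toFinset _
  suffices h : ∃ P ∈ Z, ∀ a, φ a = 0 → valAt P.1 (a : F) = 0 by
    obtain ⟨P, -, hP⟩ := h
    refine ⟨P, fun a => ?_⟩
    have := hP (a - algebraMap K (Algebra.adjoin K (Set.range X.gen)) (φ a))
      (by rw [map_sub, AlgHom.commutes]; exact sub_self _)
    change X.evA P (a - algebraMap K _ (φ a)) = 0 at this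
    rw [map_sub, sub_eq_zero] at this
    change valAt P.1 (a : F) = valAt P.1 (algebraMap K F (φ a)) at this
    rw [this, valAt_algebraMap]
  by_contra hne
  push Not at hne
  obtain ⟨P₀, hP₀⟩ := X.exists_zero_f_sub (φ F₀)
  have hP₀Z : P₀ ∈ Z := (hZ P₀).mpr (hHv ▸ hP₀)
  -- an element of the kernel which vanishes at no common zero
  obtain ⟨⟨a, ha⟩, haZ⟩ : ∃ a : φ.toLinearMap.ker, ∀ P ∈ Z, valAt P.1 ((a.1 : F)) ≠ 0 := by
    by_contra hcon
    push Not at hcon
    obtain ⟨P, hP⟩ := Subspace.exists_eq_top_of_iUnion_eq_univ (k := K)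
      (p := fun P : Z => ((X.evA P.1) ∘ₗ φ.toLinearMap.ker.subtype).ker)
      (Set.eq_univ_of_forall fun a => by
        obtain ⟨P, hP, he⟩ := hcon a
        exact Set.mem_iUnion.mpr ⟨⟨P, hP⟩, he⟩)
    obtain ⟨a, ha, hne'⟩ := hne P.1 P.2
    exact hne' (show (⟨a, ha⟩ : φ.toLinearMap.ker) ∈
      ((X.evA P.1) ∘ₗ φ.toLinearMap.ker.subtype).ker from hP.symm ▸ Submodule.mem_top)
  simp only at haZ
  have hφa : φ a = 0 := ha
  have ha0 : (a : F) ≠ 0 := fun h => haZ P₀ hP₀Z (by
    rw [h]; exact valAt_eq (Or.inl (map_zero _).symm))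
  obtain ⟨n, hn⟩ := X.exists_mem_L a.2
  obtain ⟨haf, -⟩ := (Setup.mem_L.mp hn).resolve_left ha0
  -- its exact order at infinity
  have hm : X.inf.ord (a : F) < 0 := by
    by_contra hm
    push Not at hm
    obtain ⟨k, hk⟩ := exists_const_of_mem_zero (f := (a : F)) (mem_space_iff.mpr (Or.inr fun v => by
      rcases eq_or_ne v X.inf with rfl | hv
      · simpa using hm
      · simpa using haf v hv))
    have h0 : algebraMap K (Algebra.adjoin K (Set.range X.gen)) k = a := Subtype.ext hk
    rw [← h0, AlgHom.commutes] at hφa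
    exact ha0 (by rw [← hk]; exact (congrArg (algebraMap K F) hφa).trans (map_zero _))
  obtain ⟨m, hm'⟩ : ∃ m : ℕ, X.inf.ord (a : F) = -(m : ℤ) :=
    ⟨(-X.inf.ord (a : F)).toNat, by omega⟩
  have hHf : ∀ v : Place K F, v ≠ X.inf → 0 ≤ v.ord (H : F) := fun v hv =>
    ord_nonneg_of_mem' v (X.adjoin_mem_ring H.2 ⟨v, hv⟩)
  have hHinf : X.inf.ord (H : F) = -((X.c : ℤ) + 1) := by
    have hf0 : X.f ≠ 0 := fun h => by have := X.f_inf; rw [h, Place.ord_zero] at this; omega
    rw [hHv]
    rcases eq_or_ne (algebraMap K F (φ F₀)) 0 with h | h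
    · rw [h, sub_zero, X.f_inf]
    · rw [sub_eq_add_neg, MCurve.ord_add_eq _ hf0 (neg_ne_zero.mpr h)
        (by rw [MCurve.ord_neg, MCurve.ord_algebraMap, X.f_inf]; omega), X.f_inf]
  -- two sections of `N ∞` without a common zero
  set N : ℕ := m * (X.c + 1) with hN
  have hst : ∀ v : Place K F, v.ord ((a : F) ^ (X.c + 1)) = -(Finsupp.single X.inf (N : ℤ) v) ∨
      v.ord ((H : F) ^ m) = -(Finsupp.single X.inf (N : ℤ) v) := fun v => by
    rcases eq_or_ne v X.inf with rfl | hv
    · left
      rw [MCurve.ord_pow, hm', Finsupp.single_eq_same, hN]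
      push_cast; ring
    simp only [Finsupp.single_eq_of_ne hv, neg_zero, MCurve.ord_pow]
    by_cases hvH : Van v (H : F)
    · left
      have h1 := haZ ⟨v, hv⟩ ((hZ _).mpr hvH)
      rw [Ne, valAt_eq_zero_iff (X.adjoin_mem_ring a.2 ⟨v, hv⟩), not_or] at h1
      rw [show v.ord (a : F) = 0 from le_antisymm (not_lt.mp h1.2) (haf v hv), mul_zero]
    · right
      rw [show v.ord (H : F) = 0 from le_antisymm (not_lt.mp fun h => hvH (Or.inr h)) (hHf v hv),
        mul_zero]
  have hsL : (a : F) ^ (X.c + 1) ∈ X.L N := Setup.mem_L.mpr (Or.inr ⟨fun v hv => by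
    rw [MCurve.ord_pow]; exact mul_nonneg (Int.natCast_nonneg _) (haf v hv), by
    rw [MCurve.ord_pow, hm', hN]; push_cast; linarith⟩)
  have htL : (H : F) ^ m ∈ X.L N := Setup.mem_L.mpr (Or.inr ⟨fun v hv => by
    rw [MCurve.ord_pow]; exact mul_nonneg (Int.natCast_nonneg _) (hHf v hv), by
    rw [MCurve.ord_pow, hHinf, hN]; push_cast; linarith⟩)
  have key := le_sup_map_mul X.hR (A := Finsupp.single X.inf (N : ℤ))
    (B := Finsupp.single X.inf ((N + X.c : ℕ) : ℤ)) (by rw [X.degree_L, X.degree_L]; omega)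
    (by rw [X.degree_L, X.degree_L]; omega) (by rw [X.degree_L]; omega) hsL htL
    (pow_ne_zero _ ha0) (pow_ne_zero _ hH0) hst
    (x := (1 : F)) (by rw [← Finsupp.single_add, ← Nat.cast_add]; exact X.one_mem_L _)
  obtain ⟨_, ⟨b, hb, rfl⟩, _, ⟨b', hb', rfl⟩, hsum⟩ := Submodule.mem_sup.mp key
  have he : (1 : Algebra.adjoin K (Set.range X.gen)) =
      a ^ (X.c + 1) * ⟨b, X.L_le_adjoin _ hb⟩ + H ^ m * ⟨b', X.L_le_adjoin _ hb'⟩ :=
    Subtype.ext hsum.symm
  have h1 := congrArg φ he
  rw [map_one, map_add, map_mul, map_mul, map_pow, map_pow, hφa, hφH, zero_pow (Nat.succ_ne_zero _),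
    zero_pow (by omega : m ≠ 0), zero_mul, zero_mul, add_zero] at h1
  exact one_ne_zero h1

theorem Setup.pt_ext {P P' : X.Pt} (h : ∀ k, valAt P.1 (X.gen k) = valAt P'.1 (X.gen k)) :
    P = P' := by
  by_contra hne
  have hne' : P'.1 ≠ P.1 := fun e => hne (Subtype.ext e).symm
  obtain ⟨f, hf, hf0, hfv⟩ := X.hR.exists_ord_eq
    (D := Finsupp.single X.inf ((X.c + 2 : ℕ) : ℤ) - Finsupp.single P.1 1)
    (by rw [map_sub, X.degree_L, degree_single_one]; push_cast; omega) P'.1
  have hfL : f ∈ X.L X.n₁ :=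
    Setup.L_mono (by rw [Setup.n₁]; omega)
      (space_mono (sub_le_self _ (Finsupp.single_nonneg.mpr zero_le_one)) hf)
  obtain ⟨r, hr⟩ := (Submodule.mem_span_range_iff_exists_fun K).mp (X.span_gen.ge hfL)
  have hval : ∀ Q : X.Pt, valAt Q.1 f = ∑ k, r k * valAt Q.1 (X.gen k) := fun Q => by
    rw [← hr, valAt_sum _ _ fun k _ => Setup.mem_ring (Submodule.smul_mem _ (r k) (X.gen_mem k)) Q.2]
    exact Finset.sum_congr rfl fun k _ => valAt_smul _ (Setup.mem_ring (X.gen_mem k) Q.2)
  have he : valAt P.1 f = valAt P'.1 f := by simp only [hval, h]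
  have hP : valAt P.1 f = 0 := (valAt_eq_zero_iff (Setup.mem_ring hfL P.2)).mpr (Or.inr (by
    have := ((mem_space_iff.mp hf).resolve_left hf0) P.1
    rw [Finsupp.sub_apply, Finsupp.single_eq_same, Finsupp.single_eq_of_ne P.2] at this
    omega))
  rw [hP] at he
  have h' := ((valAt_eq_zero_iff (Setup.mem_ring hfL P'.2)).mp he.symm).resolve_left hf0
  rw [hfv, Finsupp.sub_apply, Finsupp.single_eq_of_ne hne', Finsupp.single_eq_of_ne P'.2] at h'
  omega

/-! ## Polynomial functions on tuples -/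

theorem Setup.PF_le_span (n : ℕ) :
    X.PF n ≤ Submodule.span K (Set.range fun σ : Fin X.g → Fin (Module.finrank K (X.L n)) =>
      fun Q : X.Tup => ∏ i, valAt (Q i).1 (Module.finBasis K (X.L n) (σ i) : F)) := by
  refine Submodule.span_le.mpr ?_
  rintro _ ⟨a, ha, rfl⟩
  let b := Module.finBasis K (X.L n)
  let r := fun i j => b.repr ⟨a i, ha i⟩ j
  have he : (fun Q : X.Tup => ∏ i, valAt (Q i).1 (a i)) =
      ∑ σ : Fin X.g → Fin (Module.finrank K (X.L n)),
        (∏ i, r i (σ i)) • fun Q : X.Tup => ∏ i, valAt (Q i).1 (b (σ i) : F) := by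
    funext Q
    have hexp : ∀ i, valAt (Q i).1 (a i) = ∑ j, r i j * valAt (Q i).1 (b j : F) := fun i => by
      have e : a i = ∑ j, r i j • (b j : F) := by
        have e' := congrArg Subtype.val (b.sum_repr ⟨a i, ha i⟩)
        rw [AddSubmonoidClass.coe_finsetSum] at e'
        exact e'.symm
      rw [e, valAt_sum _ _ fun j _ => Setup.mem_ring (Submodule.smul_mem _ _ (b j).2) (Q i).2]
      exact Finset.sum_congr rfl fun j _ => valAt_smul _ (Setup.mem_ring (b j).2 (Q i).2)
    simp only [hexp, Finset.sum_apply, Pi.smul_apply, smul_eq_mul, ← Finset.prod_mul_distrib]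
    exact Fintype.prod_sum fun i j => r i j * valAt (Q i).1 (b j : F)
  rw [he]
  exact sum_mem fun σ _ => Submodule.smul_mem _ _ (Submodule.subset_span ⟨σ, rfl⟩)

theorem Setup.finiteDimensional_PF (n : ℕ) : FiniteDimensional K (X.PF n) := by
  have := FiniteDimensional.span_of_finite K
    (Set.finite_range fun σ : Fin X.g → Fin (Module.finrank K (X.L n)) =>
      fun Q : X.Tup => ∏ i, valAt (Q i).1 (Module.finBasis K (X.L n) (σ i) : F))
  exact Submodule.finiteDimensional_of_le (X.PF_le_span n)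

theorem Setup.finrank_PF_le (n : ℕ) : Module.finrank K (X.PF n) ≤ (n + 1) ^ X.g := by
  have := FiniteDimensional.span_of_finite K
    (Set.finite_range fun σ : Fin X.g → Fin (Module.finrank K (X.L n)) =>
      fun Q : X.Tup => ∏ i, valAt (Q i).1 (Module.finBasis K (X.L n) (σ i) : F))
  refine (Submodule.finrank_mono (X.PF_le_span n)).trans ((finrank_range_le_card _).trans ?_)
  rw [Fintype.card_fun, Fintype.card_fin, Fintype.card_fin]
  refine Nat.pow_le_pow_left ?_ _
  have := ell_le_degree_succ (D := Finsupp.single X.inf (n : ℤ)) (by rw [X.degree_L]; omega)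
  rw [X.degree_L] at this
  exact_mod_cast this

/-- A slice of a polynomial function is a function on the curve. -/
theorem Setup.exists_slice {n : ℕ} {Φ : X.Tup → K} (hΦ : Φ ∈ X.PF n) (Q : X.Tup) (i : Fin X.g) :
    ∃ a ∈ X.L n, ∀ P : X.Pt, Φ (Function.update Q i P) = valAt P.1 a := by
  induction hΦ using Submodule.span_induction with
  | mem Φ h =>
    obtain ⟨a, ha, rfl⟩ := h
    refine ⟨(∏ j ∈ Finset.univ.erase i, valAt (Q j).1 (a j)) • a i,
      Submodule.smul_mem _ _ (ha i), fun P => ?_⟩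
    show ∏ j, valAt (Function.update Q i P j).1 (a j) = _
    rw [valAt_smul _ (Setup.mem_ring (ha i) P.2),
      ← Finset.prod_erase_mul _ _ (Finset.mem_univ i), Function.update_self]
    congr 1
    exact Finset.prod_congr rfl fun j hj => by rw [Function.update_of_ne (Finset.ne_of_mem_erase hj)]
  | zero => exact ⟨0, zero_mem _, fun P => (valAt_eq (Or.inl (map_zero _).symm)).symm⟩
  | add Φ Ψ _ _ h h' =>
    obtain ⟨a, ha, he⟩ := h
    obtain ⟨b, hb, he'⟩ := h'
    exact ⟨a + b, add_mem ha hb, fun P => by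
      rw [Pi.add_apply, he, he', valAt_add (Setup.mem_ring ha P.2) (Setup.mem_ring hb P.2)]⟩
  | smul k Φ _ h =>
    obtain ⟨a, ha, he⟩ := h
    exact ⟨k • a, Submodule.smul_mem _ _ ha, fun P => by
      rw [Pi.smul_apply, he, valAt_smul _ (Setup.mem_ring ha P.2), smul_eq_mul]⟩

/-- More than `n` affine zeros kill a member of `L n`. -/
theorem Setup.eq_zero_of_card {n : ℕ} {a : F} (ha : a ∈ X.L n) (S : Finset X.Pt) (hS : n < S.card)
    (h : ∀ P ∈ S, valAt P.1 a = 0) : a = 0 := by
  by_contra ha0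
  obtain ⟨h1, h2⟩ := (Setup.mem_L.mp ha).resolve_left ha0
  have hle : ∀ P ∈ S, 0 < P.1.ord a := fun P hP =>
    (((valAt_eq_zero_iff (Setup.mem_ring ha P.2)).mp (h P hP)).resolve_left ha0)
  have hm : a ∈ riemannRochSpace
      (Finsupp.single X.inf (n : ℤ) - ∑ P ∈ S, Finsupp.single P.1 1) := by
    refine mem_space_iff.mpr (Or.inr fun v => ?_)
    rw [Finsupp.sub_apply, Finsupp.finsetSum_apply]
    rcases eq_or_ne v X.inf with rfl | hv
    · rw [Finset.sum_eq_zero fun P _ => Finsupp.single_eq_of_ne (Ne.symm P.2),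
        Finsupp.single_eq_same]
      omega
    rw [Finsupp.single_eq_of_ne hv]
    by_cases hvS : (⟨v, hv⟩ : X.Pt) ∈ S
    · rw [Finset.sum_eq_single_of_mem _ hvS fun P _ hP =>
          Finsupp.single_eq_of_ne fun e => hP (Subtype.ext e.symm), Finsupp.single_eq_same]
      have := hle _ hvS
      simp only at this
      omega
    · rw [Finset.sum_eq_zero fun P hP =>
        Finsupp.single_eq_of_ne (fun e => hvS (by rwa [show (⟨v, hv⟩ : X.Pt) = P from Subtype.ext e]))]
      have := h1 v hv
      omega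
  rw [space_eq_bot_of_degree_neg (by
    rw [map_sub, map_sum, X.degree_L, Finset.sum_congr rfl fun P _ => degree_single_one P.1]
    simp
    omega), Submodule.mem_bot] at hm
  exact ha0 hm

theorem Setup.infinite_Pt : Infinite X.Pt := by
  have := infinite_places X.f_fin.transcendental
  exact Set.infinite_coe_iff.mpr ((Set.finite_singleton X.inf).infinite_compl)

/-- A function of degree `n` which is not zero is not zero on a grid of more than `n` points. -/
theorem Setup.exists_grid {n : ℕ} {Φ : X.Tup → K} (hΦ : Φ ∈ X.PF n) (h0 : Φ ≠ 0)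
    (S : Finset X.Pt) (hS : n < S.card) : ∃ Q : X.Tup, (∀ i, Q i ∈ S) ∧ Φ Q ≠ 0 := by
  suffices h : ∀ T : Finset (Fin X.g), ∃ Q : X.Tup, (∀ i ∈ T, Q i ∈ S) ∧ Φ Q ≠ 0 by
    obtain ⟨Q, hQ, h⟩ := h Finset.univ
    exact ⟨Q, fun i => hQ i (Finset.mem_univ i), h⟩
  intro T
  induction T using Finset.induction_on with
  | empty =>
    obtain ⟨Q, hQ⟩ := Function.ne_iff.mp h0
    exact ⟨Q, by simp, hQ⟩
  | @insert i T hi ih =>
    obtain ⟨Q, hQ, hne⟩ := ih
    obtain ⟨a, ha, he⟩ := X.exists_slice hΦ Q i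
    obtain ⟨P, hP, hPa⟩ : ∃ P ∈ S, valAt P.1 a ≠ 0 := by
      by_contra hcon
      push Not at hcon
      apply hne
      have := he (Q i)
      rwa [Function.update_eq_self, X.eq_zero_of_card ha S hS hcon,
        valAt_eq (Or.inl (map_zero _).symm)] at this
    refine ⟨Function.update Q i P, fun j hj => ?_, by rwa [he]⟩
    rcases eq_or_ne j i with rfl | hji
    · rwa [Function.update_self]
    · rw [Function.update_of_ne hji]; exact hQ j ((Finset.mem_insert.mp hj).resolve_left hji)

theorem Setup.mul_ne_zero_PF {n k : ℕ} {Φ Ψ : X.Tup → K} (hΦ : Φ ∈ X.PF n) (hΨ : Ψ ∈ X.PF k)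
    (h : Φ ≠ 0) (h' : Ψ ≠ 0) : Φ * Ψ ≠ 0 := by
  suffices hT : ∀ T : Finset (Fin X.g),
      ∃ Q Q' : X.Tup, Φ Q ≠ 0 ∧ Ψ Q' ≠ 0 ∧ ∀ i ∈ T, Q i = Q' i by
    obtain ⟨Q, Q', hQ, hQ', he⟩ := hT Finset.univ
    rw [← funext fun i => he i (Finset.mem_univ i)] at hQ'
    exact fun h0 => mul_ne_zero hQ hQ' (congrFun h0 Q)
  intro T
  induction T using Finset.induction_on with
  | empty =>
    obtain ⟨Q, hQ⟩ := Function.ne_iff.mp h
    obtain ⟨Q', hQ'⟩ := Function.ne_iff.mp h'
    exact ⟨Q, Q', hQ, hQ', by simp⟩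
  | @insert i T hi ih =>
    obtain ⟨Q, Q', hQ, hQ', heT⟩ := ih
    obtain ⟨a, ha, he⟩ := X.exists_slice hΦ Q i
    obtain ⟨b, hb, he'⟩ := X.exists_slice hΨ Q' i
    have ha0 : a ≠ 0 := fun e => hQ (by
      rw [← Function.update_eq_self i Q, he, e]; exact valAt_eq (Or.inl (map_zero _).symm))
    have hb0 : b ≠ 0 := fun e => hQ' (by
      rw [← Function.update_eq_self i Q', he', e]; exact valAt_eq (Or.inl (map_zero _).symm))
    have := X.infinite_Pt
    obtain ⟨P, hP⟩ := ((X.finite_zeros ha0).union (X.finite_zeros hb0)).exists_notMem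
    simp only [Set.mem_union, Set.mem_ofPred_eq, not_or] at hP
    refine ⟨Function.update Q i P, Function.update Q' i P, ?_, ?_, fun j hj => ?_⟩
    · rw [he, Ne, valAt_eq_zero_iff (Setup.mem_ring ha P.2)]; exact hP.1
    · rw [he', Ne, valAt_eq_zero_iff (Setup.mem_ring hb P.2)]; exact hP.2
    · rcases eq_or_ne j i with rfl | hji
      · rw [Function.update_self, Function.update_self]
      · rw [Function.update_of_ne hji, Function.update_of_ne hji]
        exact heT j ((Finset.mem_insert.mp hj).resolve_left hji)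

theorem valAt_aeval {σ : Type*} {v : Place K F} {a : σ → F} (ha : ∀ i, a i ∈ v.toValuationSubring)
    (p : MvPolynomial σ K) : MvPolynomial.aeval a p ∈ v.toValuationSubring ∧
      valAt v (MvPolynomial.aeval a p) = p.eval fun i => valAt v (a i) := by
  induction p using MvPolynomial.induction_on with
  | C k => simp [v.algebraMap_mem', valAt_algebraMap]
  | add p q hp hq =>
    simp only [map_add]
    exact ⟨add_mem hp.1 hq.1, by rw [valAt_add hp.1 hq.1, hp.2, hq.2]⟩
  | mul_X p i hp =>
    simp only [map_mul, MvPolynomial.aeval_X, MvPolynomial.eval_X]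
    exact ⟨mul_mem hp.1 (ha i), by rw [valAt_mul hp.1 (ha i), hp.2]⟩

/-- Functions of degree `n` are polynomials of degree at most `g (n + 1)` in the generators. -/
theorem Setup.exists_eval_poly {n : ℕ} {Φ : X.Tup → K} (hΦ : Φ ∈ X.PF n) :
    ∃ p : MvPolynomial (Fin X.g × Fin (Module.finrank K (X.L X.n₁))) K,
      p.totalDegree ≤ X.g * (n + 1) ∧
      ∀ Q : X.Tup, Φ Q = p.eval fun ik => valAt (Q ik.1).1 (X.gen ik.2) := by
  induction hΦ using Submodule.span_induction with
  | mem Φ h =>
    obtain ⟨a, ha, rfl⟩ := h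
    choose p hp hpe using fun i => X.exists_poly_gen (ha i)
    refine ⟨∏ i, MvPolynomial.rename (fun k => (i, k)) (p i),
      (MvPolynomial.totalDegree_finsetProd _ _).trans ?_, fun Q => ?_⟩
    · refine le_trans (Finset.sum_le_card_nsmul _ _ (n + 1) fun i _ =>
        (MvPolynomial.totalDegree_rename_le _ _).trans (hp i)) ?_
      simp
    · rw [map_prod]
      refine Finset.prod_congr rfl fun i _ => ?_
      rw [MvPolynomial.eval_rename, ← hpe i,
        (valAt_aeval (fun k => Setup.mem_ring (X.gen_mem k) (Q i).2) (p i)).2]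
      rfl
  | zero => exact ⟨0, by simp, fun Q => by simp⟩
  | add Φ Ψ _ _ h h' =>
    obtain ⟨p, hp, he⟩ := h
    obtain ⟨q, hq, he'⟩ := h'
    exact ⟨p + q, (MvPolynomial.totalDegree_add p q).trans (max_le hp hq), fun Q => by
      rw [Pi.add_apply, he, he', map_add]⟩
  | smul k Φ _ h =>
    obtain ⟨p, hp, he⟩ := h
    exact ⟨k • p, (MvPolynomial.totalDegree_smul_le k p).trans hp, fun Q => by
      rw [Pi.smul_apply, he, MvPolynomial.smul_eval, smul_eq_mul]⟩

/-! ## Regular tuples -/

theorem ell_zero_eq : ell (0 : Divisor K F) = 1 := by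
  have h1 := ell_le_degree_succ (D := (0 : Divisor K F)) (by simp)
  rw [map_zero] at h1
  have h2 : 0 < ell (0 : Divisor K F) := Submodule.one_le_finrank_iff.mpr fun h => by
    have : (1 : F) ∈ riemannRochSpace (0 : Divisor K F) :=
      mem_space_iff.mpr (Or.inr fun v => by simp)
    rw [h, Submodule.mem_bot] at this
    exact one_ne_zero this
  omega

/-- Below the genus, all but finitely many places keep the dimension one. -/
theorem finite_increments {g c : ℕ} (hR : IsRiemann K F g c) {E : Divisor K F} (hE : ell E = 1)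
    (h0 : 0 ≤ Divisor.degree E) (hdeg : Divisor.degree E < g) :
    {v : Place K F | ell (E + Finsupp.single v 1) ≠ 1}.Finite := by
  by_contra hinf
  obtain ⟨T, hT, hcard⟩ := Set.Infinite.exists_subset_card_eq
    ((Set.not_finite.mp hinf).sdiff E.support.finite_toSet) c
  have key : ∀ U ⊆ T, 1 + U.card ≤ ell (E + ∑ v ∈ U, Finsupp.single v 1) := by
    intro U
    induction U using Finset.induction_on with
    | empty => intro _; simp [hE]
    | @insert v U hv ih =>
      intro hU
      have hvT := hT (Finset.mem_coe.mpr (hU (Finset.mem_insert_self v U)))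
      obtain ⟨hv1, hv2⟩ := hvT
      have hvE : E v = 0 := Finsupp.notMem_support_iff.mp fun h => hv2 (Finset.mem_coe.mpr h)
      have hlt : ell E < ell (E + Finsupp.single v 1) := by
        have := ell_mono (K := K) (F := F) (show E ≤ E + Finsupp.single v 1 from
          le_add_of_nonneg_right (Finsupp.single_nonneg.mpr zero_le_one))
        simp only [Set.mem_ofPred_eq] at hv1
        omega
      obtain ⟨u, hu, hun⟩ := SetLike.not_le_iff_exists.mp fun h =>
        absurd (Submodule.finrank_mono (R := K) h) (not_le.mpr hlt)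
      have hu0 : u ≠ 0 := fun h => hun (h ▸ zero_mem _)
      have hb := (mem_space_iff.mp hu).resolve_left hu0
      have huv : v.ord u = -1 := by
        have h1 := hb v
        rw [Finsupp.add_apply, Finsupp.single_eq_same, hvE] at h1
        by_contra hne
        refine hun (mem_space_iff.mpr (Or.inr fun w => ?_))
        rcases eq_or_ne w v with rfl | hw
        · omega
        · simpa [Finsupp.single_eq_of_ne hw] using hb w
      rw [Finset.sum_insert hv, Finset.card_insert_of_notMem hv]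
      have hU0 : (∑ w ∈ U, Finsupp.single w (1 : ℤ)) v = 0 := by
        rw [Finsupp.finsetSum_apply]
        exact Finset.sum_eq_zero fun w hw =>
          Finsupp.single_eq_of_ne fun e => hv (by rwa [← e] at hw)
      have hEle : E + Finsupp.single v (1 : ℤ) ≤
          E + (Finsupp.single v 1 + ∑ w ∈ U, Finsupp.single w 1) :=
        add_le_add le_rfl (le_add_of_nonneg_right
          (Finset.sum_nonneg fun w _ => Finsupp.single_nonneg.mpr zero_le_one))
      have := ell_sub_lt (D := E + (Finsupp.single v 1 + ∑ w ∈ U, Finsupp.single w 1)) (v := v)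
        (space_mono hEle hu) hu0
        (by rw [huv, Finsupp.add_apply, Finsupp.add_apply, Finsupp.single_eq_same, hvE, hU0]; simp)
      rw [show E + (Finsupp.single v (1 : ℤ) + ∑ w ∈ U, Finsupp.single w 1) - Finsupp.single v 1 =
        E + ∑ w ∈ U, Finsupp.single w 1 by abel] at this
      have := ih ((Finset.subset_insert v U).trans hU)
      omega
  have h1 := key T subset_rfl
  have hd : Divisor.degree (E + ∑ v ∈ T, Finsupp.single v 1) = Divisor.degree E + c := by
    rw [map_add, map_sum]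
    simp [deg_one, hcard]
  have h2 := hR.eq (E + ∑ v ∈ T, Finsupp.single v 1) (by omega)
  omega

theorem Setup.exists_regular : ∃ Q : X.Tup, X.IsRegT Q := by
  suffices h : ∀ j ≤ X.g, ∃ Q : Fin j → X.Pt,
      Function.Injective (fun i => valAt (Q i).1 X.f) ∧
      ell (∑ i, Finsupp.single (Q i).1 1) = 1 by
    obtain ⟨Q, hQ, hl⟩ := h X.g le_rfl
    exact ⟨Q, Setup.V_ne_zero_iff.mpr hQ, hl⟩
  intro j
  induction j with
  | zero => exact fun _ => ⟨fun i => i.elim0, fun i => i.elim0, by simp [ell_zero_eq]⟩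
  | succ j ih =>
    intro hj
    obtain ⟨Q, hQ, hl⟩ := ih (by omega)
    have hfin := finite_increments X.hR hl (by simp [map_sum, deg_one])
      (by simp [map_sum, deg_one]; omega)
    have hne : ∀ i, X.f - algebraMap K F (valAt (Q i).1 X.f) ≠ 0 := fun i h =>
      X.f_fin.transcendental (by rw [sub_eq_zero.mp h]; exact isAlgebraic_algebraMap _)
    have := X.infinite_Pt
    obtain ⟨P, hP⟩ := ((hfin.preimage Subtype.val_injective.injOn).union
      (Set.finite_iUnion fun i => X.finite_zeros (hne i))).exists_notMem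
    simp only [Set.mem_union, Set.mem_preimage, Set.mem_ofPred_eq, Set.mem_iUnion, not_or, not_not,
      not_exists] at hP
    refine ⟨Fin.snoc Q P, ?_, by simpa [Fin.sum_univ_castSucc] using hP.1⟩
    have hfm : X.f ∈ X.L (X.c + 1) := by simpa using X.f_pow_mem 1 (n := X.c + 1) (by omega)
    rw [show (fun i => valAt ((Fin.snoc Q P : Fin (j + 1) → X.Pt) i).1 X.f) =
      Fin.snoc (fun i => valAt (Q i).1 X.f) (valAt P.1 X.f) from
      Fin.comp_snoc (fun R : X.Pt => valAt R.1 X.f) Q P, Fin.snoc_injective_iff]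
    refine ⟨hQ, fun ⟨i, hi⟩ => hP.2 i ?_⟩
    simp only at hi
    rw [hi]
    exact van_sub.mp (valAt_spec (Setup.mem_ring hfm P.2))

theorem Setup.xc_injective {d d' : Pic0 K F} (h : X.Reg d) (h' : X.Reg d')
    (he : X.xc d = X.xc d') : d = d' := by
  obtain ⟨Q, hQ, rfl⟩ := h
  obtain ⟨Q', hQ', rfl⟩ := h'
  rw [Setup.xc_clT hQ, Setup.xc_clT hQ'] at he
  have hinj := Setup.V_ne_zero_iff.mp hQ.1
  have hinj' := Setup.V_ne_zero_iff.mp hQ'.1
  have hchi : (∏ i, (Polynomial.X - Polynomial.C (X.fv Q i))) =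
      ∏ i, (Polynomial.X - Polynomial.C (X.fv Q' i)) := by
    have hm : ∀ R : X.Tup, (∏ i, (Polynomial.X - Polynomial.C (X.fv R i))).Monic ∧
        (∏ i, (Polynomial.X - Polynomial.C (X.fv R i))).natDegree = X.g := fun R =>
      ⟨Polynomial.monic_prod_of_monic _ _ fun i _ => Polynomial.monic_X_sub_C _, by
        rw [Polynomial.natDegree_finsetProd_X_sub_C_eq_card]; simp⟩
    ext j
    rcases lt_trichotomy j X.g with hj | rfl | hj
    · exact congrFun he (Sum.inl ⟨j, hj⟩)
    · have h1 : ∀ R : X.Tup,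
          (∏ i, (Polynomial.X - Polynomial.C (X.fv R i))).coeff X.g = 1 := fun R =>
        (congrArg _ (hm R).2.symm).trans (hm R).1.coeff_natDegree
      rw [h1, h1]
    · rw [Polynomial.coeff_eq_zero_of_natDegree_lt ((hm Q).2.trans_lt hj),
        Polynomial.coeff_eq_zero_of_natDegree_lt ((hm Q').2.trans_lt hj)]
  have hex : ∀ i, ∃ k, X.fv Q k = X.fv Q' i := fun i => by
    have h0 := congrArg (Polynomial.eval (X.fv Q' i)) hchi
    rw [Polynomial.eval_prod, Polynomial.eval_prod] at h0
    obtain ⟨k, -, hk⟩ := Finset.prod_eq_zero_iff.mp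
      (h0.trans (Finset.prod_eq_zero (Finset.mem_univ i) (by simp)))
    exact ⟨k, (sub_eq_zero.mp (by simpa using hk)).symm⟩
  choose σ hσ using hex
  have hint : ∀ k, Lagrange.interpolate Finset.univ (X.fv Q) (fun i => valAt (Q i).1 (X.gen k)) =
      Lagrange.interpolate Finset.univ (X.fv Q') (fun i => valAt (Q' i).1 (X.gen k)) := fun k => by
    have hd : ∀ (R : X.Tup), Function.Injective (X.fv R) →
        (Lagrange.interpolate Finset.univ (X.fv R) fun i => valAt (R i).1 (X.gen k)).degree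
          < X.g := fun R hR => by
      have := Lagrange.degree_interpolate_lt (fun i => valAt (R i).1 (X.gen k))
        (s := Finset.univ) (v := X.fv R) hR.injOn
      rwa [Finset.card_univ, Fintype.card_fin] at this
    ext j
    rcases lt_or_ge j X.g with hj | hj
    · exact congrFun he (Sum.inr (k, ⟨j, hj⟩))
    · rw [Polynomial.coeff_eq_zero_of_degree_lt ((hd Q hinj).trans_le (by exact_mod_cast hj)),
        Polynomial.coeff_eq_zero_of_degree_lt ((hd Q' hinj').trans_le (by exact_mod_cast hj))]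
  have hpt : ∀ i, Q' i = Q (σ i) := fun i => X.pt_ext fun k => by
    have h1 := Lagrange.eval_interpolate_at_node (fun i => valAt (Q' i).1 (X.gen k))
      (s := Finset.univ) (v := X.fv Q') hinj'.injOn (Finset.mem_univ i)
    rw [← hint k, ← hσ i, Lagrange.eval_interpolate_at_node (fun i => valAt (Q i).1 (X.gen k))
      (s := Finset.univ) (v := X.fv Q) hinj.injOn (Finset.mem_univ (σ i))] at h1
    exact h1.symm
  have hσi : Function.Injective σ := fun i j e =>
    Setup.fv_injective hQ'.1 (by rw [hpt i, hpt j, e])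
  have hd : X.divT Q' = X.divT Q := by
    rw [Setup.divT, Setup.divT]
    simp only [hpt]
    exact Fintype.sum_bijective σ ⟨hσi, Finite.surjective_of_injective hσi⟩ _ _ fun i => rfl
  exact Setup.clT_eq_iff.mpr (by rw [hd, sub_self]; exact zero_mem _)

end Fermat.Agent.MCurve.MW
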