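/-
The ring of functions on a principal open set of tuples.
-/
import Fermat.Agent.MCurve.MW.Points
import Fermat.Agent.MCurve.MW.Extend
import Mathlib.RingTheory.AlgebraicIndependent.TranscendenceBasis

set_option autoImplicit false
set_option linter.unusedSectionVars false
set_option linter.style.haveILetI false

noncomputable section

namespace Fermat.Agent.MCurve.MW

open AlgebraicCurve RR
open scoped Classical

variable {K F : Type*} [Field K] [Field F] [Algebra K F] [IsAlgClosed K]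
  [∀ v : Place K F, v.FiniteResidue] [HasPrincipalDivisors K F] [Nonempty (Place K F)]
  (X : Setup K F) (δ : X.Tup → K)

/-- The open set where `δ` is not zero. -/
abbrev Setup.Opn : Type _ := {Q : X.Tup // δ Q ≠ 0}

/-- Restriction to the open set. -/
def Setup.res : (X.Tup → K) →ₗ[K] (X.Opn δ → K) := LinearMap.funLeft K K Subtype.val

@[simp] theorem Setup.res_apply (Φ : X.Tup → K) (Q : X.Opn δ) : X.res δ Φ Q = Φ Q.1 := rfl

/-- The generating functions. -/
def Setup.genFam : (Fin X.g × Fin (Module.finrank K (X.L X.n₁))) ⊕ Unit → X.Opn δ → K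
  | .inl ik => fun Q => valAt (Q.1 ik.1).1 (X.gen ik.2)
  | .inr _ => fun Q => (δ Q.1)⁻¹

/-- The ring of functions on the open set. -/
def Setup.ringOn : Subalgebra K (X.Opn δ → K) := Algebra.adjoin K (Set.range (X.genFam δ))

variable {X δ}

theorem Setup.inv_mem_ringOn : (fun Q : X.Opn δ => (δ Q.1)⁻¹) ∈ X.ringOn δ :=
  Algebra.subset_adjoin ⟨.inr (), rfl⟩

theorem Setup.res_mem_ringOn {n : ℕ} {Φ : X.Tup → K} (hΦ : Φ ∈ X.PF n) :
    X.res δ Φ ∈ X.ringOn δ := by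
  obtain ⟨p, -, hp⟩ := X.exists_eval_poly hΦ
  have e : X.res δ Φ = MvPolynomial.aeval (fun ik => X.genFam δ (.inl ik)) p := by
    funext Q
    rw [← Pi.evalAlgHom_apply K (fun _ : X.Opn δ => K) Q (MvPolynomial.aeval _ p),
      MvPolynomial.comp_aeval_apply, Setup.res_apply, hp, MvPolynomial.aeval_eq_eval]
    rfl
  rw [e]
  clear e hp
  induction p using MvPolynomial.induction_on with
  | C a => rw [MvPolynomial.aeval_C]; exact Subalgebra.algebraMap_mem _ _
  | add p q hp hq => rw [map_add]; exact add_mem hp hq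
  | mul_X p i hp => rw [map_mul, MvPolynomial.aeval_X]; exact mul_mem hp (Algebra.subset_adjoin ⟨_, rfl⟩)

theorem Setup.exists_num {n₀ : ℕ} (hδ : δ ∈ X.PF n₀) {b : X.Opn δ → K} (hb : b ∈ X.ringOn δ) :
    ∃ (n k : ℕ), ∃ Φ ∈ X.PF n, ∀ Q : X.Opn δ, Φ Q.1 = b Q * δ Q.1 ^ k := by
  induction hb using Algebra.adjoin_induction with
  | mem b hb =>
    obtain ⟨i, rfl⟩ := hb
    rcases i with ⟨i, k⟩ | _
    · exact ⟨X.n₁, 0, _, Setup.val_mem_PF (X.gen_mem k) i, fun Q => by simp [Setup.genFam]⟩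
    · exact ⟨0, 1, _, X.const_mem_PF 0 1, fun Q => by
        simp [Setup.genFam, inv_mul_cancel₀ Q.2]⟩
  | algebraMap r => exact ⟨0, 0, _, X.const_mem_PF 0 r, fun Q => by simp⟩
  | add a b _ _ ha hb =>
    obtain ⟨n, k, Φ, hΦ, e⟩ := ha
    obtain ⟨n', k', Ψ, hΨ, e'⟩ := hb
    refine ⟨n + k' * n₀ + (n' + k * n₀), k + k', Φ * δ ^ k' + Ψ * δ ^ k, add_mem
      (Setup.PF_mono (by omega) (Setup.mul_mem_PF hΦ (Setup.pow_mem_PF hδ k')))
      (Setup.PF_mono (by omega) (Setup.mul_mem_PF hΨ (Setup.pow_mem_PF hδ k))), fun Q => ?_⟩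
    simp only [Pi.add_apply, Pi.mul_apply, Pi.pow_apply, e, e', pow_add]
    ring
  | mul a b _ _ ha hb =>
    obtain ⟨n, k, Φ, hΦ, e⟩ := ha
    obtain ⟨n', k', Ψ, hΨ, e'⟩ := hb
    refine ⟨n + n', k + k', Φ * Ψ, Setup.mul_mem_PF hΦ hΨ, fun Q => ?_⟩
    simp only [Pi.mul_apply, e, e', pow_add]
    ring

theorem Setup.eq_zero_of_res {n₀ n : ℕ} (hδ : δ ∈ X.PF n₀) (hδ0 : δ ≠ 0) {Φ : X.Tup → K}
    (hΦ : Φ ∈ X.PF n) (h : ∀ Q : X.Opn δ, Φ Q.1 = 0) : Φ = 0 := by
  by_contra hne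
  refine X.mul_ne_zero_PF hΦ hδ hne hδ0 (funext fun Q => ?_)
  by_cases hQ : δ Q = 0
  · simp [hQ]
  · simp [h ⟨Q, hQ⟩]

theorem Setup.nonempty_Opn (hδ0 : δ ≠ 0) : Nonempty (X.Opn δ) := by
  obtain ⟨Q, hQ⟩ := Function.ne_iff.mp hδ0
  exact ⟨⟨Q, hQ⟩⟩

theorem Setup.isDomain_ringOn {n₀ : ℕ} (hδ : δ ∈ X.PF n₀) (hδ0 : δ ≠ 0) :
    IsDomain (X.ringOn δ) := by
  haveI := X.nonempty_Opn hδ0
  haveI : NoZeroDivisors (X.ringOn δ) := ⟨fun {a b} h => by
    obtain ⟨n, k, Φ, hΦ, e⟩ := X.exists_num hδ a.2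
    obtain ⟨n', k', Ψ, hΨ, e'⟩ := X.exists_num hδ b.2
    have key : ∀ {c : X.ringOn δ} {n k : ℕ} {Φ : X.Tup → K},
        (∀ Q : X.Opn δ, Φ Q.1 = c.1 Q * δ Q.1 ^ k) → Φ = 0 → c = 0 := fun e h0 =>
      Subtype.ext (funext fun Q => by
        have := e Q
        rw [h0, Pi.zero_apply, eq_comm, mul_eq_zero] at this
        exact this.resolve_right (pow_ne_zero _ Q.2))
    have hz : Φ * Ψ = 0 := X.eq_zero_of_res hδ hδ0 (Setup.mul_mem_PF hΦ hΨ) fun Q => by
      have h1 := congrFun (congrArg Subtype.val h) Q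
      simp only [MulMemClass.coe_mul, Pi.mul_apply, ZeroMemClass.coe_zero, Pi.zero_apply] at h1
      rw [Pi.mul_apply, e, e', mul_mul_mul_comm, h1, zero_mul]
    by_contra hab
    obtain ⟨ha, hb⟩ := not_or.mp hab
    exact X.mul_ne_zero_PF hΦ hΨ (fun h0 => ha (key (n := n) e h0))
      (fun h0 => hb (key (n := n') e' h0)) hz⟩
  exact NoZeroDivisors.to_isDomain _

/-- The homomorphism of the affine ring to functions given by the `i`th point. -/
def Setup.pointHom (i : Fin X.g) :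
    Algebra.adjoin K (Set.range X.gen) →ₐ[K] (X.Opn δ → K) :=
  have hmem : ∀ (Q : X.Opn δ) (a : Algebra.adjoin K (Set.range X.gen)),
      (a : F) ∈ (Q.1 i).1.toValuationSubring := fun Q a => by
    obtain ⟨a, ha⟩ := a
    induction ha using Algebra.adjoin_induction with
    | mem a ha => obtain ⟨k, rfl⟩ := ha; exact Setup.mem_ring (X.gen_mem k) (Q.1 i).2
    | algebraMap r => exact (Q.1 i).1.algebraMap_mem' r
    | add a b _ _ ha hb => exact add_mem ha hb
    | mul a b _ _ ha hb => exact mul_mem ha hb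
  { toFun := fun a Q => valAt (Q.1 i).1 (a : F)
    map_one' := funext fun Q => valAt_one _
    map_mul' := fun a b => funext fun Q => valAt_mul (hmem Q a) (hmem Q b)
    map_zero' := funext fun Q => by simpa using valAt_algebraMap (Q.1 i).1 (0 : K)
    map_add' := fun a b => funext fun Q => valAt_add (hmem Q a) (hmem Q b)
    commutes' := fun r => funext fun Q => valAt_algebraMap _ r }

theorem Setup.pointHom_mem (i : Fin X.g) (a : Algebra.adjoin K (Set.range X.gen)) :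
    X.pointHom (δ := δ) i a ∈ X.ringOn δ := by
  obtain ⟨a, ha⟩ := a
  induction ha using Algebra.adjoin_induction with
  | mem a ha => obtain ⟨k, rfl⟩ := ha; exact Algebra.subset_adjoin ⟨.inl (i, k), rfl⟩
  | algebraMap r =>
    rw [show (⟨algebraMap K F r, _⟩ : Algebra.adjoin K (Set.range X.gen)) = algebraMap K _ r from rfl,
      AlgHom.commutes]
    exact Subalgebra.algebraMap_mem _ _
  | add a b ha' hb' ha hb =>
    rw [show (⟨a + b, _⟩ : Algebra.adjoin K (Set.range X.gen)) = ⟨a, ha'⟩ + ⟨b, hb'⟩ from rfl,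
      map_add]
    exact add_mem ha hb
  | mul a b ha' hb' ha hb =>
    rw [show (⟨a * b, _⟩ : Algebra.adjoin K (Set.range X.gen)) = ⟨a, ha'⟩ * ⟨b, hb'⟩ from rfl,
      map_mul]
    exact mul_mem ha hb

/-- The generators as elements of the ring. -/
def Setup.genSub (i : (Fin X.g × Fin (Module.finrank K (X.L X.n₁))) ⊕ Unit) : X.ringOn δ :=
  ⟨X.genFam δ i, Algebra.subset_adjoin ⟨i, rfl⟩⟩

theorem Setup.adjoin_genSub :
    Algebra.adjoin K (Set.range (X.genSub (δ := δ))) = ⊤ := by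
  rw [show Set.range (X.genSub (δ := δ)) =
      ((↑) : X.ringOn δ → X.Opn δ → K) ⁻¹' Set.range (X.genFam δ) from
    Set.ext fun b => ⟨fun ⟨i, hi⟩ => ⟨i, congrArg Subtype.val hi⟩,
      fun ⟨i, hi⟩ => ⟨i, Subtype.ext hi⟩⟩]
  exact Algebra.adjoin_adjoin_coe_preimage

theorem Setup.adjoin_genSub_fin :
    Algebra.adjoin K (Set.range (X.genSub (δ := δ) ∘ (Fintype.equivFin _).symm)) = ⊤ := by
  rw [Set.range_comp, Equiv.range_eq_univ, Set.image_univ, Setup.adjoin_genSub]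

/-- Evaluation at a point of the open set. -/
def Setup.evalOn (Q : X.Opn δ) : X.ringOn δ →ₐ[K] K :=
  (Pi.evalAlgHom K (fun _ : X.Opn δ => K) Q).comp (X.ringOn δ).val

@[simp] theorem Setup.evalOn_apply (Q : X.Opn δ) (b : X.ringOn δ) : X.evalOn Q b = b.1 Q := rfl

/-- Homomorphisms are evaluations at points of the open set. -/
theorem Setup.hom_eq_eval {n₀ : ℕ} (hδ : δ ∈ X.PF n₀) (ψ : X.ringOn δ →ₐ[K] K) :
    ∃ Q : X.Opn δ, ∀ b : X.ringOn δ, ψ b = b.1 Q := by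
  choose P hP using fun i => X.exists_point
    (ψ.comp ((X.pointHom i).codRestrict (X.ringOn δ) (X.pointHom_mem i)))
  let g₁ : Fin X.g × Fin (Module.finrank K (X.L X.n₁)) → X.ringOn δ := fun ik =>
    ⟨X.genFam δ (.inl ik), Algebra.subset_adjoin ⟨_, rfl⟩⟩
  have hgen : ∀ ik, ψ (g₁ ik) = valAt (P ik.1).1 (X.gen ik.2) := fun ⟨i, k⟩ => by
    rw [← hP i ⟨X.gen k, Algebra.subset_adjoin ⟨k, rfl⟩⟩]
    rfl
  obtain ⟨p, -, hp⟩ := X.exists_eval_poly hδ
  have hδP : ψ ⟨X.res δ δ, X.res_mem_ringOn hδ⟩ = δ P := by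
    have e : (⟨X.res δ δ, X.res_mem_ringOn hδ⟩ : X.ringOn δ) = MvPolynomial.aeval g₁ p := by
      refine Subtype.ext (funext fun Q => ?_)
      rw [← Subalgebra.coe_val (X.ringOn δ), MvPolynomial.comp_aeval_apply,
        ← Pi.evalAlgHom_apply K (fun _ : X.Opn δ => K) Q (MvPolynomial.aeval _ p),
        MvPolynomial.comp_aeval_apply, MvPolynomial.aeval_eq_eval]
      exact hp Q.1
    rw [e, MvPolynomial.comp_aeval_apply, hp P, MvPolynomial.aeval_eq_eval]
    exact congrArg (fun f => MvPolynomial.eval f p) (funext hgen)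
  have hinv : δ P * ψ ⟨_, X.inv_mem_ringOn⟩ = 1 := by
    rw [← hδP, ← map_mul, ← map_one ψ]
    exact congrArg ψ (Subtype.ext (funext fun Q => mul_inv_cancel₀ Q.2))
  have hP0 : δ P ≠ 0 := fun h => by rw [h, zero_mul] at hinv; exact zero_ne_one hinv
  refine ⟨⟨P, hP0⟩, fun b => ?_⟩
  obtain ⟨b, hb⟩ := b
  induction hb using Algebra.adjoin_induction with
  | mem b hb =>
    obtain ⟨i, rfl⟩ := hb
    rcases i with ik | u
    · exact hgen ik
    · exact eq_inv_of_mul_eq_one_right hinv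
  | algebraMap r => exact (ψ.commutes r).trans rfl
  | add a b ha' hb' ha hb =>
    exact (map_add ψ ⟨a, ha'⟩ ⟨b, hb'⟩).trans (congrArg₂ (· + ·) ha hb)
  | mul a b ha' hb' ha hb =>
    exact (map_mul ψ ⟨a, ha'⟩ ⟨b, hb'⟩).trans (congrArg₂ (· * ·) ha hb)

/-- No more than `g` functions are algebraically independent. -/
theorem Setup.not_algebraicIndependent {n₀ : ℕ} (hδ : δ ∈ X.PF n₀)
    (f : Fin (X.g + 1) → X.ringOn δ) : ¬ AlgebraicIndependent K f := by
  intro hind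
  choose n k Φ hΦ e using fun j => X.exists_num hδ (f j).2
  set k₁ := ∑ j, k j with hk₁
  set m := ∑ j, n j + k₁ * n₀ + 1 with hm
  have hle : ∀ j, k j ≤ k₁ := fun j => Finset.single_le_sum (fun _ _ => Nat.zero_le _)
    (Finset.mem_univ j)
  let Ψ : Fin (X.g + 1) → X.Tup → K := fun j => Φ j * δ ^ (k₁ - k j)
  have hΨ : ∀ j, Ψ j ∈ X.PF m := fun j => Setup.PF_mono (by
      have := Finset.single_le_sum (f := n) (fun _ _ => Nat.zero_le _) (Finset.mem_univ j)
      have := Nat.mul_le_mul_right n₀ (Nat.sub_le k₁ (k j))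
      omega) (Setup.mul_mem_PF (hΦ j) (Setup.pow_mem_PF hδ _))
  have eΨ : ∀ j (Q : X.Opn δ), Ψ j Q.1 = (f j).1 Q * δ Q.1 ^ k₁ := fun j Q => by
    simp only [Ψ, Pi.mul_apply, Pi.pow_apply, e j Q]
    rw [mul_assoc, ← pow_add, Nat.add_sub_cancel' (hle j)]
  set N := ((X.g + 1) * m + 1) ^ X.g with hN
  let Θ : (Fin (X.g + 1) → Fin (N + 1)) → X.Tup → K := fun s =>
    ∏ j, Ψ j ^ (s j : ℕ) * (δ ^ k₁) ^ (N - s j)
  have hΘ : ∀ s, Θ s ∈ X.PF ((X.g + 1) * (N * m)) := fun s => by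
    refine Setup.PF_mono (le_of_eq (by simp)) (X.prod_mem_PF Finset.univ (fun _ => N * m)
      (fun j => Ψ j ^ (s j : ℕ) * (δ ^ k₁) ^ (N - s j)) fun j _ => ?_)
    have hδk : δ ^ k₁ ∈ X.PF m := Setup.PF_mono (by omega) (Setup.pow_mem_PF hδ _)
    refine Setup.PF_mono (le_of_eq ?_)
      (Setup.mul_mem_PF (Setup.pow_mem_PF (hΨ j) _) (Setup.pow_mem_PF hδk _))
    rw [← add_mul, Nat.add_sub_cancel' (Nat.lt_succ_iff.mp (s j).2)]
  have hli : LinearIndependent K Θ := by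
    refine Fintype.linearIndependent_iff.mpr fun c hc => ?_
    have hmon : LinearIndependent K fun s : Fin (X.g + 1) → Fin (N + 1) => ∏ j, f j ^ (s j : ℕ) := by
      have h1 := ((MvPolynomial.basisMonomials (Fin (X.g + 1)) K).linearIndependent.map'
        (MvPolynomial.aeval f).toLinearMap (LinearMap.ker_eq_bot.mpr hind)).comp
          (fun s : Fin (X.g + 1) → Fin (N + 1) =>
            (Finsupp.equivFunOnFinite.symm fun j => (s j : ℕ)))
          (fun s t h => funext fun j => Fin.ext (congrFun (Finsupp.equivFunOnFinite.symm.injective h) j))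
      rw [show (fun s : Fin (X.g + 1) → Fin (N + 1) => ∏ j, f j ^ (s j : ℕ)) = fun s =>
          (MvPolynomial.aeval f).toLinearMap (MvPolynomial.basisMonomials (Fin (X.g + 1)) K
            (Finsupp.equivFunOnFinite.symm fun j => (s j : ℕ))) from funext fun s => by
        simp [MvPolynomial.aeval_monomial, Finsupp.prod_fintype]]
      exact h1
    refine Fintype.linearIndependent_iff.mp hmon c (Subtype.ext (funext fun Q => ?_))
    have h0 := congrFun hc Q.1
    simp only [Finset.sum_apply, Pi.smul_apply, Θ, Finset.prod_apply, Pi.mul_apply, Pi.pow_apply,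
      eΨ, Pi.zero_apply, smul_eq_mul] at h0
    have e2 : ∀ s : Fin (X.g + 1) → Fin (N + 1), ∀ j,
        ((f j).1 Q * δ Q.1 ^ k₁) ^ (s j : ℕ) * (δ Q.1 ^ k₁) ^ (N - s j) =
          (f j).1 Q ^ (s j : ℕ) * (δ Q.1 ^ k₁) ^ N := fun s j => by
      rw [mul_pow, mul_assoc, ← pow_add, Nat.add_sub_cancel' (Nat.lt_succ_iff.mp (s j).2)]
    simp only [e2, Finset.prod_mul_distrib, Finset.prod_const, ← mul_assoc, ← Finset.sum_mul,
      mul_eq_zero, pow_eq_zero_iff', Q.2, false_and, or_false] at h0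
    simpa [Finset.sum_apply, Finset.prod_apply] using h0
  haveI := X.finiteDimensional_PF ((X.g + 1) * (N * m))
  have h1 := (LinearIndependent.of_comp (X.PF ((X.g + 1) * (N * m))).subtype
    (v := fun s => (⟨Θ s, hΘ s⟩ : X.PF ((X.g + 1) * (N * m)))) hli).fintype_card_le_finrank.trans
      (X.finrank_PF_le _)
  rw [Fintype.card_fun, Fintype.card_fin, Fintype.card_fin] at h1
  have h2 : ((X.g + 1) * (N * m) + 1) ^ X.g ≤ N * (N + 1) ^ X.g := by
    rw [hN, ← mul_pow]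
    refine Nat.pow_le_pow_left ?_ _
    rw [← hN]
    nlinarith [Nat.zero_le N, Nat.zero_le m]
  have h3 : (N + 1) ^ (X.g + 1) = (N + 1) * (N + 1) ^ X.g := by ring
  have := pow_pos (Nat.succ_pos N) X.g
  nlinarith

/-- A function with finitely many values on each fibre of a family is algebraic over it. -/
theorem Setup.algebraic_of_finite_fibres {n₀ : ℕ} (hδ : δ ∈ X.PF n₀) (hδ0 : δ ≠ 0) {ι : Type*}
    (y : ι → X.ringOn δ) (t : X.ringOn δ)
    (h : ∀ c : ι → K, ((fun Q => t.1 Q) '' {Q | ∀ i, (y i).1 Q = c i}).Finite) :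
    IsAlgebraic (Algebra.adjoin K (Set.range y)) t := by
  haveI := X.isDomain_ringOn hδ hδ0
  by_contra htr
  obtain ⟨c, hc⟩ := exists_infinite_values _ (Setup.adjoin_genSub_fin (X := X) (δ := δ))
    (fun b hb => by
      obtain ⟨Q, hQ⟩ := Function.ne_iff.mp (fun h0 => hb (Subtype.ext h0) : b.1 ≠ 0)
      exact ⟨X.evalOn Q, hQ⟩) y t htr
  refine hc ((h c).subset ?_)
  rintro a ⟨ψ, hψ, rfl⟩
  obtain ⟨Q, hQ⟩ := X.hom_eq_eval hδ ψ
  exact ⟨Q, fun i => (hQ _).symm.trans (hψ i), (hQ t).symm⟩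

/-- Homomorphisms from the subring of a family are evaluations, outside a closed set. -/
theorem Setup.exists_lift {n₀ : ℕ} (hδ : δ ∈ X.PF n₀) (hδ0 : δ ≠ 0) {ι : Type*}
    (y : ι → X.ringOn δ) :
    ∃ p : MvPolynomial ι K, MvPolynomial.aeval y p ≠ 0 ∧ ∀ c : ι → K,
      (∀ r, MvPolynomial.aeval y r = 0 → r.eval c = 0) → p.eval c ≠ 0 →
        ∃ Q : X.Opn δ, ∀ i, (y i).1 Q = c i := by
  haveI := X.isDomain_ringOn hδ hδ0
  obtain ⟨p, hp, hlift⟩ := exists_hom_lift _ (Setup.adjoin_genSub_fin (X := X) (δ := δ)) y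
  refine ⟨p, hp, fun c hc hpc => ?_⟩
  obtain ⟨ψ, hψ⟩ := hlift c hc hpc
  obtain ⟨Q, hQ⟩ := X.hom_eq_eval hδ ψ
  exact ⟨Q, fun i => (hQ _).symm.trans (hψ i)⟩

end Fermat.Agent.MCurve.MW
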