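/-
Unit X, preparations: kernels of parametrised matrices by minors, and vectors in the spaces with
poles at infinity depending polynomially on tuples.
-/
import Fermat.Agent.MCurve.MW.Basic
import Mathlib.LinearAlgebra.Matrix.Rank
import Mathlib.LinearAlgebra.Matrix.Nondegenerate

set_option autoImplicit false
set_option linter.unusedSectionVars false

noncomputable section

namespace Fermat.Agent.MCurve.MW

open AlgebraicCurve RR
open scoped Classical
open Matrix

section Linear

variable {K : Type*} [Field K] {Λ σ : Type*} [Fintype σ] {ρ : ℕ}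

/-- The vector of minors killing the selected rows, attached to a column. -/
def kvec (A : Matrix Λ σ K) (J : Fin ρ → σ) (R : Fin ρ → Λ) (i : σ) : σ → K :=
  (A.submatrix R J).det • Pi.single i 1 -
    ∑ b, (cramer (A.submatrix R J) fun a => A (R a) i) b • Pi.single (J b) 1

theorem sum_smul_kvec (A : Matrix Λ σ K) (J : Fin ρ → σ) (R : Fin ρ → Λ) (x : σ → K) :
    ∑ i, x i • kvec A J R i = (A.submatrix R J).det • x -
      ∑ b, (cramer (A.submatrix R J) fun a => (A *ᵥ x) (R a)) b • Pi.single (J b) 1 := by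
  have hx : ∑ i, x i • (Pi.single i 1 : σ → K) = x := by
    funext k; simp [Pi.single_apply]
  have hc : ∀ b, ∑ i, x i * (cramer (A.submatrix R J) fun a => A (R a) i) b =
      (cramer (A.submatrix R J) fun a => (A *ᵥ x) (R a)) b := by
    intro b
    have e : (fun a => (A *ᵥ x) (R a)) = ∑ i, x i • fun a => A (R a) i := by
      funext a; simp [Matrix.mulVec, dotProduct, mul_comm]
    rw [e, map_sum, Finset.sum_apply]
    simp
  simp only [kvec, smul_sub, Finset.sum_sub_distrib, Finset.smul_sum, smul_smul]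
  rw [Finset.sum_comm]
  congr 1
  · conv_rhs => rw [← hx, Finset.smul_sum]
    exact Finset.sum_congr rfl fun i _ => by rw [smul_smul, mul_comm]
  · exact Finset.sum_congr rfl fun b _ => by rw [← Finset.sum_smul, hc b]

theorem sum_smul_kvec_of_ker (A : Matrix Λ σ K) (J : Fin ρ → σ) (R : Fin ρ → Λ) {x : σ → K}
    (hx : A *ᵥ x = 0) : ∑ i, x i • kvec A J R i = (A.submatrix R J).det • x := by
  rw [sum_smul_kvec, hx]
  simp only [Pi.zero_apply]
  rw [show (fun _ : Fin ρ => (0 : K)) = 0 from rfl, map_zero]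
  simp

theorem mulVec_kvec (A : Matrix Λ σ K) (J : Fin ρ → σ) (R : Fin ρ → Λ) (i : σ) :
    A *ᵥ kvec A J R i = fun a => (A.submatrix R J).det * A a i -
      ∑ b, (cramer (A.submatrix R J) fun a' => A (R a') i) b * A a (J b) := by
  funext a
  simp only [kvec, Matrix.mulVec_sub, Matrix.mulVec_smul, Matrix.mulVec_sum, Pi.sub_apply,
    Pi.smul_apply, Finset.sum_apply, Matrix.mulVec_single_one, smul_eq_mul, Matrix.col_apply]

theorem rows_mulVec_kvec (A : Matrix Λ σ K) (J : Fin ρ → σ) (R : Fin ρ → Λ) (i : σ) (a : Fin ρ) :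
    (A *ᵥ kvec A J R i) (R a) = 0 := by
  have := congrFun (mulVec_cramer (A.submatrix R J) fun a' => A (R a') i) a
  simp only [Matrix.mulVec, dotProduct, Pi.smul_apply, smul_eq_mul, Matrix.submatrix_apply] at this
  rw [mulVec_kvec]
  simp only [← this]
  rw [sub_eq_zero]
  exact Finset.sum_congr rfl fun b _ => mul_comm _ _

theorem cols_linearIndependent {A : Matrix Λ σ K} {J : Fin ρ → σ} {R : Fin ρ → Λ}
    (h : (A.submatrix R J).det ≠ 0) : LinearIndependent K fun b => A.col (J b) := by
  refine LinearIndependent.of_comp (LinearMap.funLeft K K R) ?_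
  exact Matrix.linearIndependent_cols_iff_isUnit.mpr
    ((Matrix.isUnit_iff_isUnit_det _).mpr h.isUnit)

theorem le_rank_of_det_ne_zero [Finite Λ] {A : Matrix Λ σ K} {J : Fin ρ → σ} {R : Fin ρ → Λ}
    (h : (A.submatrix R J).det ≠ 0) : ρ ≤ A.rank := by
  rw [Matrix.rank_eq_finrank_span_cols]
  refine le_trans ?_ (Submodule.finrank_mono (Submodule.span_mono (Set.range_comp_subset_range J A.col)))
  rw [show A.col ∘ J = fun b => A.col (J b) from rfl, finrank_span_eq_card (cols_linearIndependent h), Fintype.card_fin]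

theorem mulVec_kvec_eq_zero [Finite Λ] {A : Matrix Λ σ K} {J : Fin ρ → σ} {R : Fin ρ → Λ}
    (h : (A.submatrix R J).det ≠ 0) (hr : A.rank ≤ ρ) (i : σ) : A *ᵥ kvec A J R i = 0 := by
  have hspan : Submodule.span K (Set.range fun b => A.col (J b)) =
      Submodule.span K (Set.range A.col) := by
    refine Submodule.eq_of_le_of_finrank_le
      (Submodule.span_mono (Set.range_comp_subset_range J A.col)) ?_
    rw [finrank_span_eq_card (cols_linearIndependent h), Fintype.card_fin,
      ← Matrix.rank_eq_finrank_span_cols]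
    exact hr
  have hmem : A *ᵥ kvec A J R i ∈ Submodule.span K (Set.range fun b => A.col (J b)) := by
    rw [hspan, ← Matrix.range_mulVecLin]
    exact ⟨_, rfl⟩
  obtain ⟨μ, hμ⟩ := (Submodule.mem_span_range_iff_exists_fun K).mp hmem
  have hμ0 : μ = 0 := by
    refine Matrix.eq_zero_of_mulVec_eq_zero h (funext fun a => ?_)
    have := congrFun hμ (R a)
    rw [rows_mulVec_kvec] at this
    simpa [Matrix.mulVec, dotProduct, mul_comm] using this
  rw [← hμ, hμ0]
  simp

theorem exists_minor [Fintype Λ] {A : Matrix Λ σ K} (h : ρ = A.rank) :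
    ∃ (J : Fin ρ → σ) (R : Fin ρ → Λ), (A.submatrix R J).det ≠ 0 := by
  subst h
  obtain ⟨f, hf, -, hfi⟩ := Submodule.exists_fun_fin_finrank_span_eq K (Set.range A.col)
  rw [Matrix.rank_eq_finrank_span_cols]
  choose J hJ using hf
  set B : Matrix Λ _ K := A.submatrix id J
  have hcol : B.col = f := funext fun b => hJ b
  have hB : B.rank = Module.finrank K (Submodule.span K (Set.range A.col)) := by
    rw [Matrix.rank_eq_finrank_span_cols, hcol, finrank_span_eq_card hfi, Fintype.card_fin]
  obtain ⟨r, hr, -, hri⟩ := Submodule.exists_fun_fin_finrank_span_eq K (Set.range B.row)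
  choose R hR using hr
  have e : Module.finrank K (Submodule.span K (Set.range B.row)) =
      Module.finrank K (Submodule.span K (Set.range A.col)) := by
    rw [← Matrix.rank_eq_finrank_span_row, hB]
  refine ⟨J, R ∘ Fin.cast e.symm, ((Matrix.isUnit_iff_isUnit_det _).mp
    (Matrix.linearIndependent_rows_iff_isUnit.mp ?_)).ne_zero⟩
  rw [show (A.submatrix (R ∘ Fin.cast e.symm) J).row = r ∘ Fin.cast e.symm from
    funext fun a => hR (Fin.cast e.symm a)]
  exact hri.comp (Fin.cast e.symm) (Fin.cast_injective _)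

variable {V : Type*} [AddCommGroup V] [Module K V]

/-- The matrix of some functionals on a family of vectors. -/
def famMat (lam : Λ → V →ₗ[K] K) (u : σ → V) : Matrix Λ σ K := Matrix.of fun a i => lam a (u i)

theorem famMat_mulVec (lam : Λ → V →ₗ[K] K) (u : σ → V) (x : σ → K) :
    famMat lam u *ᵥ x = fun a => lam a (∑ i, x i • u i) := by
  funext a
  simp [famMat, Matrix.mulVec, dotProduct, mul_comm]

theorem famMat_rank (lam : Λ → V →ₗ[K] K) (u : σ → V) :
    (famMat lam u).rank =
      Module.finrank K ↥((Submodule.span K (Set.range u)).map (LinearMap.pi lam)) := by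
  rw [Matrix.rank_eq_finrank_span_cols, ← Submodule.span_image, ← Set.range_comp]
  rfl

/-- The combination of a family by a vector of minors. -/
def comb (lam : Λ → V →ₗ[K] K) (u : σ → V) (J : Fin ρ → σ) (R : Fin ρ → Λ) (i : σ) : V :=
  ∑ k, kvec (famMat lam u) J R i k • u k

theorem sum_smul_comb (lam : Λ → V →ₗ[K] K) (u : σ → V) (J : Fin ρ → σ) (R : Fin ρ → Λ)
    {x : σ → K} (hx : famMat lam u *ᵥ x = 0) :
    ∑ i, x i • comb lam u J R i = ((famMat lam u).submatrix R J).det • ∑ i, x i • u i := by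
  have := sum_smul_kvec_of_ker (famMat lam u) J R hx
  simp only [comb, Finset.smul_sum, smul_smul]
  rw [Finset.sum_comm]
  refine Finset.sum_congr rfl fun k _ => ?_
  rw [← Finset.sum_smul]
  congr 1
  simpa using congrFun this k

theorem lam_comb_eq_zero [Finite Λ] {lam : Λ → V →ₗ[K] K} {u : σ → V} {J : Fin ρ → σ} {R : Fin ρ → Λ}
    (h : ((famMat lam u).submatrix R J).det ≠ 0) (hr : (famMat lam u).rank ≤ ρ) (i : σ) (a : Λ) :
    lam a (comb lam u J R i) = 0 := by
  have := congrFun (mulVec_kvec_eq_zero h hr i) a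
  rwa [famMat_mulVec] at this

end Linear

variable {K F : Type*} [Field K] [Field F] [Algebra K F] [IsAlgClosed K]
  [∀ v : Place K F, v.FiniteResidue] [HasPrincipalDivisors K F] [Nonempty (Place K F)]
  {X : Setup K F}

/-- Functionals cutting a subspace out of a finite-dimensional one. -/
theorem exists_functionals (W W' : Submodule K F) [FiniteDimensional K W] (hle : W' ≤ W) :
    ∃ lam : Fin (Module.finrank K W - Module.finrank K W') → F →ₗ[K] K,
      ∀ x ∈ W, (∀ a, lam a x = 0) ↔ x ∈ W' := by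
  set P := W'.comap W.subtype
  have hP : Module.finrank K P = Module.finrank K W' :=
    (Submodule.comapSubtypeEquivOfLe hle).finrank_eq
  have hq : Module.finrank K (W ⧸ P) = Module.finrank K W - Module.finrank K W' := by
    have := P.finrank_quotient_add_finrank
    omega
  set b := Module.finBasisOfFinrankEq K (W ⧸ P) hq
  choose lam hlam using fun a => LinearMap.exists_extend ((b.coord a).comp P.mkQ)
  refine ⟨lam, fun x hx => ?_⟩
  have hval : ∀ a, lam a x = b.coord a (P.mkQ ⟨x, hx⟩) := fun a =>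
    LinearMap.congr_fun (hlam a) ⟨x, hx⟩
  constructor
  · intro h
    have h0 : P.mkQ ⟨x, hx⟩ = 0 := b.forall_coord_eq_zero_iff.mp fun a => (hval a).symm.trans (h a)
    exact (Submodule.Quotient.mk_eq_zero P).mp h0
  · intro h a
    rw [hval, show P.mkQ ⟨x, hx⟩ = 0 from (Submodule.Quotient.mk_eq_zero P).mpr h, map_zero]

variable (X) in
/-- Vectors with poles of order at most `A` at infinity, of degree at most `n` in the tuple. -/
def Setup.PVec (A n : ℕ) : Submodule K (X.Tup → F) :=
  Submodule.span K {u | ∃ Φ ∈ X.PF n, ∃ w ∈ X.L A, u = fun Q => Φ Q • w}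

theorem Setup.PVec_apply {A n : ℕ} {u : X.Tup → F} (hu : u ∈ X.PVec A n) (Q : X.Tup) :
    u Q ∈ X.L A := by
  induction hu using Submodule.span_induction with
  | mem u hu => obtain ⟨Φ, -, w, hw, rfl⟩ := hu; exact Submodule.smul_mem _ _ hw
  | zero => exact zero_mem _
  | add u v _ _ h h' => exact add_mem h h'
  | smul k u _ h => exact Submodule.smul_mem _ _ h

theorem Setup.smul_mem_PVec {A n k : ℕ} {Φ : X.Tup → K} {u : X.Tup → F} (hΦ : Φ ∈ X.PF k)
    (hu : u ∈ X.PVec A n) : (fun Q => Φ Q • u Q) ∈ X.PVec A (k + n) := by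
  induction hu using Submodule.span_induction with
  | mem u hu =>
    obtain ⟨Ψ, hΨ, w, hw, rfl⟩ := hu
    exact Submodule.subset_span ⟨Φ * Ψ, Setup.mul_mem_PF hΦ hΨ, w, hw,
      funext fun Q => by rw [Pi.mul_apply, mul_smul]⟩
  | zero => convert zero_mem (X.PVec A (k + n)); simp
  | add u v _ _ h h' => convert add_mem h h' using 1; funext Q; simp [smul_add]
  | smul c u _ h => convert Submodule.smul_mem _ c h using 1; funext Q; simp [smul_comm c]

theorem Setup.const_mem_PVec {A : ℕ} {w : F} (hw : w ∈ X.L A) (n : ℕ) :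
    (fun _ => w) ∈ X.PVec A n :=
  Submodule.subset_span ⟨fun _ => 1, X.const_mem_PF n 1, w, hw, funext fun _ => (one_smul _ w).symm⟩

theorem Setup.PVec_mono {A A' n n' : ℕ} (hA : A ≤ A') (hn : n ≤ n') :
    X.PVec A n ≤ X.PVec A' n' :=
  Submodule.span_mono fun _ ⟨Φ, hΦ, w, hw, e⟩ => ⟨Φ, Setup.PF_mono hn hΦ, w, Setup.L_mono hA hw, e⟩

theorem Setup.mul_mem_PVec {A A' n n' : ℕ} {u u' : X.Tup → F} (hu : u ∈ X.PVec A n)
    (hu' : u' ∈ X.PVec A' n') : u * u' ∈ X.PVec (A + A') (n + n') := by
  have key : X.PVec A n * X.PVec A' n' ≤ X.PVec (A + A') (n + n') := by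
    rw [Setup.PVec, Setup.PVec, Submodule.span_mul_span]
    refine Submodule.span_mono ?_
    rintro _ ⟨_, ⟨Φ, hΦ, w, hw, rfl⟩, _, ⟨Ψ, hΨ, w', hw', rfl⟩, rfl⟩
    exact ⟨Φ * Ψ, Setup.mul_mem_PF hΦ hΨ, w * w', Setup.mul_mem_L hw hw',
      funext fun Q => by simp [mul_comm, smul_smul]⟩
  exact key (Submodule.mul_mem_mul hu hu')

theorem Setup.apply_mem_PF {A n : ℕ} {u : X.Tup → F} (hu : u ∈ X.PVec A n) (φ : F →ₗ[K] K) :
    (fun Q => φ (u Q)) ∈ X.PF n := by
  induction hu using Submodule.span_induction with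
  | mem u hu =>
    obtain ⟨Φ, hΦ, w, -, rfl⟩ := hu
    convert Submodule.smul_mem _ (φ w) hΦ using 1
    funext Q
    simp [mul_comm]
  | zero => convert zero_mem (X.PF n); simp
  | add u v _ _ h h' => convert add_mem h h' using 1; funext Q; simp
  | smul c u _ h => convert Submodule.smul_mem _ c h using 1; funext Q; simp

theorem Setup.map_mem_PVec {A B n : ℕ} {u : X.Tup → F} (hu : u ∈ X.PVec A n)
    (hB : ∀ Q, u Q ∈ X.L B) : u ∈ X.PVec B n := by
  obtain ⟨p, hp⟩ := (X.L B).subtype.exists_leftInverse_of_injective (Submodule.ker_subtype _)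
  have he : u = fun Q => (p (u Q) : F) := funext fun Q =>
    (congrArg Subtype.val (LinearMap.congr_fun hp ⟨u Q, hB Q⟩)).symm
  rw [he]
  clear he hB
  induction hu using Submodule.span_induction with
  | mem u hu =>
    obtain ⟨Φ, hΦ, w, -, rfl⟩ := hu
    exact Submodule.subset_span ⟨Φ, hΦ, p w, (p w).2, funext fun Q => by simp⟩
  | zero => convert zero_mem (X.PVec B n); simp
  | add u v _ _ h h' => convert add_mem h h' using 1; funext Q; simp
  | smul c u _ h => convert Submodule.smul_mem _ c h using 1; funext Q; simp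

variable {Λ σ : Type*} [Fintype σ] {ρ n : ℕ}

theorem Setup.minor_mem_PF {M : X.Tup → Matrix Λ σ K}
    (hM : ∀ a b, (fun Q => M Q a b) ∈ X.PF n) (J : Fin ρ → σ) (R : Fin ρ → Λ) :
    (fun Q => ((M Q).submatrix R J).det) ∈ X.PF (ρ * n) := by
  have := X.det_mem_PF (fun Q => (M Q).submatrix R J) (n := n) fun i j => hM _ _
  rwa [Fintype.card_fin] at this

theorem Setup.kvec_mem_PF {M : X.Tup → Matrix Λ σ K}
    (hM : ∀ a b, (fun Q => M Q a b) ∈ X.PF n) (J : Fin ρ → σ) (R : Fin ρ → Λ) (i k : σ) :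
    (fun Q => kvec (M Q) J R i k) ∈ X.PF (ρ * n) := by
  have e : (fun Q => kvec (M Q) J R i k) = (Pi.single i 1 : σ → K) k •
      (fun Q => ((M Q).submatrix R J).det) - ∑ b, (Pi.single (J b) 1 : σ → K) k •
        fun Q => cramer ((M Q).submatrix R J) (fun a => M Q (R a) i) b := by
    funext Q
    simp [kvec, Finset.sum_apply, mul_comm]
  rw [e]
  refine sub_mem (Submodule.smul_mem _ _ (Setup.minor_mem_PF hM J R))
    (sum_mem fun b _ => Submodule.smul_mem _ _ ?_)
  have := X.cramer_mem_PF (fun Q => (M Q).submatrix R J) (fun Q a => M Q (R a) i) (n := n)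
    (fun _ _ => hM _ _) (fun _ => hM _ _) b
  rwa [Fintype.card_fin] at this

theorem Setup.famMat_mem_PF {V : Type*} [AddCommGroup V] [Module K V] {lam : Λ → V →ₗ[K] K}
    {u : σ → X.Tup → V} (h : ∀ a i, (fun Q => lam a (u i Q)) ∈ X.PF n) (a : Λ) (i : σ) :
    (fun Q => famMat lam (fun i => u i Q) a i) ∈ X.PF n := h a i

theorem Setup.comb_mem_PVec {A k : ℕ} {u : σ → X.Tup → F} (hu : ∀ i, u i ∈ X.PVec A k)
    (lam : Λ → F →ₗ[K] K) (J : Fin ρ → σ) (R : Fin ρ → Λ) (i : σ) :
    (fun Q => comb lam (fun i => u i Q) J R i) ∈ X.PVec A (ρ * k + k) := by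
  rw [show (fun Q => comb lam (fun i => u i Q) J R i) =
      ∑ l, fun Q => kvec (famMat lam fun i => u i Q) J R i l • u l Q from
    funext fun Q => by simp [comb, Finset.sum_apply]]
  exact sum_mem fun l _ => Setup.smul_mem_PVec
    (Setup.kvec_mem_PF (M := fun Q => famMat lam fun i => u i Q)
      (fun a b => Setup.apply_mem_PF (hu b) (lam a)) J R i l) (hu l)

end Fermat.Agent.MCurve.MW
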