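/-
Unit X, the step: from a polynomial family spanning the functions vanishing on a moving divisor to
one for the complementary divisor, with finitely many charts.
-/
import Fermat.Agent.MCurve.MW.Families

set_option autoImplicit false
set_option linter.unusedSectionVars false

noncomputable section

namespace Fermat.Agent.MCurve.MW

open AlgebraicCurve RR
open scoped Classical
open Matrix

variable {K F : Type*} [Field K] [Field F] [Algebra K F] [IsAlgClosed K]
  [∀ v : Place K F, v.FiniteResidue] [HasPrincipalDivisors K F] [Nonempty (Place K F)]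
  {X : Setup K F}

theorem finrank_map_add {V : Type*} [AddCommGroup V] [Module K V] (W W' : Submodule K F)
    [FiniteDimensional K W] (T : F →ₗ[K] V) (hle : W' ≤ W)
    (h : ∀ x ∈ W, T x = 0 ↔ x ∈ W') :
    Module.finrank K (W.map T) + Module.finrank K W' = Module.finrank K W := by
  have e : LinearMap.ker (T.domRestrict W) = W'.comap W.subtype := by
    ext ⟨x, hx⟩
    simpa using h x hx
  have := (T.domRestrict W).finrank_range_add_finrank_ker
  rwa [e, (Submodule.comapSubtypeEquivOfLe hle).finrank_eq, LinearMap.range_domRestrict] at this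

theorem Setup.space_le_L {D : Divisor K F} (hD : 0 ≤ D) (n : ℕ) :
    riemannRochSpace (Finsupp.single X.inf (n : ℤ) - D) ≤ X.L n :=
  space_mono (sub_le_self _ hD)

theorem Setup.space_inf_L {D : Divisor K F} (hD : 0 ≤ D) (h0 : D X.inf = 0) {A B : ℕ}
    (hBA : B ≤ A) :
    riemannRochSpace (Finsupp.single X.inf (A : ℤ) - D) ⊓ X.L B =
      riemannRochSpace (Finsupp.single X.inf (B : ℤ) - D) := by
  refine le_antisymm (fun x hx => ?_) (le_inf (space_mono ?_) (X.space_le_L hD B))
  · rcases eq_or_ne x 0 with rfl | hx0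
    · exact zero_mem _
    refine mem_space_iff.mpr (Or.inr fun v => ?_)
    rcases eq_or_ne v X.inf with rfl | hv
    · have := ((Setup.mem_L.mp hx.2).resolve_left hx0).2
      simp [h0]
      omega
    · have := ((mem_space_iff.mp hx.1).resolve_left hx0) v
      simp [Finsupp.single_eq_of_ne hv] at this ⊢
      omega
  · exact sub_le_sub_right (Finsupp.single_mono (by omega)) D

theorem Setup.ell_L {n : ℕ} (h : X.c ≤ n) : Module.finrank K (X.L n) + X.g = n + 1 := by
  have := X.hR.eq (Finsupp.single X.inf (n : ℤ)) (by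
    rw [Divisor.degree_single, deg_one]; push_cast; omega)
  rw [Divisor.degree_single, deg_one] at this
  change (Module.finrank K (X.L n) : ℤ) = _ at this
  push_cast at this
  omega

theorem Setup.degree_inf_sub {D : Divisor K F} {n d : ℕ} (hd : Divisor.degree D = d) :
    Divisor.degree (Finsupp.single X.inf (n : ℤ) - D) = (n : ℤ) - d := by
  rw [map_sub, Divisor.degree_single, deg_one, hd]
  simp

theorem Setup.ell_inf_sub {D : Divisor K F} {n d : ℕ} (hd : Divisor.degree D = d)
    (h : X.c + d ≤ n) : ell (Finsupp.single X.inf (n : ℤ) - D) + d + X.g = n + 1 := by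
  have := X.hR.eq (Finsupp.single X.inf (n : ℤ) - D) (by rw [Setup.degree_inf_sub hd]; omega)
  rw [Setup.degree_inf_sub hd] at this
  omega

variable {ι : Type} [Fintype ι]

theorem span_comb {A : ℕ} (u : ι → F) {Λ : Type} {ρ : ℕ} (lam : Λ → F →ₗ[K] K)
    (J : Fin ρ → ι) (R : Fin ρ → Λ) (hdet : ((famMat lam u).submatrix R J).det ≠ 0) (W : Submodule K F)
    (hW : W = Submodule.span K (Set.range u)) (hlam : ∀ x ∈ W, (∀ a, lam a x = 0) ↔ x ∈ X.L A)
    (hk : ∀ i a, lam a (comb lam u J R i) = 0) :
    Submodule.span K (Set.range fun i => comb lam u J R i) = W ⊓ X.L A := by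
  have hm : ∀ i, comb lam u J R i ∈ W := fun i =>
    sum_mem fun k _ => Submodule.smul_mem _ _ (hW ▸ Submodule.subset_span ⟨k, rfl⟩)
  refine le_antisymm (Submodule.span_le.mpr ?_) fun x hx => ?_
  · rintro _ ⟨i, rfl⟩
    exact ⟨hm i, (hlam _ (hm i)).mp (hk i)⟩
  · obtain ⟨c, rfl⟩ := (Submodule.mem_span_range_iff_exists_fun K).mp (hW ▸ hx.1)
    have hker : famMat lam u *ᵥ c = 0 := by
      rw [famMat_mulVec]
      exact funext fun a => (hlam _ hx.1).mpr hx.2 a
    have := sum_smul_comb lam u J R hker
    rw [← inv_smul_smul₀ hdet (∑ i, c i • u i), ← this]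
    exact Submodule.smul_mem _ _ (sum_mem fun i _ =>
      Submodule.smul_mem _ _ (Submodule.subset_span ⟨i, rfl⟩))

/-- Cutting down to a smaller pole order at infinity. -/
theorem Setup.exists_cut {A B δ : ℕ} (u : ι → X.Tup → F) (hu : ∀ i, u i ∈ X.PVec A δ)
    (hB : X.c ≤ B) (hBA : B ≤ A) :
    ∃ (den : (Fin (A - B) → ι) → X.Tup → K) (u' : (Fin (A - B) → ι) → ι → X.Tup → F),
      (∀ J, den J ∈ X.PF ((A - B) * δ)) ∧
      (∀ J i, u' J i ∈ X.PVec B ((A - B) * δ + δ)) ∧
      ∀ (Q : X.Tup) (W : Submodule K F), Submodule.span K (Set.range fun i => u i Q) = W →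
        (∀ J, den J Q ≠ 0 →
          Submodule.span K (Set.range fun i => u' J i Q) = W ⊓ X.L B ∧
          Module.finrank K W = Module.finrank K ↥(W ⊓ X.L B) + (A - B)) ∧
        (Module.finrank K W = Module.finrank K ↥(W ⊓ X.L B) + (A - B) → ∃ J, den J Q ≠ 0) := by
  have hq : Module.finrank K (X.L A) - Module.finrank K (X.L B) = A - B := by
    have := X.ell_L hB
    have := X.ell_L (hB.trans hBA)
    omega
  obtain ⟨lam0, hlam0⟩ := exists_functionals (X.L A) (X.L B) (Setup.L_mono hBA)
  let lam : Fin (A - B) → F →ₗ[K] K := fun a => lam0 (Fin.cast hq.symm a)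
  have hlam : ∀ x ∈ X.L A, (∀ a, lam a x = 0) ↔ x ∈ X.L B := fun x hx => by
    rw [← hlam0 x hx]
    exact ⟨fun h a => by simpa [lam] using h (Fin.cast hq a), fun h a => h _⟩
  let M : X.Tup → Matrix (Fin (A - B)) ι K := fun Q => famMat lam fun i => u i Q
  have hk : ∀ J Q i a, lam a (comb lam (fun i => u i Q) J id i) = 0 := fun J Q i a => by
    have := rows_mulVec_kvec (M Q) J id i a
    rwa [famMat_mulVec] at this
  refine ⟨fun J Q => ((M Q).submatrix id J).det,
    fun J i Q => comb lam (fun i => u i Q) J id i,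
    fun J => Setup.minor_mem_PF (fun a i => Setup.apply_mem_PF (hu i) (lam a)) J id,
    fun J i => Setup.map_mem_PVec (Setup.comb_mem_PVec hu lam J id i) fun Q =>
      (hlam _ (sum_mem fun k _ => Submodule.smul_mem _ _ (Setup.PVec_apply (hu k) Q))).mp
        (hk J Q i),
    fun Q W hW => ?_⟩
  have hWA : W ≤ X.L A := by
    rw [← hW, Submodule.span_le]
    rintro _ ⟨i, rfl⟩
    exact Setup.PVec_apply (hu i) Q
  have : FiniteDimensional K W := Submodule.finiteDimensional_of_le hWA
  have hdim := finrank_map_add W (W ⊓ X.L B) (LinearMap.pi lam) inf_le_left fun x hx => by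
    rw [Submodule.mem_inf, ← hlam x (hWA hx)]
    simp [hx, funext_iff]
  rw [← hW, ← famMat_rank, hW] at hdim
  change (M Q).rank + _ = _ at hdim
  refine ⟨fun J hJ => ⟨?_, ?_⟩, fun h => ?_⟩
  · exact span_comb _ lam J id hJ W hW.symm (fun x hx => hlam x (hWA hx)) (hk J Q)
  · have h1 := le_rank_of_det_ne_zero hJ
    have h2 := (M Q).rank_le_card_height
    rw [Fintype.card_fin] at h2
    omega
  · obtain ⟨J, R, hJR⟩ := exists_minor (A := M Q) (ρ := A - B) (by omega)
    have hR : Function.Injective R := fun a b hab => by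
      by_contra hne
      exact hJR (Matrix.det_zero_of_row_eq hne (funext fun k => by simp [hab]))
    refine ⟨J, fun h0 => hJR ?_⟩
    simp only at h0
    have e : (M Q).submatrix R J = ((M Q).submatrix id J).submatrix
        (Equiv.ofBijective R ⟨hR, Finite.surjective_of_injective hR⟩) id := rfl
    rw [e, Matrix.det_permute, h0, mul_zero]

/-- Selecting a basis out of a family. -/
theorem Setup.exists_select {A δ : ℕ} (r : ℕ) (u : ι → X.Tup → F) (hu : ∀ i, u i ∈ X.PVec A δ) :
    ∃ (den : (Fin r → ι) × (Fin r → Fin (Module.finrank K (X.L A))) → X.Tup → K),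
      (∀ s, den s ∈ X.PF (r * δ)) ∧
      ∀ Q, Module.finrank K (Submodule.span K (Set.range fun i => u i Q)) = r →
        (∀ s, den s Q ≠ 0 → LinearIndependent K (fun b => u (s.1 b) Q) ∧
          Submodule.span K (Set.range fun b => u (s.1 b) Q) =
            Submodule.span K (Set.range fun i => u i Q)) ∧
        ∃ s, den s Q ≠ 0 := by
  obtain ⟨lam0, hlam0⟩ := exists_functionals (X.L A) ⊥ bot_le
  have hq : Module.finrank K (X.L A) - Module.finrank K (⊥ : Submodule K F) =
      Module.finrank K (X.L A) := by simp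
  let lam : Fin (Module.finrank K (X.L A)) → F →ₗ[K] K := fun a => lam0 (Fin.cast hq.symm a)
  have hlam : ∀ x ∈ X.L A, (∀ a, lam a x = 0) → x = 0 := fun x hx h =>
    (Submodule.mem_bot K).mp ((hlam0 x hx).mp fun a => by simpa [lam] using h (Fin.cast hq a))
  refine ⟨fun s Q => ((famMat lam fun i => u i Q).submatrix s.2 s.1).det,
    fun s => Setup.minor_mem_PF (M := fun Q => famMat lam fun i => u i Q)
      (fun a i => Setup.apply_mem_PF (hu i) (lam a)) _ _, fun Q hr => ⟨fun s hs => ?_, ?_⟩⟩
  · have hli : LinearIndependent K fun b => u (s.1 b) Q :=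
      LinearIndependent.of_comp (LinearMap.pi lam)
        (cols_linearIndependent (A := famMat lam fun i => u i Q) (J := s.1) (R := s.2) hs)
    have : FiniteDimensional K (Submodule.span K (Set.range fun i => u i Q)) :=
      FiniteDimensional.span_of_finite K (Set.finite_range _)
    refine ⟨hli, Submodule.eq_of_le_of_finrank_le (Submodule.span_mono ?_) ?_⟩
    · rintro _ ⟨b, rfl⟩; exact ⟨s.1 b, rfl⟩
    · rw [hr, finrank_span_eq_card hli, Fintype.card_fin]
  · have hrk : r = (famMat lam fun i => u i Q).rank := by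
      rw [famMat_rank]
      have : FiniteDimensional K (Submodule.span K (Set.range fun i => u i Q)) :=
        FiniteDimensional.span_of_finite K (Set.finite_range _)
      have := finrank_map_add (Submodule.span K (Set.range fun i => u i Q)) ⊥ (LinearMap.pi lam)
        bot_le fun x hx => by
          rw [Submodule.mem_bot]
          refine ⟨fun h => hlam x ?_ fun a => congrFun h a, fun h => by simp [h]⟩
          refine (Submodule.span_le.mpr ?_ : _ ≤ X.L A) hx
          rintro _ ⟨i, rfl⟩
          exact Setup.PVec_apply (hu i) Q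
      rw [finrank_bot, add_zero, hr] at this
      exact this.symm
    obtain ⟨J, R, hJR⟩ := exists_minor hrk
    exact ⟨(J, R), hJR⟩

/-- The colon of a family by a single vector. -/
theorem Setup.exists_colon {B δ : ℕ} (a e r₂ ρ : ℕ) (v : Fin r₂ → X.Tup → F) (s : X.Tup → F)
    (hv : ∀ k, v k ∈ X.PVec B δ) (hs : s ∈ X.PVec B δ) :
    ∃ (σ τ : Type) (_ : Fintype σ) (_ : Fintype τ) (den : σ → X.Tup → K)
      (u' : σ → τ → X.Tup → F), (∀ t, den t ∈ X.PF (ρ * δ)) ∧
      (∀ t i, u' t i ∈ X.PVec a (ρ * δ)) ∧
      ∀ (Q : X.Tup) (Z : Submodule K F), s Q ≠ 0 →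
        (∀ h, h ∈ Z ↔ h ∈ X.L a ∧ ∀ k, ∃ z ∈ X.L (a + e), h * v k Q = s Q * z) →
        Module.finrank K Z + ρ =
          Module.finrank K (X.L a) + r₂ * Module.finrank K (X.L (a + e)) →
        (∀ t, den t Q ≠ 0 → Submodule.span K (Set.range fun i => u' t i Q) = Z) ∧
          ∃ t, den t Q ≠ 0 := by
  obtain ⟨mu, hmu⟩ := exists_functionals (X.L (a + e + B)) ⊥ bot_le
  set τ := Fin (Module.finrank K (X.L a)) ⊕ Fin r₂ × Fin (Module.finrank K (X.L (a + e)))
  let bv : Fin (Module.finrank K (X.L a)) → F := fun i => (Module.finBasis K (X.L a) i : F)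
  let bw : Fin (Module.finrank K (X.L (a + e))) → F :=
    fun i => (Module.finBasis K (X.L (a + e)) i : F)
  let col : X.Tup → τ → Fin r₂ → F := fun Q =>
    Sum.elim (fun i k => bv i * v k Q) fun kj => Pi.single kj.1 (-(s Q * bw kj.2))
  let lam : Fin r₂ × Fin (Module.finrank K (X.L (a + e + B)) -
      Module.finrank K (⊥ : Submodule K F)) → (Fin r₂ → F) →ₗ[K] K :=
    fun kj => (mu kj.2).comp (LinearMap.proj kj.1)
  let M := fun Q => famMat lam (col Q)
  have hM : ∀ r i, (fun Q => M Q r i) ∈ X.PF δ := fun r i => by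
    have key : (fun Q => col Q i r.1) ∈ X.PVec (a + e + B) δ := by
      rcases i with i | ⟨k, j⟩
      · have := Setup.mul_mem_PVec (Setup.const_mem_PVec (Module.finBasis K (X.L a) i).2 0) (hv r.1)
        rw [Nat.zero_add] at this
        exact Setup.PVec_mono (by omega) le_rfl this
      · rcases eq_or_ne k r.1 with rfl | hne
        · have := Setup.mul_mem_PVec
            (Setup.const_mem_PVec (Module.finBasis K (X.L (a + e)) j).2 0) hs
          rw [Nat.zero_add] at this
          convert neg_mem this using 1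
          funext Q
          simp [col, bw, mul_comm]
        · convert zero_mem (X.PVec (a + e + B) δ) using 1
          funext Q
          simp [col, hne.symm]
    exact Setup.apply_mem_PF key (mu r.2)
  refine ⟨(Fin ρ → τ) × (Fin ρ → Fin r₂ × Fin (Module.finrank K (X.L (a + e + B)) -
      Module.finrank K (⊥ : Submodule K F))), τ, inferInstance, inferInstance,
    fun t Q => ((M Q).submatrix t.2 t.1).det,
    fun t i => ∑ l, fun Q => kvec (M Q) t.1 t.2 i (Sum.inl l) • bv l,
    fun t => Setup.minor_mem_PF hM _ _, fun t i => sum_mem fun l _ => ?_, fun Q Z hs0 hZ hρ => ?_⟩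
  · simpa using Setup.smul_mem_PVec (Setup.kvec_mem_PF hM t.1 t.2 i (Sum.inl l))
      (Setup.const_mem_PVec (X := X) (A := a) (Module.finBasis K (X.L a) l).2 0)
  let P : (τ → K) →ₗ[K] F := Fintype.linearCombination K bv ∘ₗ LinearMap.funLeft K K Sum.inl
  let zf : (τ → K) → Fin r₂ → F := fun x k => ∑ j, x (Sum.inr (k, j)) • bw j
  have hcol : ∀ x k, (∑ i, x i • col Q i) k = P x * v k Q - s Q * zf x k := by
    intro x k
    simp only [Finset.sum_apply, Pi.smul_apply, Fintype.sum_sum_type, τ]
    simp only [col, Sum.elim_inl, Sum.elim_inr, P, zf, LinearMap.coe_comp, Function.comp_apply,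
      Fintype.linearCombination_apply, LinearMap.funLeft_apply, Finset.sum_mul, Finset.mul_sum,
      smul_mul_assoc, mul_smul_comm, sub_eq_add_neg, ← Finset.sum_neg_distrib]
    congr 1
    rw [Fintype.sum_prod_type, Finset.sum_eq_single k]
    · simp
    · intro k' _ hk'; simp [hk'.symm]
    · simp
  have hPm : ∀ x, P x ∈ X.L a := fun x => by
    simp only [P, LinearMap.coe_comp, Function.comp_apply, Fintype.linearCombination_apply, bv]
    exact sum_mem fun i _ => Submodule.smul_mem _ _ (Module.finBasis K (X.L a) i).2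
  have hzm : ∀ x k, zf x k ∈ X.L (a + e) := fun x k =>
    sum_mem fun i _ => Submodule.smul_mem _ _ (Module.finBasis K (X.L (a + e)) i).2
  have hker : ∀ x, M Q *ᵥ x = 0 ↔ ∀ k, P x * v k Q = s Q * zf x k := by
    intro x
    rw [famMat_mulVec, funext_iff]
    constructor
    · intro h k
      have hmem : P x * v k Q - s Q * zf x k ∈ X.L (a + e + B) := by
        refine sub_mem (Setup.L_mono (by omega) (Setup.mul_mem_L (hPm x) (Setup.PVec_apply (hv k) Q))) ?_
        rw [mul_comm]
        exact Setup.mul_mem_L (hzm x k) (Setup.PVec_apply hs Q)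
      have h0 := (hmu _ hmem).mp fun b => by
        have h1 := h (k, b)
        change mu b ((∑ i, x i • col Q i) k) = 0 at h1
        rwa [hcol] at h1
      exact sub_eq_zero.mp ((Submodule.mem_bot K).mp h0)
    · intro h r
      show mu r.2 ((∑ i, x i • col Q i) r.1) = 0
      rw [hcol, h, sub_self, map_zero]
  have hPZ : ∀ x, M Q *ᵥ x = 0 → P x ∈ Z := fun x hx =>
    (hZ _).mpr ⟨hPm x, fun k => ⟨zf x k, hzm x k, (hker x).mp hx k⟩⟩
  have hsurj : ∀ h ∈ Z, ∃ x, M Q *ᵥ x = 0 ∧ P x = h := fun h hh => by
    obtain ⟨ha, hz⟩ := (hZ h).mp hh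
    choose z hz1 hz2 using hz
    let x : τ → K := Sum.elim (fun i => (Module.finBasis K (X.L a)).repr ⟨h, ha⟩ i)
      fun kj => (Module.finBasis K (X.L (a + e))).repr ⟨z kj.1, hz1 kj.1⟩ kj.2
    have e1 : P x = h := by
      have := congrArg Subtype.val ((Module.finBasis K (X.L a)).sum_repr ⟨h, ha⟩)
      simp only [Submodule.coe_sum, Submodule.coe_smul] at this
      simp only [P, LinearMap.coe_comp, Function.comp_apply, Fintype.linearCombination_apply,
        LinearMap.funLeft_apply, bv, x, Sum.elim_inl]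
      exact this
    have e2 : ∀ k, zf x k = z k := fun k => by
      have := congrArg Subtype.val ((Module.finBasis K (X.L (a + e))).sum_repr ⟨z k, hz1 k⟩)
      simp only [Submodule.coe_sum, Submodule.coe_smul] at this
      simp only [zf, bw, x, Sum.elim_inr]
      exact this
    exact ⟨x, (hker x).mpr fun k => by rw [e1, e2]; exact hz2 k, e1⟩
  have hinj : ∀ x, M Q *ᵥ x = 0 → P x = 0 → x = 0 := by
    intro x hx hP
    have hbv : LinearIndependent K bv := (Module.finBasis K (X.L a)).linearIndependent.map'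
      (X.L a).subtype (Submodule.ker_subtype _)
    have hbw : LinearIndependent K bw := (Module.finBasis K (X.L (a + e))).linearIndependent.map'
      (X.L (a + e)).subtype (Submodule.ker_subtype _)
    funext i
    rcases i with i | ⟨k, j⟩
    · exact Fintype.linearIndependent_iff.mp hbv (fun i => x (Sum.inl i))
        (by simpa [P, Fintype.linearCombination_apply] using hP) i
    · refine Fintype.linearIndependent_iff.mp hbw (fun j => x (Sum.inr (k, j))) ?_ j
      have := (hker x).mp hx k
      rw [hP, zero_mul, eq_comm, mul_eq_zero] at this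
      exact this.resolve_left hs0
  have hrank : (M Q).rank = ρ := by
    have h1 := (M Q).mulVecLin.finrank_range_add_finrank_ker
    let Pk : LinearMap.ker (M Q).mulVecLin →ₗ[K] Z :=
      (P.domRestrict _).codRestrict Z fun x => hPZ x.1 (LinearMap.mem_ker.mp x.2)
    have h2 : Module.finrank K (LinearMap.ker (M Q).mulVecLin) = Module.finrank K Z :=
      (LinearEquiv.ofBijective Pk ⟨fun x y hxy => by
          have h0 : P (x.1 - y.1) = 0 := by
            rw [map_sub, sub_eq_zero]; exact congrArg Subtype.val hxy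
          exact Subtype.ext (sub_eq_zero.mp (hinj _ (by
            rw [Matrix.mulVec_sub, show M Q *ᵥ x.1 = 0 from LinearMap.mem_ker.mp x.2,
              show M Q *ᵥ y.1 = 0 from LinearMap.mem_ker.mp y.2, sub_zero]) h0)),
        fun h => by
          obtain ⟨x, hx, hxh⟩ := hsurj h h.2
          exact ⟨⟨x, by simpa using hx⟩, Subtype.ext hxh⟩⟩).finrank_eq
    have h3 : (M Q).rank + Module.finrank K (LinearMap.ker (M Q).mulVecLin) =
        Fintype.card τ := by
      rw [Matrix.rank, h1, Module.finrank_fintype_fun_eq_card]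
    rw [h2] at h3
    simp only [τ, Fintype.card_sum, Fintype.card_prod, Fintype.card_fin] at h3
    omega
  refine ⟨fun t ht => ?_, ?_⟩
  · have hP : ∀ i, (∑ l, fun Q => kvec (M Q) t.1 t.2 i (Sum.inl l) • bv l) Q =
        P (kvec (M Q) t.1 t.2 i) := fun i => by
      simp [P, Fintype.linearCombination_apply, Finset.sum_apply]
    simp only [hP]
    refine le_antisymm (Submodule.span_le.mpr ?_) fun h hh => ?_
    · rintro _ ⟨i, rfl⟩
      exact hPZ _ (mulVec_kvec_eq_zero ht hrank.le i)
    · obtain ⟨x, hx, rfl⟩ := hsurj h hh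
      have := congrArg P (sum_smul_kvec_of_ker (M Q) t.1 t.2 hx)
      rw [map_sum, map_smul] at this
      rw [← inv_smul_smul₀ ht (P x), ← this]
      exact Submodule.smul_mem _ _ (sum_mem fun i _ => by
        rw [map_smul]
        exact Submodule.smul_mem _ _ (Submodule.subset_span ⟨i, rfl⟩))
  · obtain ⟨J, R, hJR⟩ := exists_minor (A := M Q) hrank.symm
    exact ⟨(J, R), hJR⟩

end Fermat.Agent.MCurve.MW
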