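/-
Unit X, the end: the coordinates of the tuple underlying a regular effective divisor, read off from a
spanning family of the functions with bounded pole vanishing on it.
-/
import Fermat.Agent.MCurve.MW.Chart
import Mathlib.RingTheory.Polynomial.Resultant.Basic
import Mathlib.FieldTheory.Separable
import Mathlib.Algebra.BigOperators.Field

set_option autoImplicit false
set_option linter.unusedSectionVars false

noncomputable section

namespace Fermat.Agent.MCurve.MW

open AlgebraicCurve RR
open scoped Classical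
open Polynomial
open Matrix

/-- The monic polynomial of degree `g` with given lower coefficients. -/
def monicOf {R : Type*} [CommRing R] {g : ℕ} (b : Fin g → R) : R[X] :=
  X ^ g + ∑ j : Fin g, C (b j) * X ^ (j : ℕ)

theorem monicOf_coeff {R : Type*} [CommRing R] {g : ℕ} (b : Fin g → R) (j : Fin g) :
    (monicOf b).coeff j = b j := by
  simp [monicOf, coeff_X_pow, Fin.val_inj, (Fin.isLt j).ne]

theorem degree_sum_lt {R : Type*} [CommRing R] {g : ℕ} (b : Fin g → R) :
    (∑ j : Fin g, C (b j) * X ^ (j : ℕ)).degree < (g : WithBot ℕ) :=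
  Polynomial.degree_sum_fin_lt b

theorem monicOf_monic {R : Type*} [CommRing R] {g : ℕ} (b : Fin g → R) : (monicOf b).Monic :=
  monic_X_pow_add (degree_sum_lt b)

theorem natDegree_monicOf {R : Type*} [CommRing R] [Nontrivial R] {g : ℕ} (b : Fin g → R) :
    (monicOf b).natDegree = g :=
  natDegree_eq_of_degree_eq_some (by
    rw [monicOf, degree_add_eq_left_of_degree_lt (by simpa using degree_sum_lt b), degree_X_pow])

theorem map_monicOf {R S : Type*} [CommRing R] [CommRing S] {g : ℕ} (φ : R →+* S) (b : Fin g → R) :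
    (monicOf b).map φ = monicOf fun j => φ (b j) := by
  simp [monicOf, Polynomial.map_sum]

theorem exists_separable_poly (K : Type*) [Field K] (g : ℕ) :
    ∃ P : MvPolynomial (Fin g) K, ∀ b : Fin g → K, P.eval b ≠ 0 ↔ (monicOf b).Separable := by
  set F₀ : (MvPolynomial (Fin g) K)[X] := monicOf fun j => MvPolynomial.X j
  refine ⟨resultant F₀ (derivative F₀) g (g - 1), fun b => ?_⟩
  rw [← resultant_map_map, ← derivative_map, map_monicOf]
  rw [show (fun j => (MvPolynomial.eval b) (MvPolynomial.X j)) = b from funext fun j => MvPolynomial.eval_X j]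
  set χ := monicOf b
  obtain ⟨k, hk⟩ : ∃ k, g - 1 = (derivative χ).natDegree + k :=
    Nat.exists_eq_add_of_le ((natDegree_derivative_le χ).trans (by rw [natDegree_monicOf]))
  rw [hk, resultant_add_right_deg _ _ _ _ k le_rfl, separable_def]
  have hg : χ.coeff g = 1 := by
    have := (monicOf_monic b).coeff_natDegree
    rwa [natDegree_monicOf] at this
  rw [hg, one_pow, one_mul, ← isUnit_resultant_iff_isCoprime (monicOf_monic b),
    natDegree_monicOf, isUnit_iff_ne_zero]

variable {K F : Type*} [Field K] [Field F] [Algebra K F] [IsAlgClosed K]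
  [∀ v : Place K F, v.FiniteResidue] [HasPrincipalDivisors K F] [Nonempty (Place K F)]
  {X : Setup K F}

theorem valAt_aeval_poly {v : Place K F} {a : F} (ha : a ∈ v.toValuationSubring) (p : K[X]) :
    valAt v (aeval a p) = p.eval (valAt v a) ∧ aeval a p ∈ v.toValuationSubring := by
  induction p using Polynomial.induction_on with
  | C k => exact ⟨by rw [aeval_C, eval_C, valAt_algebraMap], by rw [aeval_C]; exact v.algebraMap_mem' k⟩
  | add p q hp hq =>
    exact ⟨by rw [map_add, eval_add, valAt_add hp.2 hq.2, hp.1, hq.1],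
      by rw [map_add]; exact add_mem hp.2 hq.2⟩
  | monomial n k h =>
    exact ⟨by rw [pow_succ, ← mul_assoc, map_mul, eval_mul, aeval_X, eval_X,
        valAt_mul h.2 ha, h.1],
      by rw [pow_succ, ← mul_assoc, map_mul, aeval_X]; exact mul_mem h.2 ha⟩

theorem Setup.f_mem_L (X : Setup K F) : X.f ∈ X.L (X.c + 1) := by
  simpa using X.f_pow_mem 1 (n := X.c + 1) (by omega)

theorem Setup.aeval_f_mem {n : ℕ} {p : K[X]} (hp : p.natDegree * (X.c + 1) ≤ n) :
    aeval X.f p ∈ X.L n := by
  rw [aeval_eq_sum_range]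
  refine sum_mem fun i hi => Submodule.smul_mem _ _ (X.f_pow_mem i ?_)
  exact (Nat.mul_le_mul_right _ (Nat.lt_succ_iff.mp (Finset.mem_range.mp hi))).trans hp

/-- A tuple with distinct values of the coordinate is a sum of single points. -/
theorem Setup.mem_space_sub_divT {Q : X.Tup} (hV : X.V Q ≠ 0) {n : ℕ} {h : F} :
    h ∈ riemannRochSpace (Finsupp.single X.inf (n : ℤ) - X.divT Q) ↔
      h ∈ X.L n ∧ ∀ i, valAt (Q i).1 h = 0 := by
  have hinj := Setup.fv_injective hV
  have hone : ∀ i, X.divT Q (Q i).1 = 1 := fun i => by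
    rw [X.divT_apply, show (Finset.univ.filter fun j => (Q j).1 = (Q i).1) = {i} by
      ext j; simp [← Subtype.ext_iff, hinj.eq_iff]]
    simp
  constructor
  · intro hh
    have hL : h ∈ X.L n := X.space_le_L (X.divT_nonneg Q) n hh
    refine ⟨hL, fun i => (valAt_eq_zero_iff (Setup.mem_ring hL (Q i).2)).mpr ?_⟩
    rcases eq_or_ne h 0 with h0 | h0
    · exact Or.inl h0
    have := ((mem_space_iff.mp hh).resolve_left h0) (Q i).1
    rw [Finsupp.sub_apply, Finsupp.single_eq_of_ne (Q i).2, hone i] at this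
    exact Or.inr (by omega)
  · rintro ⟨hL, hz⟩
    rcases eq_or_ne h 0 with h0 | h0
    · rw [h0]; exact zero_mem _
    have hh := (mem_space_iff.mp hL).resolve_left h0
    refine mem_space_iff.mpr (Or.inr fun v => ?_)
    have := hh v
    by_cases hv : ∃ i, (Q i).1 = v
    · obtain ⟨i, rfl⟩ := hv
      have := ((valAt_eq_zero_iff (Setup.mem_ring hL (Q i).2)).mp (hz i)).resolve_left h0
      rw [Finsupp.sub_apply, Finsupp.single_eq_of_ne (Q i).2, hone i]
      omega
    · have h1 : X.divT Q v = 0 := by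
        rw [X.divT_apply, Finset.filter_false_of_mem fun i _ h => hv ⟨i, h⟩]
        rfl
      rw [Finsupp.sub_apply, h1, sub_zero]
      exact this

/-- An effective divisor of degree `g` away from infinity, such that a monic polynomial of degree
`g` with distinct roots, applied to the coordinate, vanishes on it and no smaller one does, is a
tuple with those values of the coordinate. -/
theorem Setup.exists_tuple {a : ℕ} (ha : X.g * (X.c + 1) ≤ a) {R : Divisor K F} (hR : 0 ≤ R)
    (hR0 : R X.inf = 0) (hd : Divisor.degree R = X.g)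
    {χ : K[X]} (hχ : χ.Monic) (hdeg : χ.natDegree = X.g) (hsep : χ.Separable)
    (hmem : aeval X.f χ ∈ riemannRochSpace (Finsupp.single X.inf (a : ℤ) - R))
    (hmin : ∀ p : K[X], p.degree < X.g →
      aeval X.f p ∈ riemannRochSpace (Finsupp.single X.inf (a : ℤ) - R) → p = 0) :
    ∃ Q : X.Tup, X.divT Q = R ∧ X.V Q ≠ 0 ∧
      χ = ∏ i, (Polynomial.X - C (X.fv Q i)) := by
  have hroots : χ.roots.toFinset.card = X.g := by
    rw [Multiset.toFinset_card_of_nodup (nodup_roots hsep),
      ← (IsAlgClosed.splits χ).natDegree_eq_card_roots, hdeg]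
  have hvinf : ∀ v : Place K F, R v ≠ 0 → v ≠ X.inf := fun v hv e => hv (e ▸ hR0)
  have hfr : ∀ v : Place K F, v ≠ X.inf → X.f ∈ v.toValuationSubring := fun v hv =>
    Setup.mem_ring (Setup.f_mem_L X) hv
  set T := R.support.image fun v => valAt v X.f with hT
  have hTroot : T ⊆ χ.roots.toFinset := by
    intro t ht
    obtain ⟨v, hv, rfl⟩ := Finset.mem_image.mp ht
    rw [Multiset.mem_toFinset, mem_roots hχ.ne_zero, IsRoot, ← (valAt_aeval_poly (hfr v (hvinf v (Finsupp.mem_support_iff.mp hv))) χ).1]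
    refine (valAt_eq_zero_iff (valAt_aeval_poly (hfr v (hvinf v (Finsupp.mem_support_iff.mp hv))) χ).2).mpr ?_
    rcases eq_or_ne (aeval X.f χ) 0 with h0 | h0
    · exact Or.inl h0
    have := ((mem_space_iff.mp hmem).resolve_left h0) v
    rw [Finsupp.sub_apply, Finsupp.single_eq_of_ne (hvinf v (Finsupp.mem_support_iff.mp hv))] at this
    have h1 := Finsupp.le_def.mp hR v
    have h2 := Finsupp.mem_support_iff.mp hv
    simp only [Finsupp.coe_zero, Pi.zero_apply] at h1
    exact Or.inr (by omega)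
  have hTg : T.card = X.g := by
    refine le_antisymm ((Finset.card_le_card hTroot).trans hroots.le) (not_lt.mp fun hlt => ?_)
    set p : K[X] := ∏ t ∈ T, (Polynomial.X - C t) with hp
    have hpm : p.Monic := monic_prod_of_monic _ _ fun t _ => monic_X_sub_C t
    have hpd : p.natDegree = T.card := by
      rw [hp, natDegree_prod_of_monic _ _ fun t _ => monic_X_sub_C t]
      simp
    refine hpm.ne_zero (hmin p ?_ ?_)
    · rw [degree_eq_natDegree hpm.ne_zero, hpd]
      exact_mod_cast hlt
    · have hpL : aeval X.f p ∈ X.L a := X.aeval_f_mem (by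
        rw [hpd]; exact (Nat.mul_le_mul_right _ hlt.le).trans ha)
      rcases eq_or_ne (aeval X.f p) 0 with h0 | h0
      · rw [h0]; exact zero_mem _
      refine mem_space_iff.mpr (Or.inr fun v => ?_)
      have hh := ((mem_space_iff.mp hpL).resolve_left h0) v
      rcases eq_or_ne (R v) 0 with hv | hv
      · rw [Finsupp.sub_apply, hv, sub_zero]; exact hh
      have hv' := hvinf v hv
      set t := valAt v X.f
      have htT : t ∈ T := Finset.mem_image.mpr ⟨v, Finsupp.mem_support_iff.mpr hv, rfl⟩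
      have hp' : p = (Polynomial.X - C t) * ∏ s ∈ T.erase t, (Polynomial.X - C s) :=
        (Finset.mul_prod_erase T _ htT).symm
      obtain ⟨q, hq⟩ : Polynomial.X - C t ∣ χ := dvd_iff_isRoot.mpr
        ((mem_roots hχ.ne_zero).mp (Multiset.mem_toFinset.mp (hTroot htT)))
      have hqt : q.eval t ≠ 0 := by
        intro h0
        obtain ⟨r, hr⟩ := dvd_iff_isRoot.mpr h0
        exact not_isUnit_X_sub_C t (hsep.squarefree _ ⟨r, by rw [hq, hr, mul_assoc]⟩)
      have hchi0 : aeval X.f χ ≠ 0 := fun h =>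
        hχ.ne_zero (transcendental_iff.mp X.f_fin.transcendental χ h)
      rw [hq, map_mul] at hchi0
      have hqv : v.ord (aeval X.f q) = 0 := by
        have hm := valAt_aeval_poly (hfr v hv') q
        have := mt (valAt_eq_zero_iff hm.2).mpr (by rw [hm.1]; exact hqt)
        have := (MCurve.ord_nonneg_of_mem' v hm.2)
        push Not at *
        omega
      have hchi := ((mem_space_iff.mp hmem).resolve_left (by rw [hq, map_mul]; exact hchi0)) v
      rw [hq, map_mul, v.ord_mul (left_ne_zero_of_mul hchi0) (right_ne_zero_of_mul hchi0),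
        hqv, add_zero] at hchi
      rw [hp', map_mul] at h0 ⊢
      rw [v.ord_mul (left_ne_zero_of_mul h0) (right_ne_zero_of_mul h0)]
      have := MCurve.ord_nonneg_of_mem' v
        (valAt_aeval_poly (hfr v hv') (∏ s ∈ T.erase t, (Polynomial.X - C s))).2
      omega
  have hTeq : T = χ.roots.toFinset := Finset.eq_of_subset_of_card_le hTroot (by rw [hroots, hTg])
  have hcard : R.support.card = X.g ∧ ∀ v ∈ R.support, R v = 1 := by
    have h1 : T.card ≤ R.support.card := Finset.card_image_le
    have hge : ∀ v ∈ R.support, (1 : ℤ) ≤ R v := fun v hv => by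
      have := Finsupp.mem_support_iff.mp hv
      have := Finsupp.le_def.mp hR v
      simp only [Finsupp.coe_zero, Pi.zero_apply] at this
      omega
    have h2 : ∑ v ∈ R.support, R v = X.g := by
      rw [← hd, degree_eq_sum]; rfl
    have h3 : ∑ v ∈ R.support, (1 : ℤ) ≤ ∑ v ∈ R.support, R v := Finset.sum_le_sum hge
    simp only [Finset.sum_const, nsmul_eq_mul, mul_one] at h3
    refine ⟨by omega, fun v hv => le_antisymm ?_ (hge v hv)⟩
    have h4 := Finset.single_le_sum (f := fun w => R w - 1) (fun w hw => by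
      have := hge w hw; omega) hv
    simp only [Finset.sum_sub_distrib, Finset.sum_const, nsmul_eq_mul, mul_one, h2] at h4
    omega
  let e := (Finset.equivFinOfCardEq hcard.1).symm
  let Q : X.Tup := fun i => ⟨(e i).1, hvinf _ (Finsupp.mem_support_iff.mp (e i).2)⟩
  have himg : Finset.univ.image (X.fv Q) = T := by
    ext t
    constructor
    · intro ht
      obtain ⟨i, -, rfl⟩ := Finset.mem_image.mp ht
      exact Finset.mem_image.mpr ⟨_, (e i).2, rfl⟩
    · intro ht
      obtain ⟨v, hv, rfl⟩ := Finset.mem_image.mp ht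
      exact Finset.mem_image.mpr ⟨e.symm ⟨v, hv⟩, Finset.mem_univ _, by simp [Setup.fv, Q]⟩
  have hinj : Function.Injective (X.fv Q) := by
    rw [← Set.injOn_univ, ← Finset.coe_univ, ← Finset.card_image_iff, himg, hTg]
    simp
  refine ⟨Q, ?_, Setup.V_ne_zero_iff.mpr hinj, ?_⟩
  · ext v
    rw [X.divT_apply]
    by_cases hv : v ∈ R.support
    · rw [hcard.2 v hv, show (Finset.univ.filter fun i => (Q i).1 = v) = {e.symm ⟨v, hv⟩} from ?_]
      · simp
      · ext i
        simp [Q, Equiv.eq_symm_apply, Subtype.ext_iff]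
    · rw [Finsupp.notMem_support_iff.mp hv, Finset.filter_false_of_mem fun i _ (h : (Q i).1 = v) =>
        hv (h ▸ (e i).2)]
      rfl
  · rw [(IsAlgClosed.splits χ).eq_prod_roots_of_monic hχ,
      show χ.roots = T.val by rw [hTeq, Multiset.toFinset_val, (nodup_roots hsep).dedup],
      ← himg, ← Finset.prod_eq_multiset_prod, Finset.prod_image hinj.injOn]

set_option maxHeartbeats 1000000 in
/-- The coordinates from a spanning family. -/
theorem Setup.exists_finish {a : ℕ} (ha : X.g * (X.c + 1) ≤ a) (ha' : X.g + X.c ≤ a)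
    (ha₁ : X.n₁ ≤ a) :
    ∃ κ : ℕ, ∀ (δ : ℕ) (τ : Type) [Fintype τ] (u : τ → X.Tup → F),
      (∀ i, u i ∈ X.PVec a δ) →
      ∃ (σ : Type) (_ : Fintype σ) (den : σ → X.Tup → K) (num : σ → X.Coord → X.Tup → K),
        (∀ t, den t ∈ X.PF (κ * δ)) ∧ (∀ t i, num t i ∈ X.PF (κ * δ)) ∧
        ∀ (Q : X.Tup) (R : Divisor K F), 0 ≤ R → R X.inf = 0 → Divisor.degree R = X.g →
          ell R = 1 → Submodule.span K (Set.range fun i => u i Q) =
            riemannRochSpace (Finsupp.single X.inf (a : ℤ) - R) →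
          (∀ t, den t Q ≠ 0 → ∃ Q' : X.Tup, X.divT Q' = R ∧ X.IsRegT Q' ∧
            ∀ i, X.xT Q' i = num t i Q / den t Q) ∧
          ((∃ Q' : X.Tup, X.V Q' ≠ 0 ∧ X.divT Q' = R) → ∃ t, den t Q ≠ 0) := by
  set r := a + 1 - 2 * X.g with hr
  have hLa := X.ell_L (n := a) (by omega)
  have hgc := X.hgc
  obtain ⟨mu, hmu⟩ := exists_functionals (X.L a) ⊥ bot_le
  have hdim : Module.finrank K (X.L a) - Module.finrank K (⊥ : Submodule K F) = r + X.g := by
    rw [finrank_bot]; omega
  let lam : Fin r ⊕ Fin X.g → F →ₗ[K] K := fun i => mu (Fin.cast hdim.symm (finSumFinEquiv i))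
  have hlam : ∀ x ∈ X.L a, (∀ i, lam i x = 0) → x = 0 := fun x hx h =>
    (Submodule.mem_bot K).mp ((hmu x hx).mp fun b => by
      simpa [lam] using h (finSumFinEquiv.symm (Fin.cast hdim b)))
  obtain ⟨P, hP⟩ := exists_separable_poly K X.g
  set M' := r + X.g
  refine ⟨M' + P.totalDegree * M', fun δ τ _ u hu => ?_⟩
  let pw : Fin X.g → F := fun j => X.f ^ (j : ℕ)
  have hpw : ∀ j, pw j ∈ X.L a := fun j =>
    X.f_pow_mem _ ((Nat.mul_le_mul_right _ j.2.le).trans ha)
  let col : (Fin r → τ) → X.Tup → Fin r ⊕ Fin X.g → F := fun J Q =>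
    Sum.elim (fun b => u (J b) Q) pw
  let M : (Fin r → τ) → X.Tup → Matrix (Fin r ⊕ Fin X.g) (Fin r ⊕ Fin X.g) K := fun J Q =>
    famMat lam (col J Q)
  have hM : ∀ J i k, (fun Q => M J Q i k) ∈ X.PF δ := fun J i k => by
    rcases k with b | j
    · exact Setup.apply_mem_PF (hu (J b)) (lam i)
    · exact X.const_mem_PF δ (lam i (pw j))
  have hcard : Fintype.card (Fin r ⊕ Fin X.g) * δ = M' * δ := by simp [M']
  let Δ : (Fin r → τ) → X.Tup → K := fun J Q => (M J Q).det
  have hΔ : ∀ J, Δ J ∈ X.PF (M' * δ) := fun J => hcard ▸ X.det_mem_PF _ (hM J)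
  let β : (Fin r → τ) → F → X.Tup → Fin r ⊕ Fin X.g → K := fun J h Q =>
    cramer (M J Q) fun i => lam i h
  have hβ : ∀ J h k, (fun Q => β J h Q k) ∈ X.PF (M' * δ) := fun J h k =>
    hcard ▸ X.cramer_mem_PF (M J) (fun _ i => lam i h) (hM J) (fun i => X.const_mem_PF δ (lam i h)) k
  have hsum : ∀ J Q {h : F}, h ∈ X.L a →
      Δ J Q • h = ∑ b, β J h Q (.inl b) • u (J b) Q + ∑ j, β J h Q (.inr j) • pw j := by
    intro J Q h hh
    refine sub_eq_zero.mp (hlam _ (sub_mem (Submodule.smul_mem _ _ hh) (add_mem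
      (sum_mem fun b _ => Submodule.smul_mem _ _ (Setup.PVec_apply (hu _) Q))
      (sum_mem fun j _ => Submodule.smul_mem _ _ (hpw j)))) fun i => ?_)
    have h1 := congrFun (mulVec_cramer (M J Q) fun i => lam i h) i
    simp only [Matrix.mulVec, dotProduct, Fintype.sum_sum_type, Pi.smul_apply, smul_eq_mul] at h1
    simp only [map_sub, map_add, map_sum, map_smul, smul_eq_mul, Δ, β]
    rw [← h1]
    simp only [M, col, famMat, Matrix.of_apply, Sum.elim_inl, Sum.elim_inr]
    rw [sub_eq_zero]
    exact congrArg₂ (· + ·) (Finset.sum_congr rfl fun _ _ => mul_comm _ _)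
      (Finset.sum_congr rfl fun _ _ => mul_comm _ _)
  choose Ψ hΨ hΨe using fun J => X.exists_cleared P (N := P.totalDegree) (n := M' * δ) le_rfl
    (fun j Q => -β J (X.f ^ X.g) Q (.inr j)) (Δ J)
    (fun j => neg_mem (hβ J (X.f ^ X.g) (.inr j))) (hΔ J)
  let cnum : X.Coord → (Fin r → τ) → X.Tup → K := fun i J Q => match i with
    | .inl j => -β J (X.f ^ X.g) Q (.inr j)
    | .inr kj => β J (X.gen kj.1) Q (.inr kj.2)
  have hdeg : M' * δ + P.totalDegree * (M' * δ) = (M' + P.totalDegree * M') * δ := by ring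
  refine ⟨Fin r → τ, inferInstance, fun J => Δ J * Ψ J, fun J i => cnum i J * Ψ J,
    fun J => hdeg ▸ Setup.mul_mem_PF (hΔ J) (hΨ J), fun J i => hdeg ▸ Setup.mul_mem_PF ?_ (hΨ J),
    fun Q R hR hR0 hdR hell hspan => ?_⟩
  · rcases i with j | ⟨k, j⟩
    · exact neg_mem (hβ J (X.f ^ X.g) (.inr j))
    · exact hβ J (X.gen k) (.inr j)
  set W := riemannRochSpace (Finsupp.single X.inf (a : ℤ) - R) with hW
  have hWdim : Module.finrank K W = r := by
    have : Module.finrank K W + X.g + X.g = a + 1 := X.ell_inf_sub (n := a) hdR (by omega)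
    omega
  have huW : ∀ i, u i Q ∈ W := fun i => by rw [← hspan]; exact Submodule.subset_span ⟨i, rfl⟩
  have hli : ∀ J, Δ J Q ≠ 0 → LinearIndependent K (col J Q) := fun J hJ =>
    LinearIndependent.of_comp (LinearMap.pi lam)
      (Matrix.linearIndependent_cols_iff_isUnit.mpr
        ((Matrix.isUnit_iff_isUnit_det _).mpr (Ne.isUnit hJ)))
  have hpoly : ∀ p : K[X], p.degree < X.g → aeval X.f p = ∑ j : Fin X.g, p.coeff j • pw j := by
    intro p hp
    rcases eq_or_ne p 0 with rfl | hp0
    · simp
    rw [aeval_eq_sum_range' ((natDegree_lt_iff_degree_lt hp0).mpr hp),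
      ← Fin.sum_univ_eq_sum_range (fun j => p.coeff j • X.f ^ j) X.g]
  have hind : ∀ J, Δ J Q ≠ 0 → ∀ p : K[X], p.degree < X.g → aeval X.f p ∈ W → p = 0 := by
    intro J hJ p hpd hpW
    have hs : Submodule.span K (Set.range fun b => u (J b) Q) = W := by
      refine Submodule.eq_of_le_of_finrank_le (Submodule.span_le.mpr ?_) ?_
      · rintro _ ⟨b, rfl⟩; exact huW (J b)
      · rw [hWdim, finrank_span_eq_card (b := fun b => u (J b) Q)
          ((hli J hJ).comp Sum.inl Sum.inl_injective), Fintype.card_fin]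
    rw [← hs, Submodule.mem_span_range_iff_exists_fun, hpoly p hpd] at hpW
    obtain ⟨μ, hμ⟩ := hpW
    have h0 := Fintype.linearIndependent_iff.mp (hli J hJ)
      (Sum.elim μ fun j => -p.coeff j) (by
        rw [Fintype.sum_sum_type]
        simp only [col, Sum.elim_inl, Sum.elim_inr, neg_smul, Finset.sum_neg_distrib, hμ,
          add_neg_cancel])
    ext n
    rcases lt_or_ge n X.g with hn | hn
    · simpa using h0 (Sum.inr ⟨n, hn⟩)
    · rw [coeff_zero]
      exact coeff_eq_zero_of_degree_lt (hpd.trans_le (by exact_mod_cast hn))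
  have hdec : ∀ J {h : F}, h ∈ X.L a →
      Δ J Q • h - ∑ j, β J h Q (.inr j) • pw j ∈ W := fun J h hh => by
    rw [hsum J Q hh, add_sub_cancel_right]
    exact sum_mem fun b _ => Submodule.smul_mem _ _ (huW _)
  have hchi : ∀ J, Δ J Q ≠ 0 → aeval X.f (monicOf fun j => cnum (.inl j) J Q / Δ J Q) ∈ W := by
    intro J hJ
    have e : aeval X.f (monicOf fun j => cnum (.inl j) J Q / Δ J Q) =
        (Δ J Q)⁻¹ • (Δ J Q • X.f ^ X.g - ∑ j, β J (X.f ^ X.g) Q (.inr j) • pw j) := by
      rw [smul_sub, inv_smul_smul₀ hJ, Finset.smul_sum, sub_eq_add_neg, ← Finset.sum_neg_distrib,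
        monicOf, map_add, map_pow, aeval_X, map_sum]
      refine congrArg₂ (· + ·) rfl (Finset.sum_congr rfl fun j _ => ?_)
      simp [cnum, pw, Algebra.smul_def, div_eq_mul_inv, mul_comm, mul_left_comm]
    rw [e]
    exact Submodule.smul_mem _ _ (hdec J (X.f_pow_mem _ ha))
  refine ⟨fun J hJ => ?_, ?_⟩
  · obtain ⟨h1, h2⟩ := mul_ne_zero_iff.mp hJ
    rw [hΨe J Q h1, mul_ne_zero_iff] at h2
    obtain ⟨Q', hQR, hV, hprod⟩ := X.exists_tuple ha hR hR0 hdR (monicOf_monic _)
      (natDegree_monicOf _) ((hP _).mp h2.2) (hchi J h1) (hind J h1)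
    refine ⟨Q', hQR, ⟨hV, hQR ▸ hell⟩, fun i => ?_⟩
    show X.xT Q' i = cnum i J Q * Ψ J Q / (Δ J Q * Ψ J Q)
    rw [mul_div_mul_right _ _ (by rw [hΨe J Q h1]; exact mul_ne_zero h2.1 h2.2)]
    rcases i with j | ⟨k, j⟩
    · show (∏ i, (Polynomial.X - C (X.fv Q' i))).coeff j = _
      exact hprod ▸ monicOf_coeff _ j
    · show (Lagrange.interpolate Finset.univ (X.fv Q') fun i => valAt (Q' i).1 (X.gen k)).coeff j = _
      set p : K[X] := ∑ l : Fin X.g, C (β J (X.gen k) Q (.inr l) / Δ J Q) * Polynomial.X ^ (l : ℕ)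
        with hp
      have hgen : X.gen k ∈ X.L a := Setup.L_mono ha₁ (X.gen_mem k)
      have hpe : p = Lagrange.interpolate Finset.univ (X.fv Q') fun i =>
          valAt (Q' i).1 (X.gen k) := by
        refine (Lagrange.eq_interpolate_iff _ (Setup.V_ne_zero_iff.mp hV).injOn).mp
          ⟨by simpa using degree_sum_lt _, fun i _ => ?_⟩
        have hw := hdec J hgen
        rw [hW, ← hQR, Setup.mem_space_sub_divT hV] at hw
        have hv := hw.2 i
        have hm : ∀ l : Fin X.g, pw l ∈ (Q' i).1.toValuationSubring := fun l =>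
          Setup.mem_ring (hpw l) (Q' i).2
        have hg := Setup.mem_ring hgen (Q' i).2
        have hsm : ∀ (c : K) {x : F}, x ∈ (Q' i).1.toValuationSubring →
            c • x ∈ (Q' i).1.toValuationSubring := fun c x hx => by
          rw [Algebra.smul_def]; exact mul_mem ((Q' i).1.algebraMap_mem' c) hx
        rw [sub_eq_add_neg, ← Finset.sum_neg_distrib,
          valAt_add (hsm _ hg) (sum_mem fun l _ => neg_mem (hsm _ (hm l))),
          valAt_sum _ _ (fun l _ => neg_mem (hsm _ (hm l))), valAt_smul _ hg] at hv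
        simp only [← neg_smul, valAt_smul _ (hm _)] at hv
        have hfp : ∀ l : Fin X.g, valAt (Q' i).1 (pw l) = X.fv Q' i ^ (l : ℕ) := fun l => by
          have := (valAt_aeval_poly (Setup.mem_ring (Setup.f_mem_L X) (Q' i).2) (Polynomial.X ^ (l : ℕ))).1
          simpa [pw, Setup.fv] using this
        simp only [hfp, neg_mul, Finset.sum_neg_distrib, ← sub_eq_add_neg, sub_eq_zero] at hv
        rw [hp, eval_finsetSum]
        simp only [eval_mul, eval_C, eval_pow, eval_X, div_mul_eq_mul_div, ← Finset.sum_div]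
        rw [← hv, mul_div_cancel_left₀ _ h1]
      rw [← hpe, hp]
      show (∑ l : Fin X.g, C (β J (X.gen k) Q (.inr l) / Δ J Q) * Polynomial.X ^ (l : ℕ)).coeff j =
        β J (X.gen k) Q (.inr j) / Δ J Q
      rw [finsetSum_coeff, Finset.sum_eq_single j]
      · simp only [coeff_C_mul, coeff_X_pow_self, mul_one]
      · intro l _ hl
        rw [coeff_C_mul, coeff_X_pow, if_neg fun e => hl (Fin.val_inj.mp e).symm, mul_zero]
      · exact fun h => (h (Finset.mem_univ j)).elim
  · rintro ⟨Q', hV, hQR⟩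
    have : FiniteDimensional K (Submodule.span K (Set.range fun i => u i Q)) :=
      FiniteDimensional.span_of_finite K (Set.finite_range _)
    obtain ⟨w, hw, hwspan, hwli⟩ :=
      Submodule.exists_fun_fin_finrank_span_eq K (Set.range fun i => u i Q)
    have hr' : Module.finrank K (Submodule.span K (Set.range fun i => u i Q)) = r :=
      (congrArg (fun S : Submodule K F => Module.finrank K S) hspan).trans hWdim
    choose J₀ hJ₀ using hw
    let J : Fin r → τ := J₀ ∘ Fin.cast hr'.symm
    have hinj := Setup.V_ne_zero_iff.mp hV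
    have hz : ∀ p : K[X], aeval X.f p ∈ W → ∀ i, p.eval (X.fv Q' i) = 0 := by
      intro p hp i
      rw [hW, ← hQR, Setup.mem_space_sub_divT hV] at hp
      rw [Setup.fv, ← (valAt_aeval_poly (Setup.mem_ring (Setup.f_mem_L X) (Q' i).2) p).1]
      exact hp.2 i
    have hcol : LinearIndependent K (col J Q) := by
      rw [Fintype.linearIndependent_iff]
      intro c hc
      rw [Fintype.sum_sum_type] at hc
      simp only [col, Sum.elim_inl, Sum.elim_inr] at hc
      set p : K[X] := ∑ l : Fin X.g, C (c (.inr l)) * Polynomial.X ^ (l : ℕ)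
      have hpc : ∀ l : Fin X.g, p.coeff l = c (.inr l) := fun l => by
        simp [p, coeff_X_pow, Fin.val_inj]
      have hpW : aeval X.f p ∈ W := by
        rw [hpoly p (degree_sum_lt _)]
        simp only [hpc]
        rw [← neg_eq_of_add_eq_zero_right hc]
        exact neg_mem (sum_mem fun b _ => Submodule.smul_mem _ _ (huW _))
      have hp0 : p = 0 := eq_zero_of_degree_lt_of_eval_index_eq_zero Finset.univ hinj.injOn
        (by simpa using degree_sum_lt _) fun i _ => hz p hpW i
      have hc0 : ∀ l, c (.inr l) = 0 := fun l => by rw [← hpc l, hp0, coeff_zero]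
      simp only [hc0, zero_smul, Finset.sum_const_zero, add_zero] at hc
      rintro (b | l)
      · refine Fintype.linearIndependent_iff.mp
          (hwli.comp (Fin.cast hr'.symm) (Fin.cast_injective _)) (fun b => c (.inl b)) ?_ b
        simpa [J, ← hJ₀] using hc
      · exact hc0 l
    have hJ : Δ J Q ≠ 0 := by
      refine IsUnit.ne_zero ((Matrix.isUnit_iff_isUnit_det _).mp
        (Matrix.linearIndependent_cols_iff_isUnit.mp ?_))
      refine hcol.map_injOn (LinearMap.pi lam) fun x hx y hy hxy => ?_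
      have hsub : Submodule.span K (Set.range (col J Q)) ≤ X.L a := by
        rw [Submodule.span_le]
        rintro _ ⟨b | l, rfl⟩
        · exact Setup.PVec_apply (hu _) Q
        · exact hpw l
      refine sub_eq_zero.mp (hlam _ (hsub (sub_mem hx hy)) fun i => ?_)
      rw [map_sub, sub_eq_zero]
      exact congrFun hxy i
    refine ⟨J, mul_ne_zero hJ ?_⟩
    rw [hΨe J Q hJ]
    refine mul_ne_zero (pow_ne_zero _ hJ) ((hP _).mpr ?_)
    set χ := monicOf fun j => -β J (X.f ^ X.g) Q (Sum.inr j) / Δ J Q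
    have hroot : χ.degree = X.g ∧ χ = ∏ i, (Polynomial.X - C (X.fv Q' i)) := by
      have hd : χ.degree = X.g := by
        rw [degree_eq_natDegree (monicOf_monic _).ne_zero, natDegree_monicOf]
      refine ⟨hd, eq_of_degree_sub_lt_of_eval_index_eq Finset.univ hinj.injOn ?_ fun i _ => ?_⟩
      · rw [Finset.card_univ, Fintype.card_fin]
        have hpm : (∏ i, (Polynomial.X - C (X.fv Q' i))).degree = (X.g : WithBot ℕ) := by
          rw [degree_prod]; simp
        refine (degree_sub_lt_left (hd.trans hpm.symm) (monicOf_monic _).ne_zero ?_).trans_le hd.le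
        rw [(monicOf_monic _).leadingCoeff,
          (monic_prod_of_monic _ _ fun i _ => monic_X_sub_C _).leadingCoeff]
      · rw [hz χ (hchi J hJ) i, eval_prod]
        exact (Finset.prod_eq_zero (Finset.mem_univ i) (by simp)).symm
    rw [hroot.2, separable_prod_X_sub_C_iff]
    exact hinj

end Fermat.Agent.MCurve.MW
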