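/-
Unit X, the step: from a spanning family of the functions with bounded pole at infinity vanishing on
`D`, one for an effective divisor `R` of degree `G` with `R + D` linearly equivalent to `(n + G) ∞`.
-/
import Fermat.Agent.MCurve.MW.Chart

set_option autoImplicit false
set_option linter.unusedSectionVars false

noncomputable section

namespace Fermat.Agent.MCurve.MW

open AlgebraicCurve RR
open scoped Classical

variable {K F : Type*} [Field K] [Field F] [Algebra K F] [IsAlgClosed K]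
  [∀ v : Place K F, v.FiniteResidue] [HasPrincipalDivisors K F] [Nonempty (Place K F)]
  {X : Setup K F}

/-- The colon of the sections by one section. -/
theorem Setup.colon_eq {n G e a : ℕ} {D : Divisor K F} (hd : Divisor.degree D = n)
    (hGe : X.c + 1 ≤ G + e) {r : ℕ} (v : Fin r → F)
    (hv : Submodule.span K (Set.range v) =
      riemannRochSpace (Finsupp.single X.inf ((n + G + e : ℕ) : ℤ) - D))
    {s : F} (hs : s ≠ 0) {R : Divisor K F}
    (hR : R + D = Finsupp.single X.inf ((n + G : ℕ) : ℤ) + divOf K s) (hR0 : 0 ≤ R) (h : F) :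
    h ∈ riemannRochSpace (Finsupp.single X.inf (a : ℤ) - R) ↔
      h ∈ X.L a ∧ ∀ k, ∃ z ∈ X.L (a + e), h * v k = s * z := by
  have hdR : Divisor.degree R = G := by
    have := congrArg Divisor.degree hR
    rw [map_add, map_add, degree_divOf, Divisor.degree_single, deg_one, hd] at this
    push_cast at this
    omega
  have key : ∀ x, x ∈ riemannRochSpace (R + Finsupp.single X.inf (e : ℤ)) ↔
      s * x ∈ riemannRochSpace (Finsupp.single X.inf ((n + G + e : ℕ) : ℤ) - D) := fun x => by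
    rw [← mem_space_divOf hs]
    have e1 : R + Finsupp.single X.inf (e : ℤ) =
        Finsupp.single X.inf ((n + G + e : ℕ) : ℤ) - D + divOf K s := by
      rw [eq_sub_of_add_eq hR]
      push_cast
      simp only [Finsupp.single_add]
      abel
    rw [e1]
  constructor
  · intro hh
    refine ⟨X.space_le_L hR0 a hh, fun k => ⟨h * v k / s, ?_, by field_simp⟩⟩
    have hvk : v k / s ∈ riemannRochSpace (R + Finsupp.single X.inf (e : ℤ)) := by
      rw [key, mul_div_cancel₀ _ hs, ← hv]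
      exact Submodule.subset_span ⟨k, rfl⟩
    have := mul_mem_space hh hvk
    rw [show ∀ x y z : Divisor K F, x - y + (y + z) = x + z from fun x y z => by abel,
      ← Finsupp.single_add, ← Nat.cast_add] at this
    rwa [mul_div_assoc]
  · rintro ⟨-, hz⟩
    choose z hz1 hz2 using hz
    rw [X.hR.mem_space_iff_mul (E := Finsupp.single X.inf (a : ℤ) - R)
      (B := R + Finsupp.single X.inf (e : ℤ))
      (by rw [map_add, hdR, Divisor.degree_single, deg_one]; push_cast; omega)]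
    intro b hb
    rw [show ∀ x y z : Divisor K F, x - y + (y + z) = x + z from fun x y z => by abel,
      ← Finsupp.single_add, ← Nat.cast_add]
    rw [key, ← hv, Submodule.mem_span_range_iff_exists_fun] at hb
    obtain ⟨lam, hlam⟩ := hb
    have : h * b = ∑ k, lam k • z k := by
      apply mul_left_cancel₀ hs
      calc s * (h * b) = h * ∑ k, lam k • v k := by rw [hlam]; ring
        _ = s * ∑ k, lam k • z k := by
          simp only [Finset.mul_sum, mul_smul_comm, hz2]
    rw [this]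
    exact sum_mem fun k _ => Submodule.smul_mem _ _ (hz1 k)

/-- The step. -/
theorem Setup.exists_step (G e a : ℕ) (hG : X.g ≤ G) (hGe : X.c + 1 ≤ G + e) (ha : G + X.c ≤ a) :
    ∃ κ : ℕ, ∀ (n A δ : ℕ) (ι : Type) [Fintype ι] (u : ι → X.Tup → F),
      (∀ i, u i ∈ X.PVec A δ) → X.c + 1 ≤ n + G → n + G + e ≤ A →
      ∃ (σ τ : Type) (_ : Fintype σ) (_ : Fintype τ) (den : σ → X.Tup → K)
        (u' : σ → τ → X.Tup → F),
        (∀ t, den t ∈ X.PF (κ * ((A + 1) * δ))) ∧
        (∀ t i, u' t i ∈ X.PVec a (κ * ((A + 1) * δ))) ∧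
        ∀ (Q : X.Tup) (D : Divisor K F), 0 ≤ D → D X.inf = 0 → Divisor.degree D = n →
          Submodule.span K (Set.range fun i => u i Q) =
            riemannRochSpace (Finsupp.single X.inf (A : ℤ) - D) →
          (∀ t, den t Q ≠ 0 → ∃ R : Divisor K F, 0 ≤ R ∧ R X.inf = 0 ∧ Divisor.degree R = G ∧
            R + D - Finsupp.single X.inf ((n + G : ℕ) : ℤ) ∈ Divisor.principal (K := K) (F := F) ∧
            ell R + X.g = G + 1 ∧
            Submodule.span K (Set.range fun i => u' t i Q) =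
              riemannRochSpace (Finsupp.single X.inf (a : ℤ) - R)) ∧
          (ell (Finsupp.single X.inf ((n + G : ℕ) : ℤ) - D) + X.g = G + 1 →
            (∃ f ∈ riemannRochSpace (Finsupp.single X.inf ((n + G : ℕ) : ℤ) - D),
              f ≠ 0 ∧ X.inf.ord f = -((n + G : ℕ) : ℤ)) →
            ∃ t, den t Q ≠ 0) := by
  set r₂ := G + e + 1 - X.g with hr₂
  set da := Module.finrank K (X.L a)
  set de := Module.finrank K (X.L (a + e))
  set ρ := da + r₂ * de - (a + 1 - G - X.g) with hρ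
  refine ⟨1 + r₂ + e + (e + 1) + ρ * (e + 1), fun n A δ ι _ u hu hn hA => ?_⟩
  obtain ⟨den₁, u₁, hden₁, hu₁, hcut₁⟩ := X.exists_cut u hu (B := n + G + e) (by omega) hA
  set δ₁ := (A - (n + G + e)) * δ + δ with hδ₁
  choose den₂ hden₂ hsel using fun J₁ => X.exists_select r₂ (u₁ J₁) (hu₁ J₁)
  let S₂ : Type := (Fin r₂ → ι) × (Fin r₂ → Fin (Module.finrank K (X.L (n + G + e))))
  let v : (Fin (A - (n + G + e)) → ι) → S₂ → Fin r₂ → X.Tup → F := fun J₁ S b => u₁ J₁ (S.1 b)
  have he : n + G + e - (n + G) = e := Nat.add_sub_cancel_left _ _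
  choose den₃ s hden₃ hs hcut₃ using fun J₁ S => X.exists_cut (v J₁ S) (fun b => hu₁ J₁ (S.1 b))
    (B := n + G) (by omega) (Nat.le_add_right _ e)
  obtain ⟨top, htop⟩ := exists_functionals (X.L (n + G)) (X.L (n + G - 1))
    (Setup.L_mono (Nat.sub_le _ _))
  set δs := (n + G + e - (n + G)) * δ₁ + δ₁ with hδs
  choose σ₄ τ₄ fs₄ ft₄ den₄ u₄ hden₄ hu₄ hcolon using fun J₁ S (J₃ : Fin (n + G + e - (n + G)) → Fin r₂)
      (i₀ : Fin r₂) =>
    X.exists_colon a e r₂ ρ (B := n + G + e) (δ := δs) (v J₁ S) (s J₁ S J₃ i₀)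
      (fun k => Setup.PVec_mono le_rfl (Nat.le_add_left _ _) (hu₁ J₁ (S.1 k)))
      (Setup.PVec_mono (Nat.le_add_right _ e) le_rfl (hs J₁ S J₃ i₀))
  let σ : Type := Σ p : (Fin (A - (n + G + e)) → ι) × S₂ ×
      (Fin (n + G + e - (n + G)) → Fin r₂) × Fin r₂ ×
      Fin (Module.finrank K (X.L (n + G)) - Module.finrank K (X.L (n + G - 1))),
    σ₄ p.1 p.2.1 p.2.2.1 p.2.2.2.1
  let τ : Type := Σ t : σ, τ₄ t.1.1 t.1.2.1 t.1.2.2.1 t.1.2.2.2.1
  let den : σ → X.Tup → K := fun t =>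
    den₁ t.1.1 * den₂ t.1.1 t.1.2.1 * den₃ t.1.1 t.1.2.1 t.1.2.2.1 *
      (fun Q => top t.1.2.2.2.2 (s t.1.1 t.1.2.1 t.1.2.2.1 t.1.2.2.2.1 Q)) *
      den₄ _ _ _ _ t.2
  let u' : σ → τ → X.Tup → F := fun t i =>
    if i.1 = t then u₄ i.1.1.1 i.1.1.2.1 i.1.1.2.2.1 i.1.1.2.2.2.1 i.1.2 i.2 else 0
  have hA1 : (A + 1) * δ = A * δ + δ := by ring
  have hd₁ : δ₁ ≤ (A + 1) * δ := by
    rw [hδ₁, hA1]
    exact Nat.add_le_add_right (Nat.mul_le_mul_right _ (Nat.sub_le _ _)) _
  have hds : δs ≤ (e + 1) * ((A + 1) * δ) := by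
    rw [hδs, he, Nat.succ_mul]
    exact Nat.add_le_add (Nat.mul_le_mul_left _ hd₁) hd₁
  have hrs : ρ * δs ≤ ρ * (e + 1) * ((A + 1) * δ) := by
    rw [mul_assoc]; exact Nat.mul_le_mul_left _ hds
  refine ⟨σ, τ, inferInstance, inferInstance, den, u', fun t => ?_, fun t i => ?_,
    fun Q D hD hD0 hd hspan => ⟨fun t ht => ?_, fun hell htopf => ?_⟩⟩
  · refine Setup.PF_mono ?_ (Setup.mul_mem_PF (Setup.mul_mem_PF (Setup.mul_mem_PF (Setup.mul_mem_PF
      (hden₁ t.1.1) (hden₂ t.1.1 t.1.2.1)) (hden₃ _ _ _))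
      (Setup.apply_mem_PF (hs t.1.1 t.1.2.1 t.1.2.2.1 t.1.2.2.2.1) (top t.1.2.2.2.2)))
      (hden₄ _ _ _ _ t.2))
    have h1 : (A - (n + G + e)) * δ ≤ 1 * ((A + 1) * δ) := by omega
    have h2 := Nat.mul_le_mul_left r₂ hd₁
    have h3 : (n + G + e - (n + G)) * δ₁ ≤ e * ((A + 1) * δ) := by
      rw [he]; exact Nat.mul_le_mul_left e hd₁
    have h4 := hds
    simp only [Nat.add_mul] at *
    omega
  · refine Setup.PVec_mono le_rfl (hrs.trans (Nat.mul_le_mul_right _ (Nat.le_add_left _ _))) ?_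
    simp only [u']
    split_ifs with h
    · exact hu₄ _ _ _ _ _ _
    · exact zero_mem _
  · obtain ⟨⟨J₁, S, J₃, i₀, j⟩, t₄⟩ := t
    simp only [den, Pi.mul_apply, mul_ne_zero_iff] at ht
    obtain ⟨⟨⟨⟨h1, h2⟩, h3⟩, h4⟩, h5⟩ := ht
    obtain ⟨hW2, -⟩ := (hcut₁ Q _ hspan).1 J₁ h1
    rw [X.space_inf_L hD hD0 hA] at hW2
    have hdimW2 : ell (Finsupp.single X.inf ((n + G + e : ℕ) : ℤ) - D) = r₂ := by
      have := X.ell_inf_sub (n := n + G + e) hd (by omega)
      omega
    have hspanv : Submodule.span K (Set.range fun b => v J₁ S b Q) =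
        riemannRochSpace (Finsupp.single X.inf ((n + G + e : ℕ) : ℤ) - D) := by
      rw [← hW2]
      exact ((hsel J₁ Q (by rw [hW2]; exact hdimW2)).1 S h2).2
    obtain ⟨hW3, hdimW3⟩ := (hcut₃ J₁ S Q _ hspanv).1 J₃ h3
    rw [X.space_inf_L hD hD0 (Nat.le_add_right _ _)] at hW3 hdimW3
    have hsm : s J₁ S J₃ i₀ Q ∈
        riemannRochSpace (Finsupp.single X.inf ((n + G : ℕ) : ℤ) - D) :=
      hW3 ▸ Submodule.subset_span ⟨i₀, rfl⟩
    set sQ := s J₁ S J₃ i₀ Q with hsQ
    have hs0 : sQ ≠ 0 := fun h => h4 (by rw [h, map_zero])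
    have hsinf : X.inf.ord sQ = -((n + G : ℕ) : ℤ) := by
      by_contra hne
      refine h4 ((htop sQ (X.space_le_L hD _ hsm)).mpr (Setup.mem_L.mpr (Or.inr ?_)) j)
      have hh := (Setup.mem_L.mp (X.space_le_L hD _ hsm)).resolve_left hs0
      exact ⟨hh.1, by have := hh.2; omega⟩
    set R := Finsupp.single X.inf ((n + G : ℕ) : ℤ) + divOf K sQ - D with hRdef
    have hR0 : 0 ≤ R := by
      have := (mem_space_iff_of_ne hs0).mp hsm
      rwa [sub_add_eq_add_sub] at this
    have hRD : R + D = Finsupp.single X.inf ((n + G : ℕ) : ℤ) + divOf K sQ := sub_add_cancel _ _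
    have hdR : Divisor.degree R = G := by
      rw [hRdef, map_sub, map_add, degree_divOf, Divisor.degree_single, deg_one, hd]
      push_cast
      ring
    have hprin : R + D - Finsupp.single X.inf ((n + G : ℕ) : ℤ) ∈
        Divisor.principal (K := K) (F := F) := by
      refine ⟨sQ, hs0, fun w => ?_⟩
      rw [hRD, add_sub_cancel_left, divOf_apply]
    have hellR : ell R = ell (Finsupp.single X.inf ((n + G : ℕ) : ℤ) - D) :=
      ell_eq_of_principal (by
        rwa [show R - (Finsupp.single X.inf ((n + G : ℕ) : ℤ) - D) =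
          R + D - Finsupp.single X.inf ((n + G : ℕ) : ℤ) by abel])
    refine ⟨R, hR0, ?_, hdR, hprin, ?_, ?_⟩
    · simp [hRdef, divOf_apply, hsinf, hD0]
    · simp only [hellR, ell] at *
      omega
    · have hZ := X.colon_eq (a := a) hd hGe (fun b => v J₁ S b Q) hspanv hs0 hRD hR0
      have hdimZ : Module.finrank K (riemannRochSpace (Finsupp.single X.inf (a : ℤ) - R)) + ρ =
          da + r₂ * de := by
        have h6 : ell (Finsupp.single X.inf (a : ℤ) - R) + G + X.g = a + 1 :=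
          X.ell_inf_sub hdR (by omega)
        have h7 : de ≤ r₂ * de := Nat.le_mul_of_pos_left _ (by omega)
        have h8 := X.ell_L (n := a) (by omega)
        simp only [ell] at h6
        omega
      have := (hcolon J₁ S J₃ i₀ Q _ hs0 hZ hdimZ).1 t₄ h5
      rw [← this]
      refine le_antisymm (Submodule.span_le.mpr ?_) (Submodule.span_le.mpr ?_)
      · rintro _ ⟨⟨p, l⟩, rfl⟩
        simp only [u']
        split_ifs with h
        · subst h
          exact Submodule.subset_span ⟨l, rfl⟩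
        · exact zero_mem _
      · rintro _ ⟨l, rfl⟩
        refine Submodule.subset_span ⟨⟨⟨(J₁, S, J₃, i₀, j), t₄⟩, l⟩, ?_⟩
        simp [u']
  · obtain ⟨f, hf, hf0, hford⟩ := htopf
    have hd1 : ell (Finsupp.single X.inf (A : ℤ) - D) + n + X.g = A + 1 :=
      X.ell_inf_sub hd (by omega)
    have hd2 : ell (Finsupp.single X.inf ((n + G + e : ℕ) : ℤ) - D) + n + X.g = n + G + e + 1 :=
      X.ell_inf_sub hd (by omega)
    obtain ⟨J₁, h1⟩ := (hcut₁ Q _ hspan).2 (by
      rw [X.space_inf_L hD hD0 hA]; simp only [ell] at *; omega)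
    obtain ⟨hW2, -⟩ := (hcut₁ Q _ hspan).1 J₁ h1
    rw [X.space_inf_L hD hD0 hA] at hW2
    have hdimW2 : ell (Finsupp.single X.inf ((n + G + e : ℕ) : ℤ) - D) = r₂ := by omega
    obtain ⟨hselS, S, h2⟩ := hsel J₁ Q (by rw [hW2]; exact hdimW2)
    have hspanv : Submodule.span K (Set.range fun b => v J₁ S b Q) =
        riemannRochSpace (Finsupp.single X.inf ((n + G + e : ℕ) : ℤ) - D) := by
      rw [← hW2]; exact (hselS S h2).2
    obtain ⟨J₃, h3⟩ := (hcut₃ J₁ S Q _ hspanv).2 (by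
      rw [X.space_inf_L hD hD0 (Nat.le_add_right _ _)]; simp only [ell] at *; omega)
    obtain ⟨hW3, -⟩ := (hcut₃ J₁ S Q _ hspanv).1 J₃ h3
    rw [X.space_inf_L hD hD0 (Nat.le_add_right _ _)] at hW3
    obtain ⟨i₀, j, h4⟩ : ∃ i₀ j, top j (s J₁ S J₃ i₀ Q) ≠ 0 := by
      by_contra hne
      push Not at hne
      have hle : riemannRochSpace (Finsupp.single X.inf ((n + G : ℕ) : ℤ) - D) ≤
          X.L (n + G - 1) := by
        rw [← hW3, Submodule.span_le]
        rintro _ ⟨i, rfl⟩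
        exact (htop _ (Setup.PVec_apply (hs J₁ S J₃ i) Q)).mp (hne i)
      have h5 := ((Setup.mem_L.mp (hle hf)).resolve_left hf0).2
      omega
    obtain ⟨t₄, h5⟩ : ∃ t, den₄ J₁ S J₃ i₀ t Q ≠ 0 := by
      have hs0 : s J₁ S J₃ i₀ Q ≠ 0 := fun h => h4 (by rw [h, map_zero])
      have hsm : s J₁ S J₃ i₀ Q ∈
          riemannRochSpace (Finsupp.single X.inf ((n + G : ℕ) : ℤ) - D) :=
        hW3 ▸ Submodule.subset_span ⟨i₀, rfl⟩
      set R := Finsupp.single X.inf ((n + G : ℕ) : ℤ) + divOf K (s J₁ S J₃ i₀ Q) - D with hRdef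
      have hR0 : 0 ≤ R := by
        have := (mem_space_iff_of_ne hs0).mp hsm
        rwa [sub_add_eq_add_sub] at this
      have hdR : Divisor.degree R = G := by
        rw [hRdef, map_sub, map_add, degree_divOf, Divisor.degree_single, deg_one, hd]
        push_cast
        ring
      refine (hcolon J₁ S J₃ i₀ Q _ hs0
        (X.colon_eq (a := a) hd hGe _ hspanv hs0 (sub_add_cancel _ _) hR0) ?_).2
      have h6 : ell (Finsupp.single X.inf (a : ℤ) - R) + G + X.g = a + 1 :=
        X.ell_inf_sub hdR (by omega)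
      have h7 : de ≤ r₂ * de := Nat.le_mul_of_pos_left _ (by omega)
      have h8 := X.ell_L (n := a) (by omega)
      have hfin : Module.finrank K (riemannRochSpace (Finsupp.single X.inf (a : ℤ) - R)) + ρ =
          da + r₂ * de := by
        simp only [ell] at h6
        omega
      exact hfin
    exact ⟨⟨(J₁, S, J₃, i₀, j), t₄⟩, by
      simp only [den, Pi.mul_apply, mul_ne_zero_iff]; exact ⟨⟨⟨⟨h1, h2⟩, h3⟩, h4⟩, h5⟩⟩

end Fermat.Agent.MCurve.MW
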