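/-
Unit X: formulas for the coordinates of `d + m [Q]` of degree quadratic in `m`.
-/
import Fermat.Agent.MCurve.MW.Step
import Fermat.Agent.MCurve.MW.Finish

set_option autoImplicit false
set_option linter.unusedSectionVars false

noncomputable section

namespace Fermat.Agent.MCurve.MW

open AlgebraicCurve RR
open scoped Classical
open Matrix
open scoped Pointwise

variable {K F : Type*} [Field K] [Field F] [Algebra K F] [IsAlgClosed K]
  [∀ v : Place K F, v.FiniteResidue] [HasPrincipalDivisors K F] [Nonempty (Place K F)]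
  (X : Setup K F)

theorem Setup.degree_divT (Q : X.Tup) : Divisor.degree (X.divT Q) = X.g := by
  have := Divisor.mem_degZero.mp (X.divT_sub_mem Q)
  rw [map_sub, Divisor.degree_single, deg_one] at this
  simpa [sub_eq_zero] using this

theorem Setup.divT_inf (Q : X.Tup) : X.divT Q X.inf = 0 := by
  rw [X.divT_apply, Finset.filter_false_of_mem fun i _ => (Q i).2]
  rfl

/-- An effective representative avoiding infinity. -/
theorem Setup.exists_base (d : Pic0 K F) : ∃ D₀ : Divisor K F, 0 ≤ D₀ ∧ D₀ X.inf = 0 ∧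
    Divisor.degree D₀ = (X.c + 1 : ℕ) ∧ ∃ h : D₀ - Finsupp.single X.inf ((X.c + 1 : ℕ) : ℤ) ∈
      Divisor.degZero (K := K) (F := F), d = Pic0.mk ⟨_, h⟩ := by
  obtain ⟨⟨D', hD'⟩, rfl⟩ := Pic0.mk_surjective d
  set E := D' + Finsupp.single X.inf ((X.c + 1 : ℕ) : ℤ) with hE
  have hdE : Divisor.degree E = (X.c + 1 : ℕ) := by
    rw [hE, map_add, Divisor.mem_degZero.mp hD', Divisor.degree_single, deg_one]
    simp
  obtain ⟨f, hf, hf0, hord⟩ := X.hR.exists_ord_eq (D := E) (by rw [hdE]; push_cast; exact le_rfl) X.inf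
  refine ⟨E + divOf K f, (mem_space_iff_of_ne hf0).mp hf, ?_, ?_, ?_, ?_⟩
  · rw [Finsupp.add_apply, divOf_apply, hord, add_neg_cancel]
  · rw [map_add, degree_divOf, hdE, add_zero]
  · rw [Divisor.mem_degZero, map_sub, map_add, degree_divOf, hdE, Divisor.degree_single, deg_one]
    simp
  · rw [Pic0.mk, Pic0.mk, QuotientAddGroup.eq, AddSubgroup.mem_addSubgroupOf]
    refine ⟨f, hf0, fun v => ?_⟩
    rw [AddSubgroup.coe_add, AddSubgroup.coe_neg, ← divOf_apply (K := K) f v]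
    exact congrFun (congrArg DFunLike.coe (show -D' + (E + divOf K f -
      Finsupp.single X.inf ((X.c + 1 : ℕ) : ℤ)) = divOf K f by rw [hE]; abel)) v

theorem Setup.nsmul_divT_facts (m : ℕ) (Q : X.Tup) {D₀ : Divisor K F} (h0 : 0 ≤ D₀)
    (hinf : D₀ X.inf = 0) {k : ℕ} (hk : Divisor.degree D₀ = k) :
    0 ≤ D₀ + m • X.divT Q ∧ (D₀ + m • X.divT Q) X.inf = 0 ∧
      Divisor.degree (D₀ + m • X.divT Q) = (k + m * X.g : ℕ) := by
  refine ⟨add_nonneg h0 (nsmul_nonneg (X.divT_nonneg Q) m), ?_, ?_⟩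
  · simp [hinf, X.divT_inf]
  · rw [map_add, map_nsmul, hk, X.degree_divT]
    simp

/-- Spanning families of the functions vanishing on `D₀ + m Q`. -/
theorem Setup.exists_start (a : ℕ) (ha : X.g * (X.c + 1) ≤ a) (ha' : 3 * (X.c + 1) + X.g ≤ a) :
    ∃ κ : ℕ, ∀ D₀ : Divisor K F, 0 ≤ D₀ → D₀ X.inf = 0 →
      Divisor.degree D₀ = (X.c + 1 : ℕ) → ∀ m : ℕ,
      ∃ (τ : Type) (_ : Fintype τ) (u : τ → X.Tup → F),
        (∀ i, u i ∈ X.PVec ((2 + m) * a) (m * κ)) ∧
        ∀ Q : X.Tup, X.V Q ≠ 0 → Submodule.span K (Set.range fun i => u i Q) =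
          riemannRochSpace (Finsupp.single X.inf (((2 + m) * a : ℕ) : ℤ) - (D₀ + m • X.divT Q)) := by
  set κ := X.g * (a + X.g * (X.c + 1)) with hκ
  let e : Fin (Module.finrank K (X.L a)) → F := fun k => (Module.finBasis K (X.L a) k : F)
  have he : ∀ k, e k ∈ X.L a := fun k => (Module.finBasis K (X.L a) k).2
  let β : F → X.Tup → Fin X.g → K := fun h Q =>
    cramer (Matrix.vandermonde (X.fv Q)) fun i => valAt (Q i).1 h
  let u₀ : Fin (Module.finrank K (X.L a)) → X.Tup → F := fun k Q =>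
    X.V Q • e k - ∑ j, β (e k) Q j • X.f ^ (j : ℕ)
  have hpw : ∀ j : Fin X.g, X.f ^ (j : ℕ) ∈ X.L a := fun j =>
    X.f_pow_mem _ ((Nat.mul_le_mul_right _ j.2.le).trans ha)
  have hu₀ : ∀ k, u₀ k ∈ X.PVec a κ := fun k => by
    rw [show u₀ k = (fun Q => X.V Q • e k) - ∑ j : Fin X.g, fun Q => β (e k) Q j • X.f ^ (j : ℕ) from
      funext fun Q => by simp [u₀, Finset.sum_apply]]
    refine sub_mem ?_ (sum_mem fun j _ => ?_)
    · exact Setup.PVec_mono le_rfl
        (by rw [hκ, Nat.add_zero]; exact Nat.mul_le_mul_left _ (Nat.le_add_left _ _))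
        (Setup.smul_mem_PVec X.V_mem_PF (Setup.const_mem_PVec (he k) 0))
    · refine Setup.smul_mem_PVec (n := 0) (k := κ) ?_ (Setup.const_mem_PVec (hpw j) 0)
      have := X.cramer_mem_PF (fun Q => Matrix.vandermonde (X.fv Q))
        (fun Q i => valAt (Q i).1 (e k)) (n := a + X.g * (X.c + 1))
        (fun i l => by
          simp only [Matrix.vandermonde_apply]
          exact Setup.PF_mono ((Nat.mul_le_mul_right _ l.2.le).trans (Nat.le_add_left _ _))
            (Setup.pow_mem_PF (X.fv_mem_PF i) (l : ℕ)))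
        (fun i => Setup.PF_mono (Nat.le_add_right _ _) (Setup.val_mem_PF (he k) i)) j
      rwa [Fintype.card_fin] at this
  have hspan₀ : ∀ Q, X.V Q ≠ 0 → Submodule.span K (Set.range fun k => u₀ k Q) =
      riemannRochSpace (Finsupp.single X.inf (a : ℤ) - X.divT Q) := by
    intro Q hV
    have hf : ∀ (i : Fin X.g), X.f ∈ (Q i).1.toValuationSubring := fun i =>
      Setup.mem_ring (Setup.f_mem_L X) (Q i).2
    have hsm : ∀ (i : Fin X.g) (c : K) {x : F}, x ∈ (Q i).1.toValuationSubring →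
        c • x ∈ (Q i).1.toValuationSubring := fun i c x hx => by
      rw [Algebra.smul_def]; exact mul_mem ((Q i).1.algebraMap_mem' c) hx
    have hval : ∀ k i, valAt (Q i).1 (u₀ k Q) = 0 := by
      intro k i
      have h1 := congrFun (mulVec_cramer (Matrix.vandermonde (X.fv Q))
        fun i => valAt (Q i).1 (e k)) i
      simp only [Matrix.mulVec, dotProduct, Matrix.vandermonde_apply, Pi.smul_apply,
        smul_eq_mul] at h1
      have hm : ∀ j : Fin X.g, X.f ^ (j : ℕ) ∈ (Q i).1.toValuationSubring := fun j =>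
        Setup.mem_ring (hpw j) (Q i).2
      have he' := Setup.mem_ring (he k) (Q i).2
      have hp : ∀ j : Fin X.g, valAt (Q i).1 (X.f ^ (j : ℕ)) = X.fv Q i ^ (j : ℕ) := fun j => by
        have := (valAt_aeval_poly (hf i) (Polynomial.X ^ (j : ℕ))).1
        simpa [Setup.fv] using this
      simp only [u₀]
      rw [sub_eq_add_neg, ← Finset.sum_neg_distrib,
        valAt_add (hsm i _ he') (sum_mem fun l _ => neg_mem (hsm i _ (hm l))),
        valAt_sum _ _ (fun l _ => neg_mem (hsm i _ (hm l))), valAt_smul _ he']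
      simp only [← neg_smul, valAt_smul _ (hm _), hp, neg_mul, Finset.sum_neg_distrib]
      rw [← sub_eq_add_neg, sub_eq_zero, Setup.V, ← h1]
      exact Finset.sum_congr rfl fun j _ => mul_comm _ _
    have hmem : ∀ k, u₀ k Q ∈ riemannRochSpace (Finsupp.single X.inf (a : ℤ) - X.divT Q) := fun k =>
      (Setup.mem_space_sub_divT hV).mpr ⟨sub_mem (Submodule.smul_mem _ _ (he k))
        (sum_mem fun j _ => Submodule.smul_mem _ _ (hpw j)), hval k⟩
    refine le_antisymm (Submodule.span_le.mpr ?_) fun h hh => ?_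
    · rintro _ ⟨k, rfl⟩; exact hmem k
    · obtain ⟨hL, hz⟩ := (Setup.mem_space_sub_divT hV).mp hh
      set lam := fun k => (Module.finBasis K (X.L a)).repr ⟨h, hL⟩ k
      have hsum : ∑ k, lam k • e k = h := by
        have := congrArg Subtype.val ((Module.finBasis K (X.L a)).sum_repr ⟨h, hL⟩)
        simp only [Submodule.coe_sum, Submodule.coe_smul] at this
        exact this
      have hb : ∀ j, ∑ k, lam k * β (e k) Q j = 0 := fun j => by
        have e1 : ∑ k, lam k • (fun i => valAt (Q i).1 (e k)) = (0 : Fin X.g → K) := funext fun i => by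
          rw [Finset.sum_apply, Pi.zero_apply, ← hz i, ← hsum,
            valAt_sum _ _ fun k _ => hsm i _ (Setup.mem_ring (he k) (Q i).2)]
          exact Finset.sum_congr rfl fun k _ =>
            (valAt_smul _ (Setup.mem_ring (he k) (Q i).2)).symm
        have e2 := congrArg (cramer (Matrix.vandermonde (X.fv Q))) e1
        rw [map_sum, map_zero] at e2
        have e3 := congrFun e2 j
        simpa [Finset.sum_apply, β] using e3
      have : ∑ k, lam k • u₀ k Q = X.V Q • h := by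
        simp only [u₀, smul_sub, Finset.sum_sub_distrib, Finset.smul_sum, smul_smul]
        rw [Finset.sum_comm]
        simp only [← Finset.sum_smul, hb, zero_smul, Finset.sum_const_zero, sub_zero]
        rw [← hsum, Finset.smul_sum]
        exact Finset.sum_congr rfl fun k _ => by rw [smul_smul, mul_comm]
      rw [← inv_smul_smul₀ hV h, ← this]
      exact Submodule.smul_mem _ _
        (sum_mem fun k _ => Submodule.smul_mem _ _ (Submodule.subset_span ⟨k, rfl⟩))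
  refine ⟨κ, fun D₀ h0 hinf hd m => ?_⟩
  induction m with
  | zero =>
    set B := Finsupp.single X.inf (((2 + 0) * a : ℕ) : ℤ) - D₀
    refine ⟨Fin (Module.finrank K (riemannRochSpace B)), inferInstance,
      fun k _ => (Module.finBasis K (riemannRochSpace B) k : F),
      fun k => Setup.const_mem_PVec (X.space_le_L h0 _ (Module.finBasis K (riemannRochSpace B) k).2) _,
      fun Q _ => ?_⟩
    rw [show D₀ + 0 • X.divT Q = D₀ by simp]
    show Submodule.span K (Set.range ((riemannRochSpace B).subtype ∘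
      Module.finBasis K (riemannRochSpace B))) = riemannRochSpace B
    rw [Set.range_comp, Submodule.span_image, Module.Basis.span_eq, Submodule.map_top,
      Submodule.range_subtype]
  | succ m ih =>
    obtain ⟨τ, _, u, hu, hspan⟩ := ih
    refine ⟨τ × Fin (Module.finrank K (X.L a)), inferInstance, fun p => u₀ p.2 * u p.1,
      fun p => Setup.PVec_mono (by ring_nf; exact le_rfl) (by rw [Nat.succ_mul, add_comm])
        (Setup.mul_mem_PVec (hu₀ p.2) (hu p.1)), fun Q hV => ?_⟩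
    have hr : (Set.range fun p : τ × Fin (Module.finrank K (X.L a)) => (u₀ p.2 * u p.1) Q) =
        Set.range (fun k => u₀ k Q) * Set.range (fun i => u i Q) := by
      ext x
      simp [Set.mem_mul]
      exact ⟨fun ⟨a, b, e⟩ => ⟨b, a, e⟩, fun ⟨b, a, e⟩ => ⟨a, b, e⟩⟩
    rw [hr, ← Submodule.span_mul_span, hspan₀ Q hV, hspan Q hV]
    have hfacts := X.nsmul_divT_facts m Q h0 hinf hd
    rw [X.hR.space_mul]
    · congr 1
      rw [succ_nsmul, show ((2 + (m + 1)) * a : ℕ) = (2 + m) * a + a by ring, Nat.cast_add,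
        Finsupp.single_add]
      abel
    · rw [Setup.degree_inf_sub (X.degree_divT Q)]
      omega
    · rw [Setup.degree_inf_sub (X.degree_divT Q), Setup.degree_inf_sub hfacts.2.2]
      have h1 : m * X.g ≤ m * a := Nat.mul_le_mul_left _ (by omega)
      have h2 : (2 + m) * a = 2 * a + m * a := by ring
      have h3 : X.g + 3 * (X.c + 1) ≤ a := by omega
      generalize (2 + m) * a = A at *
      generalize m * a = ma at *
      generalize m * X.g = mg at *
      push_cast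
      omega

/-- Formulas of degree quadratic in `m`, uniformly in the class `d`. -/
theorem Setup.exists_formulas :
    ∃ κ : ℕ, ∀ (d : Pic0 K F) (m : ℕ), Nonempty (X.Formulas d m (κ * (m + 1) ^ 2)) := by
  have hgc := X.hgc
  set a := (X.g + 4) * (X.c + 1) with ha_def
  have ha4 : a = X.g * (X.c + 1) + 4 * (X.c + 1) := by rw [ha_def]; ring
  have hgle : X.g ≤ X.g * (X.c + 1) := Nat.le_mul_of_pos_right _ (by omega)
  obtain ⟨κ₀, hstart⟩ := X.exists_start a (by omega) (by omega)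
  obtain ⟨κ₁, hstep₁⟩ := X.exists_step (X.c + 1) 0 a (by omega) (by omega) (by omega)
  obtain ⟨κ₂, hstep₂⟩ := X.exists_step X.g (X.c + 1) a le_rfl (by omega) (by omega)
  obtain ⟨κ₃, hfin⟩ := X.exists_finish (a := a) (by omega) (by omega)
    (by rw [Setup.n₁]; omega)
  refine ⟨X.g * (X.g * (X.c + 1)) + κ₁ * (2 * a + 1) * κ₀ +
    (1 + κ₃) * (κ₂ * (a + 1) * (κ₁ * (2 * a + 1) * κ₀)), fun d m => ?_⟩
  obtain ⟨D₀, h0, hinf, hd, hD₀, rfl⟩ := X.exists_base d
  obtain ⟨τ, _, u, hu, hspan⟩ := hstart D₀ h0 hinf hd m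
  have hg1 : m * X.g ≤ m * a := Nat.mul_le_mul_left _ (by omega)
  have h2a : (2 + m) * a = 2 * a + m * a := by ring
  obtain ⟨σ₁, τ₁, _, _, den₁, u₁, hden₁, hu₁, h₁⟩ :=
    hstep₁ (X.c + 1 + m * X.g) _ _ τ u hu (by omega) (by omega)
  set δ₁ := κ₁ * (((2 + m) * a + 1) * (m * κ₀)) with hδ₁
  choose σ₂ τ₂ fs₂ ft₂ den₂ u₂ hden₂ hu₂ h₂ using fun t =>
    hstep₂ (X.c + 1) a δ₁ τ₁ (u₁ t) (hu₁ t) (by omega) (by omega)
  set δ₂ := κ₂ * ((a + 1) * δ₁) with hδ₂
  choose σ₃ fs₃ den₃ num₃ hden₃ hnum₃ h₃ using fun (p : Σ t, σ₂ t) =>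
    hfin δ₂ (τ₂ p.1) (u₂ p.1 p.2) (hu₂ p.1 p.2)
  have hb1 : δ₁ ≤ κ₁ * (2 * a + 1) * κ₀ * (m + 1) ^ 2 := by
    have e1 : (2 + m) * a + 1 ≤ (2 * a + 1) * (m + 1) := by
      have : (2 * a + 1) * (m + 1) = 2 * a + 1 + 2 * (m * a) + m := by ring
      omega
    calc δ₁ ≤ κ₁ * (((2 * a + 1) * (m + 1)) * ((m + 1) * κ₀)) := by
          rw [hδ₁]
          exact Nat.mul_le_mul_left _ (Nat.mul_le_mul e1 (Nat.mul_le_mul_right _ (Nat.le_succ m)))
      _ = _ := by ring
  have hb2 : δ₂ ≤ κ₂ * (a + 1) * (κ₁ * (2 * a + 1) * κ₀) * (m + 1) ^ 2 := by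
    calc δ₂ ≤ κ₂ * ((a + 1) * (κ₁ * (2 * a + 1) * κ₀ * (m + 1) ^ 2)) :=
          Nat.mul_le_mul_left _ (Nat.mul_le_mul_left _ hb1)
      _ = _ := by ring
  have hle : X.g * (X.g * (X.c + 1)) + δ₁ + δ₂ + κ₃ * δ₂ ≤
      (X.g * (X.g * (X.c + 1)) + κ₁ * (2 * a + 1) * κ₀ +
        (1 + κ₃) * (κ₂ * (a + 1) * (κ₁ * (2 * a + 1) * κ₀))) * (m + 1) ^ 2 := by
    have h1 : X.g * (X.g * (X.c + 1)) ≤ X.g * (X.g * (X.c + 1)) * (m + 1) ^ 2 :=
      Nat.le_mul_of_pos_right _ (by positivity)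
    have h2 := Nat.mul_le_mul_left κ₃ hb2
    calc _ ≤ X.g * (X.g * (X.c + 1)) * (m + 1) ^ 2 + κ₁ * (2 * a + 1) * κ₀ * (m + 1) ^ 2 +
          κ₂ * (a + 1) * (κ₁ * (2 * a + 1) * κ₀) * (m + 1) ^ 2 +
          κ₃ * (κ₂ * (a + 1) * (κ₁ * (2 * a + 1) * κ₀) * (m + 1) ^ 2) := by gcongr
      _ = _ := by ring
  refine ⟨{
    ι := Σ p : (Σ t, σ₂ t), σ₃ p
    fintype_ι := inferInstance
    den := fun s => X.V * den₁ s.1.1 * den₂ s.1.1 s.1.2 * den₃ s.1 s.2
    num := fun s i => X.V * den₁ s.1.1 * den₂ s.1.1 s.1.2 * num₃ s.1 s.2 i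
    den_mem := fun s => Setup.PF_mono hle (Setup.mul_mem_PF (Setup.mul_mem_PF
      (Setup.mul_mem_PF X.V_mem_PF (hden₁ _)) (hden₂ _ _)) (hden₃ _ _))
    num_mem := fun s i => Setup.PF_mono hle (Setup.mul_mem_PF (Setup.mul_mem_PF
      (Setup.mul_mem_PF X.V_mem_PF (hden₁ _)) (hden₂ _ _)) (hnum₃ _ _ i))
    sound := ?_
    complete := ?_ }⟩
  · rintro ⟨⟨t₁, t₂⟩, t₃⟩ Q hQ
    simp only [Pi.mul_apply, mul_ne_zero_iff] at hQ ⊢
    obtain ⟨⟨⟨hV, hd₁⟩, hd₂⟩, hd₃⟩ := hQ
    obtain ⟨f0, finf, fdeg⟩ := X.nsmul_divT_facts m Q h0 hinf hd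
    obtain ⟨R, hR0, hRinf, hRd, hRp, -, hRspan⟩ := (h₁ Q _ f0 finf fdeg (hspan Q hV)).1 t₁ hd₁
    obtain ⟨R', hR'0, hR'inf, hR'd, hR'p, hR'ell, hR'span⟩ :=
      (h₂ t₁ Q R hR0 hRinf hRd hRspan).1 t₂ hd₂
    obtain ⟨Q', hQR, hreg, hx⟩ :=
      (h₃ ⟨t₁, t₂⟩ Q R' hR'0 hR'inf hR'd (by omega) hR'span).1 t₃ hd₃
    have hcl : X.clT Q' = Pic0.mk ⟨_, hD₀⟩ + m • X.clT Q := by
      rw [Setup.clT, Setup.clT, Pic0.mk, Pic0.mk, Pic0.mk, ← QuotientAddGroup.mk_nsmul,
        ← QuotientAddGroup.mk_add, QuotientAddGroup.eq, AddSubgroup.mem_addSubgroupOf]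
      simp only [AddSubgroup.coe_add, AddSubgroup.coe_neg, AddSubgroup.coe_nsmul, hQR]
      have := (Divisor.principal (K := K) (F := F)).sub_mem hRp hR'p
      convert this using 1
      rw [show ((X.c + 1 + m * X.g + (X.c + 1) : ℕ) : ℤ) =
        ((X.c + 1 : ℕ) : ℤ) + (m : ℤ) * X.g + ((X.c + 1 : ℕ) : ℤ) by push_cast; ring,
        show ((X.c + 1 + X.g : ℕ) : ℤ) = ((X.c + 1 : ℕ) : ℤ) + X.g by push_cast; ring,
        Finsupp.single_add, Finsupp.single_add, Finsupp.single_add, smul_sub, Finsupp.smul_single,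
        nsmul_eq_mul]
      abel
    refine ⟨hV, hcl ▸ hreg.reg, fun i => ?_⟩
    rw [← hcl, Setup.xc_clT hreg, hx i, mul_div_mul_left _ _
      (mul_ne_zero (mul_ne_zero hV hd₁) hd₂)]
  · intro Q hV ⟨Q', hreg, hcl⟩
    obtain ⟨f0, finf, fdeg⟩ := X.nsmul_divT_facts m Q h0 hinf hd
    set n := X.c + 1 + m * X.g
    obtain ⟨t₁, hd₁⟩ := (h₁ Q _ f0 finf fdeg (hspan Q hV)).2 (by
      have := X.ell_inf_sub (n := n + (X.c + 1)) fdeg (by omega)
      omega) (by
      obtain ⟨f, hf, hf0, hord⟩ := X.hR.exists_ord_eq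
        (D := Finsupp.single X.inf ((n + (X.c + 1) : ℕ) : ℤ) - (D₀ + m • X.divT Q))
        (by rw [Setup.degree_inf_sub fdeg]; push_cast; omega) X.inf
      refine ⟨f, hf, hf0, ?_⟩
      rw [hord, Finsupp.sub_apply, finf, sub_zero, Finsupp.single_eq_same])
    obtain ⟨R, hR0, hRinf, hRd, hRp, -, hRspan⟩ := (h₁ Q _ f0 finf fdeg (hspan Q hV)).1 t₁ hd₁
    have hpr : X.divT Q' - (Finsupp.single X.inf ((X.c + 1 + X.g : ℕ) : ℤ) - R) ∈
        Divisor.principal (K := K) (F := F) := by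
      have hc := hcl.symm
      rw [Setup.clT, Setup.clT, Pic0.mk, Pic0.mk, Pic0.mk, ← QuotientAddGroup.mk_nsmul,
        ← QuotientAddGroup.mk_add, QuotientAddGroup.eq, AddSubgroup.mem_addSubgroupOf] at hc
      simp only [AddSubgroup.coe_add, AddSubgroup.coe_neg, AddSubgroup.coe_nsmul] at hc
      have := (Divisor.principal (K := K) (F := F)).add_mem hc hRp
      convert this using 1
      rw [show ((n + (X.c + 1) : ℕ) : ℤ) =
        ((X.c + 1 : ℕ) : ℤ) + (m : ℤ) * X.g + ((X.c + 1 : ℕ) : ℤ) by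
          simp only [n]; push_cast; ring,
        show ((X.c + 1 + X.g : ℕ) : ℤ) = ((X.c + 1 : ℕ) : ℤ) + X.g by push_cast; ring,
        Finsupp.single_add, Finsupp.single_add, Finsupp.single_add, smul_sub, Finsupp.smul_single,
        nsmul_eq_mul]
      abel
    have hellT : ell (Finsupp.single X.inf ((X.c + 1 + X.g : ℕ) : ℤ) - R) = 1 := by
      rw [← ell_eq_of_principal hpr, hreg.2]
    obtain ⟨t₂, hd₂⟩ := (h₂ t₁ Q R hR0 hRinf hRd hRspan).2 (by omega) (by
      obtain ⟨f, hf0, hf⟩ := hpr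
      refine ⟨f, mem_space_iff.mpr (Or.inr fun v => ?_), hf0, ?_⟩
      · have h1 := hf v
        have h2 := Finsupp.le_def.mp (X.divT_nonneg Q') v
        rw [Finsupp.sub_apply] at h1
        simp only [Finsupp.coe_zero, Pi.zero_apply] at h2
        omega
      · have h1 := hf X.inf
        simp only [Finsupp.sub_apply, Finsupp.single_eq_same, X.divT_inf, hRinf] at h1
        omega)
    obtain ⟨R', hR'0, hR'inf, hR'd, hR'p, hR'ell, hR'span⟩ :=
      (h₂ t₁ Q R hR0 hRinf hRd hRspan).1 t₂ hd₂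
    have heq : X.divT Q' = R' := effective_unique hellT (X.divT_nonneg Q') hR'0 hpr (by
      rwa [show R' - (Finsupp.single X.inf ((X.c + 1 + X.g : ℕ) : ℤ) - R) =
        R' + R - Finsupp.single X.inf ((X.c + 1 + X.g : ℕ) : ℤ) by abel])
    obtain ⟨t₃, hd₃⟩ := (h₃ ⟨t₁, t₂⟩ Q R' hR'0 hR'inf hR'd (by omega) hR'span).2
      ⟨Q', hreg.1, heq⟩
    exact ⟨⟨⟨t₁, t₂⟩, t₃⟩, by
      simp only [Pi.mul_apply, mul_ne_zero_iff]; exact ⟨⟨⟨hV, hd₁⟩, hd₂⟩, hd₃⟩⟩

end Fermat.Agent.MCurve.MW
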