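/-
Translations: regular tuples form a basic set, every class is a difference of two regular classes,
polynomials in the coordinates below a function on tuples.
-/
import Fermat.Agent.MCurve.MW.Points
import Fermat.Agent.MCurve.MW.Formulas

set_option autoImplicit false
set_option linter.unusedSectionVars false

noncomputable section

namespace Fermat.Agent.MCurve.MW

open AlgebraicCurve RR
open scoped Classical

variable {K F : Type*} [Field K] [Field F] [Algebra K F] [IsAlgClosed K]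
  [∀ v : Place K F, v.FiniteResidue] [HasPrincipalDivisors K F] [Nonempty (Place K F)]
  {X : Setup K F}

theorem Setup.isRegT_of_reg {Q : X.Tup} (hV : X.V Q ≠ 0) (h : X.Reg (X.clT Q)) : X.IsRegT Q := by
  obtain ⟨Q', hQ', hcl⟩ := h
  have hd : X.divT Q' = X.divT Q :=
    effective_unique hQ'.2 (X.divT_nonneg Q') (X.divT_nonneg Q) (by simp)
      (Setup.clT_eq_iff.mp hcl)
  exact ⟨hV, hd ▸ hQ'.2⟩

/-- The regular tuples near a given one form a basic set. -/
theorem Setup.exists_regDen {Q₀ : X.Tup} (h : X.IsRegT Q₀) :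
    ∃ n, ∃ Φ ∈ X.PF n, Φ Q₀ ≠ 0 ∧ ∀ Q, Φ Q ≠ 0 → X.IsRegT Q := by
  obtain ⟨κ, hκ⟩ := X.exists_formulas
  obtain ⟨Fo⟩ := hκ 0 1
  obtain ⟨s, hs⟩ := Fo.complete Q₀ h.1 (by simpa using h.reg)
  exact ⟨_, Fo.den s, Fo.den_mem s, hs, fun Q hQ => Setup.isRegT_of_reg (Fo.sound s Q hQ).1
    (by simpa using (Fo.sound s Q hQ).2.1)⟩

theorem Setup.exists_transDen {d : Pic0 K F} {Q₀ : X.Tup} (hV : X.V Q₀ ≠ 0)
    (h : X.Reg (d + X.clT Q₀)) :
    ∃ n, ∃ Φ ∈ X.PF n, Φ Q₀ ≠ 0 ∧ ∀ Q, Φ Q ≠ 0 → X.Reg (d + X.clT Q) := by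
  obtain ⟨κ, hκ⟩ := X.exists_formulas
  obtain ⟨Fo⟩ := hκ d 1
  obtain ⟨s, hs⟩ := Fo.complete Q₀ hV (by simpa using h)
  exact ⟨_, Fo.den s, Fo.den_mem s, hs, fun Q hQ => by simpa using (Fo.sound s Q hQ).2.1⟩

theorem Setup.translate_of_exists {d : Pic0 K F}
    (h : ∃ Q, X.IsRegT Q ∧ X.Reg (d + X.clT Q)) {n : ℕ} {Φ : X.Tup → K} (hΦ : Φ ∈ X.PF n)
    (h0 : Φ ≠ 0) : ∃ Q, Φ Q ≠ 0 ∧ X.IsRegT Q ∧ X.Reg (d + X.clT Q) := by
  obtain ⟨Q₁, hQ₁, hd⟩ := h
  obtain ⟨n₁, Φ₁, hΦ₁, h₁, hr⟩ := Setup.exists_regDen hQ₁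
  obtain ⟨n₂, Φ₂, hΦ₂, h₂, ht⟩ := Setup.exists_transDen hQ₁.1 hd
  obtain ⟨Q, hQ⟩ := Function.ne_iff.mp (X.mul_ne_zero_PF (Setup.mul_mem_PF hΦ hΦ₁) hΦ₂
    (X.mul_ne_zero_PF hΦ hΦ₁ h0 (Function.ne_iff.mpr ⟨Q₁, h₁⟩)) (Function.ne_iff.mpr ⟨Q₁, h₂⟩))
  simp only [Pi.mul_apply, Pi.zero_apply, mul_ne_zero_iff] at hQ
  exact ⟨Q, hQ.1.1, hr Q hQ.1.2, ht Q hQ.2⟩

/-- The classes by which some regular tuple can be translated. -/
def Setup.transGroup (X : Setup K F) : AddSubgroup (Pic0 K F) where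
  carrier := {d | ∃ Q, X.IsRegT Q ∧ X.Reg (d + X.clT Q)}
  zero_mem' := by
    obtain ⟨Q, hQ⟩ := X.exists_regular
    exact ⟨Q, hQ, by rw [zero_add]; exact hQ.reg⟩
  neg_mem' := by
    rintro d ⟨Q, hQ, Q', hQ', he⟩
    exact ⟨Q', hQ', Q, hQ, by rw [he]; abel⟩
  add_mem' := by
    rintro d e ⟨Q, hQ, Q', hQ', hd⟩ he
    have hneg : X.Reg (-d + X.clT Q') := ⟨Q, hQ, by rw [hd]; abel⟩
    obtain ⟨n, Φ, hΦ, hΦ0, ht⟩ := Setup.exists_transDen hQ'.1 hneg
    obtain ⟨R, hR, -, hRe⟩ := Setup.translate_of_exists he hΦ (Function.ne_iff.mpr ⟨Q', hΦ0⟩)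
    obtain ⟨R', hR', he'⟩ := ht R hR
    refine ⟨R', hR', ?_⟩
    rwa [he', show d + e + (-d + X.clT R) = e + X.clT R by abel]

theorem Setup.mem_transGroup {d : Pic0 K F} :
    d ∈ X.transGroup ↔ ∃ Q, X.IsRegT Q ∧ X.Reg (d + X.clT Q) := Iff.rfl

theorem Setup.clT_update (Q : X.Tup) (i : Fin X.g) (P P' : X.Pt)
    (h : Finsupp.single P.1 (1 : ℤ) - Finsupp.single P'.1 1 ∈ Divisor.degZero (K := K) (F := F)) :
    Pic0.mk ⟨_, h⟩ + X.clT (Function.update Q i P') = X.clT (Function.update Q i P) := by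
  have hsum : ∀ R : X.Pt, X.divT (Function.update Q i R) =
      Finsupp.single R.1 1 + ∑ j ∈ Finset.univ.erase i, Finsupp.single (Q j).1 1 := fun R => by
    rw [Setup.divT, ← Finset.add_sum_erase Finset.univ _ (Finset.mem_univ i)]
    refine congrArg₂ (· + ·) (by simp) (Finset.sum_congr rfl fun j hj => ?_)
    rw [Function.update_of_ne (Finset.ne_of_mem_erase hj)]
  rw [Setup.clT, Setup.clT, ← Pic0.mk_add]
  refine congrArg Pic0.mk (Subtype.ext ?_)
  show (_ - _) + (X.divT _ - _) = X.divT _ - _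
  rw [hsum, hsum]
  abel

/-- A divisor is equivalent to one supported outside a given finite set. -/
theorem exists_equiv_avoiding {g c : ℕ} (hR : IsRiemann K F g c) [Infinite (Place K F)]
    (D : Divisor K F) (S : Finset (Place K F)) :
    ∃ D' : Divisor K F, D' - D ∈ Divisor.principal (K := K) (F := F) ∧ ∀ v ∈ S, D' v = 0 := by
  obtain ⟨P₀, hP₀⟩ := Infinite.exists_notMem_finset S
  obtain ⟨e, he⟩ : ∃ e : ℕ, (c : ℤ) + 1 ≤ Divisor.degree D + e :=
    ⟨((c : ℤ) + 1 - Divisor.degree D).toNat, by omega⟩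
  set A := D + Finsupp.single P₀ (e : ℤ) with hA
  have hdA : (c : ℤ) + 1 ≤ Divisor.degree A := by
    rw [hA, map_add, Divisor.degree_single, deg_one]; simpa using he
  obtain ⟨t, ht⟩ : ∃ t : riemannRochSpace A, ∀ v ∈ insert P₀ S,
      (t : F) ∉ riemannRochSpace (A - Finsupp.single v 1) := by
    by_contra hne
    push Not at hne
    obtain ⟨v, hv⟩ := Subspace.exists_eq_top_of_iUnion_eq_univ (k := K)
      (p := fun v : (insert P₀ S : Finset _) => (riemannRochSpace (A - Finsupp.single v.1 1)).comap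
        (riemannRochSpace A).subtype) (Set.eq_univ_of_forall fun t => by
          obtain ⟨v, hv, htv⟩ := hne t
          exact Set.mem_iUnion.mpr ⟨⟨v, hv⟩, htv⟩)
    obtain ⟨f, hf, hf0, hfv⟩ := hR.exists_ord_eq hdA v.1
    have hf' : f ∈ riemannRochSpace (A - Finsupp.single v.1 1) :=
      (show (⟨f, hf⟩ : riemannRochSpace A) ∈ _ from hv.symm ▸ Submodule.mem_top)
    have := ((mem_space_iff.mp hf').resolve_left hf0) v.1
    rw [Finsupp.sub_apply, Finsupp.single_eq_same] at this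
    omega
  have ht0 : (t : F) ≠ 0 := fun h => ht P₀ (Finset.mem_insert_self _ _) (h ▸ zero_mem _)
  refine ⟨D + divOf K (t : F), ⟨t, ht0, fun v => by rw [add_sub_cancel_left, divOf_apply]⟩,
    fun v hv => ?_⟩
  have hne : v ≠ P₀ := fun h => hP₀ (h ▸ hv)
  have hAv : A v = D v := by simp [hA, Finsupp.single_eq_of_ne hne]
  have hle := ((mem_space_iff.mp t.2).resolve_left ht0) v
  by_contra hnz
  rw [Finsupp.add_apply, divOf_apply] at hnz
  refine ht v (Finset.mem_insert_of_mem hv) (mem_space_iff.mpr (Or.inr fun w => ?_))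
  have := ((mem_space_iff.mp t.2).resolve_left ht0) w
  rw [Finsupp.sub_apply, Finsupp.single_apply]
  split_ifs with h
  · subst h; omega
  · omega

theorem Setup.transGroup_eq_top (X : Setup K F) : X.transGroup = ⊤ := by
  rw [eq_top_iff]
  intro d _
  obtain ⟨⟨D, hD⟩, rfl⟩ := Pic0.mk_surjective d
  obtain ⟨Q₀, hQ₀⟩ := X.exists_regular
  rcases Nat.eq_zero_or_pos X.g with hg | hg
  · obtain ⟨E, hE, hpr⟩ := exists_effective (D := D) (by
      have := X.hR.le D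
      rw [Divisor.mem_degZero.mp hD, hg] at this
      omega)
    have h0 : E = 0 := eq_zero_of_degree_le hE
      (by rw [degree_eq_of_principal hpr, Divisor.mem_degZero.mp hD])
    have : Pic0.mk (⟨D, hD⟩ : Divisor.degZero (K := K) (F := F)) = 0 := by
      refine (QuotientAddGroup.eq_zero_iff _).mpr ?_
      rw [AddSubgroup.mem_addSubgroupOf]
      rw [h0, zero_sub] at hpr
      simpa using neg_mem hpr
    rw [this]
    exact zero_mem _
  haveI : Infinite (Place K F) := infinite_places X.f_fin.transcendental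
  let i : Fin X.g := ⟨0, hg⟩
  obtain ⟨n, Φ, hΦ, hΦ0, hreg⟩ := Setup.exists_regDen hQ₀
  obtain ⟨a, ha, hslice⟩ := X.exists_slice hΦ Q₀ i
  have ha0 : a ≠ 0 := fun h => hΦ0 (by
    have := hslice (Q₀ i)
    rwa [Function.update_eq_self, h, show valAt (Q₀ i).1 (0 : F) = 0 by
      simpa using valAt_algebraMap (Q₀ i).1 (0 : K)] at this)
  set S := insert X.inf (divOf K a).support with hS
  have hgood : ∀ v ∉ S, ∃ h : v ≠ X.inf, X.IsRegT (Function.update Q₀ i ⟨v, h⟩) := fun v hv => by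
    rw [hS, Finset.mem_insert, not_or, Finsupp.notMem_support_iff, divOf_apply] at hv
    refine ⟨hv.1, hreg _ ?_⟩
    rw [hslice, Ne, valAt_eq_zero_iff (Setup.mem_ring ha hv.1)]
    rintro (h | h)
    · exact ha0 h
    · exact h.ne' hv.2
  obtain ⟨D', hD', hD'S⟩ := exists_equiv_avoiding X.hR D S
  obtain ⟨P₀, hP₀⟩ := Infinite.exists_notMem_finset S
  have hsub : ∀ E : Divisor K F,
      E - Finsupp.single P₀ (Divisor.degree E) ∈ Divisor.degZero (K := K) (F := F) := fun E => by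
    rw [Divisor.mem_degZero, map_sub, Divisor.degree_single, deg_one]; simp
  let φ : Divisor K F →+ Pic0 K F := AddMonoidHom.mk' (fun E => Pic0.mk ⟨_, hsub E⟩) fun E E' => by
    rw [← Pic0.mk_add]
    refine congrArg Pic0.mk (Subtype.ext ?_)
    show E + E' - Finsupp.single P₀ _ = (E - _) + (E' - _)
    rw [map_add, Finsupp.single_add]
    abel
  have hsingle : ∀ v ∉ S, φ (Finsupp.single v 1) ∈ X.transGroup := fun v hv => by
    obtain ⟨hvi, hrv⟩ := hgood v hv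
    obtain ⟨hPi, hrP⟩ := hgood P₀ hP₀
    refine ⟨_, hrP, _, hrv, ?_⟩
    have hd : Finsupp.single v (1 : ℤ) - Finsupp.single P₀ 1 ∈
        Divisor.degZero (K := K) (F := F) := by
      simpa [deg_one] using hsub (Finsupp.single v 1)
    rw [← Setup.clT_update Q₀ i ⟨v, hvi⟩ ⟨P₀, hPi⟩ hd]
    refine congrArg (· + _) (congrArg Pic0.mk (Subtype.ext ?_))
    simp [deg_one]
  have hmem : φ D' ∈ X.transGroup := by
    rw [← D'.sum_single, map_finsuppSum]
    refine sum_mem fun v hv => ?_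
    have hvS : v ∉ S := fun h => Finsupp.mem_support_iff.mp hv (hD'S v h)
    show φ (Finsupp.single v (D' v)) ∈ _
    rw [← Finsupp.smul_single_one, map_zsmul]
    exact zsmul_mem (hsingle v hvS) _
  convert hmem using 1
  refine ((QuotientAddGroup.eq).mpr ?_).trans rfl
  rw [AddSubgroup.mem_addSubgroupOf]
  show -D + (D' - Finsupp.single P₀ (Divisor.degree D')) ∈ _
  rw [show Divisor.degree D' = 0 by rw [degree_eq_of_principal hD', Divisor.mem_degZero.mp hD],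
    Finsupp.single_zero, sub_zero, neg_add_eq_sub]
  exact hD'

/-- Functions on tuples from polynomials in the coordinates and further functions. -/
theorem Setup.exists_cleared_xT {ι : Type*} [Finite ι] (P : MvPolynomial (X.Coord ⊕ ι) K)
    (Φ : ι → X.Tup → K) {n : ℕ} (hΦ : ∀ j, Φ j ∈ X.PF n) :
    ∃ N m : ℕ, ∃ Ω ∈ X.PF m, ∀ Q, X.V Q ≠ 0 →
      Ω Q = X.V Q ^ N * P.eval (Sum.elim (X.xT Q) fun j => Φ j Q) := by
  obtain ⟨D, hD⟩ := X.xT_cleared
  choose Ψ hΨ hΨe using hD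
  set e := X.g * (X.g * (X.c + 1))
  obtain ⟨Ω, hΩ, hΩe⟩ := X.exists_cleared P le_rfl (n := D + (n + e) + e)
    (Sum.elim Ψ fun j => Φ j * X.V) X.V
    (fun t => by
      rcases t with t | j
      · exact Setup.PF_mono (by omega) (hΨ t)
      · exact Setup.PF_mono (by omega) (Setup.mul_mem_PF (hΦ j) X.V_mem_PF))
    (Setup.PF_mono (by omega) X.V_mem_PF)
  refine ⟨P.totalDegree, _, Ω, hΩ, fun Q hQ => ?_⟩
  rw [hΩe Q hQ]
  refine congrArg (fun f => X.V Q ^ P.totalDegree * MvPolynomial.eval f P) (funext fun t => ?_)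
  rcases t with t | j
  · simp only [Sum.elim_inl, hΨe t Q hQ]; field_simp
  · simp only [Sum.elim_inr, Pi.mul_apply]; field_simp

/-- Functions on tuples from polynomials in the coordinates. -/
theorem Setup.exists_cleared_coord (G : MvPolynomial X.Coord K) :
    ∃ N m : ℕ, ∃ Ω ∈ X.PF m, ∀ Q, X.V Q ≠ 0 → Ω Q = X.V Q ^ N * G.eval (X.xT Q) := by
  obtain ⟨N, m, Ω, hΩ, he⟩ := Setup.exists_cleared_xT (X := X) (ι := Fin 0)
    (MvPolynomial.rename Sum.inl G) (fun j => j.elim0) (n := 0) fun j => j.elim0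
  exact ⟨N, m, Ω, hΩ, fun Q hQ => by rw [he Q hQ, MvPolynomial.eval_rename]; rfl⟩

end Fermat.Agent.MCurve.MW
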