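/-
Unit A, first half: generic translations, regular denominators.
-/
import Fermat.Agent.MCurve.MW.TranslateGroup

set_option autoImplicit false
set_option linter.unusedSectionVars false

noncomputable section

namespace Fermat.Agent.MCurve.MW

open AlgebraicCurve RR
open scoped Classical

theorem aeval_fun_apply {K α σ : Type*} [CommRing K] (f : σ → α → K) (p : MvPolynomial σ K)
    (a : α) : MvPolynomial.aeval f p a = p.eval fun i => f i a := by
  induction p using MvPolynomial.induction_on with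
  | C k => simp
  | add p q hp hq => simp [hp, hq]
  | mul_X p i hp => simp [hp]

variable {K F : Type*} [Field K] [Field F] [Algebra K F] [IsAlgClosed K]
  [∀ v : Place K F, v.FiniteResidue] [HasPrincipalDivisors K F] [Nonempty (Place K F)]
  (X : Setup K F)

/-- Every translation is regular somewhere off the zeros of a function which is not zero. -/
theorem Setup.exists_reg_translate (d : Pic0 K F) {n : ℕ} {Φ : X.Tup → K} (hΦ : Φ ∈ X.PF n)
    (h0 : Φ ≠ 0) : ∃ Q : X.Tup, Φ Q ≠ 0 ∧ X.IsRegT Q ∧ X.Reg (d + X.clT Q) := by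
  refine Setup.translate_of_exists (Setup.mem_transGroup.mp ?_) hΦ h0
  rw [X.transGroup_eq_top]
  exact AddSubgroup.mem_top d

/-- A polynomial in the coordinates below a function on tuples. -/
theorem Setup.exists_good {n : ℕ} {Φ : X.Tup → K} (hΦ : Φ ∈ X.PF n) (h0 : Φ ≠ 0) :
    ∃ G : MvPolynomial X.Coord K, (∃ Q : X.Tup, X.IsRegT Q ∧ G.eval (X.xT Q) ≠ 0) ∧
      ∀ Q : X.Tup, X.IsRegT Q → G.eval (X.xT Q) ≠ 0 → Φ Q ≠ 0 := by
  obtain ⟨Q₁, hQ₁⟩ := X.exists_regular
  let U : Type _ := {Q : X.Tup // X.IsRegT Q}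
  let xf : X.Coord → (U → K) := fun i Q => X.xT Q.1 i
  let R := Algebra.adjoin K (Set.range xf)
  have hx : ∀ i, xf i ∈ R := fun i => Algebra.subset_adjoin ⟨i, rfl⟩
  have hfv : ∀ i, IsIntegral R (fun Q : U => X.fv Q.1 i) := fun i => by
    refine ⟨Polynomial.X ^ X.g +
      ∑ j : Fin X.g, Polynomial.C (⟨xf (.inl j), hx _⟩ : R) * Polynomial.X ^ (j : ℕ),
      Polynomial.monic_X_pow_add (lt_of_le_of_lt (Polynomial.degree_sum_le _ _)
        ((Finset.sup_lt_iff (WithBot.bot_lt_coe X.g)).mpr fun j _ =>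
          lt_of_le_of_lt (Polynomial.degree_C_mul_X_pow_le _ _) (Nat.cast_lt.mpr j.2))), ?_⟩
    rw [Polynomial.eval₂_add, Polynomial.eval₂_X_pow, Polynomial.eval₂_finsetSum]
    funext Q
    have hp : (∏ l, (Polynomial.X - Polynomial.C (X.fv Q.1 l))).eval (X.fv Q.1 i) = 0 := by
      rw [Polynomial.eval_prod]
      exact Finset.prod_eq_zero (Finset.mem_univ i) (by simp)
    rw [(Polynomial.monic_prod_of_monic _ _ fun l _ => Polynomial.monic_X_sub_C _).as_sum,
      Polynomial.natDegree_finsetProd_X_sub_C_eq_card, Finset.card_univ, Fintype.card_fin,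
      Polynomial.eval_add, Polynomial.eval_pow, Polynomial.eval_X, Polynomial.eval_finsetSum,
      ← Fin.sum_univ_eq_sum_range (fun k => Polynomial.eval (X.fv Q.1 i)
        (Polynomial.C (Polynomial.coeff _ k) * Polynomial.X ^ k)) X.g] at hp
    simp only [Pi.add_apply, Pi.pow_apply, Pi.zero_apply, Finset.sum_apply, Polynomial.eval₂_mul,
      Polynomial.eval₂_C, Polynomial.eval₂_X_pow, Pi.mul_apply]
    simpa [xf, Setup.xT] using hp
  have hgen : ∀ i k, IsIntegral R (fun Q : U => valAt (Q.1 i).1 (X.gen k)) := fun i k => by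
    have e : (fun Q : U => valAt (Q.1 i).1 (X.gen k)) = ∑ j : Fin X.g,
        algebraMap R (U → K) ⟨xf (.inr (k, j)), hx _⟩ * (fun Q : U => X.fv Q.1 i) ^ (j : ℕ) := by
      funext Q
      have hinj := (Setup.V_ne_zero_iff.mp Q.2.1).injOn (s := ↑(Finset.univ : Finset (Fin X.g)))
      have hd := Lagrange.degree_interpolate_lt (fun l => valAt (Q.1 l).1 (X.gen k))
        (s := Finset.univ) hinj
      rw [Finset.card_univ, Fintype.card_fin] at hd
      have he := Lagrange.eval_interpolate_at_node (fun l => valAt (Q.1 l).1 (X.gen k))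
        (s := Finset.univ) hinj (Finset.mem_univ i)
      rw [Finset.sum_apply]
      refine he.symm.trans ?_
      rcases eq_or_ne (Lagrange.interpolate Finset.univ (X.fv Q.1)
        fun l => valAt (Q.1 l).1 (X.gen k)) 0 with h | h
      · rw [h, Polynomial.eval_zero, eq_comm]
        exact Finset.sum_eq_zero fun j _ => by
          show X.xT Q.1 (.inr (k, j)) * _ = 0
          simp [Setup.xT, h]
      · rw [Polynomial.eval_eq_sum_range' ((Polynomial.natDegree_lt_iff_degree_lt h).mpr hd),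
          ← Fin.sum_univ_eq_sum_range
            (fun j => Polynomial.coeff _ j * X.fv Q.1 i ^ j) X.g]
        rfl
    rw [e]
    exact IsIntegral.sum _ fun j _ => isIntegral_algebraMap.mul ((hfv i).pow _)
  have hint : IsIntegral R (fun Q : U => Φ Q.1) := by
    obtain ⟨p, -, hp⟩ := X.exists_eval_poly hΦ
    have e : (fun Q : U => Φ Q.1) =
        MvPolynomial.aeval (fun (ik : Fin X.g × Fin (Module.finrank K (X.L X.n₁))) (Q : U) => valAt (Q.1 ik.1).1 (X.gen ik.2)) p :=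
      funext fun Q => by rw [aeval_fun_apply]; exact hp Q.1
    have hle : Algebra.adjoin K (Set.range fun (ik : Fin X.g × Fin (Module.finrank K (X.L X.n₁))) (Q : U) => valAt (Q.1 ik.1).1 (X.gen ik.2)) ≤
        (integralClosure R (U → K)).restrictScalars K := Algebra.adjoin_le (by
      rintro _ ⟨ik, rfl⟩
      exact hgen ik.1 ik.2)
    rw [e]
    refine hle ?_
    rw [Algebra.adjoin_range_eq_range_aeval]
    exact ⟨p, rfl⟩
  obtain ⟨p, hpm, hp⟩ := hint
  have hG : ∀ j, ∃ G : MvPolynomial X.Coord K, ∀ Q : U,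
      ((p.coeff j : R) : U → K) Q = G.eval (X.xT Q.1) := fun j => by
    obtain ⟨G, hG⟩ :=
      (SetLike.ext_iff.mp (Algebra.adjoin_range_eq_range_aeval K xf) _).mp (p.coeff j).2
    exact ⟨G, fun Q => by rw [← hG]; exact aeval_fun_apply _ _ _⟩
  choose G hG using hG
  have hex : ∃ k, ∃ Q : U, (G k).eval (X.xT Q.1) ≠ 0 :=
    ⟨p.natDegree, ⟨Q₁, hQ₁⟩, by rw [← hG]; simp [hpm.coeff_natDegree]⟩
  set k := Nat.find hex
  obtain ⟨⟨Q₂, hQ₂⟩, hk⟩ := Nat.find_spec hex
  have hlt : ∀ j < k, ∀ Q : U, (G j).eval (X.xT Q.1) = 0 := fun j hj Q => by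
    by_contra h
    exact Nat.find_min hex hj ⟨Q, h⟩
  have hkd : k ≤ p.natDegree :=
    Nat.find_min' hex ⟨⟨Q₁, hQ₁⟩, by rw [← hG]; simp [hpm.coeff_natDegree]⟩
  refine ⟨G k, ⟨Q₂, hQ₂, hk⟩, fun Q hQ hGQ hΦQ => hGQ ?_⟩
  let P : MvPolynomial (X.Coord ⊕ Fin 1) K := ∑ j ∈ Finset.range (p.natDegree + 1),
    MvPolynomial.rename Sum.inl (G j) * MvPolynomial.X (Sum.inr 0) ^ (j - k)
  have hPe : ∀ (T : U), P.eval (Sum.elim (X.xT T.1) fun _ => Φ T.1) =
      ∑ j ∈ Finset.range (p.natDegree + 1), (G j).eval (X.xT T.1) * Φ T.1 ^ (j - k) := fun T => by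
    simp [P, MvPolynomial.eval_rename]
  obtain ⟨N, M, Ω, hΩ, hΩe⟩ := Setup.exists_cleared_xT (X := X) P (fun _ => Φ) (fun _ => hΦ)
  have hker : ∀ T : U, Φ T.1 ^ k * P.eval (Sum.elim (X.xT T.1) fun _ => Φ T.1) = 0 := fun T => by
    have h := congrFun hp T
    rw [Polynomial.eval₂_eq_sum_range, Finset.sum_apply, Pi.zero_apply] at h
    rw [hPe, Finset.mul_sum, ← h]
    refine Finset.sum_congr rfl fun j _ => ?_
    show _ = ((p.coeff j : R) : U → K) T * Φ T.1 ^ j
    rw [hG]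
    rcases lt_or_ge j k with hj | hj
    · rw [hlt j hj T]; ring
    · rw [mul_left_comm, ← pow_add, Nat.add_sub_cancel' hj]
  obtain ⟨n', Φ', hΦ', hΦ'Q, hreg⟩ := Setup.exists_regDen hQ
  have hΩ0 : Ω = 0 := by
    by_contra hne
    have hpowall : ∀ j : ℕ, Φ ^ j ≠ 0 := fun j => by
      induction j with
      | zero => exact fun h => one_ne_zero (congrFun ((pow_zero Φ).symm.trans h) Q : (1 : K) = 0)
      | succ j ih => rw [pow_succ]; exact X.mul_ne_zero_PF (Setup.pow_mem_PF hΦ j) hΦ ih h0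
    have hpow := hpowall k
    refine X.mul_ne_zero_PF (Setup.mul_mem_PF (Setup.pow_mem_PF hΦ k) hΩ) hΦ'
      (X.mul_ne_zero_PF (Setup.pow_mem_PF hΦ k) hΩ hpow hne) (Function.ne_iff.mpr ⟨Q, hΦ'Q⟩)
      (funext fun T => ?_)
    rcases eq_or_ne (Φ' T) 0 with hT | hT
    · simp [hT]
    · rw [Pi.mul_apply, Pi.mul_apply, Pi.pow_apply, hΩe T (hreg T hT).1, mul_left_comm,
        hker ⟨T, hreg T hT⟩, mul_zero, zero_mul, Pi.zero_apply]
  have hz := hΩe Q hQ.1
  rw [hΩ0, Pi.zero_apply, eq_comm, mul_eq_zero] at hz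
  have hz' := hz.resolve_left (pow_ne_zero N hQ.1)
  rw [hPe ⟨Q, hQ⟩, Finset.sum_eq_single k] at hz'
  · simpa using hz'
  · intro j _ hj
    rcases lt_or_gt_of_ne hj with hj | hj
    · rw [hlt j hj ⟨Q, hQ⟩, zero_mul]
    · rw [show Φ Q = 0 from hΦQ, zero_pow (by omega), mul_zero]
  · intro h
    exact absurd (Finset.mem_range.mpr (by omega)) h

/-- Some formula for a translation meets a given open set of classes. -/
theorem Setup.exists_formula_good {d : Pic0 K F} {D : ℕ} (Fo : X.Formulas d 1 D)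
    (G : MvPolynomial X.Coord K) (hG : ∃ Q : X.Tup, X.IsRegT Q ∧ G.eval (X.xT Q) ≠ 0) :
    ∃ (s : Fo.ι) (Q : X.Tup), Fo.den s Q ≠ 0 ∧
      G.eval (fun i => Fo.num s i Q / Fo.den s Q) ≠ 0 := by
  obtain ⟨Q₁, hQ₁, hG₁⟩ := hG
  obtain ⟨N, M, Ω, hΩ, hΩe⟩ := Setup.exists_cleared_coord (X := X) G
  have hΩ₁ : Ω Q₁ ≠ 0 := by rw [hΩe Q₁ hQ₁.1]; exact mul_ne_zero (pow_ne_zero N hQ₁.1) hG₁
  obtain ⟨Q', hQ', hreg', Q, hQ, hcl⟩ :=
    X.exists_reg_translate (-d) hΩ (Function.ne_iff.mpr ⟨Q₁, hΩ₁⟩)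
  have he : d + 1 • X.clT Q = X.clT Q' := by rw [one_nsmul, hcl, add_neg_cancel_left]
  obtain ⟨s, hs⟩ := Fo.complete Q hQ.1 (by rw [he]; exact hreg'.reg)
  refine ⟨s, Q, hs, ?_⟩
  have hnum : (fun i => Fo.num s i Q / Fo.den s Q) = X.xT Q' :=
    funext fun i => by rw [← (Fo.sound s Q hs).2.2 i, he, Setup.xc_clT hreg']
  rw [hnum]
  intro h0
  exact hQ' (by rw [hΩe Q' hreg'.1, h0, mul_zero])

end Fermat.Agent.MCurve.MW
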