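/-
Unit A, second half: independent coordinates, divisibility.
-/
import Fermat.Agent.MCurve.MW.Translate
import Fermat.Agent.MCurve.MW.OpenAlg
import Mathlib.Combinatorics.Matroid.Rank.ENat
import Mathlib.Algebra.MvPolynomial.Funext

set_option autoImplicit false
set_option linter.unusedSectionVars false
set_option linter.style.haveILetI false
set_option linter.unusedVariables false

noncomputable section

namespace Fermat.Agent.MCurve.MW

open AlgebraicCurve RR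
open scoped Classical

variable {K F : Type*} [Field K] [Field F] [Algebra K F] [IsAlgClosed K]
  [∀ v : Place K F, v.FiniteResidue] [HasPrincipalDivisors K F] [Nonempty (Place K F)]
  (X : Setup K F)

theorem Setup.IsRegT.divT_eq {Q Q' : X.Tup} (h : X.IsRegT Q) (e : X.clT Q = X.clT Q') :
    X.divT Q' = X.divT Q :=
  effective_unique h.2 (X.divT_nonneg Q') (X.divT_nonneg Q) ((X.clT_eq_iff).mp e) (by simp)

/-- A function vanishing off the regular tuples. -/
theorem Setup.exists_regden : ∃ (n : ℕ), ∃ ρ ∈ X.PF n, ρ ≠ 0 ∧ ∀ Q, ρ Q ≠ 0 → X.IsRegT Q := by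
  obtain ⟨Q₀, hQ₀⟩ := X.exists_regular
  obtain ⟨κ, hκ⟩ := X.exists_formulas
  obtain ⟨Fo⟩ := hκ 0 1
  obtain ⟨s, hs⟩ := Fo.complete Q₀ hQ₀.1 (by rw [zero_add, one_smul]; exact hQ₀.reg)
  refine ⟨_, _, Fo.den_mem s, fun h => hs (congrFun h Q₀), fun Q hQ => ?_⟩
  obtain ⟨hV, hreg, -⟩ := Fo.sound s Q hQ
  rw [zero_add, one_smul] at hreg
  obtain ⟨Q', hQ', he⟩ := hreg
  exact ⟨hV, by rw [Setup.IsRegT.divT_eq X hQ' he]; exact hQ'.2⟩

theorem Setup.finite_regT_class (a : Pic0 K F) :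
    {Q : X.Tup | X.IsRegT Q ∧ X.clT Q = a}.Finite := by
  rcases Set.eq_empty_or_nonempty {Q : X.Tup | X.IsRegT Q ∧ X.clT Q = a} with h | ⟨Q₀, hQ₀, rfl⟩
  · rw [h]; exact Set.finite_empty
  have hfin : (Subtype.val ⁻¹' ((X.divT Q₀).support : Set (Place K F)) : Set X.Pt).Finite :=
    (X.divT Q₀).support.finite_toSet.preimage Subtype.val_injective.injOn
  refine (Set.Finite.pi' fun _ : Fin X.g => hfin).subset fun Q hQ i => ?_
  show (Q i).1 ∈ (X.divT Q₀).support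
  rw [Finsupp.mem_support_iff, ← Setup.IsRegT.divT_eq X hQ₀ hQ.2.symm, X.divT_apply]
  exact_mod_cast (Finset.card_pos.mpr ⟨i, by simp⟩).ne'

theorem Setup.finite_fibre {d : Pic0 K F} {m D : ℕ} [Finite {t : Pic0 K F // m • t = 0}]
    (Fo : X.Formulas d m D) (s : Fo.ι) (c : X.Coord → K) :
    {Q : X.Tup | X.IsRegT Q ∧ Fo.den s Q ≠ 0 ∧ ∀ i, Fo.num s i Q / Fo.den s Q = c i}.Finite := by
  set T := {Q : X.Tup | X.IsRegT Q ∧ Fo.den s Q ≠ 0 ∧ ∀ i, Fo.num s i Q / Fo.den s Q = c i}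
  rcases Set.eq_empty_or_nonempty T with h | ⟨Q₀, -, hd₀, hc₀⟩
  · rw [h]; exact Set.finite_empty
  have hA : Set.Finite {a : Pic0 K F | m • (a - X.clT Q₀) = 0} :=
    (Set.finite_coe_iff.mp ‹Finite {t : Pic0 K F // m • t = 0}› :
      Set.Finite {t : Pic0 K F | m • t = 0}).preimage
      (f := fun a => a - X.clT Q₀) (sub_left_injective).injOn
  refine (hA.biUnion fun a _ => X.finite_regT_class a).subset fun Q hQ => ?_
  obtain ⟨hQr, hd, hc⟩ := hQ
  have e : d + m • X.clT Q = d + m • X.clT Q₀ :=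
    X.xc_injective (Fo.sound s Q hd).2.1 (Fo.sound s Q₀ hd₀).2.1 (funext fun i => by
      rw [(Fo.sound s Q hd).2.2, (Fo.sound s Q₀ hd₀).2.2, hc, hc₀])
  refine Set.mem_biUnion (x := X.clT Q) ?_ ⟨hQr, rfl⟩
  show m • (X.clT Q - X.clT Q₀) = 0
  rw [nsmul_sub, add_left_cancel e, sub_self]

theorem Setup.exists_fv_eq (a : K) : ∃ P : X.Pt, valAt P.1 X.f = a := by
  have htr : Transcendental K (X.f - algebraMap K F a)⁻¹ := fun h => by
    have h' : IsAlgebraic K (X.f - algebraMap K F a) := IsAlgebraic.inv_iff.mp h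
    exact X.f_fin.transcendental (by simpa using h'.add (isAlgebraic_algebraMap (R := K) (A := F) a))
  obtain ⟨v, hv⟩ := exists_pole htr
  have hv' : 0 < v.ord (X.f - algebraMap K F a) := by
    rw [v.ord_inv] at hv; omega
  have hmem : X.f ∈ v.toValuationSubring := by
    have h0 : X.f - algebraMap K F a ≠ 0 := fun h => by simp [h] at hv'
    have := add_mem ((mem_iff_ord_nonneg v h0).mpr hv'.le) (v.algebraMap_mem' a)
    simpa using this
  refine ⟨⟨v, fun h => ?_⟩, ?_⟩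
  · have := (mem_iff_ord_nonneg v (fun h0 : X.f = 0 => X.f_fin.transcendental (by rw [h0]; exact isAlgebraic_zero))).mp hmem
    rw [h, X.f_inf] at this
    omega
  · have h1 : valAt v (X.f - algebraMap K F a) = 0 :=
      (valAt_eq_zero_iff (sub_mem hmem (v.algebraMap_mem' a))).mpr (Or.inr hv')
    have h2 := valAt_add (sub_mem hmem (v.algebraMap_mem' a)) (v.algebraMap_mem' a)
    rwa [sub_add_cancel, h1, valAt_algebraMap, zero_add] at h2

theorem Setup.exists_polyFv (p : MvPolynomial (Fin X.g) K) :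
    ∃ n, (fun Q => p.eval (X.fv Q)) ∈ X.PF n := by
  induction p using MvPolynomial.induction_on with
  | C a => exact ⟨0, by simpa using X.const_mem_PF 0 a⟩
  | add p q hp hq =>
    obtain ⟨n, hn⟩ := hp
    obtain ⟨k, hk⟩ := hq
    refine ⟨n + k, ?_⟩
    simp only [map_add]
    exact add_mem (Setup.PF_mono (Nat.le_add_right _ _) hn)
      (Setup.PF_mono (Nat.le_add_left _ _) hk)
  | mul_X p i hp =>
    obtain ⟨n, hn⟩ := hp
    refine ⟨n + (X.c + 1), ?_⟩
    simp only [map_mul, MvPolynomial.eval_X]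
    exact Setup.mul_mem_PF hn (X.fv_mem_PF i)

variable {X} in
theorem Setup.aeval_apply {δ : X.Tup → K} {ι : Type*} (y : ι → X.ringOn δ)
    (p : MvPolynomial ι K) (Q : X.Opn δ) :
    (MvPolynomial.aeval y p).1 Q = p.eval fun i => (y i).1 Q := by
  rw [← Setup.evalOn_apply, MvPolynomial.comp_aeval_apply, MvPolynomial.aeval_eq_eval]
  rfl

/-- The values of the coordinate as functions on the open set. -/
def Setup.fvOn (δ : X.Tup → K) (i : Fin X.g) : X.ringOn δ :=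
  ⟨X.res δ fun Q => X.fv Q i, X.res_mem_ringOn (X.fv_mem_PF i)⟩

theorem Setup.algebraicIndependent_fvOn {n : ℕ} {δ : X.Tup → K} (hδ : δ ∈ X.PF n) (hδ0 : δ ≠ 0) :
    AlgebraicIndependent K (X.fvOn δ) := by
  refine algebraicIndependent_iff.mpr fun p hp => MvPolynomial.funext fun a => ?_
  obtain ⟨k, hk⟩ := X.exists_polyFv p
  have hz := X.eq_zero_of_res hδ hδ0 hk fun Q => by
    have := congrFun (congrArg Subtype.val hp) Q
    rw [Setup.aeval_apply] at this
    exact this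
  choose P hP using fun i => X.exists_fv_eq (a i)
  rw [map_zero, ← show X.fv P = a from funext hP]
  exact congrFun hz P

/-- The coordinates of `d + m [Q]` as functions on an open set. -/
theorem Setup.exists_coordOn {d : Pic0 K F} {m D : ℕ} (Fo : X.Formulas d m D) (s : Fo.ι)
    {n : ℕ} {ρ : X.Tup → K} (hρ : ρ ∈ X.PF n) :
    ∃ y : X.Coord → X.ringOn (Fo.den s * ρ),
      ∀ (i : X.Coord) (Q : X.Opn (Fo.den s * ρ)), (y i).1 Q = Fo.num s i Q.1 / Fo.den s Q.1 := by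
  refine ⟨fun i => ⟨X.res _ (Fo.num s i * ρ) * fun Q => ((Fo.den s * ρ) Q.1)⁻¹,
    mul_mem (X.res_mem_ringOn (Setup.mul_mem_PF (Fo.num_mem s i) hρ)) X.inv_mem_ringOn⟩,
    fun i Q => ?_⟩
  have h2 : ρ Q.1 ≠ 0 := fun h => Q.2 (by simp [h])
  simp only [Pi.mul_apply, Setup.res_apply]
  rw [mul_inv, div_eq_mul_inv]
  field_simp

theorem Setup.exists_indep_aux {d : Pic0 K F} {m D : ℕ} [Finite {t : Pic0 K F // m • t = 0}]
    (Fo : X.Formulas d m D) (s : Fo.ι) {n : ℕ} {ρ : X.Tup → K} (hρ : ρ ∈ X.PF n)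
    (hreg : ∀ Q, ρ Q ≠ 0 → X.IsRegT Q) (hδ0 : Fo.den s * ρ ≠ 0)
    (y : X.Coord → X.ringOn (Fo.den s * ρ))
    (hy : ∀ (i : X.Coord) (Q : X.Opn (Fo.den s * ρ)), (y i).1 Q = Fo.num s i Q.1 / Fo.den s Q.1) :
    ∃ z : Fin X.g ↪ X.Coord, AlgebraicIndependent K (y ∘ z) := by
  have hδ : (Fo.den s * ρ) ∈ X.PF (D + n) := Setup.mul_mem_PF (Fo.den_mem s) hρ
  haveI := X.isDomain_ringOn hδ hδ0
  haveI : FaithfulSMul K (X.ringOn (Fo.den s * ρ)) :=
    (faithfulSMul_iff_algebraMap_injective _ _).mpr (algebraMap K (X.ringOn (Fo.den s * ρ))).injective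
  have halg : ∀ i, IsAlgebraic (Algebra.adjoin K (Set.range y)) (X.fvOn (Fo.den s * ρ) i) := fun i => by
    refine X.algebraic_of_finite_fibres hδ hδ0 y _ fun c => Set.Finite.image _ ?_
    refine ((X.finite_fibre Fo s c).preimage Subtype.val_injective.injOn).subset fun Q hQ => ?_
    exact ⟨hreg _ fun h => Q.2 (by simp [h]), fun h => Q.2 (by simp [h]),
      fun j => (hy j Q).symm.trans (hQ j)⟩
  set M := AlgebraicIndependent.matroid K (X.ringOn (Fo.den s * ρ))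
  have hfv := X.algebraicIndependent_fvOn hδ hδ0
  have hF : M.Indep (Set.range (X.fvOn (Fo.den s * ρ))) :=
    AlgebraicIndependent.matroid_indep_iff.mpr hfv.to_subtype_range
  have hsub : Set.range (X.fvOn (Fo.den s * ρ)) ⊆ M.closure (Set.range y) := by
    rintro _ ⟨i, rfl⟩
    rw [AlgebraicIndependent.matroid_closure_eq]
    exact halg i
  obtain ⟨I, hI⟩ := M.exists_isBasis' (Set.range y)
  have hle : (X.g : ℕ∞) ≤ I.encard := by
    rw [hI.encard_eq_eRk, ← M.eRk_closure_eq, ← show Set.encard (Set.univ : Set (Fin X.g)) = X.g by simp,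
      ← hfv.injective.encard_image, Set.image_univ]
    exact hF.encard_le_eRk_of_subset hsub
  obtain ⟨J, hJI, hJ⟩ := Set.exists_subset_encard_eq hle
  obtain ⟨e, he⟩ : ∃ e : Fin X.g → X.ringOn (Fo.den s * ρ), Function.Injective e ∧ Set.range e = J := by
    have hfin : J.Finite := Set.finite_of_encard_eq_coe hJ
    obtain ⟨k, e, heJ⟩ := hfin.fin_embedding
    have hk : k = X.g := by
      have := e.injective.encard_image Set.univ
      rw [Set.image_univ, heJ, hJ, Set.encard_univ, ENat.card_eq_coe_natCard, Nat.card_fin] at this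
      exact_mod_cast this.symm
    subst hk
    exact ⟨e, e.injective, heJ⟩
  have hJy : ∀ j, ∃ i, y i = e j := fun j => hI.subset (hJI (he.2 ▸ Set.mem_range_self j))
  choose z hz using hJy
  refine ⟨⟨z, fun a b h => he.1 (by rw [← hz, ← hz, h])⟩, ?_⟩
  rw [show y ∘ (⟨z, fun a b h => he.1 (by rw [← hz, ← hz, h])⟩ : Fin X.g ↪ X.Coord) = e from
    funext hz]
  refine (algebraicIndependent_subtype_range he.1).mp ?_
  rw [he.2]
  exact AlgebraicIndependent.matroid_indep_iff.mp (hI.indep.subset hJI)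

/-- With finite `m`-torsion, `g` of the coordinates of `d + m [Q]` are independent. -/
theorem Setup.exists_indep {d : Pic0 K F} {m D : ℕ} (hm : 0 < m)
    [Finite {t : Pic0 K F // m • t = 0}] (Fo : X.Formulas d m D) (s : Fo.ι)
    (hs : ∃ Q, Fo.den s Q ≠ 0) :
    ∃ z : Fin X.g ↪ X.Coord, ∀ p : MvPolynomial (Fin X.g) K, p ≠ 0 →
      ∃ Q, Fo.den s Q ≠ 0 ∧ p.eval (fun j => Fo.num s (z j) Q / Fo.den s Q) ≠ 0 := by
  obtain ⟨n, ρ, hρ, hρ0, hreg⟩ := X.exists_regden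
  have hden : Fo.den s ≠ 0 := fun h => by
    obtain ⟨Q, hQ⟩ := hs
    exact hQ (congrFun h Q)
  have hδ0 := X.mul_ne_zero_PF (Fo.den_mem s) hρ hden hρ0
  obtain ⟨y, hy⟩ := X.exists_coordOn Fo s hρ
  obtain ⟨z, hz⟩ := X.exists_indep_aux Fo s hρ hreg hδ0 y hy
  refine ⟨z, fun p hp => ?_⟩
  by_contra hall
  push Not at hall
  refine hp (algebraicIndependent_iff.mp hz p (Subtype.ext (funext fun Q => ?_)))
  rw [Setup.aeval_apply]
  simp only [Function.comp_apply, hy]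
  exact hall Q.1 fun h => Q.2 (by simp [h])

/-- A family of `g + 1` coordinates on the regular tuples gives a relation. -/
theorem Setup.exists_alg_relation {δ : X.Tup → K} {n : ℕ} (hδ : δ ∈ X.PF n) (hδ0 : δ ≠ 0)
    (f : Fin X.g → X.ringOn δ) {a : X.ringOn δ} (ha : a ≠ 0) :
    ∃ q : Polynomial (MvPolynomial (Fin X.g) K), q.coeff 0 ≠ 0 ∧
      q.eval₂ (MvPolynomial.aeval f).toRingHom a = 0 := by
  haveI := X.isDomain_ringOn hδ hδ0
  have hdep := X.not_algebraicIndependent hδ (Fin.cons a f)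
  obtain ⟨p, hp, hp0⟩ : ∃ p, MvPolynomial.aeval (Fin.cons a f : Fin (X.g + 1) → X.ringOn δ) p = 0 ∧
      p ≠ 0 := by
    by_contra hall
    push Not at hall
    exact hdep (algebraicIndependent_iff.mpr hall)
  have key : ∀ p : MvPolynomial (Fin (X.g + 1)) K,
      (MvPolynomial.finSuccEquiv K X.g p).eval₂ (MvPolynomial.aeval f).toRingHom a =
        MvPolynomial.aeval (Fin.cons a f : Fin (X.g + 1) → X.ringOn δ) p := fun p => by
    induction p using MvPolynomial.induction_on with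
    | C r => simp [MvPolynomial.finSuccEquiv_apply]
    | add p q hp hq => rw [map_add, map_add, Polynomial.eval₂_add, hp, hq]
    | mul_X p i hp =>
      rw [map_mul, map_mul, Polynomial.eval₂_mul, hp, MvPolynomial.aeval_X]
      congr 1
      induction i using Fin.cases with
      | zero => simp [MvPolynomial.finSuccEquiv_X_zero]
      | succ j => simp [MvPolynomial.finSuccEquiv_X_succ]
  have hq0 : MvPolynomial.finSuccEquiv K X.g p ≠ 0 := fun h =>
    hp0 ((MvPolynomial.finSuccEquiv K X.g).map_eq_zero_iff.mp h)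
  obtain ⟨q, hq, hnd⟩ := (MvPolynomial.finSuccEquiv K X.g p).exists_eq_pow_rootMultiplicity_mul_and_not_dvd hq0 0
  rw [Polynomial.C_0, sub_zero] at hq hnd
  have h := key p
  rw [hp, hq, Polynomial.eval₂_mul, Polynomial.eval₂_pow, Polynomial.eval₂_X, mul_eq_zero] at h
  exact ⟨q, fun h0 => hnd (Polynomial.X_dvd_iff.mpr h0), h.resolve_left (pow_ne_zero _ ha)⟩

include X in
/-- With finite `m`-torsion, the class group is `m`-divisible. -/
theorem Setup.divisible {m : ℕ} (hm : 0 < m) [Finite {t : Pic0 K F // m • t = 0}] :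
    Function.Surjective fun u : Pic0 K F => m • u := by
  obtain ⟨Q₀, hQ₀⟩ := X.exists_regular
  obtain ⟨κ, hκ⟩ := X.exists_formulas
  set d := X.clT Q₀ - m • X.clT Q₀ with hd
  obtain ⟨Fo⟩ := hκ d m
  obtain ⟨s, hs⟩ := Fo.complete Q₀ hQ₀.1 (by rw [hd, sub_add_cancel]; exact hQ₀.reg)
  obtain ⟨n, ρ, hρ, hρ0, hreg⟩ := X.exists_regden
  have hV0 : X.V ≠ 0 := fun h => hQ₀.1 (congrFun h Q₀)
  -- the side of the formulas
  have hδ0 := X.mul_ne_zero_PF (Fo.den_mem s) hρ (fun h => hs (congrFun h Q₀)) hρ0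
  have hδ := Setup.mul_mem_PF (Fo.den_mem s) hρ
  obtain ⟨y, hy⟩ := X.exists_coordOn Fo s hρ
  obtain ⟨z, hz⟩ := X.exists_indep_aux Fo s hρ hreg hδ0 y hy
  obtain ⟨H, hH, hlift⟩ := X.exists_lift hδ hδ0 y
  -- the side of the coordinates
  obtain ⟨D₀, hD₀⟩ := X.xT_cleared
  choose Φ hΦ hΦe using hD₀
  have hε := Setup.mul_mem_PF hρ X.V_mem_PF
  have hε0 := X.mul_ne_zero_PF hρ X.V_mem_PF hρ0 hV0
  let x : X.Coord → X.ringOn (ρ * X.V) := fun i =>
    ⟨X.res _ (Φ i * ρ) * fun Q => ((ρ * X.V) Q.1)⁻¹,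
      mul_mem (X.res_mem_ringOn (Setup.mul_mem_PF (hΦ i) hρ)) X.inv_mem_ringOn⟩
  have hx : ∀ (i : X.Coord) (Q : X.Opn (ρ * X.V)), (x i).1 Q = X.xT Q.1 i := fun i Q => by
    have h1 : ρ Q.1 ≠ 0 := fun h => Q.2 (by simp [h])
    have h2 : X.V Q.1 ≠ 0 := fun h => Q.2 (by simp [h])
    simp only [x, Pi.mul_apply, Setup.res_apply, hΦe i Q.1 h2]
    field_simp
  haveI := X.isDomain_ringOn hδ hδ0
  haveI := X.isDomain_ringOn hε hε0
  -- clearing
  set D₁ := D₀ + X.g * (X.g * (X.c + 1)) with hD₁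
  have hclear : ∀ p : MvPolynomial X.Coord K, ∃ Ψ ∈ X.PF (p.totalDegree * D₁),
      ∀ Q, X.V Q ≠ 0 → Ψ Q = X.V Q ^ p.totalDegree * p.eval (X.xT Q) := fun p => by
    obtain ⟨Ψ, hΨ, hΨe⟩ := X.exists_cleared p le_rfl Φ X.V
      (fun i => Setup.PF_mono (Nat.le_add_right _ _) (hΦ i))
      (Setup.PF_mono (Nat.le_add_left _ _) X.V_mem_PF)
    refine ⟨Ψ, hΨ, fun Q hQ => ?_⟩
    rw [hΨe Q hQ]
    congr 1
    refine congrArg (fun w => MvPolynomial.eval w p) (funext fun i => ?_)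
    rw [hΦe i Q hQ]
    field_simp
  have hkill : ∀ p : MvPolynomial X.Coord K, MvPolynomial.aeval x p = 0 →
      ∀ Q, X.V Q ≠ 0 → p.eval (X.xT Q) = 0 := fun p hp Q hQ => by
    obtain ⟨Ψ, hΨ, hΨe⟩ := hclear p
    have hz := X.eq_zero_of_res hε hε0 hΨ fun Q => by
      rw [hΨe Q.1 fun h => Q.2 (by simp [h])]
      have h1 := congrFun (congrArg Subtype.val hp) Q
      rw [Setup.aeval_apply] at h1
      simp only [hx] at h1
      rw [show MvPolynomial.eval (X.xT Q.1) p = 0 from h1, mul_zero]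
    have h2 := congrFun hz Q
    rw [hΨe Q hQ, Pi.zero_apply, mul_eq_zero] at h2
    exact h2.resolve_left (pow_ne_zero _ hQ)
  -- the two ideals agree
  have hxy : ∀ p : MvPolynomial X.Coord K, MvPolynomial.aeval x p = 0 →
      MvPolynomial.aeval y p = 0 := fun p hp => by
    refine Subtype.ext (funext fun Q => ?_)
    rw [Setup.aeval_apply]
    simp only [hy]
    obtain ⟨-, hR, he⟩ := Fo.sound s Q.1 fun h => Q.2 (by simp [h])
    obtain ⟨Q', hQ', hcl⟩ := hR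
    simp only [← he, ← hcl, X.xc_clT hQ']
    exact hkill p hp Q' hQ'.1
  have hyx : ∀ p : MvPolynomial X.Coord K, MvPolynomial.aeval y p = 0 →
      MvPolynomial.aeval x p = 0 := fun p hp => by
    by_contra hne
    obtain ⟨q, hq0, hq⟩ := X.exists_alg_relation hε hε0 (x ∘ z) hne
    have hE : ∀ (w : X.Coord → X.ringOn (ρ * X.V)),
        MvPolynomial.aeval w (q.eval₂ (MvPolynomial.rename z).toRingHom p) =
          q.eval₂ (MvPolynomial.aeval (w ∘ z)).toRingHom (MvPolynomial.aeval w p) := fun w => by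
      rw [← AlgHom.coe_toRingHom, Polynomial.hom_eval₂]
      refine congrArg (fun r => q.eval₂ r _) (RingHom.ext fun r => ?_)
      exact MvPolynomial.aeval_rename (z : Fin X.g → X.Coord) w r
    have hy0 := hxy _ ((hE x).trans hq)
    rw [← AlgHom.coe_toRingHom, Polynomial.hom_eval₂, AlgHom.coe_toRingHom, hp,
      Polynomial.eval₂_at_zero] at hy0
    refine hq0 (algebraicIndependent_iff.mp hz _ ?_)
    simpa [MvPolynomial.aeval_rename] using hy0
  have hHx : MvPolynomial.aeval x H ≠ 0 := fun h => hH (hxy H h)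
  -- the classes in the image
  have himg : ∀ Q : X.Tup, X.IsRegT Q → H.eval (X.xT Q) ≠ 0 → ∃ a, d + m • a = X.clT Q := by
    intro Q hQ hHQ
    obtain ⟨Q', hQ'⟩ := hlift (X.xT Q) (fun r hr => hkill r (hyx r hr) Q hQ.1) hHQ
    obtain ⟨-, hR, he⟩ := Fo.sound s Q'.1 fun h => Q'.2 (by simp [h])
    exact ⟨X.clT Q'.1, X.xc_injective hR hQ.reg (funext fun i => by
      rw [he, ← hy, hQ' i, X.xc_clT hQ])⟩
  obtain ⟨Q₁, hQ₁⟩ := Function.ne_iff.mp (fun h => hHx (Subtype.ext h) :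
    (MvPolynomial.aeval x H).1 ≠ 0)
  rw [Setup.aeval_apply] at hQ₁
  simp only [hx] at hQ₁
  have hG : ∃ Q : X.Tup, X.IsRegT Q ∧ H.eval (X.xT Q) ≠ 0 :=
    ⟨Q₁.1, hreg _ fun h => Q₁.2 (by simp [h]), hQ₁⟩
  intro u
  obtain ⟨Fu⟩ := hκ u 1
  obtain ⟨s', Q₂, hd₂, hG₂⟩ := X.exists_formula_good Fu H hG
  obtain ⟨Ψ₁, hΨ₁, hΨ₁e⟩ := X.exists_cleared H le_rfl (Fu.num s') (Fu.den s')
    (Fu.num_mem s') (Fu.den_mem s')
  obtain ⟨Ψ₂, hΨ₂, hΨ₂e⟩ := hclear H
  have h1 : Ψ₁ * Fu.den s' ≠ 0 := fun h => by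
    have := congrFun h Q₂
    rw [Pi.mul_apply, hΨ₁e Q₂ hd₂, Pi.zero_apply] at this
    exact (mul_ne_zero (mul_ne_zero (pow_ne_zero _ hd₂) hG₂) hd₂) this
  have h2 : Ψ₂ * (ρ * X.V) ≠ 0 := fun h => by
    have := congrFun h Q₁.1
    have hV : X.V Q₁.1 ≠ 0 := fun h0 => Q₁.2 (by simp [h0])
    rw [Pi.mul_apply, hΨ₂e Q₁.1 hV, Pi.zero_apply] at this
    exact (mul_ne_zero (mul_ne_zero (pow_ne_zero _ hV) hQ₁) Q₁.2) this
  obtain ⟨Q, hQ⟩ := Function.ne_iff.mp (X.mul_ne_zero_PF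
    (Setup.mul_mem_PF hΨ₁ (Fu.den_mem s')) (Setup.mul_mem_PF hΨ₂ hε) h1 h2)
  simp only [Pi.mul_apply, Pi.zero_apply, mul_ne_zero_iff] at hQ
  obtain ⟨⟨hP1, hden⟩, hP2, hρQ, hVQ⟩ := hQ
  rw [hΨ₁e Q hden] at hP1
  rw [hΨ₂e Q hVQ] at hP2
  obtain ⟨b, hb⟩ := himg Q (hreg Q hρQ) (right_ne_zero_of_mul hP2)
  obtain ⟨-, hR, he⟩ := Fu.sound s' Q hden
  rw [one_smul] at hR
  simp only [one_smul] at he
  obtain ⟨Q', hQ', hcl⟩ := hR
  obtain ⟨a, ha⟩ := himg Q' hQ' (by
    rw [← X.xc_clT hQ', hcl, funext he]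
    exact right_ne_zero_of_mul hP1)
  refine ⟨a - b, ?_⟩
  show m • (a - b) = u
  rw [hcl, ← hb] at ha
  rw [nsmul_sub, sub_eq_iff_eq_add, ← add_right_inj d, ha]
  abel

end Fermat.Agent.MCurve.MW
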