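/-
The height of a tuple in a number field, divided by the degree, does not change under extensions.
-/
import Mathlib.NumberTheory.Height.NumberField
import Mathlib.RingTheory.Ideal.Norm.RelNorm
import Mathlib.NumberTheory.NumberField.InfinitePlace.Basic
import Mathlib.FieldTheory.PrimitiveElement

set_option autoImplicit false
set_option linter.style.haveILetI false

noncomputable section

namespace Fermat.Agent.MCurve.MW

open Height NumberField

variable {K L : Type*} [Field K] [NumberField K] [Field L] [NumberField L]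
  {ι : Type*} [Finite ι]

/-- The normalised logarithmic height of a tuple. -/
def normH (x : ι → K) : ℝ := logHeight x / Module.finrank ℚ K

theorem sum_embeddings_mk (G : InfinitePlace K → ℝ) :
    ∑ φ : K →+* ℂ, G (InfinitePlace.mk φ) = ∑ v : InfinitePlace K, (v.mult : ℝ) * G v := by
  classical
  rw [← Finset.univ.sum_fiberwise (fun φ => InfinitePlace.mk φ)]
  refine Finset.sum_congr rfl fun v _ => ?_
  rw [Finset.sum_congr rfl fun φ hφ => by rw [(Finset.mem_filter.mp hφ).2],
    Finset.sum_const, InfinitePlace.card_filter_mk_eq, nsmul_eq_mul]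

/-- The height of an integral tuple through the embeddings and the content ideal. -/
theorem logHeight_eq_sum_embeddings {x : ι → 𝓞 K} (hx : x ≠ 0) :
    logHeight (fun i => (x i : K)) = ∑ φ : K →+* ℂ, Real.log (⨆ i, ‖φ (x i)‖)
      - Real.log (Ideal.span (Set.range x)).absNorm := by
  have hx' : (fun i => (x i : K)) ≠ 0 := fun h => hx (funext fun i =>
    RingOfIntegers.ext (congrFun h i))
  obtain ⟨i₀, hi₀⟩ := Function.ne_iff.mp hx'
  haveI : Nonempty ι := ⟨i₀⟩
  have h0 : (Ideal.span (Set.range x)).absNorm ≠ 0 := by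
    rw [Ne, Ideal.absNorm_eq_zero_iff, Ideal.span_eq_bot]
    intro h
    exact hi₀ (by rw [h (x i₀) ⟨i₀, rfl⟩]; rfl)
  have hA := absNorm_mul_finprod_finitePlace_eq_one hx
  have hpos : ∀ v : InfinitePlace K, 0 < ⨆ i, v (x i : K) := fun v =>
    lt_of_lt_of_le (InfinitePlace.pos_iff.mpr hi₀)
      (le_ciSup (f := fun i => v (x i : K)) (Set.finite_range _).bddAbove i₀)
  rw [logHeight_eq_log_mulHeight, NumberField.mulHeight_eq hx', eq_inv_of_mul_eq_one_right hA,
    Real.log_mul (Finset.prod_ne_zero_iff.mpr fun v _ => pow_ne_zero _ (hpos v).ne')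
      (inv_ne_zero (Nat.cast_ne_zero.mpr h0)), Real.log_inv,
    Real.log_prod (fun v _ => pow_ne_zero _ (hpos v).ne'), ← sub_eq_add_neg]
  congr 1
  rw [Finset.sum_congr rfl fun v _ => Real.log_pow _ _,
    ← sum_embeddings_mk fun v => Real.log (⨆ i, v (x i : K))]
  rfl

theorem logHeight_map_integral (f : K →+* L) {x : ι → 𝓞 K} (hx : x ≠ 0) :
    (Module.finrank ℚ K : ℝ) * logHeight (fun i => f (x i)) =
      Module.finrank ℚ L * logHeight (fun i => (x i : K)) := by
  classical
  letI : Algebra K L := f.toAlgebra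
  haveI : FiniteDimensional K L := FiniteDimensional.right ℚ K L
  set y : ι → 𝓞 L := fun i => algebraMap (𝓞 K) (𝓞 L) (x i)
  have hy : y ≠ 0 := fun h => hx (funext fun i => RingOfIntegers.ext (f.injective
    (((congrArg (fun z : 𝓞 L => (z : L)) (congrFun h i)).trans (map_zero f).symm).trans
      (congrArg f (map_zero (algebraMap (𝓞 K) K)).symm))))
  have hfy : (fun i => f (x i)) = fun i => (y i : L) := funext fun i => rfl
  set d := Module.finrank K L with hd
  have hspan : Ideal.span (Set.range y) =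
      (Ideal.span (Set.range x)).map (algebraMap (𝓞 K) (𝓞 L)) := by
    rw [Ideal.map_span, ← Set.range_comp]
    rfl
  have hn : (Ideal.span (Set.range y)).absNorm = (Ideal.span (Set.range x)).absNorm ^ d := by
    rw [hspan, Ideal.absNorm_algebraMap, hd, IsFractionRing.finrank_eq (𝓞 K) K (𝓞 L) L]
  have hfib : ∀ ψ : K →+* ℂ,
      ((Finset.univ : Finset (L →+* ℂ)).filter fun Φ => Φ.comp f = ψ).card = d := fun ψ => by
    letI : Algebra K ℂ := ψ.toAlgebra
    rw [hd, ← AlgHom.card K L ℂ, ← Fintype.card_subtype]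
    exact Fintype.card_congr
      { toFun := fun Φ => { Φ.1 with commutes' := fun r => RingHom.congr_fun Φ.2 r }
        invFun := fun φ => ⟨φ.toRingHom, RingHom.ext φ.commutes⟩
        left_inv := fun Φ => rfl
        right_inv := fun φ => rfl }
  have hsum : ∑ Φ : L →+* ℂ, Real.log (⨆ i, ‖Φ (y i)‖) =
      (d : ℝ) * ∑ ψ : K →+* ℂ, Real.log (⨆ i, ‖ψ (x i)‖) := by
    rw [← Finset.univ.sum_fiberwise (fun Φ : L →+* ℂ => Φ.comp f), Finset.mul_sum]
    refine Finset.sum_congr rfl fun ψ _ => ?_
    rw [Finset.sum_congr rfl (g := fun _ => Real.log (⨆ i, ‖ψ (x i)‖)) fun Φ hΦ => by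
        rw [← (Finset.mem_filter.mp hΦ).2]; rfl,
      Finset.sum_const, hfib, nsmul_eq_mul]
  rw [hfy, logHeight_eq_sum_embeddings hy, logHeight_eq_sum_embeddings hx, hsum, hn,
    ← Module.finrank_mul_finrank ℚ K L, ← hd]
  push_cast
  rw [Real.log_pow]
  ring

/-- The normalised height is invariant under extensions. -/
theorem normH_map (f : K →+* L) (x : ι → K) : normH (fun i => f (x i)) = normH x := by
  rcases eq_or_ne x 0 with rfl | hx
  · simp [normH]
  obtain ⟨b, hb⟩ := IsLocalization.exist_integer_multiples_of_finite (nonZeroDivisors (𝓞 K)) x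
  choose z hz using hb
  set c : K := algebraMap (𝓞 K) K (b : 𝓞 K)
  have hc : c ≠ 0 := IsFractionRing.to_map_ne_zero_of_mem_nonZeroDivisors b.2
  have hzx : (fun i => (z i : K)) = c • x := funext fun i => by
    rw [Pi.smul_apply, smul_eq_mul]
    exact (hz i).trans (Algebra.smul_def _ _)
  have hz0 : z ≠ 0 := fun h => hx (funext fun i => (mul_eq_zero.mp
    (show c * x i = 0 by rw [← smul_eq_mul, ← Pi.smul_apply, ← hzx, h]; rfl)).resolve_left hc)
  have hK : (Module.finrank ℚ K : ℝ) ≠ 0 := Nat.cast_ne_zero.mpr Module.finrank_pos.ne'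
  have hL : (Module.finrank ℚ L : ℝ) ≠ 0 := Nat.cast_ne_zero.mpr Module.finrank_pos.ne'
  rw [normH, normH, div_eq_div_iff hL hK, ← logHeight_smul_eq_logHeight x hc, ← hzx,
    ← logHeight_smul_eq_logHeight (fun i => f (x i)) ((_root_.map_ne_zero f).mpr hc), mul_comm,
    mul_comm (logHeight _) (Module.finrank ℚ L : ℝ), ← logHeight_map_integral f hz0]
  congr 2
  funext i
  rw [Pi.smul_apply, smul_eq_mul, ← map_mul, congrFun hzx i]
  rfl

end Fermat.Agent.MCurve.MW
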