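/-
The absolute logarithmic height of tuples of algebraic numbers.
-/
import Fermat.Agent.MCurve.MW.HeightInvariance
import Mathlib.NumberTheory.Height.MvPolynomial
import Mathlib.FieldTheory.IntermediateField.Adjoin.Basic
import Mathlib.Algebra.MvPolynomial.Degrees
import Mathlib.FieldTheory.IsAlgClosed.AlgebraicClosure

set_option autoImplicit false
set_option linter.style.haveILetI false
set_option linter.unusedSectionVars false

noncomputable section

namespace Fermat.Agent.MCurve.MW

open Height

local notation "ℚb" => AlgebraicClosure ℚ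

/-- A finite subextension of `ℚ̄` is a number field. -/
scoped instance numberFieldInter (K : IntermediateField ℚ (AlgebraicClosure ℚ))
    [FiniteDimensional ℚ K] : NumberField K where
  to_finiteDimensional := by convert (inferInstance : FiniteDimensional ℚ K)

variable {ι ι' κ : Type*} [Finite ι] [Finite ι'] [Finite κ]

/-- The field generated by a tuple. -/
def fieldOf (x : ι → ℚb) : IntermediateField ℚ (AlgebraicClosure ℚ) :=
  IntermediateField.adjoin ℚ (Set.range x)

instance finiteDimensional_fieldOf (x : ι → ℚb) : FiniteDimensional ℚ (fieldOf x) := by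
  haveI : Finite (Set.range x) := (Set.finite_range x).to_subtype
  exact IntermediateField.finiteDimensional_adjoin fun y _ =>
    ((AlgebraicClosure.isAlgebraic ℚ).isAlgebraic y).isIntegral

theorem mem_fieldOf (x : ι → ℚb) (i : ι) : x i ∈ fieldOf x :=
  IntermediateField.subset_adjoin ℚ _ ⟨i, rfl⟩

/-- The absolute logarithmic height of a tuple up to scaling. -/
def absH (x : ι → ℚb) : ℝ := normH (fun i => (⟨x i, mem_fieldOf x i⟩ : fieldOf x))

/-- The height can be computed in every number field containing the coordinates. -/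
theorem absH_eq (K : IntermediateField ℚ (AlgebraicClosure ℚ)) [FiniteDimensional ℚ K]
    (y : ι → K) : absH (fun i => (y i : ℚb)) = normH y := by
  have hle : fieldOf (fun i => (y i : ℚb)) ≤ K :=
    IntermediateField.adjoin_le_iff.mpr (by rintro _ ⟨i, rfl⟩; exact (y i).2)
  exact (normH_map (IntermediateField.inclusion hle).toRingHom _).symm

/-- Finitely many algebraic numbers lie in a common number field. -/
theorem exists_field (x : ι → ℚb) :
    ∃ (K : IntermediateField ℚ (AlgebraicClosure ℚ)) (_ : FiniteDimensional ℚ K) (y : ι → K),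
      x = fun i => (y i : ℚb) :=
  ⟨fieldOf x, inferInstance, fun i => ⟨x i, mem_fieldOf x i⟩, rfl⟩

theorem exists_field₂ (x : ι → ℚb) (x' : ι' → ℚb) :
    ∃ (K : IntermediateField ℚ (AlgebraicClosure ℚ)) (_ : FiniteDimensional ℚ K) (y : ι → K)
      (y' : ι' → K), x = (fun i => (y i : ℚb)) ∧ x' = fun i => (y' i : ℚb) := by
  obtain ⟨K, hK, y, hy⟩ := exists_field (Sum.elim x x')
  exact ⟨K, hK, fun i => y (.inl i), fun i => y (.inr i), funext fun i => congrFun hy (.inl i),
    funext fun i => congrFun hy (.inr i)⟩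

theorem absH_nonneg (x : ι → ℚb) : 0 ≤ absH x :=
  div_nonneg (logHeight_nonneg _) (Nat.cast_nonneg _)

theorem absH_zero : absH (0 : ι → ℚb) = 0 := by
  obtain ⟨K, _, y, hy⟩ := exists_field (0 : ι → ℚb)
  have : y = 0 := funext fun i => Subtype.ext (congrFun hy i).symm
  rw [hy, absH_eq K y, normH, this, logHeight_zero, zero_div]

theorem absH_smul {c : ℚb} (hc : c ≠ 0) (x : ι → ℚb) : absH (c • x) = absH x := by
  obtain ⟨K, _, y, y', rfl, hc'⟩ := exists_field₂ x (fun _ : Unit => c)
  have hc'' := congrFun hc' ()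
  rw [show c • (fun i => (y i : ℚb)) = fun i => ((y' () • y) i : ℚb) from funext fun i => by
      rw [Pi.smul_apply, smul_eq_mul, hc'']; rfl,
    absH_eq K, absH_eq K, normH, normH, logHeight_smul_eq_logHeight]
  exact fun h => hc (hc''.trans (congrArg Subtype.val h))

/-- Conjugate tuples have the same height. -/
theorem absH_galois (σ : ℚb ≃ₐ[ℚ] ℚb) (x : ι → ℚb) : absH (fun i => σ (x i)) = absH x := by
  obtain ⟨K, _, y, rfl⟩ := exists_field x
  haveI : FiniteDimensional ℚ (K.map σ.toAlgHom) :=
    LinearEquiv.finiteDimensional (IntermediateField.equivMap K σ.toAlgHom).toLinearEquiv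
  rw [absH_eq K y, ← normH_map (L := K.map σ.toAlgHom)
    (IntermediateField.equivMap K σ.toAlgHom).toRingEquiv.toRingHom y, ← absH_eq]
  rfl

theorem absH_comp_le (f : ι → ι') (x : ι' → ℚb) : absH (x ∘ f) ≤ absH x := by
  obtain ⟨K, _, y, rfl⟩ := exists_field x
  rw [show (fun i => (y i : ℚb)) ∘ f = fun i => ((y ∘ f) i : ℚb) from rfl, absH_eq K, absH_eq K]
  exact div_le_div_of_nonneg_right (logHeight_comp_le f y) (Nat.cast_nonneg _)

theorem absH_mul_le (x x' : ι → ℚb) : absH (x * x') ≤ absH x + absH x' := by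
  obtain ⟨K, _, y, y', rfl, rfl⟩ := exists_field₂ x x'
  rw [show (fun i => (y i : ℚb)) * (fun i => (y' i : ℚb)) = fun i => ((y * y') i : ℚb) from rfl,
    absH_eq K, absH_eq K, absH_eq K, normH, normH, normH, ← add_div]
  exact div_le_div_of_nonneg_right (logHeight_mul_le y y') (Nat.cast_nonneg _)

theorem absH_fun_mul_eq {x : ι → ℚb} (hx : x ≠ 0) {x' : ι' → ℚb} (hx' : x' ≠ 0) :
    absH (fun a : ι × ι' => x a.1 * x' a.2) = absH x + absH x' := by
  obtain ⟨K, _, y, y', rfl, rfl⟩ := exists_field₂ x x'
  rw [show (fun a : ι × ι' => (y a.1 : ℚb) * y' a.2) = fun a => ((y a.1 * y' a.2 : K) : ℚb) from rfl,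
    absH_eq K (fun a : ι × ι' => y a.1 * y' a.2), absH_eq K, absH_eq K, normH, normH, normH,
    ← add_div, logHeight_fun_mul_eq (fun h => hx (by rw [h]; rfl)) (fun h => hx' (by rw [h]; rfl))]

/-- The height of the table of products of a family of tuples. -/
theorem absH_fun_prod_eq {α : Type*} [Fintype α] {x : α → ι → ℚb} (hx : ∀ a, x a ≠ 0) :
    absH (fun I : α → ι => ∏ a, x a (I a)) = ∑ a, absH (x a) := by
  obtain ⟨K, _, y, hy⟩ := exists_field (fun p : α × ι => x p.1 p.2)
  have hxy : ∀ a, x a = fun i => (y (a, i) : ℚb) := fun a => funext fun i => congrFun hy (a, i)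
  simp only [hxy]
  rw [show (fun I : α → ι => ∏ a, (y (a, I a) : ℚb)) = fun I => ((∏ a, y (a, I a) : K) : ℚb) from
    funext fun I => (map_prod K.val _ _).symm,
    absH_eq K (fun I : α → ι => ∏ a, y (a, I a)), normH,
    logHeight_fun_prod_eq (x := fun a i => y (a, i)) (fun a h => hx a (by
      rw [hxy]; exact funext fun i => congrArg Subtype.val (congrFun h i))), Finset.sum_div]
  simp only [absH_eq K, normH]

theorem absH_linear_le [Fintype ι] (a : ι' × ι → ℚb) (x : ι → ℚb) :
    absH (fun j => ∑ i, a (j, i) * x i) ≤ Real.log (Nat.card ι) + absH a + absH x := by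
  obtain ⟨K, _, z, y, rfl, rfl⟩ := exists_field₂ a x
  rw [show (fun j => ∑ i, (z (j, i) : ℚb) * y i) = fun j => ((∑ i, z (j, i) * y i : K) : ℚb) from
    funext fun j => by push_cast; rfl,
    absH_eq K (fun j => ∑ i, z (j, i) * y i), absH_eq K, absH_eq K, normH, normH, normH]
  have h := logHeight_linearMap_apply_le z y
  rw [NumberField.totalWeight_eq_finrank] at h
  have hd : (0 : ℝ) < Module.finrank ℚ K := Nat.cast_pos.mpr Module.finrank_pos
  rw [div_le_iff₀ hd, add_mul, add_mul, div_mul_cancel₀ _ hd.ne', div_mul_cancel₀ _ hd.ne',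
    mul_comm (Real.log _)]
  exact h

/-! ### Affine heights -/

/-- An affine tuple with a coordinate `1` adjoined. -/
def aff (x : ι → ℚb) : Option ι → ℚb := fun o => o.elim 1 x

@[simp] theorem aff_none (x : ι → ℚb) : aff x none = 1 := rfl

@[simp] theorem aff_some (x : ι → ℚb) (i : ι) : aff x (some i) = x i := rfl

theorem aff_ne_zero (x : ι → ℚb) : aff x ≠ 0 := fun h => one_ne_zero (congrFun h none)

/-- The height of an algebraic number. -/
def absH1 (x : ℚb) : ℝ := absH ![x, 1]

theorem absH1_nonneg (x : ℚb) : 0 ≤ absH1 x := absH_nonneg _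

theorem absH1_eq (K : IntermediateField ℚ (AlgebraicClosure ℚ)) [FiniteDimensional ℚ K] (y : K) :
    absH1 (y : ℚb) = logHeight₁ y / Module.finrank ℚ K := by
  rw [absH1, show ![(y : ℚb), 1] = fun i => ((![y, 1] i : K) : ℚb) from
    funext fun i => by fin_cases i <;> rfl, absH_eq K, normH, logHeight₁_eq_logHeight]

theorem absH1_galois (σ : ℚb ≃ₐ[ℚ] ℚb) (x : ℚb) : absH1 (σ x) = absH1 x := by
  rw [absH1, absH1, ← absH_galois σ ![x, 1]]
  exact congrArg absH (funext fun i => by fin_cases i <;> simp)

theorem absH1_le_absH_aff (x : ι → ℚb) (i : ι) : absH1 (x i) ≤ absH (aff x) := by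
  rw [absH1, show ![x i, 1] = aff x ∘ ![some i, none] from
    funext fun k => by fin_cases k <;> rfl]
  exact absH_comp_le _ _

theorem absH_aff_le [Fintype ι] (x : ι → ℚb) : absH (aff x) ≤ ∑ i, absH1 (x i) := by
  classical
  let e : Option ι → ι → Fin 2 := fun o i => if o = some i then 0 else 1
  have hne : ∀ i, ![x i, 1] ≠ 0 := fun i h => one_ne_zero (congrFun h 1)
  rw [show aff x = (fun I : ι → Fin 2 => ∏ i, ![x i, 1] (I i)) ∘ e from funext fun o => by
    cases o with
    | none => exact (Finset.prod_eq_one fun i _ => by simp [e]).symm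
    | some j => exact ((Finset.prod_eq_single j (fun i _ hij => by simp [e, Ne.symm hij])
        (by simp)).trans (by simp [e])).symm]
  exact (absH_comp_le _ _).trans (le_of_eq (absH_fun_prod_eq hne))

/-! ### Values of polynomials -/

/-- The height of the degree `D` monomials. -/
theorem absH_pow_le (D : ℕ) (x : ι → ℚb) :
    absH (fun I : Fin D → ι => ∏ k, x (I k)) ≤ D * absH x := by
  rcases Nat.eq_zero_or_pos D with rfl | hD
  · rw [absH_fun_prod_eq (x := fun _ : Fin 0 => x) fun a => a.elim0]
    simp
  rcases eq_or_ne x 0 with rfl | hx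
  · rw [show (fun I : Fin D → ι => ∏ k, (0 : ι → ℚb) (I k)) = 0 from funext fun I =>
      Finset.prod_eq_zero (Finset.mem_univ ⟨0, hD⟩) rfl, absH_zero, absH_zero, mul_zero]
  · rw [absH_fun_prod_eq fun _ => hx, Finset.sum_const, Finset.card_univ, Fintype.card_fin,
      nsmul_eq_mul]

omit [Finite ι] in
/-- A polynomial of total degree at most `D` is linear in the products of `D` affine entries. -/
theorem exists_table [Fintype ι] (D : ℕ) (p : MvPolynomial ι ℚb) (hp : p.totalDegree ≤ D) :
    ∃ a : (Fin D → Option ι) → ℚb,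
      ∀ x : ι → ℚb, p.eval x = ∑ I, a I * ∏ k, aff x (I k) := by
  classical
  have hs : ∀ s ∈ p.support, ∃ I : Fin D → Option ι,
      ∀ x : ι → ℚb, ∏ k, aff x (I k) = s.prod fun i e => x i ^ e := by
    intro s hs
    have hdeg : s.toMultiset.card ≤ D := by
      rw [Finsupp.card_toMultiset]
      exact (MvPolynomial.le_totalDegree hs).trans hp
    set l := (s.toMultiset.map some).toList ++
      List.replicate (D - s.toMultiset.card) (none : Option ι) with hl
    have hlen : l.length = D := by
      rw [hl, List.length_append, Multiset.length_toList, Multiset.card_map, List.length_replicate,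
        Nat.add_sub_cancel' hdeg]
    refine ⟨fun k => l.get (k.cast hlen.symm), fun x => ?_⟩
    calc ∏ k, aff x (l.get (Fin.cast hlen.symm k))
        = ∏ k : Fin l.length, aff x (l.get k) :=
          Fintype.prod_equiv (finCongr hlen.symm) _ _ fun k => rfl
      _ = (l.map (aff x)).prod := by rw [← List.prod_ofFn, ← List.ofFn_getElem_eq_map]; rfl
      _ = _ := by
          rw [hl, List.map_append, List.prod_append, List.map_replicate, aff_none,
            List.prod_replicate, one_pow, mul_one, ← Multiset.prod_coe, ← Multiset.map_coe,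
            Multiset.coe_toList, Multiset.map_map, Finsupp.toMultiset_map,
            Finsupp.prod_toMultiset, Finsupp.prod_mapDomain_index (fun _ => pow_zero _)
              (fun _ _ _ => pow_add _ _ _)]
          rfl
  choose! J hJ using hs
  refine ⟨fun I => ∑ s ∈ p.support with J s = I, p.coeff s, fun x => ?_⟩
  rw [MvPolynomial.eval_eq]
  simp only [Finset.sum_mul]
  rw [← Finset.sum_fiberwise p.support J]
  refine Finset.sum_congr rfl fun I _ => Finset.sum_congr rfl fun s hs => ?_
  rw [Finset.mem_filter] at hs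
  rw [← hs.2, hJ s hs.1, Finsupp.prod]

/-- Values of polynomials: the height grows at most linearly. -/
theorem absH_eval_le [Fintype ι] {D : ℕ} (p : ι' → MvPolynomial ι ℚb)
    (hp : ∀ j, (p j).totalDegree ≤ D) :
    ∃ C : ℝ, ∀ x : ι → ℚb, absH (fun j => (p j).eval x) ≤ C + D * absH (aff x) := by
  classical
  choose a ha using fun j => exists_table D (p j) (hp j)
  refine ⟨Real.log (Nat.card (Fin D → Option ι)) + absH (fun q : ι' × (Fin D → Option ι) => a q.1 q.2),
    fun x => ?_⟩
  simp only [ha]
  exact (absH_linear_le (fun q : ι' × (Fin D → Option ι) => a q.1 q.2) _).trans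
    (add_le_add le_rfl (absH_pow_le D (aff x)))

/-! ### Finiteness -/

/-- Points of bounded height in a fixed number field. -/
theorem finite_absH_le (K : IntermediateField ℚ (AlgebraicClosure ℚ)) [FiniteDimensional ℚ K]
    (B : ℝ) : {y : ι → K | absH (aff fun i => (y i : ℚb)) ≤ B}.Finite := by
  have hd : (0 : ℝ) < Module.finrank ℚ K := Nat.cast_pos.mpr Module.finrank_pos
  refine (Set.Finite.pi' fun _ : ι =>
    NumberField.finite_setOfPred_logHeight₁_le K (B * Module.finrank ℚ K)).subset fun y hy i => ?_
  have h := (absH1_le_absH_aff (fun i => (y i : ℚb)) i).trans hy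
  rw [absH1_eq K, div_le_iff₀ hd] at h
  exact h

end Fermat.Agent.MCurve.MW
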