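/-
The heights of the roots of a polynomial are bounded by the height of its coefficients.
-/
import Fermat.Agent.MCurve.MW.Height
import Mathlib.Analysis.Polynomial.MahlerMeasure
import Mathlib.RingTheory.Polynomial.GaussNorm
import Mathlib.Algebra.Polynomial.Splits
import Mathlib.FieldTheory.IsAlgClosed.Basic

set_option autoImplicit false
set_option linter.style.haveILetI false

noncomputable section

namespace Fermat.Agent.MCurve.MW

open Height Polynomial AdmissibleAbsValues
open scoped Polynomial

local notation "ℚb" => AlgebraicClosure ℚ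

section Local

variable {K : Type*} [Field K]

/-- The product of `max (v α) 1` over a multiset. -/
def maxProd (v : AbsoluteValue K ℝ) (rs : Multiset K) : ℝ := (rs.map fun α => max (v α) 1).prod

/-- The polynomial with prescribed leading coefficient and roots. -/
def rootPoly (a : K) (rs : Multiset K) : K[X] := C a * (rs.map fun α => X - C α).prod

theorem gaussNorm_X_sub_C {v : AbsoluteValue K ℝ} (α : K) :
    (X - C α).gaussNorm v 1 = max (v α) 1 := by
  refine le_antisymm ?_ (max_le ?_ ?_)
  · obtain ⟨i, hi⟩ := exists_eq_gaussNorm v 1 (X - C α)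
    rw [hi]
    rcases i with _ | _ | i
    · simp
    · simp
    · simp [coeff_X]
  · refine le_of_eq_of_le ?_ (le_gaussNorm v (X - C α) zero_le_one 0)
    rw [Polynomial.coeff_sub]; simp
  · refine le_of_eq_of_le ?_ (le_gaussNorm v (X - C α) zero_le_one 1)
    rw [Polynomial.coeff_sub]; simp [coeff_X]

/-- Gauss: the leading coefficient times the roots outside the disc is at most a coefficient. -/
theorem le_iSup_of_isNonarchimedean {v : AbsoluteValue K ℝ} (hv : IsNonarchimedean v) (a : K)
    {rs : Multiset K} {d : ℕ} (hd : rs.card ≤ d) :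
    v a * maxProd v rs ≤ ⨆ i : Fin (d + 1), v ((rootPoly a rs).coeff i) := by
  have hg : ∀ rs : Multiset K, ((rs.map fun α => X - C α).prod).gaussNorm v 1 = maxProd v rs := by
    intro rs
    induction rs using Multiset.induction with
    | empty => simpa [maxProd] using gaussNorm_C (v := v) (c := 1) (1 : K)
    | cons α rs ih =>
      rw [Multiset.map_cons, Multiset.prod_cons, gaussNorm_mul hv one_pos, ih, gaussNorm_X_sub_C,
        maxProd, maxProd, Multiset.map_cons, Multiset.prod_cons]
  rw [← hg rs, ← gaussNorm_C (v := v) (c := 1) a, ← gaussNorm_mul hv one_pos]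
  obtain ⟨i, hi⟩ := exists_eq_gaussNorm v 1 (rootPoly a rs)
  rw [show C a * (rs.map fun α => X - C α).prod = rootPoly a rs from rfl, hi, one_pow, mul_one]
  rcases Nat.lt_or_ge i (d + 1) with h | h
  · exact le_ciSup (f := fun j : Fin (d + 1) => v ((rootPoly a rs).coeff j))
      (Set.finite_range _).bddAbove ⟨i, h⟩
  · have hdeg : (rootPoly a rs).natDegree ≤ d := by
      refine (natDegree_C_mul_le _ _).trans ?_
      rw [natDegree_multiset_prod_X_sub_C_eq_card]
      exact hd
    rw [coeff_eq_zero_of_natDegree_lt (by omega), map_zero]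
    exact Real.iSup_nonneg fun j => v.nonneg _

/-- Landau: the same at a complex place, up to the number of coefficients. -/
theorem le_iSup_of_embedding (φ : K →+* ℂ) (a : K) {rs : Multiset K} {d : ℕ} (hd : rs.card ≤ d) :
    ‖φ a‖ * (rs.map fun α => max ‖φ α‖ 1).prod ≤
      (d + 1) * ⨆ i : Fin (d + 1), ‖φ ((rootPoly a rs).coeff i)‖ := by
  rcases eq_or_ne a 0 with rfl | ha
  · rw [map_zero, norm_zero, zero_mul]
    exact mul_nonneg (by positivity) (Real.iSup_nonneg fun i => norm_nonneg _)
  have hP : (rootPoly a rs).map φ = C (φ a) * ((rs.map φ).map fun z => X - C z).prod := by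
    rw [rootPoly, Polynomial.map_mul, map_C, Polynomial.map_multiset_prod, Multiset.map_map,
      Multiset.map_map]
    congr 2
    exact Multiset.map_congr rfl fun α _ => by simp
  have hlead : ((rootPoly a rs).map φ).leadingCoeff = φ a := by
    rw [hP, leadingCoeff_mul, leadingCoeff_C,
      (monic_multiset_prod_of_monic _ _ fun z _ => monic_X_sub_C z).leadingCoeff, mul_one]
  have hroots : ((rootPoly a rs).map φ).roots = rs.map φ := by
    rw [hP, roots_C_mul _ ((_root_.map_ne_zero φ).mpr ha), roots_multiset_prod_X_sub_C]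
  have h := mahlerMeasure_le_sum_norm_coeff ((rootPoly a rs).map φ)
  rw [mahlerMeasure_eq_leadingCoeff_mul_prod_roots, hlead, hroots, Multiset.map_map] at h
  refine le_of_eq_of_le ?_ (h.trans ?_)
  · congr 2
    exact Multiset.map_congr rfl fun α _ => max_comm _ _
  have hdeg : ((rootPoly a rs).map φ).natDegree < d + 1 := by
    refine Nat.lt_succ_of_le (natDegree_map_le.trans ((natDegree_C_mul_le _ _).trans ?_))
    rw [natDegree_multiset_prod_X_sub_C_eq_card]
    exact hd
  rw [Polynomial.sum_over_range' _ (fun _ => norm_zero) (d + 1) hdeg]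
  refine (Finset.sum_le_card_nsmul _ _ (⨆ i : Fin (d + 1), ‖φ ((rootPoly a rs).coeff i)‖)
    fun i hi => ?_).trans (by rw [Finset.card_range, nsmul_eq_mul]; push_cast; rfl)
  rw [coeff_map]
  exact le_ciSup (f := fun j : Fin (d + 1) => ‖φ ((rootPoly a rs).coeff j)‖)
    (Set.finite_range _).bddAbove ⟨i, Finset.mem_range.mp hi⟩

end Local

section Global

variable {K : Type*} [Field K] [NumberField K]

theorem hasFiniteMulSupport_maxProd (rs : Multiset K) :
    (fun v : nonarchAbsVal (K := K) => maxProd v.val rs).HasFiniteMulSupport := by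
  induction rs using Multiset.induction with
  | empty => simp [maxProd, Function.HasFiniteMulSupport]
  | cons α rs ih =>
    simp only [maxProd, Multiset.map_cons, Multiset.prod_cons]
    refine Function.HasFiniteMulSupport.mul ?_ ih
    rcases eq_or_ne α 0 with rfl | hα
    · simp [Function.HasFiniteMulSupport]
    · exact (hasFiniteMulSupport hα).subset fun v hv h => hv (by simp [h])

theorem prod_mulHeight₁_eq (rs : Multiset K) :
    (rs.map mulHeight₁).prod = (archAbsVal.map fun v => maxProd v rs).prod *
      ∏ᶠ v : nonarchAbsVal (K := K), maxProd v.val rs := by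
  induction rs using Multiset.induction with
  | empty => simp [maxProd]
  | cons α rs ih =>
    have h1 : (fun v : nonarchAbsVal (K := K) => max (v.val α) 1).HasFiniteMulSupport := by
      have := hasFiniteMulSupport_maxProd ({α} : Multiset K)
      simpa [maxProd] using this
    rw [Multiset.map_cons, Multiset.prod_cons, ih, mulHeight₁_eq]
    simp only [maxProd, Multiset.map_cons, Multiset.prod_cons]
    rw [Multiset.prod_map_mul,
      finprod_mul_distrib h1 (by simpa only [maxProd] using hasFiniteMulSupport_maxProd rs)]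
    ring

theorem prod_mulHeight₁_le {a : K} (ha : a ≠ 0) {rs : Multiset K} {d : ℕ} (hd : rs.card ≤ d) :
    (rs.map mulHeight₁).prod ≤ (d + 1 : ℝ) ^ totalWeight K *
      mulHeight (fun i : Fin (d + 1) => (rootPoly a rs).coeff i) := by
  classical
  set c : Fin (d + 1) → K := fun i => (rootPoly a rs).coeff i
  have hP0 : rootPoly a rs ≠ 0 := mul_ne_zero (C_ne_zero.mpr ha)
    (monic_multiset_prod_of_monic _ _ fun z _ => monic_X_sub_C z).ne_zero
  have hc : c ≠ 0 := fun h => hP0 (by
    ext i
    rcases Nat.lt_or_ge i (d + 1) with hi | hi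
    · exact congrFun h ⟨i, hi⟩
    · refine coeff_eq_zero_of_natDegree_lt (lt_of_le_of_lt ((natDegree_C_mul_le _ _).trans ?_) hi)
      rw [natDegree_multiset_prod_X_sub_C_eq_card]
      exact hd)
  have hnn : ∀ v : AbsoluteValue K ℝ, 0 ≤ v a * maxProd v rs := fun v =>
    mul_nonneg (v.nonneg _) (Multiset.prod_nonneg fun x hx => by
      obtain ⟨α, -, rfl⟩ := Multiset.mem_map.mp hx
      exact zero_le_one.trans (le_max_right _ _))
  have hsup : (fun v : nonarchAbsVal (K := K) => ⨆ i, v.val (c i)).HasFiniteMulSupport := by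
    obtain ⟨i₀, hi₀⟩ := Function.ne_iff.mp hc
    refine (Set.Finite.biUnion (Set.toFinite {i | c i ≠ 0}) fun i hi =>
      hasFiniteMulSupport (K := K) hi).subset fun v hv => ?_
    by_contra hcon
    simp only [Set.mem_iUnion, Set.mem_ofPred_eq, Function.mem_mulSupport, not_exists,
      not_not] at hcon
    refine hv (le_antisymm (ciSup_le fun i => ?_) (le_ciSup_of_le (Set.finite_range _).bddAbove i₀
      (hcon i₀ hi₀).ge))
    rcases eq_or_ne (c i) 0 with h | h
    · rw [h, map_zero]; exact zero_le_one
    · exact (hcon i h).le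
  calc (rs.map mulHeight₁).prod
      = (archAbsVal.map fun v => v a * maxProd v rs).prod *
          ∏ᶠ v : nonarchAbsVal (K := K), v.val a * maxProd v.val rs := by
        rw [Multiset.prod_map_mul,
          finprod_mul_distrib (hasFiniteMulSupport ha) (hasFiniteMulSupport_maxProd rs),
          mul_mul_mul_comm, product_formula ha, one_mul, prod_mulHeight₁_eq]
    _ ≤ (archAbsVal.map fun v => (d + 1 : ℝ) * ⨆ i, v (c i)).prod *
          ∏ᶠ v : nonarchAbsVal (K := K), ⨆ i, v.val (c i) := by
        refine mul_le_mul ?_ ?_ (finprod_nonneg fun v => hnn v.val) ?_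
        · refine Multiset.prod_map_le_prod_map₀ _ _ (fun v _ => hnn v) fun v hv => ?_
          obtain ⟨φ, rfl⟩ := NumberField.mem_multisetInfinitePlace.mp hv
          exact le_iSup_of_embedding φ a hd
        · exact finprod_le_finprod ((hasFiniteMulSupport ha).mul (hasFiniteMulSupport_maxProd rs))
            (fun v => hnn v.val) hsup fun v =>
            le_iSup_of_isNonarchimedean (isNonarchimedean _ v.2) a hd
        · exact Multiset.prod_nonneg fun x hx => by
            obtain ⟨v, -, rfl⟩ := Multiset.mem_map.mp hx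
            exact mul_nonneg (by positivity) (Real.iSup_nonneg fun i => v.nonneg _)
    _ = _ := by
        rw [Multiset.prod_map_mul, Multiset.map_const', Multiset.prod_replicate, mulHeight_eq hc,
          mul_assoc]
        rfl

end Global

/-- The heights of the roots. -/
theorem sum_roots_le {P : ℚb[X]} (hP : P ≠ 0) {d : ℕ} (hd : P.natDegree ≤ d) :
    (P.roots.map absH1).sum ≤ absH (fun i : Fin (d + 1) => P.coeff i) + Real.log (d + 1) := by
  classical
  have hsp : P = rootPoly P.leadingCoeff P.roots :=
    (IsAlgClosed.splits P).eq_prod_roots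
  obtain ⟨K, _, y, hy⟩ := exists_field
    (Sum.elim (fun _ : Unit => P.leadingCoeff) (fun i : Fin (Multiset.card P.roots) =>
      P.roots.toList.get (i.cast (Multiset.length_toList _).symm)))
  set a : K := y (.inl ())
  set rs : Multiset K := ((List.ofFn fun i => y (.inr i) : List K) : Multiset K)
  have ha : (a : ℚb) = P.leadingCoeff := (congrFun hy (.inl ())).symm
  have hrs : rs.map (fun z : K => (z : ℚb)) = P.roots := by
    rw [← Multiset.coe_toList P.roots, Multiset.map_coe, List.map_ofFn, Multiset.coe_eq_coe]
    refine List.Perm.of_eq ?_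
    refine List.ext_getElem (by simp) fun i h1 h2 => ?_
    rw [List.getElem_ofFn]
    exact (congrFun hy (.inr _)).symm
  have hcard : rs.card ≤ d := by
    rw [← Multiset.card_map (fun z : K => (z : ℚb)) rs, hrs]
    exact (card_roots' P).trans hd
  have ha0 : a ≠ 0 := fun h => hP (leadingCoeff_eq_zero.mp (ha ▸ (congrArg Subtype.val h)))
  have hmap : P = (rootPoly a rs).map K.val.toRingHom := by
    rw [rootPoly, Polynomial.map_mul, map_C, Polynomial.map_multiset_prod, Multiset.map_map]
    conv_lhs => rw [hsp, ← hrs, rootPoly, Multiset.map_map]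
    congr 2
    · exact ha.symm
    · exact Multiset.map_congr rfl fun z _ => by simp
  have hroot : (P.roots.map absH1).sum = (rs.map fun z => logHeight₁ z).sum / Module.finrank ℚ K := by
    rw [← hrs, Multiset.map_map, ← Multiset.sum_map_div]
    exact congrArg Multiset.sum (Multiset.map_congr rfl fun z _ => absH1_eq K z)
  have hcoef : absH (fun i : Fin (d + 1) => P.coeff i) =
      logHeight (fun i : Fin (d + 1) => (rootPoly a rs).coeff i) / Module.finrank ℚ K := by
    rw [← normH, ← absH_eq K]
    exact congrArg absH (funext fun i => by rw [hmap, coeff_map]; rfl)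
  have hK : (0 : ℝ) < Module.finrank ℚ K := Nat.cast_pos.mpr Module.finrank_pos
  have h := prod_mulHeight₁_le ha0 hcard
  rw [NumberField.totalWeight_eq_finrank] at h
  have hsum : (rs.map fun z => logHeight₁ z).sum = Real.log (rs.map mulHeight₁).prod := by
    rw [Real.log_multiset_prod (fun x hx => by
      obtain ⟨z, -, rfl⟩ := Multiset.mem_map.mp hx
      exact mulHeight₁_ne_zero z), Multiset.map_map]
    rfl
  rw [hroot, hcoef, hsum, div_le_iff₀ hK, add_mul, div_mul_cancel₀ _ hK.ne',
    logHeight_eq_log_mulHeight, mul_comm (Real.log _), ← Real.log_pow,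
    ← Real.log_mul (mulHeight_ne_zero _) (by positivity), mul_comm (mulHeight _)]
  exact Real.log_le_log (Multiset.prod_pos fun x hx => by
    obtain ⟨z, -, rfl⟩ := Multiset.mem_map.mp hx
    exact mulHeight₁_pos z) h

/-- A set of roots. -/
theorem sum_finset_roots_le {P : ℚb[X]} (hP : P ≠ 0) {d : ℕ} (hd : P.natDegree ≤ d)
    {S : Finset ℚb} (hS : ∀ α ∈ S, P.IsRoot α) :
    ∑ α ∈ S, absH1 α ≤ absH (fun i : Fin (d + 1) => P.coeff i) + Real.log (d + 1) := by
  refine le_trans ?_ (sum_roots_le hP hd)
  have hle : S.val ≤ P.roots := Multiset.le_iff_subset S.nodup |>.mpr fun α hα =>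
    (mem_roots hP).mpr (hS α hα)
  obtain ⟨u, hu⟩ := Multiset.le_iff_exists_add.mp (Multiset.map_le_map (f := absH1) hle)
  rw [hu, Multiset.sum_add]
  refine le_add_of_nonneg_right (Multiset.sum_nonneg fun x hx => ?_)
  have : x ∈ P.roots.map absH1 := hu ▸ Multiset.mem_add.mpr (Or.inr hx)
  obtain ⟨α, -, rfl⟩ := Multiset.mem_map.mp this
  exact absH1_nonneg α

end Fermat.Agent.MCurve.MW
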