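/-
Heights of affine and projective tuples: the bounds used by the descent.
-/
import Fermat.Agent.MCurve.MW.HeightRoots

set_option autoImplicit false
set_option linter.unusedSectionVars false

noncomputable section

namespace Fermat.Agent.MCurve.MW

local notation "ℚb" => AlgebraicClosure ℚ

variable {ι κ : Type*} [Fintype ι] [Fintype κ]

/-- The height of the projective point `(1 : v)`. -/
def hA (v : ι → ℚb) : ℝ := absH (aff v)

/-- The height of the projective point `(v)`. -/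
def hP (v : ι → ℚb) : ℝ := absH v

theorem hA_nonneg (v : ι → ℚb) : 0 ≤ hA v := absH_nonneg _

theorem hP_nonneg (v : ι → ℚb) : 0 ≤ hP v := absH_nonneg _

theorem hA_fin_one (x : ℚb) : hA (fun _ : Fin 1 => x) = absH1 x := by
  refine le_antisymm ?_ (absH1_le_absH_aff (fun _ : Fin 1 => x) 0)
  refine (absH_aff_le _).trans ?_
  rw [Fin.sum_univ_one]

theorem hA_single_le (v : ι → ℚb) (i : ι) : hA (fun _ : Fin 1 => v i) ≤ hA v := by
  rw [hA_fin_one]
  exact absH1_le_absH_aff v i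

theorem hA_le_sum (v : ι → ℚb) : hA v ≤ ∑ i, hA (fun _ : Fin 1 => v i) := by
  simp only [hA_fin_one]
  exact absH_aff_le v

theorem hP_eval_le (D : ℕ) (p : κ → MvPolynomial ι ℚb) (hp : ∀ j, (p j).totalDegree ≤ D) :
    ∃ C : ℝ, ∀ v : ι → ℚb, (∃ j, (p j).eval v ≠ 0) →
      hP (fun j => (p j).eval v) ≤ D * hA v + C := by
  obtain ⟨C, hC⟩ := absH_eval_le p hp
  exact ⟨C, fun v _ => (hC v).trans (le_of_eq (add_comm _ _))⟩

theorem hA_eval_div_le (D : ℕ) (p : κ → MvPolynomial ι ℚb) (q : MvPolynomial ι ℚb)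
    (hp : ∀ j, (p j).totalDegree ≤ D) (hq : q.totalDegree ≤ D) :
    ∃ C : ℝ, ∀ v : ι → ℚb, q.eval v ≠ 0 →
      hA (fun j => (p j).eval v / q.eval v) ≤ D * hA v + C := by
  obtain ⟨C, hC⟩ := absH_eval_le (fun o : Option κ => o.elim q p)
    (fun o => by cases o with | none => exact hq | some j => exact hp j)
  refine ⟨C, fun v hv => le_trans (le_of_eq ?_) ((hC v).trans (le_of_eq (add_comm _ _)))⟩
  rw [hA, ← absH_smul hv (aff fun j => (p j).eval v / q.eval v)]
  refine congrArg absH (funext fun o => ?_)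
  cases o with
  | none => simp
  | some j => simp [mul_div_cancel₀ _ hv]

theorem sum_hA_roots_le (M : ℕ) : ∃ C : ℝ, ∀ P : Polynomial ℚb, P ≠ 0 → P.natDegree ≤ M →
    ∀ s : Finset ℚb, (∀ r ∈ s, P.IsRoot r) →
      ∑ r ∈ s, hA (fun _ : Fin 1 => r) ≤ hP (fun i : Fin (M + 1) => P.coeff i) + C := by
  refine ⟨Real.log (M + 1), fun P hP hM s hs => ?_⟩
  simp only [hA_fin_one]
  exact sum_finset_roots_le hP hM hs

theorem northcott_hA (L : IntermediateField ℚ (AlgebraicClosure ℚ)) [FiniteDimensional ℚ L]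
    (B : ℝ) : {v : ι → ℚb | (∀ i, v i ∈ L) ∧ hA v ≤ B}.Finite := by
  refine ((finite_absH_le L B).image fun (y : ι → L) i => (y i : ℚb)).subset ?_
  rintro v ⟨hv, hB⟩
  exact ⟨fun i => ⟨v i, hv i⟩, hB, rfl⟩

end Fermat.Agent.MCurve.MW
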