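/-
Height bounds for the descent: translations, and combinations separating finitely many tuples
without losing height.
-/
import Fermat.Agent.MCurve.MW.Divisible
import Fermat.Agent.MCurve.MW.HeightAffine

set_option autoImplicit false
set_option linter.unusedSectionVars false

noncomputable section

namespace Fermat.Agent.MCurve.MW

open AlgebraicCurve RR
open scoped Classical

local notation "ℚb" => AlgebraicClosure ℚ

theorem hA_comp_le {ι ι' : Type*} [Fintype ι] [Fintype ι'] (v : ι' → ℚb) (f : ι → ι') :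
    hA (fun i => v (f i)) ≤ hA v := by
  refine le_trans (le_of_eq (congrArg absH (funext fun o => ?_))) (absH_comp_le (Option.map f) (aff v))
  cases o <;> rfl

theorem hA_eval_le {ι κ : Type*} [Fintype ι] [Fintype κ] (D : ℕ) (p : κ → MvPolynomial ι ℚb)
    (hp : ∀ j, (p j).totalDegree ≤ D) :
    ∃ C : ℝ, ∀ v : ι → ℚb, hA (fun j => (p j).eval v) ≤ D * hA v + C := by
  obtain ⟨C, hC⟩ := hA_eval_div_le D p 1 hp (by simp)
  exact ⟨C, fun v => by simpa using hC v (by simp)⟩

section Separation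

variable {ι : Type*} [Fintype ι]

/-- The polynomial with coefficients a tuple. -/
def tupPoly (x : ι → ℚb) : Polynomial ℚb :=
  ∑ i, Polynomial.C (x i) * Polynomial.X ^ (Fintype.equivFin ι i : ℕ)

/-- The combination of a tuple with weights the powers of `k`. -/
def tupComb (k : ℕ) (x : ι → ℚb) : ℚb := ∑ i, (k : ℚb) ^ (Fintype.equivFin ι i : ℕ) * x i

theorem eval_tupPoly (k : ℕ) (x : ι → ℚb) : (tupPoly x).eval (k : ℚb) = tupComb k x := by
  simp only [tupPoly, tupComb, Polynomial.eval_finsetSum, Polynomial.eval_mul, Polynomial.eval_C,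
    Polynomial.eval_pow, Polynomial.eval_X]
  exact Finset.sum_congr rfl fun i _ => mul_comm _ _

theorem coeff_tupPoly (x : ι → ℚb) (i : ι) :
    (tupPoly x).coeff (Fintype.equivFin ι i : ℕ) = x i := by
  simp [tupPoly, Polynomial.finsetSum_coeff, Polynomial.coeff_X_pow, Fin.val_inj]

theorem degree_tupPoly_lt (x : ι → ℚb) : (tupPoly x).degree < Fintype.card ι := by
  refine lt_of_le_of_lt (Polynomial.degree_sum_le _ _) ?_
  refine (Finset.sup_lt_iff (WithBot.bot_lt_coe _)).mpr fun i _ => ?_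
  exact lt_of_le_of_lt (Polynomial.degree_C_mul_X_pow_le _ _)
    (WithBot.coe_lt_coe.mpr (Fintype.equivFin ι i).2)

theorem eq_of_tupComb_eq {x x' : ι → ℚb} {S : Finset ℕ} (hS : Fintype.card ι ≤ S.card)
    (h : ∀ k ∈ S, tupComb k x = tupComb k x') : x = x' := by
  have hinj : Set.InjOn (fun k : ℕ => (k : ℚb)) S := fun a _ b _ e => Nat.cast_injective e
  have hd : ∀ y : ι → ℚb, (tupPoly y).degree < S.card := fun y =>
    lt_of_lt_of_le (degree_tupPoly_lt y) (WithBot.coe_le_coe.mpr hS)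
  have e := Polynomial.eq_of_degrees_lt_of_eval_index_eq S hinj (hd x) (hd x') fun k hk => by
    rw [eval_tupPoly, eval_tupPoly, h k hk]
  funext i
  rw [← coeff_tupPoly x i, ← coeff_tupPoly x' i, e]

theorem hA_le_sum_tupComb {S : Finset ℕ} (hS : Fintype.card ι ≤ S.card) :
    ∃ C : ℝ, ∀ x : ι → ℚb, hA x ≤ (∑ k ∈ S, hA (fun _ : Fin 1 => tupComb k x)) + C := by
  have hinj : Set.InjOn (fun k : ℕ => (k : ℚb)) S := fun a _ b _ e => Nat.cast_injective e
  let B : ℕ → Polynomial ℚb := Lagrange.basis S (fun k : ℕ => (k : ℚb))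
  let p : ι → MvPolynomial S ℚb := fun i =>
    ∑ k : S, MvPolynomial.C ((B k.1).coeff (Fintype.equivFin ι i : ℕ)) * MvPolynomial.X k
  obtain ⟨C, hC⟩ := hA_eval_le 1 p fun i => (MvPolynomial.totalDegree_finsetSum _ _).trans
    (Finset.sup_le fun k _ => (MvPolynomial.totalDegree_mul _ _).trans
      (by simp [MvPolynomial.totalDegree_C, MvPolynomial.totalDegree_X]))
  refine ⟨C, fun x => ?_⟩
  have hx : x = fun i => (p i).eval fun k : S => tupComb k.1 x := funext fun i => by
    conv_lhs => rw [← coeff_tupPoly x i, Lagrange.eq_interpolate hinj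
      (lt_of_lt_of_le (degree_tupPoly_lt x) (WithBot.coe_le_coe.mpr hS))]
    simp only [Lagrange.interpolate_apply, Polynomial.finsetSum_coeff, Polynomial.coeff_C_mul,
      eval_tupPoly, p, map_sum, map_mul, MvPolynomial.eval_C, MvPolynomial.eval_X]
    rw [← Finset.sum_coe_sort]
    exact Finset.sum_congr rfl fun k _ => mul_comm _ _
  calc hA x ≤ 1 * hA (fun k : S => tupComb k.1 x) + C := by
        conv_lhs => rw [hx]
        exact_mod_cast hC _
    _ ≤ _ := by
        rw [one_mul, ← Finset.sum_coe_sort S fun k => hA (fun _ : Fin 1 => tupComb k x)]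
        exact add_le_add (hA_le_sum _) le_rfl

universe uJ in
/-- Some combination separates finitely many tuples and keeps their heights. -/
theorem exists_tupComb (hι : 0 < Fintype.card ι) (K₀ : Finset ℕ) :
    ∃ C : ℝ, ∀ (J : Type uJ) [Fintype J] (x : J → ι → ℚb), Function.Injective x →
      (Fintype.card J * Fintype.card J + Fintype.card J) * Fintype.card ι < K₀.card →
      ∃ k ∈ K₀, Function.Injective (fun j => tupComb k (x j)) ∧
        ∀ j, hA (x j) - C ≤ Fintype.card ι * hA (fun _ : Fin 1 => tupComb k (x j)) := by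
  set r := Fintype.card ι with hr
  have hS : ∀ S : {S : Finset ℕ // S ∈ K₀.powersetCard r}, ∃ C : ℝ, ∀ x : ι → ℚb,
      hA x ≤ (∑ k ∈ S.1, hA (fun _ : Fin 1 => tupComb k x)) + C := fun S =>
    hA_le_sum_tupComb (le_of_eq (Finset.mem_powersetCard.mp S.2).2.symm)
  choose C hC using hS
  refine ⟨r * (∑ S, |C S| + 1), fun J _ x hx hK => ?_⟩
  -- the exceptional weights
  let low : J → Finset ℕ := fun j => K₀.filter fun k : ℕ =>
    (r : ℝ) * hA (fun _ : Fin 1 => tupComb k (x j)) < hA (x j) - r * (∑ S, |C S| + 1)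
  let same : J × J → Finset ℕ := fun p => if p.1 = p.2 then ∅ else
    K₀.filter fun k : ℕ => tupComb k (x p.1) = tupComb k (x p.2)
  have hlow : ∀ j, (low j).card ≤ r := fun j => by
    by_contra hlt
    obtain ⟨T, hT, hTc⟩ := Finset.exists_subset_card_eq (le_of_not_ge hlt)
    let T' : {S : Finset ℕ // S ∈ K₀.powersetCard r} :=
      ⟨T, Finset.mem_powersetCard.mpr ⟨hT.trans (Finset.filter_subset _ _), hTc⟩⟩
    have h1 : ∀ k ∈ T, (r : ℝ) * hA (fun _ : Fin 1 => tupComb k (x j)) ≤
        hA (x j) - r * (∑ S, |C S| + 1) := fun k hk => (Finset.mem_filter.mp (hT hk)).2.le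
    have h2 := Finset.sum_le_sum h1
    rw [← Finset.mul_sum, Finset.sum_const, hTc, nsmul_eq_mul] at h2
    have h3 : (r : ℝ) * hA (x j) ≤
        r * ((∑ k ∈ T, hA (fun _ : Fin 1 => tupComb k (x j))) + C T') :=
      mul_le_mul_of_nonneg_left (hC T' (x j)) (Nat.cast_nonneg r)
    have h4 : C T' ≤ ∑ S, |C S| := (le_abs_self _).trans
      (Finset.single_le_sum (f := fun S => |C S|) (fun S _ => abs_nonneg _) (Finset.mem_univ T'))
    have hr1 : (1 : ℝ) ≤ r := by exact_mod_cast hι
    have h5 : (r : ℝ) * C T' ≤ r * ∑ S, |C S| := mul_le_mul_of_nonneg_left h4 (Nat.cast_nonneg r)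
    have h6 : (r : ℝ) * 1 * (∑ S, |C S| + 1) ≤ r * r * (∑ S, |C S| + 1) :=
      mul_le_mul_of_nonneg_right (mul_le_mul_of_nonneg_left hr1 (Nat.cast_nonneg r))
        (add_nonneg (Finset.sum_nonneg fun S _ => abs_nonneg _) zero_le_one)
    nlinarith
  have hsame : ∀ p, (same p).card ≤ r := fun p => by
    simp only [same]
    split_ifs with hp
    · simp
    by_contra hlt
    exact hp (hx (eq_of_tupComb_eq (S := K₀.filter fun k : ℕ => tupComb k (x p.1) = tupComb k (x p.2))
      (le_of_not_ge hlt) fun k hk => (Finset.mem_filter.mp hk).2))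
  obtain ⟨k, hk, hgood⟩ : ∃ k ∈ K₀, k ∉ Finset.univ.biUnion low ∪ Finset.univ.biUnion same := by
    by_contra! hno
    have h1 := Finset.card_le_card (show K₀ ⊆ Finset.univ.biUnion low ∪ Finset.univ.biUnion same
      from hno)
    have h2 := Finset.card_biUnion_le_card_mul (Finset.univ : Finset J) low r fun j _ => hlow j
    have h3 := Finset.card_biUnion_le_card_mul (Finset.univ : Finset (J × J)) same r
      fun p _ => hsame p
    rw [Finset.card_univ] at h2 h3
    rw [Fintype.card_prod] at h3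
    have := (h1.trans (Finset.card_union_le _ _)).trans (Nat.add_le_add h2 h3)
    nlinarith
  simp only [Finset.mem_union, Finset.mem_biUnion, Finset.mem_univ, true_and, not_or, not_exists]
    at hgood
  refine ⟨k, hk, fun i j e => ?_, fun j => not_lt.mp fun h =>
    hgood.1 j (Finset.mem_filter.mpr ⟨hk, h⟩)⟩
  by_contra hne
  exact hgood.2 (i, j) (by simp only [same, if_neg hne, Finset.mem_filter]; exact ⟨hk, e⟩)

end Separation

variable {F : Type*} [Field F] [Algebra ℚb F] [∀ v : Place ℚb F, v.FiniteResidue]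
  [HasPrincipalDivisors ℚb F] [Nonempty (Place ℚb F)] (X : Setup ℚb F)

/-- The values of the generators at a tuple. -/
def Setup.genVals (Q : X.Tup) : Fin X.g × Fin (Module.finrank ℚb (X.L X.n₁)) → ℚb :=
  fun ik => valAt (Q ik.1).1 (X.gen ik.2)

theorem Setup.hA_fv_le : ∃ C : ℝ, ∀ (Q : X.Tup) (i : Fin X.g),
    hA (fun _ : Fin 1 => X.fv Q i) ≤ hA (X.xT Q) + C := by
  obtain ⟨C₁, hC₁⟩ := sum_hA_roots_le X.g
  let p : Fin (X.g + 1) → MvPolynomial X.Coord ℚb := fun j =>
    if h : (j : ℕ) < X.g then MvPolynomial.X (Sum.inl ⟨j, h⟩) else 1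
  obtain ⟨C₂, hC₂⟩ := hP_eval_le 1 p fun j => by
    simp only [p]; split_ifs <;> simp [MvPolynomial.totalDegree_X]
  refine ⟨C₂ + C₁, fun Q i => ?_⟩
  set P : Polynomial ℚb := ∏ i, (Polynomial.X - Polynomial.C (X.fv Q i)) with hP
  have hd : P.natDegree = X.g := by
    rw [hP, Polynomial.natDegree_prod_of_monic _ _ fun i _ => Polynomial.monic_X_sub_C _]
    simp
  have hm : P.Monic := Polynomial.monic_prod_of_monic _ _ fun i _ => Polynomial.monic_X_sub_C _
  have hcoef : (fun j : Fin (X.g + 1) => P.coeff j) = fun j => (p j).eval (X.xT Q) := by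
    funext j
    simp only [p]
    split_ifs with h
    · rw [MvPolynomial.eval_X]; rfl
    · rw [show (j : ℕ) = P.natDegree by rw [hd]; omega, hm.coeff_natDegree, map_one]
  have h1 := hC₁ P hm.ne_zero hd.le {X.fv Q i} fun r hr => by
    rw [Finset.mem_singleton.mp hr, Polynomial.IsRoot, hP, Polynomial.eval_prod]
    exact Finset.prod_eq_zero (Finset.mem_univ i) (by simp)
  rw [Finset.sum_singleton, hcoef] at h1
  have h2 := hC₂ (X.xT Q) ⟨Fin.last X.g, by simp [p]⟩
  rw [Nat.cast_one, one_mul] at h2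
  linarith

/-- The values of the generators are bounded by the coordinates. -/
theorem Setup.hA_genVals_le : ∃ (A : ℕ) (C : ℝ), ∀ Q : X.Tup, X.V Q ≠ 0 →
    hA (X.genVals Q) ≤ A * hA (X.xT Q) + C := by
  obtain ⟨C₁, hC₁⟩ := X.hA_fv_le
  let p : Fin X.g × Fin (Module.finrank ℚb (X.L X.n₁)) → MvPolynomial (X.Coord ⊕ Fin X.g) ℚb :=
    fun ik => ∑ j : Fin X.g, MvPolynomial.X (Sum.inl (Sum.inr (ik.2, j))) *
      MvPolynomial.X (Sum.inr ik.1) ^ (j : ℕ)
  obtain ⟨C₂, hC₂⟩ := hA_eval_le X.g p fun ik => (MvPolynomial.totalDegree_finsetSum _ _).trans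
    (Finset.sup_le fun j _ => (MvPolynomial.totalDegree_mul _ _).trans (by
      rw [MvPolynomial.totalDegree_X, MvPolynomial.totalDegree_X_pow]
      omega))
  refine ⟨X.g * (Fintype.card X.Coord + X.g), X.g * (X.g * C₁) + C₂, fun Q hQ => ?_⟩
  set w : X.Coord ⊕ Fin X.g → ℚb := Sum.elim (X.xT Q) (X.fv Q)
  have hgv : X.genVals Q = fun ik => (p ik).eval w := funext fun ik => by
    have hinj := Setup.V_ne_zero_iff.mp hQ
    set I := Lagrange.interpolate Finset.univ (X.fv Q) fun i => valAt (Q i).1 (X.gen ik.2)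
    have hI : I.degree < X.g := by
      have := Lagrange.degree_interpolate_lt (fun i => valAt (Q i).1 (X.gen ik.2))
        (s := Finset.univ) hinj.injOn
      rwa [Finset.card_univ, Fintype.card_fin] at this
    have hnd : I.natDegree < X.g := by
      rcases eq_or_ne I 0 with h0 | h0
      · rw [h0, Polynomial.natDegree_zero]; exact Fin.pos ik.1
      · exact (Polynomial.natDegree_lt_iff_degree_lt h0).mpr hI
    have he : I.eval (X.fv Q ik.1) = valAt (Q ik.1).1 (X.gen ik.2) :=
      Lagrange.eval_interpolate_at_node _ hinj.injOn (Finset.mem_univ _)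
    rw [Setup.genVals, ← he, Polynomial.eval_eq_sum_range' hnd,
      ← Fin.sum_univ_eq_sum_range (fun j => I.coeff j * X.fv Q ik.1 ^ j) X.g]
    simp only [p, map_sum, map_mul, map_pow, MvPolynomial.eval_X]
    exact Finset.sum_congr rfl fun j _ => rfl
  have hw : hA w ≤ (Fintype.card X.Coord + X.g : ℕ) * hA (X.xT Q) + X.g * C₁ := by
    refine (hA_le_sum w).trans ?_
    rw [Fintype.sum_sum_type]
    refine (add_le_add (Finset.sum_le_sum fun i _ => hA_single_le (X.xT Q) i)
      (Finset.sum_le_sum fun i _ => hC₁ Q i)).trans (le_of_eq ?_)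
    simp [Finset.sum_add_distrib]
    ring
  rw [hgv]
  refine (hC₂ w).trans ?_
  have := mul_le_mul_of_nonneg_left hw (Nat.cast_nonneg (α := ℝ) X.g)
  push_cast at this ⊢
  linarith

/-- Translations change heights by a bounded factor and a constant. -/
theorem Setup.exists_translate_bound : ∃ A : ℕ, ∀ b : Pic0 ℚb F, ∃ C : ℝ, ∀ e : Pic0 ℚb F,
    X.Reg e → X.Reg (e + b) → hA (X.xc (e + b)) ≤ A * hA (X.xc e) + C := by
  obtain ⟨κ, hκ⟩ := X.exists_formulas
  obtain ⟨A, C₁, hA₁⟩ := X.hA_genVals_le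
  set D := κ * (1 + 1) ^ 2
  refine ⟨X.g * (D + 1) * A, fun b => ?_⟩
  obtain ⟨Fo⟩ := hκ b 1
  haveI := Fo.fintype_ι
  choose pn hpn hpn' using fun s i => X.exists_eval_poly (Fo.num_mem s i)
  choose pd hpd hpd' using fun s => X.exists_eval_poly (Fo.den_mem s)
  choose Cs hCs using fun s => hA_eval_div_le (X.g * (D + 1)) (pn s) (pd s) (hpn s) (hpd s)
  refine ⟨(X.g * (D + 1) : ℕ) * C₁ + ∑ s, |Cs s|, ?_⟩
  rintro _ ⟨Q, hQ, rfl⟩ hreg
  rw [Setup.xc_clT hQ]
  have e1 : b + 1 • X.clT Q = X.clT Q + b := by rw [one_nsmul, add_comm]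
  obtain ⟨s, hs⟩ := Fo.complete Q hQ.1 (by rwa [e1])
  obtain ⟨-, -, hx⟩ := Fo.sound s Q hs
  rw [e1] at hx
  have hq : (pd s).eval (X.genVals Q) ≠ 0 := fun h => hs ((hpd' s Q).trans h)
  have h1 := hCs s (X.genVals Q) hq
  rw [show (fun i => (pn s i).eval (X.genVals Q) / (pd s).eval (X.genVals Q)) =
      X.xc (X.clT Q + b) from funext fun i => by rw [hx i, hpn', hpd']; rfl] at h1
  have h2 := mul_le_mul_of_nonneg_left (hA₁ Q hQ.1) (Nat.cast_nonneg (α := ℝ) (X.g * (D + 1)))
  have h3 : Cs s ≤ ∑ s, |Cs s| := (le_abs_self _).trans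
    (Finset.single_le_sum (f := fun s => |Cs s|) (fun s _ => abs_nonneg _) (Finset.mem_univ s))
  push_cast at h1 h2 ⊢
  linarith

end Fermat.Agent.MCurve.MW
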