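/-
The key inequality: on regular classes multiplication by `ℓ` multiplies the height by about `ℓ ^ 2`.
-/
import Fermat.Agent.MCurve.MW.DescentHeight

set_option autoImplicit false
set_option linter.unusedSectionVars false

noncomputable section

namespace Fermat.Agent.MCurve.MW

open AlgebraicCurve RR
open scoped Classical

local notation "ℚb" => AlgebraicClosure ℚ

section Poly

variable {K F : Type*} [Field K] [Field F] [Algebra K F] [IsAlgClosed K]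
  [∀ v : Place K F, v.FiniteResidue] [HasPrincipalDivisors K F] [Nonempty (Place K F)]
  (X : Setup K F)

theorem Setup.prod_ne_zero_PF {ι : Type*} (s : Finset ι) (n : ι → ℕ) (Φ : ι → X.Tup → K)
    (hΦ : ∀ i ∈ s, Φ i ∈ X.PF (n i)) (h : ∀ i ∈ s, Φ i ≠ 0) : (∏ i ∈ s, Φ i) ≠ 0 := by
  induction s using Finset.induction_on with
  | empty =>
    rw [Finset.prod_empty]
    obtain ⟨Q, hQ⟩ := X.exists_regular
    exact fun h0 => one_ne_zero (congrFun h0 Q)
  | @insert i s hi ih =>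
    rw [Finset.prod_insert hi]
    exact X.mul_ne_zero_PF (hΦ i (Finset.mem_insert_self i s))
      (Setup.prod_mem_PF s n Φ fun j hj => hΦ j (Finset.mem_insert_of_mem hj))
      (h i (Finset.mem_insert_self i s))
      (ih (fun j hj => hΦ j (Finset.mem_insert_of_mem hj)) fun j hj => h j (Finset.mem_insert_of_mem hj))

/-- More monomials than the dimension give a relation. -/
theorem Setup.exists_relation_count {D Dw e M : ℕ} {den : X.Tup → K} (hden : den ∈ X.PF D)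
    (num : Fin X.g → X.Tup → K) (hnum : ∀ j, num j ∈ X.PF D) {W : X.Tup → K} (hW : W ∈ X.PF Dw)
    (hV : X.V ∈ X.PF Dw)
    (hcount : (X.g * e * D + M * Dw + 1) ^ X.g < e ^ X.g * (M + 1)) :
    ∃ G : Fin (M + 1) → MvPolynomial (Fin X.g) K, (∃ i, G i ≠ 0) ∧
      (∀ i, (G i).totalDegree ≤ X.g * e) ∧
      ∀ Q, den Q ≠ 0 → X.V Q ≠ 0 →
        ∑ i, (G i).eval (fun j => num j Q / den Q) * (W Q / X.V Q) ^ (i : ℕ) = 0 := by
  set n := X.g * e * D + M * Dw
  haveI := X.finiteDimensional_PF n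
  have hsum : ∀ a : Fin X.g → Fin e, ∑ j, (a j : ℕ) ≤ X.g * e := fun a =>
    (Finset.sum_le_sum fun j _ => (a j).2.le).trans (by simp)
  let v : (Fin X.g → Fin e) × Fin (M + 1) → X.Tup → K := fun ai =>
    ((∏ j, num j ^ (ai.1 j : ℕ)) * den ^ (X.g * e - ∑ j, (ai.1 j : ℕ))) *
      (W ^ (ai.2 : ℕ) * X.V ^ (M - (ai.2 : ℕ)))
  have hv : ∀ ai, v ai ∈ X.PF n := fun ai => by
    refine Setup.mul_mem_PF ?_ ?_
    · have := Setup.mul_mem_PF
        (Setup.prod_mem_PF Finset.univ (fun j => (ai.1 j : ℕ) * D) (fun j => num j ^ (ai.1 j : ℕ))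
          fun j _ => Setup.pow_mem_PF (hnum j) _)
        (Setup.pow_mem_PF hden (X.g * e - ∑ j, (ai.1 j : ℕ)))
      rwa [← Finset.sum_mul, ← Nat.add_mul, Nat.add_sub_cancel' (hsum ai.1)] at this
    · have := Setup.mul_mem_PF (Setup.pow_mem_PF hW (ai.2 : ℕ))
        (Setup.pow_mem_PF hV (M - (ai.2 : ℕ)))
      rwa [← Nat.add_mul, Nat.add_sub_cancel' (Nat.lt_succ_iff.mp ai.2.2)] at this
  have hdep : ¬ LinearIndependent K fun ai => (⟨v ai, hv ai⟩ : X.PF n) := fun hli => by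
    have h1 := hli.fintype_card_le_finrank
    have h2 := X.finrank_PF_le n
    simp only [Fintype.card_prod, Fintype.card_fun, Fintype.card_fin] at h1
    omega
  obtain ⟨co, hco, ⟨a₀, i₀⟩, ha₀⟩ := Fintype.not_linearIndependent_iff.mp hdep
  let ex : (Fin X.g → Fin e) → Fin X.g →₀ ℕ := fun a =>
    Finsupp.equivFunOnFinite.symm fun j => (a j : ℕ)
  have hex : Function.Injective ex := fun a b h => funext fun j =>
    Fin.ext (congrFun (congrArg (fun f : Fin X.g →₀ ℕ => (f : Fin X.g → ℕ)) h) j)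
  refine ⟨fun i => ∑ a, MvPolynomial.monomial (ex a) (co (a, i)), ⟨i₀, fun h => ha₀ ?_⟩,
    fun i => ?_, fun Q hQ hVQ => ?_⟩
  · have h1 := congrArg (MvPolynomial.coeff (ex a₀)) h
    rw [MvPolynomial.coeff_sum, Finset.sum_eq_single a₀ (fun b _ hb => by
      rw [MvPolynomial.coeff_monomial, if_neg (hex.ne hb)]) (fun h => absurd (Finset.mem_univ _) h),
      MvPolynomial.coeff_monomial, if_pos rfl, MvPolynomial.coeff_zero] at h1
    exact h1
  · refine (MvPolynomial.totalDegree_finsetSum _ _).trans (Finset.sup_le fun a _ => ?_)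
    refine (MvPolynomial.totalDegree_monomial_le _ _).trans ?_
    rw [Finsupp.sum_fintype _ _ fun _ => rfl]
    exact hsum a
  · have h0 := congrFun (congrArg (fun z : X.PF n => (z : X.Tup → K)) hco) Q
    simp only [AddSubmonoidClass.coe_finsetSum, SetLike.val_smul, Finset.sum_apply, Pi.smul_apply,
      smul_eq_mul, ZeroMemClass.coe_zero, Pi.zero_apply] at h0
    have e1 : ∀ ai : (Fin X.g → Fin e) × Fin (M + 1), v ai Q = den Q ^ (X.g * e) * X.V Q ^ M *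
        ((∏ j, (num j Q / den Q) ^ (ai.1 j : ℕ)) * (W Q / X.V Q) ^ (ai.2 : ℕ)) := fun ai => by
      simp only [v, Pi.mul_apply, Finset.prod_apply, Pi.pow_apply, div_pow, Finset.prod_div_distrib,
        Finset.prod_pow_eq_pow_sum]
      rw [← pow_sub_mul_pow (den Q) (hsum ai.1),
        ← pow_sub_mul_pow (X.V Q) (Nat.lt_succ_iff.mp ai.2.2)]
      field_simp
    simp only [e1] at h0
    rw [Fintype.sum_prod_type, Finset.sum_comm] at h0
    have h1 : den Q ^ (X.g * e) * X.V Q ^ M ≠ 0 := mul_ne_zero (pow_ne_zero _ hQ) (pow_ne_zero _ hVQ)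
    refine (mul_eq_zero.mp ?_).resolve_left h1
    rw [← h0, Finset.mul_sum]
    refine Finset.sum_congr rfl fun i _ => ?_
    rw [map_sum, Finset.sum_mul, Finset.mul_sum]
    refine Finset.sum_congr rfl fun a _ => ?_
    rw [MvPolynomial.eval_monomial, Finsupp.prod_fintype _ _ fun _ => pow_zero _]
    have hexa : ∀ j, (ex a) j = (a j : ℕ) := fun j => rfl
    simp only [hexa]
    ring

end Poly

variable {F : Type*} [Field F] [Algebra ℚb F] [∀ v : Place ℚb F, v.FiniteResidue]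
  [HasPrincipalDivisors ℚb F] [Nonempty (Place ℚb F)] (X : Setup ℚb F)

theorem Setup.infinite_pt : Infinite X.Pt := by
  have h : ∀ k : ℚb, ∃ P : X.Pt, valAt P.1 X.f = k := fun k => by
    obtain ⟨T, hT, hsum⟩ := X.f_fin.exists_zeros k
    obtain ⟨v, hv⟩ : T.Nonempty := by
      by_contra hne
      rw [Finset.not_nonempty_iff_eq_empty.mp hne, Finset.sum_empty] at hsum
      haveI := X.f_fin.finite
      exact Module.finrank_pos.ne' (by exact_mod_cast hsum.symm)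
    have hpos := (hT v).mp hv
    refine ⟨⟨v, ?_⟩, valAt_eq (Or.inr hpos)⟩
    rintro rfl
    have hm : X.f ∈ X.inf.toValuationSubring := by
      simpa using add_mem (Van.mem (Or.inr hpos)) (X.inf.algebraMap_mem' k)
    have := ord_nonneg_of_mem' X.inf hm
    rw [X.f_inf] at this
    omega
  choose P hP using h
  exact Infinite.of_injective P fun a b e => by rw [← hP a, ← hP b, e]

set_option maxHeartbeats 1000000 in
/-- The key inequality. -/
theorem Setup.exists_key (hg : 0 < X.g) :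
    ∃ A : ℕ, ∀ ℓ : ℕ, ℓ.Prime → Finite {t : Pic0 ℚb F // ℓ • t = 0} →
      ∃ (d : Pic0 ℚb F) (T : Finset X.Tup) (C : ℝ), ∀ c : Pic0 ℚb F, ∃ Q ∈ T,
        X.Reg (c + X.clT Q) ∧ X.Reg (d + ℓ • (c + X.clT Q)) ∧
          (Nat.card {t : Pic0 ℚb F // ℓ • t = 0} : ℝ) * hA (X.xc (c + X.clT Q)) ≤
            (A * ℓ ^ (2 * X.g - 2) : ℕ) * hA (X.xc (d + ℓ • (c + X.clT Q))) + C := by
  obtain ⟨κ, hκ⟩ := X.exists_formulas
  obtain ⟨At, hAt⟩ := X.exists_translate_bound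
  obtain ⟨Dx₀, hDx₀⟩ := X.xT_cleared
  choose Φc hΦc hΦc' using hDx₀
  set Dx := Dx₀ + X.g * (X.g * (X.c + 1))
  have hV : X.V ∈ X.PF Dx := Setup.PF_mono (Nat.le_add_left _ _) X.V_mem_PF
  set C' := 4 * κ * X.g + Dx + 1 with hC'
  set r := Fintype.card X.Coord
  have hr : 0 < r := Fintype.card_pos_iff.mpr ⟨Sum.inl ⟨0, hg⟩⟩
  refine ⟨At * r * X.g * (C' ^ X.g + 1), fun ℓ hℓ hfin => ?_⟩
  haveI := Fintype.ofFinite {t : Pic0 ℚb F // ℓ • t = 0}
  set n := Fintype.card {t : Pic0 ℚb F // ℓ • t = 0}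
  set e := C' ^ X.g * ℓ ^ (2 * X.g - 2) + 1 with he
  set M := ℓ ^ 2 * e with hM
  set D := κ * (ℓ + 1) ^ 2 with hD
  -- the class `d` and the coordinates `y`
  obtain ⟨Q₀, hQ₀⟩ := X.exists_regular
  set d := X.clT Q₀ - ℓ • X.clT Q₀ with hd
  obtain ⟨Fd⟩ := hκ d ℓ
  obtain ⟨s, hs⟩ := Fd.complete Q₀ hQ₀.1 (by rw [hd, sub_add_cancel]; exact hQ₀.reg)
  obtain ⟨z, hz⟩ := X.exists_indep hℓ.pos Fd s ⟨Q₀, hs⟩
  -- the relations
  have hcount : (X.g * e * D + M * Dx + 1) ^ X.g < e ^ X.g * (M + 1) := by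
    have h1 : X.g * e * D + M * Dx + 1 ≤ ℓ ^ 2 * e * C' := by
      have h2 : (ℓ + 1) ^ 2 ≤ 4 * ℓ ^ 2 := by nlinarith [hℓ.one_le]
      have h3 : X.g * e * D ≤ X.g * e * (κ * (4 * ℓ ^ 2)) :=
        Nat.mul_le_mul_left _ (Nat.mul_le_mul_left _ h2)
      have h4 : 1 ≤ ℓ ^ 2 * e := Nat.mul_pos (pow_pos hℓ.pos 2) (Nat.succ_pos _)
      have h5 : ℓ ^ 2 * e * C' =
          X.g * e * (κ * (4 * ℓ ^ 2)) + ℓ ^ 2 * e * Dx + ℓ ^ 2 * e := by rw [hC']; ring
      rw [hM]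
      omega
    have h6 : ℓ ^ (2 * X.g) * C' ^ X.g ≤ ℓ ^ 2 * e := by
      rw [show 2 * X.g = 2 + (2 * X.g - 2) by omega, pow_add, mul_assoc]
      exact Nat.mul_le_mul_left _ (by rw [he, mul_comm]; exact Nat.le_succ _)
    calc (X.g * e * D + M * Dx + 1) ^ X.g ≤ (ℓ ^ 2 * e * C') ^ X.g := Nat.pow_le_pow_left h1 _
      _ = e ^ X.g * (ℓ ^ (2 * X.g) * C' ^ X.g) := by rw [mul_pow, mul_pow, ← pow_mul]; ring
      _ ≤ e ^ X.g * (ℓ ^ 2 * e) := Nat.mul_le_mul_left _ h6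
      _ < e ^ X.g * (M + 1) :=
        Nat.mul_lt_mul_of_pos_left (by omega) (pow_pos (Nat.succ_pos _) _)
  let Wk : ℕ → X.Tup → ℚb := fun k =>
    ∑ i, ((k : ℚb) ^ (Fintype.equivFin X.Coord i : ℕ)) • Φc i
  have hWk : ∀ k, Wk k ∈ X.PF Dx := fun k => Submodule.sum_mem _ fun i _ =>
    Submodule.smul_mem _ _ (Setup.PF_mono (Nat.le_add_right _ _) (hΦc i))
  have hWk' : ∀ k Q, X.V Q ≠ 0 → Wk k Q = X.V Q * tupComb k (X.xT Q) := fun k Q hQ => by
    simp only [Wk, tupComb, Finset.sum_apply, Pi.smul_apply, smul_eq_mul, Finset.mul_sum, hΦc' _ Q hQ]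
    exact Finset.sum_congr rfl fun i _ => by ring
  set K₀ := Finset.range ((n * n + n) * r + 1) with hK₀
  choose G hG₀ hGdeg hGrel using fun k => X.exists_relation_count (Fd.den_mem s)
    (fun j => Fd.num s (z j)) (fun j => Fd.num_mem s (z j)) (hWk k) hV hcount
  choose ik hik using hG₀
  choose Ψ hΨ hΨ' using fun k => X.exists_cleared (G k (ik k)) (hGdeg k (ik k))
    (fun j => Fd.num s (z j)) (Fd.den s) (fun j => Fd.num_mem s (z j)) (Fd.den_mem s)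
  have hΨ0 : ∀ k, Ψ k ≠ 0 := fun k h => by
    obtain ⟨Q, hQ, hp⟩ := hz (G k (ik k)) (hik k)
    have h1 := hΨ' k Q hQ
    rw [h, Pi.zero_apply, eq_comm, mul_eq_zero] at h1
    exact hp (h1.resolve_left (pow_ne_zero _ hQ))
  -- the good polynomial
  set Φ := Fd.den s * ∏ k ∈ K₀, Ψ k
  have hΦ : Φ ∈ X.PF _ := Setup.mul_mem_PF (Fd.den_mem s)
    (Setup.prod_mem_PF K₀ (fun _ => X.g * e * D) Ψ fun k _ => hΨ k)
  have hΦ0 : Φ ≠ 0 := X.mul_ne_zero_PF (Fd.den_mem s)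
    (Setup.prod_mem_PF K₀ (fun _ => X.g * e * D) Ψ fun k _ => hΨ k)
    (fun h => hs (congrFun h Q₀))
    (X.prod_ne_zero_PF K₀ (fun _ => X.g * e * D) Ψ (fun k _ => hΨ k) fun k _ => hΨ0 k)
  obtain ⟨Gd, hGd, hGdΦ⟩ := X.exists_good hΦ hΦ0
  -- the grid
  have hu : ∀ u : Pic0 ℚb F, ∃ Ψu ∈ X.PF (κ * (1 + 1) ^ 2 + Gd.totalDegree * (κ * (1 + 1) ^ 2)),
      Ψu ≠ 0 ∧ ∀ Q, Ψu Q ≠ 0 → ∃ R : X.Tup, X.IsRegT R ∧ X.clT R = u + X.clT Q ∧
        Gd.eval (X.xT R) ≠ 0 := fun u => by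
    obtain ⟨Fu⟩ := hκ u 1
    obtain ⟨su, Qu, hQu, hGu⟩ := X.exists_formula_good Fu Gd hGd
    obtain ⟨Ψ', hΨ₁, hΨ₂⟩ := X.exists_cleared Gd le_rfl (fun i => Fu.num su i) (Fu.den su)
      (fun i => Fu.num_mem su i) (Fu.den_mem su)
    refine ⟨Fu.den su * Ψ', Setup.mul_mem_PF (Fu.den_mem su) hΨ₁, fun h => ?_, fun Q hQ => ?_⟩
    · have h1 := congrFun h Qu
      rw [Pi.mul_apply, Pi.zero_apply, mul_eq_zero, hΨ₂ Qu hQu, mul_eq_zero] at h1
      exact h1.elim hQu fun h2 => h2.elim (fun h3 => pow_ne_zero _ hQu h3) hGu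
    · rw [Pi.mul_apply, mul_ne_zero_iff] at hQ
      obtain ⟨-, hreg, hx⟩ := Fu.sound su Q hQ.1
      rw [one_nsmul] at hreg hx
      obtain ⟨R, hR, hRc⟩ := hreg
      refine ⟨R, hR, hRc, fun h0 => hQ.2 ?_⟩
      rw [hΨ₂ Q hQ.1, ← funext hx, ← hRc, Setup.xc_clT hR, h0, mul_zero]
  choose Ψu hΨu hΨu0 hΨu' using hu
  haveI := X.infinite_pt
  obtain ⟨S, hS⟩ := Infinite.exists_subset_card_eq X.Pt
    (n * (κ * (1 + 1) ^ 2 + Gd.totalDegree * (κ * (1 + 1) ^ 2)) + 1)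
  choose Ct hCt using fun t : {t : Pic0 ℚb F // ℓ • t = 0} => hAt (-t.1)
  obtain ⟨C₁, hC₁⟩ := exists_tupComb hr K₀
  choose CP hCP using fun k => hP_eval_le (X.g * e) (G k) (hGdeg k)
  obtain ⟨C₂, hC₂⟩ := sum_hA_roots_le M
  refine ⟨d, Fintype.piFinset fun _ => S,
    At * (n * C₁ + r * ((∑ k ∈ K₀, |CP k|) + C₂)) + ∑ t, Ct t, fun c => ?_⟩
  obtain ⟨Q, hQS, hQ⟩ := X.exists_grid
    (Setup.prod_mem_PF (Finset.univ : Finset {t : Pic0 ℚb F // ℓ • t = 0})
      (fun _ => κ * (1 + 1) ^ 2 + Gd.totalDegree * (κ * (1 + 1) ^ 2)) (fun t => Ψu (c + t.1))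
      fun t _ => hΨu _)
    (X.prod_ne_zero_PF _ _ _ (fun t _ => hΨu _) fun t _ => hΨu0 _) S (by
      rw [hS, Finset.sum_const, Finset.card_univ, smul_eq_mul]
      exact Nat.lt_succ_self _)
  rw [Finset.prod_apply, Finset.prod_ne_zero_iff] at hQ
  choose R hR hRc hRG using fun t => hΨu' (c + t.1) Q (hQ t (Finset.mem_univ t))
  have hΦR : ∀ t, Fd.den s (R t) ≠ 0 ∧ ∀ k ∈ K₀, Ψ k (R t) ≠ 0 := fun t => by
    have h1 := hGdΦ (R t) (hR t) (hRG t)
    simp only [Φ, Pi.mul_apply, Finset.prod_apply, mul_ne_zero_iff, Finset.prod_ne_zero_iff] at h1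
    exact h1
  set t₀ : {t : Pic0 ℚb F // ℓ • t = 0} := ⟨0, smul_zero _⟩
  set a := c + X.clT Q with ha
  have hRt : ∀ t, X.clT (R t) = a + t.1 := fun t => by rw [hRc, ha]; abel
  have hy : ∀ t, X.Reg (d + ℓ • a) ∧
      ∀ i, X.xc (d + ℓ • a) i = Fd.num s i (R t) / Fd.den s (R t) := fun t => by
    obtain ⟨-, h1, h2⟩ := Fd.sound s (R t) (hΦR t).1
    have e1 : ℓ • X.clT (R t) = ℓ • a := by rw [hRt, nsmul_add, t.2, add_zero]
    rw [e1] at h1 h2
    exact ⟨h1, h2⟩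
  set y₀ := X.xc (d + ℓ • a) with hy₀
  have hinj : Function.Injective fun t => X.xT (R t) := fun t t' h => by
    have h1 := X.xc_injective (hR t).reg (hR t').reg (by
      rw [Setup.xc_clT (hR t), Setup.xc_clT (hR t')]; exact h)
    rw [hRt, hRt] at h1
    exact Subtype.ext (add_left_cancel h1)
  refine ⟨Q, Fintype.mem_piFinset.mpr hQS, ⟨R t₀, hR t₀, by rw [hRt]; exact add_zero a⟩,
    (hy t₀).1, ?_⟩
  obtain ⟨k, hk, hkinj, hkh⟩ := hC₁ _ (fun t => X.xT (R t)) hinj (by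
    rw [hK₀, Finset.card_range]; exact Nat.lt_succ_of_le (le_refl ((n * n + n) * r)))
  -- the roots
  set yz : Fin X.g → ℚb := fun j => y₀ (z j)
  have hyz : ∀ t, yz = fun j => Fd.num s (z j) (R t) / Fd.den s (R t) :=
    fun t => funext fun j => (hy t).2 _
  set P : Polynomial ℚb := ∑ i : Fin (M + 1), Polynomial.C ((G k i).eval yz) *
    Polynomial.X ^ (i : ℕ) with hPdef
  have hcoef : (fun i : Fin (M + 1) => P.coeff i) = fun i => (G k i).eval yz := funext fun i => by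
    simp [P, Polynomial.finsetSum_coeff, Polynomial.coeff_X_pow, Fin.val_inj]
  have hne : (G k (ik k)).eval yz ≠ 0 := fun h0 => by
    have h1 := hΨ' k (R t₀) (hΦR t₀).1
    rw [← hyz t₀, h0, mul_zero] at h1
    exact (hΦR t₀).2 k hk h1
  have hP0 : P ≠ 0 := fun h => hne (by
    have := congrFun hcoef (ik k)
    rw [h, Polynomial.coeff_zero] at this
    exact this.symm)
  have hPd : P.natDegree ≤ M := Polynomial.natDegree_sum_le_of_forall_le _ _ fun i _ =>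
    (Polynomial.natDegree_C_mul_X_pow_le _ _).trans (Nat.lt_succ_iff.mp i.2)
  have hroots := hC₂ P hP0 hPd (Finset.univ.image fun t => tupComb k (X.xT (R t))) fun x hx => by
    obtain ⟨t, -, rfl⟩ := Finset.mem_image.mp hx
    have h1 := hGrel k (R t) (hΦR t).1 (hR t).1
    rw [← hyz t, hWk' k _ (hR t).1, mul_div_cancel_left₀ _ (hR t).1] at h1
    simpa [Polynomial.IsRoot, P, Polynomial.eval_finsetSum] using h1
  rw [Finset.sum_image fun t _ t' _ h => hkinj h, hcoef] at hroots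
  have hCPk := hCP k yz ⟨ik k, hne⟩
  have hyzle : hA yz ≤ hA y₀ := hA_comp_le y₀ z
  -- comparison with the translates
  have htr : ∀ t, hA (X.xc a) ≤ At * hA (X.xT (R t)) + Ct t := fun t => by
    have h1 := hCt t (X.clT (R t)) (hR t).reg (by
      rw [hRt, add_neg_cancel_right]; exact ⟨R t₀, hR t₀, by rw [hRt]; exact add_zero a⟩)
    rwa [hRt, add_neg_cancel_right, ← hRt, Setup.xc_clT (hR t)] at h1
  have h1 : (n : ℝ) * hA (X.xc a) ≤ At * ∑ t, hA (X.xT (R t)) + ∑ t, Ct t := by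
    have := Finset.sum_le_sum (s := Finset.univ) fun t _ => htr t
    rwa [Finset.sum_const, Finset.card_univ, nsmul_eq_mul, Finset.sum_add_distrib,
      ← Finset.mul_sum] at this
  have h2 : ∑ t, hA (X.xT (R t)) ≤
      r * (∑ t, hA fun _ : Fin 1 => tupComb k (X.xT (R t))) + n * C₁ := by
    rw [Finset.mul_sum, ← sub_le_iff_le_add]
    refine le_trans (le_of_eq ?_) (Finset.sum_le_sum fun t _ => hkh t)
    simp [Finset.sum_sub_distrib, n]
  have h3 : CP k ≤ ∑ k ∈ K₀, |CP k| := (le_abs_self _).trans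
    (Finset.single_le_sum (f := fun k => |CP k|) (fun k _ => abs_nonneg _) hk)
  have h4 : (∑ t, hA fun _ : Fin 1 => tupComb k (X.xT (R t))) ≤
      (X.g * e : ℕ) * hA y₀ + ((∑ k ∈ K₀, |CP k|) + C₂) := by
    have := mul_le_mul_of_nonneg_left hyzle (Nat.cast_nonneg (α := ℝ) (X.g * e))
    linarith
  have h5 : (e : ℝ) ≤ ((C' ^ X.g + 1) * ℓ ^ (2 * X.g - 2) : ℕ) := by
    rw [he, Nat.add_mul, one_mul]
    exact_mod_cast Nat.add_le_add_left (Nat.one_le_pow _ _ hℓ.pos) _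
  have h6 := mul_le_mul_of_nonneg_left h2 (Nat.cast_nonneg (α := ℝ) At)
  have h7 := mul_le_mul_of_nonneg_left h4
    (mul_nonneg (Nat.cast_nonneg (α := ℝ) At) (Nat.cast_nonneg (α := ℝ) r))
  have h8 := mul_le_mul_of_nonneg_left h5
    (mul_nonneg (mul_nonneg (mul_nonneg (Nat.cast_nonneg (α := ℝ) At) (Nat.cast_nonneg (α := ℝ) r))
      (Nat.cast_nonneg (α := ℝ) X.g)) (hA_nonneg y₀))
  rw [Nat.card_eq_fintype_card]
  push_cast at *
  nlinarith

end Fermat.Agent.MCurve.MW
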