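/-
Unit D: the key inequality of heights and the descent.
-/
import Fermat.Agent.MCurve.MW.DescentKey

set_option autoImplicit false
set_option linter.unusedSectionVars false

noncomputable section

namespace Fermat.Agent.MCurve.MW

open AlgebraicCurve RR
open scoped Classical

local notation "ℚb" => AlgebraicClosure ℚ

/-- A commutative group with a height decreasing under division is finitely generated. -/
theorem fg_of_descent {G : Type*} [AddCommGroup G] (R : Finset G) (h : G → ℝ) (C : ℝ) (m : ℕ)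
    (h0 : ∀ x, 0 ≤ h x) (hfin : ∀ B, {x | h x ≤ B}.Finite)
    (hdec : ∀ x, ∃ r ∈ R, ∃ y, x = r + m • y ∧ h y ≤ h x / 2 + C) : AddGroup.FG G := by
  set S : Set G := ↑R ∪ {x | h x ≤ 2 * |C| + 1}
  have hS : S.Finite := R.finite_toSet.union (hfin _)
  have key : ∀ (n : ℕ) (x : G), 2 * h x ≤ n → x ∈ AddSubgroup.closure S := fun n => by
    induction n with
    | zero =>
      intro x hx
      refine AddSubgroup.subset_closure (Or.inr ?_)
      show h x ≤ 2 * |C| + 1
      push_cast at hx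
      have := abs_nonneg C
      linarith
    | succ n ih =>
      intro x hx
      by_cases hx' : h x ≤ 2 * |C| + 1
      · exact AddSubgroup.subset_closure (Or.inr hx')
      · obtain ⟨r, hr, y, rfl, hy⟩ := hdec x
        refine add_mem (AddSubgroup.subset_closure (Or.inl hr)) (nsmul_mem (ih y ?_) m)
        push_cast at hx
        have := le_abs_self C
        linarith [not_le.mp hx']
  refine AddGroup.fg_iff.mpr ⟨S, eq_top_iff.mpr fun x _ => ?_, hS⟩
  exact key ⌈2 * h x⌉₊ x (Nat.le_ceil _)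

variable {F : Type*} [Field F] [Algebra ℚb F] [∀ v : Place ℚb F, v.FiniteResidue]
  [HasPrincipalDivisors ℚb F] [Nonempty (Place ℚb F)]

/-- Descent: a group of classes with rational coordinates and finite quotients is finitely
generated. -/
theorem Setup.addGroup_fg (X : Setup ℚb F) (H : AddSubgroup (Pic0 ℚb F))
    (hrat : ∀ Q : X.Tup, ∃ L : IntermediateField ℚ ℚb, FiniteDimensional ℚ L ∧
      ∀ c ∈ H, ∀ i, X.xc (c + X.clT Q) i ∈ L)
    (hquot : ∀ ℓ : ℕ, ℓ.Prime → Finite (H ⧸ (nsmulAddMonoidHom (α := H) ℓ).range))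
    (htor : ∀ ℓ : ℕ, ℓ.Prime → Finite {t : Pic0 ℚb F // ℓ • t = 0})
    (hcard : ∀ ℓ : ℕ, ℓ.Prime → ℓ ^ (2 * X.g) ≤ Nat.card {t : Pic0 ℚb F // ℓ • t = 0}) :
    AddGroup.FG H := by
  rcases Nat.eq_zero_or_pos X.g with hg | hg
  · -- genus zero: there is only one class
    have h1 : (fun _ => (1 : ℚb)) ∈ X.PF 0 := X.const_mem_PF 0 1
    obtain ⟨Q₀, -⟩ := X.exists_regular
    have hne : (fun _ : X.Tup => (1 : ℚb)) ≠ 0 := fun h => one_ne_zero (congrFun h Q₀)
    haveI : IsEmpty (Fin X.g) := by rw [hg]; infer_instance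
    have hz : ∀ d : Pic0 ℚb F, d = 0 := fun d => by
      obtain ⟨Q, -, -, R, -, hR⟩ := X.exists_reg_translate d h1 hne
      rw [Subsingleton.elim R Q] at hR
      have := congrArg (fun e => e - X.clT Q) hR
      simpa using this.symm
    refine fg_of_descent {0} (fun _ => (0 : ℝ)) 0 0 (fun _ => le_rfl) (fun B => ?_)
      fun x => ⟨0, Finset.mem_singleton_self _, 0, Subtype.ext (by simp [hz x.1]), by norm_num⟩
    exact ((Set.finite_singleton (0 : H)).subset fun x _ => Subtype.ext (hz x.1))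
  · obtain ⟨A, hA'⟩ := X.exists_key hg
    obtain ⟨At, hAt⟩ := X.exists_translate_bound
    obtain ⟨ℓ, hℓle, hℓ⟩ := Nat.exists_infinite_primes (2 * A * (At + 1) + 1)
    haveI := htor ℓ hℓ
    haveI := hquot ℓ hℓ
    obtain ⟨d, T, C, hkey⟩ := hA' ℓ hℓ inferInstance
    choose α hαT hα1 hα2 hα3 using hkey
    let h : H → ℝ := fun x => hA (X.xc (x.1 + X.clT (α x.1)))
    let R : Set H := Set.range (Quotient.out : H ⧸ (nsmulAddMonoidHom (α := H) ℓ).range → H)
    have hR : R.Finite := Set.finite_range _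
    choose Cb hCb using hAt
    let b : H → X.Tup → X.Tup → Pic0 ℚb F := fun r Q Q' =>
      d + ℓ • X.clT Q' - r.1 - X.clT Q
    let Ctot : ℝ := ∑ p ∈ hR.toFinset ×ˢ (T ×ˢ T), |Cb (b p.1 p.2.1 p.2.2)|
    have hl2 : (0 : ℝ) < (ℓ : ℝ) ^ (2 * X.g - 2) := pow_pos (Nat.cast_pos.mpr hℓ.pos) _
    refine fg_of_descent hR.toFinset h (|C| + A * Ctot) ℓ (fun x => hA_nonneg _) (fun B => ?_)
      fun x => ?_
    · -- finitely many classes of bounded height
      choose L hLfin hL using hrat
      refine Set.Finite.subset (Set.Finite.biUnion T.finite_toSet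
        (t := fun Q => {x : H | α x.1 = Q ∧ h x ≤ B}) fun Q _ => ?_)
        fun x hx => Set.mem_biUnion (hαT x.1) ⟨rfl, hx⟩
      haveI := hLfin Q
      refine Set.Finite.of_finite_image (f := fun x : H => X.xc (x.1 + X.clT Q))
        ((northcott_hA (ι := X.Coord) (L Q) B).subset ?_) ?_
      · rintro v ⟨x, ⟨hxQ, hx⟩, rfl⟩
        exact ⟨fun i => hL Q x.1 x.2 i, by simpa only [h, hxQ] using hx⟩
      · rintro x ⟨hxQ, -⟩ y ⟨hyQ, -⟩ e
        exact Subtype.ext (add_right_cancel (X.xc_injective (hxQ ▸ hα1 x.1) (hyQ ▸ hα1 y.1) e))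
    · -- division decreases the height
      set r : H := Quotient.out (QuotientAddGroup.mk x :
        H ⧸ (nsmulAddMonoidHom (α := H) ℓ).range) with hrdef
      obtain ⟨y, hy⟩ : ∃ y : H, nsmulAddMonoidHom ℓ y = -r + x :=
        AddMonoidHom.mem_range.mp (QuotientAddGroup.eq.mp (Quotient.out_eq _))
      have hxy : x = r + ℓ • y := by
        rw [nsmulAddMonoidHom_apply] at hy; rw [hy, add_neg_cancel_left]
      refine ⟨r, hR.mem_toFinset.mpr ⟨_, rfl⟩, y, hxy, ?_⟩
      set e := x.1 + X.clT (α x.1) with he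
      set a := y.1 + X.clT (α y.1) with ha
      have heq : d + ℓ • a = e + b r (α x.1) (α y.1) := by
        have h1 : x.1 = r.1 + ℓ • y.1 := by rw [hxy]; rfl
        simp only [b, he, ha, h1, nsmul_add]
        abel
      have h2 := hCb (b r (α x.1) (α y.1)) e (hα1 x.1) (by rw [← heq]; exact hα2 y.1)
      rw [← heq] at h2
      have h3 : |Cb (b r (α x.1) (α y.1))| ≤ Ctot :=
        Finset.single_le_sum (f := fun p : H × X.Tup × X.Tup => |Cb (b p.1 p.2.1 p.2.2)|)
          (fun p _ => abs_nonneg _) (a := (r, α x.1, α y.1))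
          (Finset.mem_product.mpr ⟨hR.mem_toFinset.mpr ⟨_, rfl⟩,
            Finset.mem_product.mpr ⟨hαT _, hαT _⟩⟩)
      have h4 := hα3 y.1
      have hN : ((ℓ : ℝ) ^ 2 * (ℓ : ℝ) ^ (2 * X.g - 2)) ≤
          Nat.card {t : Pic0 ℚb F // ℓ • t = 0} := by
        rw [← pow_add, show 2 + (2 * X.g - 2) = 2 * X.g by omega]
        exact_mod_cast hcard ℓ hℓ
      have h5 : (ℓ : ℝ) ^ 2 * hA (X.xc a) ≤ A * hA (X.xc (d + ℓ • a)) + |C| := by
        have h6 := (mul_le_mul_of_nonneg_right hN (hA_nonneg (X.xc a))).trans h4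
        push_cast at h6
        have h7 : |C| ≤ (ℓ : ℝ) ^ (2 * X.g - 2) * |C| :=
          le_mul_of_one_le_left (abs_nonneg _)
            (one_le_pow₀ (by exact_mod_cast hℓ.one_le))
        have h8 := le_abs_self C
        refine le_of_mul_le_mul_left ?_ hl2
        linarith
      have hl : 2 * (A : ℝ) * At + 1 ≤ (ℓ : ℝ) ^ 2 := by
        have h9 : 2 * A * At + 1 ≤ ℓ ^ 2 := by nlinarith [hℓ.one_le]
        exact_mod_cast h9
      show hA (X.xc a) ≤ hA (X.xc e) / 2 + _
      have h10 : (ℓ : ℝ) ^ 2 * hA (X.xc a) ≤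
          A * (At * hA (X.xc e)) + (|C| + A * Ctot) := by
        have := mul_le_mul_of_nonneg_left
          (h2.trans (add_le_add le_rfl ((le_abs_self _).trans h3))) (Nat.cast_nonneg (α := ℝ) A)
        linarith
      have h11 : 0 ≤ |C| + (A : ℝ) * Ctot := add_nonneg (abs_nonneg _)
        (mul_nonneg (Nat.cast_nonneg _) (Finset.sum_nonneg fun p _ => abs_nonneg _))
      have hA0 := hA_nonneg (X.xc a)
      have hE0 := hA_nonneg (X.xc e)
      have h12 := mul_le_mul_of_nonneg_right hl hA0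
      have hAA : (0 : ℝ) ≤ 2 * A * At := by positivity
      by_contra hcon
      have h13 := mul_le_mul_of_nonneg_left (not_le.mp hcon).le hAA
      have h14 := mul_nonneg hAA h11
      linarith

end Fermat.Agent.MCurve.MW
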