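/-
Coordinates commute with semilinear automorphisms fixing the data of the setup.
-/
import Fermat.Agent.MCurve.MW.Formulas
import Fermat.Prelude.Def_AlgebraicCurve_BaseChangeGalois

set_option autoImplicit false
set_option linter.unusedSectionVars false

noncomputable section

namespace Fermat.Agent.MCurve.MW

open AlgebraicCurve RR
open scoped Classical Pointwise

variable {K F : Type*} [Field K] [Field F] [Algebra K F] [IsAlgClosed K]
  [∀ v : Place K F, v.FiniteResidue] [HasPrincipalDivisors K F] [Nonempty (Place K F)]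

theorem valAt_smul_semilinear (γ : SemilinearAut K F) {v : Place K F} {a : F}
    (ha : a ∈ v.toValuationSubring) :
    valAt (γ • v) (γ • a) = SemilinearAut.baseAut γ (valAt v a) := by
  refine valAt_eq ?_
  rcases valAt_spec ha with h | h
  · left
    conv_lhs => rw [h]
    exact SemilinearAut.smul_algebraMap γ _
  · right
    rwa [← SemilinearAut.smul_algebraMap γ, ← smul_sub, SemilinearAut.ord_smul]

theorem mem_space_smul (γ : SemilinearAut K F) {D : Divisor K F} {a : F}
    (ha : a ∈ riemannRochSpace D) : γ • a ∈ riemannRochSpace (γ • D) := by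
  rcases eq_or_ne a 0 with rfl | h0
  · rw [smul_zero]; exact zero_mem _
  refine mem_space_iff.mpr (Or.inr fun w => ?_)
  have h1 := ((mem_space_iff.mp ha).resolve_left h0) (γ⁻¹ • w)
  have h2 := SemilinearAut.ord_smul γ (γ⁻¹ • w) a
  rw [smul_inv_smul] at h2
  rw [SemilinearAut.divisor_smul_apply, h2]
  exact h1

theorem ell_smul (γ : SemilinearAut K F) (D : Divisor K F) : ell (γ • D) = ell D := by
  have hback : ∀ {a : F}, a ∈ riemannRochSpace (γ • D) → γ⁻¹ • a ∈ riemannRochSpace D :=
    fun ha => by simpa only [inv_smul_smul] using mem_space_smul γ⁻¹ ha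
  let j : riemannRochSpace D ≃+ riemannRochSpace (γ • D) :=
    { toFun := fun x => ⟨γ • (x : F), mem_space_smul γ x.2⟩
      invFun := fun y => ⟨γ⁻¹ • (y : F), hback y.2⟩
      left_inv := fun x => Subtype.ext (inv_smul_smul γ (x : F))
      right_inv := fun y => Subtype.ext (smul_inv_smul γ (y : F))
      map_add' := fun x y => Subtype.ext (smul_add γ (x : F) y) }
  have h := rank_eq_of_equiv_equiv (R := K) (R' := K)
    (SemilinearAut.baseAut γ) j (SemilinearAut.baseAut γ).bijective fun r m => Subtype.ext (by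
      show γ • (r • (m : F)) = SemilinearAut.baseAut γ r • (γ • (m : F))
      rw [Algebra.smul_def, Algebra.smul_def, smul_mul', SemilinearAut.smul_algebraMap])
  exact (congrArg Cardinal.toNat h).symm

variable {X : Setup K F} (γ : SemilinearAut K F)

/-- The data are fixed. -/
def Setup.FixedBy (X : Setup K F) (γ : SemilinearAut K F) : Prop :=
  γ • X.inf = X.inf ∧ γ • X.f = X.f ∧ ∀ k, γ • X.gen k = X.gen k

variable {γ}

/-- The transported tuple. -/
def Setup.moveT (h : X.FixedBy γ) (Q : X.Tup) : X.Tup :=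
  fun i => ⟨γ • (Q i).1, fun e => (Q i).2 (MulAction.injective γ (e.trans h.1.symm))⟩

theorem Setup.fv_moveT (h : X.FixedBy γ) (Q : X.Tup) (i : Fin X.g) :
    X.fv (X.moveT h Q) i = SemilinearAut.baseAut γ (X.fv Q i) := by
  show valAt (γ • (Q i).1) X.f = _
  conv_lhs => rw [← h.2.1]
  exact valAt_smul_semilinear γ (Setup.mem_ring (Setup.f_mem_L X) (Q i).2)

theorem Setup.gen_moveT (h : X.FixedBy γ) (Q : X.Tup) (i : Fin X.g)
    (k : Fin (Module.finrank K (X.L X.n₁))) :
    valAt (X.moveT h Q i).1 (X.gen k) = SemilinearAut.baseAut γ (valAt (Q i).1 (X.gen k)) := by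
  show valAt (γ • (Q i).1) (X.gen k) = _
  conv_lhs => rw [← h.2.2 k]
  exact valAt_smul_semilinear γ (Setup.mem_ring (X.gen_mem k) (Q i).2)

theorem Setup.divT_moveT (h : X.FixedBy γ) (Q : X.Tup) :
    X.divT (X.moveT h Q) = γ • X.divT Q := by
  rw [Setup.divT, Setup.divT, Finset.smul_sum]
  exact Finset.sum_congr rfl fun i _ => (SemilinearAut.smul_single γ _ _).symm

theorem Setup.clT_moveT (h : X.FixedBy γ) (Q : X.Tup) : X.clT (X.moveT h Q) = γ • X.clT Q := by
  rw [Setup.clT, Setup.clT, SemilinearAut.pic0_smul_mk]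
  refine congrArg Pic0.mk (Subtype.ext ?_)
  show X.divT (X.moveT h Q) - _ = γ • (X.divT Q - Finsupp.single X.inf (X.g : ℤ))
  rw [smul_sub, SemilinearAut.smul_single, h.1, X.divT_moveT h Q]

theorem Setup.isRegT_moveT (h : X.FixedBy γ) {Q : X.Tup} (hQ : X.IsRegT Q) :
    X.IsRegT (X.moveT h Q) := by
  refine ⟨Setup.V_ne_zero_iff.mpr fun i j e => Setup.V_ne_zero_iff.mp hQ.1 ?_, ?_⟩
  · rw [X.fv_moveT h, X.fv_moveT h] at e
    exact (SemilinearAut.baseAut γ).injective e
  · rw [X.divT_moveT h, ell_smul]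
    exact hQ.2

theorem Setup.xT_moveT (h : X.FixedBy γ) {Q : X.Tup} (hV : X.V Q ≠ 0) (i : X.Coord) :
    X.xT (X.moveT h Q) i = SemilinearAut.baseAut γ (X.xT Q i) := by
  set σ : K →+* K := (SemilinearAut.baseAut γ).toRingHom
  rcases i with j | ⟨k, j⟩
  · show (∏ i, (Polynomial.X - Polynomial.C (X.fv (X.moveT h Q) i))).coeff j =
      σ ((∏ i, (Polynomial.X - Polynomial.C (X.fv Q i))).coeff j)
    rw [← Polynomial.coeff_map, Polynomial.map_prod]
    simp [X.fv_moveT h, σ]
  · show (Lagrange.interpolate Finset.univ (X.fv (X.moveT h Q))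
        fun i => valAt (X.moveT h Q i).1 (X.gen k)).coeff j =
      σ ((Lagrange.interpolate Finset.univ (X.fv Q) fun i => valAt (Q i).1 (X.gen k)).coeff j)
    rw [← Polynomial.coeff_map]
    congr 1
    have hinj := Setup.V_ne_zero_iff.mp hV
    have hinj' : Function.Injective (X.fv (X.moveT h Q)) := fun a b e => hinj (by
      rw [X.fv_moveT h, X.fv_moveT h] at e; exact (SemilinearAut.baseAut γ).injective e)
    refine ((Lagrange.eq_interpolate_iff _ hinj'.injOn).mp ⟨?_, fun i _ => ?_⟩).symm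
    · rw [Polynomial.degree_map_eq_of_injective σ.injective]
      exact Lagrange.degree_interpolate_lt _ hinj.injOn
    · rw [X.fv_moveT h, X.gen_moveT h]
      show Polynomial.eval (σ (X.fv Q i)) _ = σ _
      rw [Polynomial.eval_map, Polynomial.eval₂_at_apply,
        Lagrange.eval_interpolate_at_node _ hinj.injOn (Finset.mem_univ i)]

theorem Setup.FixedBy.inv (h : X.FixedBy γ) : X.FixedBy γ⁻¹ :=
  ⟨inv_smul_eq_iff.mpr h.1.symm, inv_smul_eq_iff.mpr h.2.1.symm,
    fun k => inv_smul_eq_iff.mpr (h.2.2 k).symm⟩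

theorem Setup.xc_smul (h : X.FixedBy γ) (d : Pic0 K F) (i : X.Coord) :
    X.xc (γ • d) i = SemilinearAut.baseAut γ (X.xc d i) := by
  by_cases hd : X.Reg d
  · obtain ⟨Q, hQ, rfl⟩ := hd
    rw [← X.clT_moveT h, Setup.xc_clT (X.isRegT_moveT h hQ), Setup.xc_clT hQ, X.xT_moveT h hQ.1]
  · have hd' : ¬ X.Reg (γ • d) := fun ⟨Q, hQ, e⟩ => hd ⟨X.moveT h.inv Q, X.isRegT_moveT h.inv hQ, by
      rw [X.clT_moveT h.inv, e, inv_smul_smul]⟩
    rw [Setup.xc, dif_neg hd', Setup.xc, dif_neg hd]
    simp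

end Fermat.Agent.MCurve.MW
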