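/-
A reduced basis of the functions with poles only over the poles of a coordinate.
-/
import Fermat.Agent.MCurve.RiemannRoch.Spaces
import Mathlib.LinearAlgebra.Dimension.OrzechProperty

set_option autoImplicit false
set_option linter.unusedSectionVars false
set_option linter.style.haveILetI false

noncomputable section

namespace Fermat.Agent.MCurve.MW

open AlgebraicCurve IntermediateField RR
open scoped Polynomial

variable {K F : Type*} [Field K] [Field F] [Algebra K F]
  [IsAlgClosed K] [∀ v : Place K F, v.FiniteResidue] [HasPrincipalDivisors K F]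
  [Nonempty (Place K F)]

variable (x : F)

/-- The functions with poles bounded by `s` times the poles of `x`. -/
abbrev Lx (s : ℤ) : Submodule K F := riemannRochSpace (s • poleDiv K x)

/-- The increase of the dimension. -/
abbrev jumpX (s : ℤ) : ℤ := (ell (s • poleDiv K x) : ℤ) - ell ((s - 1) • poleDiv K x)

variable {x}

theorem mem_Lx {s : ℤ} {f : F} :
    f ∈ Lx (K := K) x s ↔ f = 0 ∨ ∀ v : Place K F, -(s * max (-v.ord x) 0) ≤ v.ord f := by
  rw [mem_space_iff]
  simp [poleDiv_apply]

theorem Lx_mono {s t : ℤ} (h : s ≤ t) : Lx (K := K) x s ≤ Lx x t := fun f hf =>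
  mem_Lx.mpr ((mem_Lx.mp hf).imp id fun h' v =>
    le_trans (neg_le_neg (mul_le_mul_of_nonneg_right h (le_max_right _ _))) (h' v))

theorem x_mul_mem {s : ℤ} {f : F} (hf : f ∈ Lx (K := K) x s) : x * f ∈ Lx (K := K) x (s + 1) := by
  have hx : x ∈ Lx (K := K) x 1 := mem_Lx.mpr (Or.inr fun v => by omega)
  have := mul_mem_space hx hf
  rwa [← add_smul, add_comm] at this

theorem pow_mul_mem {s : ℤ} {f : F} (hf : f ∈ Lx (K := K) x s) :
    ∀ j : ℕ, x ^ j * f ∈ Lx (K := K) x (s + j)
  | 0 => by simpa using hf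
  | j + 1 => by
    rw [pow_succ', mul_assoc, Nat.cast_succ, ← add_assoc]
    exact x_mul_mem (pow_mul_mem hf j)

theorem mem_of_x_mul_mem (hx0 : x ≠ 0) {s : ℤ} {f : F} (hf : f ∈ Lx (K := K) x s)
    (hxf : x * f ∈ Lx (K := K) x s) : f ∈ Lx (K := K) x (s - 1) := by
  rcases eq_or_ne f 0 with rfl | hf0
  · exact zero_mem _
  refine mem_Lx.mpr (Or.inr fun v => ?_)
  have h1 := ((mem_Lx.mp hf).resolve_left hf0) v
  have h2 := ((mem_Lx.mp hxf).resolve_left (mul_ne_zero hx0 hf0)) v
  rw [v.ord_mul hx0 hf0] at h2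
  rw [sub_mul, one_mul]
  rcases le_or_gt 0 (v.ord x) with h | h
  · rw [max_eq_right (by omega)] at h1 ⊢
    omega
  · rw [max_eq_left (by omega)] at h1 h2 ⊢
    omega

theorem Lx_neg_one (hx : Transcendental K x) : Lx (K := K) x (-1) = ⊥ := by
  refine (Submodule.eq_bot_iff _).mpr fun f hf => ?_
  obtain ⟨a, rfl⟩ := exists_const_of_mem_zero (f := f) (by
    have := Lx_mono (t := 0) (by norm_num : (-1 : ℤ) ≤ 0) hf
    rwa [Lx, zero_smul] at this)
  by_contra h0
  obtain ⟨v, hv⟩ := exists_pole (K := K) hx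
  have := ((mem_Lx.mp hf).resolve_left h0) v
  rw [ord_algebraMap] at this
  omega

variable (x) in
/-- The leading terms at level `s` are independent modulo the previous level. -/
def LeadIndep {ι : Type} [Fintype ι] (b : ι → F) (a : ι → ℕ) (s : ℕ) : Prop :=
  ∀ c : ι → K, (∀ i, s < a i → c i = 0) →
    ∑ i, c i • (x ^ (s - a i) * b i) ∈ Lx (K := K) x ((s : ℤ) - 1) → c = 0

theorem lead_mem {ι : Type} [Fintype ι] {b : ι → F} {a : ι → ℕ}
    (hb : ∀ i, b i ∈ Lx (K := K) x (a i)) {s : ℕ} {i : ι} (hi : a i ≤ s) :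
    x ^ (s - a i) * b i ∈ Lx (K := K) x (s : ℤ) := by
  have h := pow_mul_mem (hb i) (s - a i)
  rwa [show ((a i : ℤ) + ((s - a i : ℕ) : ℤ)) = (s : ℤ) by omega] at h

theorem leadIndep_succ (hx : Transcendental K x) {ι : Type} [Fintype ι] {b : ι → F} {a : ι → ℕ}
    (hb : ∀ i, b i ∈ Lx (K := K) x (a i)) {s : ℕ} (ha : ∀ i, a i ≤ s)
    (h : LeadIndep (K := K) x b a s) : LeadIndep (K := K) x b a (s + 1) := by
  intro c _ hmem
  have hx0 : x ≠ 0 := fun h0 => hx (h0 ▸ isAlgebraic_zero)
  have hsum : ∑ i, c i • (x ^ (s - a i) * b i) ∈ Lx (K := K) x (s : ℤ) :=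
    sum_mem fun i _ => Submodule.smul_mem _ _ (lead_mem hb (ha i))
  refine h c (fun i hi => absurd hi (not_lt.mpr (ha i))) (mem_of_x_mul_mem hx0 hsum ?_)
  rw [Finset.mul_sum, Finset.sum_congr rfl fun i _ =>
      show x * (c i • (x ^ (s - a i) * b i)) = c i • (x ^ (s + 1 - a i) * b i) by
        rw [Algebra.mul_smul_comm, ← mul_assoc, ← pow_succ',
          show s - a i + 1 = s + 1 - a i by have := ha i; omega],
    show (s : ℤ) = ((s + 1 : ℕ) : ℤ) - 1 by push_cast; ring]
  exact hmem

theorem leadIndep_of_le {ι : Type} [Fintype ι] {b : ι → F} {a : ι → ℕ} {s t : ℕ} (hst : s ≤ t)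
    (h : LeadIndep (K := K) x b a t) : LeadIndep (K := K) x b a s := by
  intro c hc hmem
  refine h c (fun i hi => hc i (lt_of_le_of_lt hst hi)) ?_
  have h2 := pow_mul_mem hmem (t - s)
  rw [Finset.mul_sum, show (s : ℤ) - 1 + ((t - s : ℕ) : ℤ) = (t : ℤ) - 1 by omega] at h2
  convert h2 using 1
  refine Finset.sum_congr rfl fun i _ => ?_
  rcases le_or_gt (a i) s with hi | hi
  · rw [Algebra.mul_smul_comm, ← mul_assoc, ← pow_add,
      show t - s + (s - a i) = t - a i by omega]
  · rw [hc i hi, zero_smul, zero_smul, mul_zero]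

theorem finrank_quot (s : ℤ) :
    (Module.finrank K (Lx (K := K) x s ⧸ (Lx (K := K) x (s - 1)).comap (Lx (K := K) x s).subtype)
      : ℤ) = jumpX (K := K) x s := by
  have h1 := ((Lx (K := K) x (s - 1)).comap (Lx (K := K) x s).subtype).finrank_quotient_add_finrank
  rw [(Submodule.comapSubtypeEquivOfLe (Lx_mono (K := K) (x := x) (by omega : s - 1 ≤ s))).finrank_eq]
    at h1
  simp only [jumpX, ell, Lx] at *
  omega

/-- Enlarge a family to a basis of the leading terms at level `s`. -/
theorem exists_extend {ι : Type} [Fintype ι] {b : ι → F} {a : ι → ℕ}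
    (hb : ∀ i, b i ∈ Lx (K := K) x (a i)) {s : ℕ} (ha : ∀ i, a i ≤ s)
    (h : LeadIndep (K := K) x b a s) :
    ∃ (M : ℕ) (w : Fin M → F), (∀ j, w j ∈ Lx (K := K) x (s : ℤ)) ∧
      LeadIndep (K := K) x (Sum.elim b w) (Sum.elim a fun _ => s) s ∧
      ((Fintype.card ι + M : ℕ) : ℤ) = jumpX (K := K) x s := by
  classical
  set V := Lx (K := K) x (s : ℤ)
  set W := (Lx (K := K) x ((s : ℤ) - 1)).comap V.subtype
  let v : ι → V := fun i => ⟨_, lead_mem hb (ha i)⟩
  have hli : LinearIndependent K (W.mkQ ∘ v) := Fintype.linearIndependent_iff.mpr fun c hc => by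
    refine congrFun (h c (fun i hi => absurd hi (not_lt.mpr (ha i))) ?_)
    have h0 : W.mkQ (∑ i, c i • v i) = 0 := by rw [map_sum]; simpa [map_smul] using hc
    rw [Submodule.mkQ_apply, Submodule.Quotient.mk_eq_zero] at h0
    simpa [W, v] using h0
  obtain ⟨C, hC⟩ := (Submodule.span K (Set.range (W.mkQ ∘ v))).exists_isCompl
  let bC := Module.finBasis K C
  choose w hw using fun j => W.mkQ_surjective (bC j : V ⧸ W)
  have hli2 : LinearIndependent K (fun j => (bC j : V ⧸ W)) :=
    bC.linearIndependent.map' C.subtype C.ker_subtype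
  have hsum : LinearIndependent K (Sum.elim (W.mkQ ∘ v) fun j => (bC j : V ⧸ W)) :=
    hli.sum_type hli2 (hC.disjoint.mono_right (Submodule.span_le.mpr (by
      rintro _ ⟨j, rfl⟩; exact (bC j).2)))
  refine ⟨_, fun j => (w j : F), fun j => (w j).2, fun c _ hmem => ?_, ?_⟩
  · refine funext (Fintype.linearIndependent_iff.mp hsum c ?_)
    have key : W.mkQ (∑ q, c q • Sum.elim v w q) = 0 := by
      rw [Submodule.mkQ_apply, Submodule.Quotient.mk_eq_zero]
      show ((∑ q, c q • Sum.elim v w q : V) : F) ∈ Lx (K := K) x ((s : ℤ) - 1)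
      rw [Submodule.coe_sum]
      convert hmem using 1
      refine Finset.sum_congr rfl fun q _ => ?_
      cases q <;> simp [v]
    rw [← key, map_sum]
    refine Finset.sum_congr rfl fun q _ => ?_
    cases q <;> simp [hw]
  · rw [← finrank_quot (K := K) (x := x) (s : ℤ), ← Submodule.finrank_add_eq_of_isCompl hC,
      finrank_span_eq_card hli]

/-- A reduced basis. -/
theorem exists_reduced {g c : ℕ} (hR : IsRiemann K F g c) (hx : IsFinOver K x) :
    ∃ (a : Fin (Module.finrank K⟮x⟯ F) → ℕ) (b : Module.Basis (Fin (Module.finrank K⟮x⟯ F)) K⟮x⟯ F),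
      (∀ i, b i ∈ Lx (K := K) x (a i)) ∧
      ((∑ i, a i : ℕ) : ℤ) = (g : ℤ) + Module.finrank K⟮x⟯ F - 1 ∧
      Divisor.degree (poleDiv K x) = Module.finrank K⟮x⟯ F ∧
      ∀ (s : ℕ), ∀ f ∈ Lx (K := K) x (s : ℤ), ∃ p : Fin (Module.finrank K⟮x⟯ F) → K[X],
        f = ∑ i, Polynomial.aeval x (p i) * b i ∧ ∀ i, p i ≠ 0 → (p i).natDegree + a i ≤ s := by
  classical
  haveI := hx.finite
  have hxt := hx.transcendental
  set P := poleDiv K x
  -- the family, level by level
  have hfam : ∀ t : ℕ, ∃ (N : ℕ) (b : Fin N → F) (a : Fin N → ℕ), (∀ i, a i ≤ t) ∧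
      (∀ i, b i ∈ Lx (K := K) x (a i)) ∧ LeadIndep (K := K) x b a t ∧
      ∀ s : ℕ, s ≤ t →
        ((Finset.univ.filter fun i => a i ≤ s).card : ℤ) = jumpX (K := K) x s := by
    intro t
    induction t with
    | zero =>
      obtain ⟨M, w, hw, hwi, hcard⟩ := exists_extend (K := K) (x := x) (b := (Fin.elim0 : Fin 0 → F))
        (a := Fin.elim0) (fun i => i.elim0) (s := 0) (fun i => i.elim0)
        (fun c _ _ => funext fun i => i.elim0)
      refine ⟨M, w, fun _ => 0, fun _ => le_rfl, hw, fun c hc hmem => ?_, fun s hs => ?_⟩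
      · have := hwi (Sum.elim (fun i => i.elim0) c) (fun q hq => by
          cases q with | inl i => exact i.elim0 | inr j => exact hc j hq) (by simpa using hmem)
        exact funext fun j => congrFun this (Sum.inr j)
      · rw [Nat.le_zero.mp hs, ← hcard]
        simp
    | succ t ih =>
      obtain ⟨N, b, a, hat, hb, hli, hcard⟩ := ih
      obtain ⟨M, w, hw, hwi, hn⟩ := exists_extend hb (fun i => (hat i).trans (Nat.le_succ t))
        (leadIndep_succ hxt hb hat hli)
      let e := finSumFinEquiv (m := N) (n := M)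
      refine ⟨N + M, Sum.elim b w ∘ e.symm, Sum.elim a (fun _ => t + 1) ∘ e.symm, fun q => ?_,
        fun q => ?_, fun c hc hmem => ?_, fun s hs => ?_⟩
      · show Sum.elim a _ (e.symm q) ≤ _
        cases e.symm q with
        | inl i => exact (hat i).trans (Nat.le_succ t)
        | inr j => exact le_rfl
      · show Sum.elim b w (e.symm q) ∈ Lx (K := K) x ((Sum.elim a _ (e.symm q) : ℕ) : ℤ)
        cases e.symm q with
        | inl i => exact hb i
        | inr j => exact hw j
      · have := hwi (c ∘ e) (fun q hq => hc (e q) (by simpa using hq)) (by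
          convert hmem using 1
          exact Fintype.sum_equiv e _ _ fun q => by simp)
        exact funext fun q => by simpa using congrFun this (e.symm q)
      · have hcount : (Finset.univ.filter fun q => (Sum.elim a (fun _ : Fin M => t + 1) ∘ e.symm) q ≤ s).card
            = (Finset.univ.filter fun i => a i ≤ s).card + (if t + 1 ≤ s then M else 0) := by
          rw [Finset.card_filter, Finset.card_filter, ← Equiv.sum_comp e, Fintype.sum_sum_type]
          simp only [Function.comp_apply, Equiv.symm_apply_apply, Sum.elim_inl, Sum.elim_inr]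
          split_ifs <;> simp
        rw [hcount]
        rcases lt_or_eq_of_le hs with hlt | rfl
        · rw [if_neg (by omega), Nat.add_zero]
          exact hcard s (by omega)
        · rw [if_pos le_rfl, ← hn, Fintype.card_fin,
            Finset.filter_true_of_mem fun i _ => (hat i).trans (Nat.le_succ t), Finset.card_univ,
            Fintype.card_fin]
  obtain ⟨N, b, a, haT, hb, hliT, hcardT⟩ := hfam (c + 1)
  have hdP : 1 ≤ Divisor.degree P := by
    obtain ⟨v, hv⟩ := exists_pole (K := K) hxt
    refine le_trans (le_of_eq (degree_single_one v).symm)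
      (degree_le_of_le (Finsupp.le_def.mpr fun w => ?_))
    rw [Finsupp.single_apply, poleDiv_apply]
    split_ifs with h
    · subst h; omega
    · omega
  have hexact : ∀ s : ℤ, (c : ℤ) ≤ s → (ell (s • P) : ℤ) = s * Divisor.degree P + 1 - g := by
    intro s hs
    have hdeg : Divisor.degree (s • P) = s * Divisor.degree P := by rw [map_zsmul, smul_eq_mul]
    rw [hR.eq _ (by rw [hdeg]; nlinarith), hdeg]
  have hN : (N : ℤ) = Divisor.degree P := by
    have := hcardT (c + 1) le_rfl
    rw [Finset.filter_true_of_mem fun i _ => haT i, Finset.card_univ, Fintype.card_fin] at this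
    rw [this, jumpX, hexact _ (by push_cast; omega), hexact _ (by push_cast; omega)]
    ring
  have hall : ∀ s : ℕ, LeadIndep (K := K) x b a s ∧
      ((Finset.univ.filter fun i => a i ≤ s).card : ℤ) = jumpX (K := K) x s := by
    intro s
    rcases le_or_gt s (c + 1) with hs | hs
    · exact ⟨leadIndep_of_le hs hliT, hcardT s hs⟩
    refine ⟨?_, ?_⟩
    · clear hcardT
      induction s, hs.le using Nat.le_induction with
      | base => exact hliT
      | succ s hs' ih =>
        rcases eq_or_lt_of_le hs' with rfl | hlt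
        · exact leadIndep_succ hxt hb haT hliT
        · exact leadIndep_succ hxt hb (fun i => (haT i).trans hs') (ih hlt)
    · rw [Finset.filter_true_of_mem fun i _ => (haT i).trans hs.le, Finset.card_univ,
        Fintype.card_fin, hN, jumpX, hexact _ (by omega), hexact _ (by omega)]
      ring
  have hell : ∀ s : ℕ, (ell ((s : ℤ) • P) : ℤ) = ∑ i, max ((s : ℤ) + 1 - a i) 0 := by
    intro s
    induction s with
    | zero =>
      have h0 := (hall 0).2
      rw [jumpX, Nat.cast_zero, zero_sub, show ell ((-1 : ℤ) • P) = 0 by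
        rw [ell, show riemannRochSpace ((-1 : ℤ) • P) = ⊥ from Lx_neg_one hxt, finrank_bot]] at h0
      simp only [Nat.cast_zero, sub_zero] at h0 ⊢
      rw [← h0, Finset.natCast_card_filter]
      exact Finset.sum_congr rfl fun i _ => by split_ifs <;> omega
    | succ s ih =>
      have h1 := (hall (s + 1)).2
      rw [jumpX, Finset.natCast_card_filter, show (((s + 1 : ℕ) : ℤ) - 1) = (s : ℤ) by push_cast; ring,
        ih] at h1
      rw [← sub_add_cancel (ell (((s + 1 : ℕ) : ℤ) • P) : ℤ) (∑ i, max ((s : ℤ) + 1 - a i) 0), ← h1,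
        ← Finset.sum_add_distrib]
      exact Finset.sum_congr rfl fun i _ => by split_ifs <;> omega
  have hspan : ∀ (s : ℕ), ∀ f ∈ Lx (K := K) x (s : ℤ), ∃ p : Fin N → K[X],
      f = ∑ i, Polynomial.aeval x (p i) * b i ∧ ∀ i, p i ≠ 0 → (p i).natDegree + a i ≤ s := by
    intro s
    induction s using Nat.strong_induction_on with
    | _ s ih =>
    intro f hf
    let I := {i : Fin N // a i ≤ s}
    set V := Lx (K := K) x (s : ℤ)
    set W := (Lx (K := K) x ((s : ℤ) - 1)).comap V.subtype
    let v : I → V := fun i => ⟨_, lead_mem hb i.2⟩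
    have hli : LinearIndependent K (W.mkQ ∘ v) := Fintype.linearIndependent_iff.mpr fun d hd i => by
      have h0 : W.mkQ (∑ i, d i • v i) = 0 := by rw [map_sum]; simpa [map_smul] using hd
      rw [Submodule.mkQ_apply, Submodule.Quotient.mk_eq_zero] at h0
      have h' := (hall s).1 (fun j => if hj : a j ≤ s then d ⟨j, hj⟩ else 0)
        (fun j hj => dif_neg (by omega)) (by
          have hd' : ∑ i : I, d i • (x ^ (s - a i.1) * b i.1) ∈ Lx (K := K) x ((s : ℤ) - 1) := by
            simpa [W, v] using h0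
          convert hd' using 1
          rw [← Fintype.sum_subtype_add_sum_subtype (fun j => a j ≤ s)]
          rw [Finset.sum_eq_zero (s := (Finset.univ : Finset {j // ¬ a j ≤ s}))
            (fun j _ => by rw [dif_neg j.2, zero_smul]), add_zero]
          exact Finset.sum_congr rfl fun j _ => by rw [dif_pos j.2])
      have := congrFun h' i.1
      simpa [i.2] using this
    have htop : Submodule.span K (Set.range (W.mkQ ∘ v)) = ⊤ := by
      refine Submodule.eq_top_of_finrank_eq ?_
      rw [finrank_span_eq_card hli]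
      have := (hall s).2
      rw [← finrank_quot (K := K) (x := x) (s : ℤ), ← Fintype.card_subtype] at this
      exact_mod_cast this
    obtain ⟨d, hd⟩ := (Submodule.mem_span_range_iff_exists_fun K).mp
      (htop ▸ Submodule.mem_top (x := W.mkQ ⟨f, hf⟩))
    have h1 : W.mkQ (∑ i, d i • v i) = W.mkQ ⟨f, hf⟩ := by
      rw [map_sum, ← hd]; simp [map_smul]
    rw [Submodule.mkQ_apply, Submodule.mkQ_apply, Submodule.Quotient.eq] at h1
    have hrest : f - ∑ i : I, d i • (x ^ (s - a i.1) * b i.1) ∈ Lx (K := K) x ((s : ℤ) - 1) := by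
      have := neg_mem h1
      simpa [W, v] using this
    obtain ⟨p, hp, hpd⟩ : ∃ p : Fin N → K[X],
        f - ∑ i : I, d i • (x ^ (s - a i.1) * b i.1) = ∑ i, Polynomial.aeval x (p i) * b i ∧
          ∀ i, p i ≠ 0 → (p i).natDegree + a i ≤ s := by
      rcases Nat.eq_zero_or_pos s with rfl | hs
      · rw [Nat.cast_zero, zero_sub, Lx_neg_one hxt, Submodule.mem_bot] at hrest
        exact ⟨0, by rw [hrest]; simp, fun i h => absurd rfl h⟩
      · obtain ⟨p, hp, hpd⟩ := ih (s - 1) (by omega) _ (by
          rwa [show ((s - 1 : ℕ) : ℤ) = (s : ℤ) - 1 by omega])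
        exact ⟨p, hp, fun i h => by have := hpd i h; omega⟩
    refine ⟨fun i => p i + if hi : a i ≤ s then Polynomial.C (d ⟨i, hi⟩) * Polynomial.X ^ (s - a i)
      else 0, ?_, fun i h => ?_⟩
    · rw [← sub_add_cancel f (∑ i : I, d i • (x ^ (s - a i.1) * b i.1)), hp]
      simp only [map_add, add_mul, Finset.sum_add_distrib]
      congr 1
      rw [← Fintype.sum_subtype_add_sum_subtype (fun j => a j ≤ s) (fun j => Polynomial.aeval x _ * b j),
        Finset.sum_eq_zero (s := (Finset.univ : Finset {j // ¬ a j ≤ s}))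
          (fun j _ => by rw [dif_neg j.2, map_zero, zero_mul]), add_zero]
      exact Finset.sum_congr rfl fun j _ => by
        rw [dif_pos j.2]; simp [Algebra.smul_def, mul_assoc]
    · dsimp only at h ⊢
      split_ifs at h ⊢ with hi
      · rcases eq_or_ne (p i) 0 with h0 | h0
        · rw [h0, zero_add]
          have := Polynomial.natDegree_C_mul_X_pow_le (d ⟨i, hi⟩) (s - a i)
          omega
        · have h1 := hpd i h0
          have h2 := Polynomial.natDegree_C_mul_X_pow_le (d ⟨i, hi⟩) (s - a i)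
          have := Polynomial.natDegree_add_le (p i) (Polynomial.C (d ⟨i, hi⟩) * Polynomial.X ^ (s - a i))
          omega
      · rw [add_zero] at h ⊢
        exact hpd i h
  have htop : ⊤ ≤ Submodule.span K⟮x⟯ (Set.range b) := by
    intro u _
    rcases eq_or_ne u 0 with rfl | hu
    · exact zero_mem _
    obtain ⟨q, hq, m, hm⟩ := exists_clear_poles hxt hu
    obtain ⟨p, hp, -⟩ := hspan m _ (by rwa [Lx, natCast_zsmul])
    have hq0 : Polynomial.aeval x q ≠ 0 := fun h => hq (transcendental_iff.mp hxt q h)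
    let k : Fin N → K⟮x⟯ := fun i => ⟨Polynomial.aeval x (p i) / Polynomial.aeval x q,
      (mem_adjoin_simple_iff _ _).mpr ⟨p i, q, rfl⟩⟩
    rw [show u = ∑ i, k i • b i by
      simp only [k, Algebra.smul_def]
      show u = ∑ i, Polynomial.aeval x (p i) / Polynomial.aeval x q * b i
      rw [← mul_right_inj' hq0, hp, Finset.mul_sum]
      exact Finset.sum_congr rfl fun i _ => by field_simp]
    exact sum_mem fun i _ => Submodule.smul_mem _ _ (Submodule.subset_span ⟨i, rfl⟩)
  have hle : Module.finrank K⟮x⟯ F ≤ N := by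
    have := finrank_range_le_card (R := K⟮x⟯) b
    rwa [Set.finrank, top_le_iff.mp htop, finrank_top, Fintype.card_fin] at this
  have hge : (N : ℤ) ≤ Module.finrank K⟮x⟯ F := hN ▸ degree_poleDiv_le
  obtain rfl : N = Module.finrank K⟮x⟯ F := by omega
  refine ⟨a, basisOfTopLeSpanOfCardEqFinrank b htop (Fintype.card_fin _), ?_, ?_, hN.symm, ?_⟩
  · simpa [coe_basisOfTopLeSpanOfCardEqFinrank] using hb
  · have h1 := hell (c + 1)
    rw [hexact _ (by push_cast; omega), ← hN] at h1
    rw [Finset.sum_congr rfl fun i _ => max_eq_left (a := ((c + 1 : ℕ) : ℤ) + 1 - a i) (b := 0)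
      (by have := haT i; push_cast; omega), Finset.sum_sub_distrib, Finset.sum_const,
      Finset.card_univ, Fintype.card_fin, nsmul_eq_mul] at h1
    push_cast at h1 ⊢
    linarith
  · simpa [coe_basisOfTopLeSpanOfCardEqFinrank] using hspan

end Fermat.Agent.MCurve.MW
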