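/-
Ramification bounds the poles of a trace dual basis: in characteristic zero a function whose
traces against the functions regular over a point are regular there has pole order below the
ramification index.
-/
import Fermat.Agent.MCurve.RiemannRoch.Curve
import Mathlib.RingTheory.Trace.Basic
import Mathlib.LinearAlgebra.Trace
import Mathlib.LinearAlgebra.Projection

set_option autoImplicit false
set_option linter.unusedSectionVars false
set_option linter.style.haveILetI false

noncomputable section

namespace Fermat.Agent.MCurve.MW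

open AlgebraicCurve

/-- An idempotent matrix of trace zero in characteristic zero vanishes. -/
theorem trace_ne_zero_of_idem {k ι : Type*} [Field k] [CharZero k] [Fintype ι] [DecidableEq ι]
    {U : Matrix ι ι k} (h : U * U = U) (h0 : U ≠ 0) : U.trace ≠ 0 := by
  set f := Matrix.toLin' U with hf
  have hff : IsIdempotentElem f := by
    show f * f = f
    rw [hf, Module.End.mul_eq_comp, ← Matrix.toLin'_mul, h]
  have hproj : LinearMap.IsProj (LinearMap.range f) f :=
    (LinearMap.isProj_range_iff_isIdempotentElem f).mpr hff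
  have ht := hproj.trace
  rw [hf, LinearMap.trace_eq_matrix_trace k (Pi.basisFun k ι), LinearMap.toMatrix_eq_toMatrix',
    LinearMap.toMatrix'_toLin'] at ht
  rw [ht, Nat.cast_ne_zero, ← Nat.pos_iff_ne_zero, Module.finrank_pos_iff,
    Submodule.nontrivial_iff_ne_bot]
  intro hb
  exact h0 (Matrix.toLin'.injective (by rw [map_zero, ← hf]; exact LinearMap.range_eq_bot.mp hb))

section Order

variable {K F : Type*} [Field K] [Field F] [Algebra K F] (v : Place K F)

theorem mem_valuationSubring_iff {f : F} : f ∈ v.toValuationSubring ↔ 0 ≤ v.ord f := by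
  rcases eq_or_ne f 0 with rfl | hf
  · simp
  · exact mem_iff_ord_nonneg v hf

/-- Vanishing to order `b`. -/
def LeOrd (b : ℤ) (f : F) : Prop := f = 0 ∨ b ≤ v.ord f

variable {v}

theorem LeOrd.mul {a b : ℤ} {f g : F} (hf : LeOrd v a f) (hg : LeOrd v b g) :
    LeOrd v (a + b) (f * g) := by
  rcases hf with rfl | hf
  · exact Or.inl (zero_mul g)
  rcases hg with rfl | hg
  · exact Or.inl (mul_zero f)
  rcases eq_or_ne f 0 with rfl | hf0
  · exact Or.inl (zero_mul g)
  rcases eq_or_ne g 0 with rfl | hg0
  · exact Or.inl (mul_zero f)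
  exact Or.inr (by rw [v.ord_mul hf0 hg0]; omega)

theorem LeOrd.mono {a b : ℤ} {f : F} (hf : LeOrd v a f) (h : b ≤ a) : LeOrd v b f :=
  hf.imp id fun hf => h.trans hf

theorem leOrd_zero_iff {f : F} : LeOrd v 0 f ↔ 0 ≤ v.ord f :=
  ⟨fun h => h.elim (fun h => by rw [h]; simp) id, Or.inr⟩

theorem LeOrd.sum {ι : Type*} {s : Finset ι} {f : ι → F} {b : ℤ}
    (h : ∀ i ∈ s, LeOrd v b (f i)) : LeOrd v b (∑ i ∈ s, f i) :=
  (RR.lt_ord_sum s f v (b := b - 1) fun i hi => (h i hi).imp id fun h' => by omega).imp id
    fun h' => by omega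

end Order

variable {K F : Type*} [Field K] [CharZero K] [IsAlgClosed K] [Field F] [Algebra K F]
  [hres : ∀ v : Place K F, v.FiniteResidue]

/-- A function congruent to `1` at one place of a finite set and vanishing at the others. -/
theorem exists_idem (v : Place K F) (T : Finset (Place K F)) (e : ℕ) (he : 0 < e) (B : ℕ) :
    ∃ u : F, LeOrd v e (u - 1) ∧ v.ord u = 0 ∧ 0 ≤ v.ord u ∧
      ∀ w ∈ T, w ≠ v → LeOrd w B u := by
  classical
  obtain ⟨t, ht, htv, hts⟩ :=
    RR.exists_approx v (T.erase v) (Finset.notMem_erase v T) 0 B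
  haveI : Module.Finite K v.ResidueField := Place.FiniteResidue.finite
  obtain ⟨a, ha⟩ := exists_value v ((mem_valuationSubring_iff v).mpr htv.ge)
  have ha0 : a ≠ 0 := by
    rintro rfl
    rcases ha with h | h
    · exact ht (h.trans (map_zero _))
    · rw [map_zero, sub_zero] at h; omega
  set r := t / algebraMap K F a
  have haF : algebraMap K F a ≠ 0 := (map_ne_zero _).mpr ha0
  have hr1 : LeOrd v 1 (1 - r) := by
    rcases ha with h | h
    · exact Or.inl (by simp [r, h, haF])
    · refine Or.inr ?_
      have hne : t - algebraMap K F a ≠ 0 := fun h0 => by rw [h0] at h; simp at h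
      rw [show 1 - r = -((t - algebraMap K F a) * (algebraMap K F a)⁻¹) by
        simp only [r]; field_simp; ring, ord_neg, v.ord_mul hne (inv_ne_zero haF), v.ord_inv,
        ord_algebraMap]
      omega
  set u := 1 - (1 - r) ^ e
  have hpow : ∀ n : ℕ, LeOrd v n ((1 - r) ^ n) := fun n => by
    induction n with
    | zero => exact Or.inr (by simp)
    | succ n ih => rw [pow_succ]; exact (ih.mul hr1).mono (by push_cast; omega)
  have hu1 : LeOrd v e (u - 1) := by
    rw [show u - 1 = -((1 - r) ^ e) by simp only [u]; ring]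
    exact (hpow e).imp (fun h => by rw [h, neg_zero]) fun h => by rw [ord_neg]; exact h
  have hu0 : v.ord u = 0 := by
    rcases hu1 with h | h
    · rw [sub_eq_zero.mp h, v.ord_one]
    · rcases eq_or_ne (u - 1) 0 with h0 | h0
      · rw [sub_eq_zero.mp h0, v.ord_one]
      rw [show u = 1 + (u - 1) by ring, ord_add_eq v one_ne_zero h0 (by rw [v.ord_one]; omega),
        v.ord_one]
  refine ⟨u, hu1, hu0, hu0.ge, fun w hw hwv => ?_⟩
  have hr : LeOrd w B r := Or.inr (by
    simp only [r]
    rw [div_eq_mul_inv, w.ord_mul ht (inv_ne_zero haF), w.ord_inv, ord_algebraMap]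
    have := hts w (Finset.mem_erase.mpr ⟨hwv, hw⟩)
    omega)
  rw [show u = r * ∑ j ∈ Finset.range e, (1 - r) ^ j by
    simp only [u]
    linear_combination (geom_sum_mul_neg (1 - r) e).symm]
  have hmem : r ∈ w.toValuationSubring :=
    (mem_valuationSubring_iff w).mpr (leOrd_zero_iff.mp (hr.mono (Int.natCast_nonneg B)))
  exact (hr.mul (leOrd_zero_iff.mpr ((mem_valuationSubring_iff w).mp
    (sum_mem fun j _ => pow_mem (sub_mem (one_mem _) hmem) j)))).mono (by omega)

variable {L : IntermediateField K F} [FiniteDimensional L F]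

set_option maxHeartbeats 400000 in
/-- The pole order of an element of the dual lattice is less than the ramification index. -/
theorem ord_dual_ge {ι : Type*} [Fintype ι] [DecidableEq ι] (B : Module.Basis ι L F)
    {T : Finset (Place K F)} {v : Place K F} (hv : v ∈ T) {z : L}
    (hz : ∀ w ∈ T, 0 < w.ord (z : F))
    (hdich : ∀ l : L, (l : F) ≠ 0 → ∃ k : ℤ, v.ord (l : F) = k * v.ord (z : F))
    (hcoord : ∀ f : F, (∀ w ∈ T, 0 ≤ w.ord f) → ∀ i, 0 ≤ v.ord ((B.repr f i : L) : F))
    (hB : ∀ i, ∀ w ∈ T, 0 ≤ w.ord (B i))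
    {h : F} (hh : ∀ i, 0 ≤ v.ord ((Algebra.trace L F (h * B i) : L) : F)) :
    LeOrd v (1 - v.ord (z : F)) h := by
  classical
  rcases eq_or_ne h 0 with rfl | hh0
  · exact Or.inl rfl
  refine Or.inr (not_lt.mp fun hlt => ?_)
  have hev := hz v hv
  have hzF : (z : F) ≠ 0 := fun h0 => by rw [h0] at hev; simp at hev
  set Bd : ℕ := ∑ w ∈ T, ((w.ord (z : F)).natAbs + (w.ord h).natAbs)
  obtain ⟨u, hu1, hu0, hunn, huT⟩ := exists_idem v T (v.ord (z : F)).toNat (by omega) Bd
  rw [Int.toNat_of_nonneg hev.le] at hu1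
  have huT' : ∀ w ∈ T, 0 ≤ w.ord u := fun w hw => by
    rcases eq_or_ne w v with rfl | hwv
    · exact hunn
    · exact leOrd_zero_iff.mp ((huT w hw hwv).mono (Int.natCast_nonneg _))
  -- the regular coefficients
  let A : Subring L := v.toValuationSubring.toSubring.comap (algebraMap L F)
  have hA : ∀ {l : L}, l ∈ A ↔ 0 ≤ v.ord (l : F) := fun {l} => mem_valuationSubring_iff v
  let ε : A →+* v.ResidueField := (IsLocalRing.residue v.toValuationSubring).comp
    (((algebraMap L F).comp A.subtype).codRestrict v.toValuationSubring.toSubring fun l => l.2)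
  haveI : CharZero v.ResidueField :=
    charZero_of_injective_algebraMap (algebraMap K v.ResidueField).injective
  have hε : ∀ {l : A}, ε l = 0 → LeOrd v (v.ord (z : F)) ((l : L) : F) := by
    intro l hl
    rcases eq_or_ne ((l : L) : F) 0 with h0 | h0
    · exact Or.inl h0
    refine Or.inr ?_
    have hpos : 0 < v.ord ((l : L) : F) := by
      refine lt_of_le_of_ne (hA.mp l.2) fun he => ?_
      have hinv : ((l : L) : F)⁻¹ ∈ v.toValuationSubring := by
        rw [mem_valuationSubring_iff, v.ord_inv]; omega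
      refine (IsLocalRing.residue_eq_zero_iff _).mp hl ?_
      exact IsUnit.of_mul_eq_one ⟨_, hinv⟩ (Subtype.ext (mul_inv_cancel₀ h0))
    obtain ⟨k, hk⟩ := hdich l h0
    have : 0 < k := by
      by_contra hk'
      nlinarith
    nlinarith
  have hentry : ∀ f : F, (∀ w ∈ T, 0 ≤ w.ord f) → ∀ i j, Algebra.leftMulMatrix B f i j ∈ A := by
    intro f hf i j
    rw [Algebra.leftMulMatrix_eq_repr_mul, hA]
    exact hcoord _ (fun w hw => (mem_valuationSubring_iff w).mp (mul_mem
      ((mem_valuationSubring_iff w).mpr (hf w hw))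
      ((mem_valuationSubring_iff w).mpr (hB j w hw)))) i
  set U : Matrix ι ι A := Matrix.of fun i j => ⟨_, hentry u huT' i j⟩
  have hUmap : A.subtype.mapMatrix U = Algebra.leftMulMatrix B u := by ext i j; rfl
  -- idempotent modulo the uniformiser
  set q := (u ^ 2 - u) / (z : F)
  have hq : ∀ w ∈ T, 0 ≤ w.ord q := fun w hw => by
    have hbig : LeOrd w (w.ord (z : F)) (u ^ 2 - u) := by
      rw [show u ^ 2 - u = u * (u - 1) by ring]
      rcases eq_or_ne w v with rfl | hwv
      · exact ((leOrd_zero_iff.mpr hunn).mul hu1).mono (by omega)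
      · refine ((huT w hw hwv).mul (leOrd_zero_iff.mpr ((mem_valuationSubring_iff w).mp
          (sub_mem ((mem_valuationSubring_iff w).mpr (huT' w hw)) (one_mem _))))).mono ?_
        have := Finset.single_le_sum (f := fun w => (w.ord (z : F)).natAbs + (w.ord h).natAbs)
          (fun _ _ => Nat.zero_le _) hw
        omega
    have := hbig.mul (Or.inr le_rfl : LeOrd w (w.ord ((z : F)⁻¹)) ((z : F)⁻¹))
    rw [← div_eq_mul_inv, w.ord_inv, add_neg_cancel] at this
    exact leOrd_zero_iff.mp this
  set W : Matrix ι ι A := Matrix.of fun i j => ⟨_, hentry q hq i j⟩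
  have hWmap : A.subtype.mapMatrix W = Algebra.leftMulMatrix B q := by ext i j; rfl
  have hzA : z ∈ A := hA.mpr hev.le
  have hidem : U * U - U = (⟨z, hzA⟩ : A) • W := by
    refine Matrix.map_injective (f := A.subtype) Subtype.val_injective ?_
    have h1 : A.subtype.mapMatrix (U * U - U) = Algebra.leftMulMatrix B (u ^ 2 - u) := by
      rw [map_sub, map_mul, hUmap, map_sub, sq, map_mul]
    have h2 : A.subtype.mapMatrix ((⟨z, hzA⟩ : A) • W) = Algebra.leftMulMatrix B (z • q) := by
      rw [map_smul (Algebra.leftMulMatrix B), ← hWmap]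
      ext i j
      simp [Matrix.smul_apply]
    refine h1.trans (Eq.trans ?_ h2.symm)
    congr 1
    rw [Algebra.smul_def]
    exact (mul_div_cancel₀ _ hzF).symm
  set Ub := ε.mapMatrix U
  have hεz : ε ⟨z, hzA⟩ = 0 := by
    refine (IsLocalRing.residue_eq_zero_iff _).mpr fun hu => ?_
    obtain ⟨y, hy⟩ := hu.exists_right_inv
    have hy' : (z : F) * (y : F) = 1 := congrArg Subtype.val hy
    have hy0 : (y : F) ≠ 0 := fun h0 => by rw [h0, mul_zero] at hy'; exact zero_ne_one hy'
    have := congrArg v.ord hy'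
    rw [v.ord_mul hzF hy0, v.ord_one] at this
    have := (mem_valuationSubring_iff v).mp y.2
    omega
  have hUb : Ub * Ub = Ub := by
    rw [← sub_eq_zero, ← map_mul, ← map_sub, hidem]
    ext i j
    simp [hεz]
  have hUb0 : Ub ≠ 0 := by
    intro h0
    have hcol : ∀ k i, LeOrd v (v.ord (z : F)) ((Algebra.leftMulMatrix B u i k : L) : F) :=
      fun k i => hε (l := U i k) (congrFun (congrFun h0 i) k)
    have huB : ∀ k, LeOrd v (v.ord (z : F)) (u * B k) := fun k => by
      rw [← B.sum_repr (u * B k)]
      refine LeOrd.sum fun i _ => ?_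
      rw [← Algebra.leftMulMatrix_eq_repr_mul, Algebra.smul_def]
      exact ((hcol k i).mul (leOrd_zero_iff.mpr (hB i v hv))).mono (by omega)
    have hone : LeOrd v (v.ord (z : F)) u := by
      rw [show u = ∑ k, ((B.repr 1 k : L) : F) * (u * B k) by
        conv_lhs => rw [← mul_one u, ← B.sum_repr 1, Finset.mul_sum]
        exact Finset.sum_congr rfl fun k _ => by rw [Algebra.smul_def]; exact mul_left_comm _ _ _]
      exact LeOrd.sum fun k _ => ((leOrd_zero_iff.mpr (hcoord 1 (fun w _ => by simp) k)).mul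
        (huB k)).mono (by omega)
    rcases hone with h1 | h1
    · subst h1
      rcases hu1 with h2 | h2
      · simp at h2
      · rw [zero_sub, ord_neg, v.ord_one] at h2; omega
    · omega
  -- the contradiction
  set y := u / ((z : F) * h)
  have hy : ∀ w ∈ T, 0 ≤ w.ord y := fun w hw => by
    rcases eq_or_ne u 0 with hu | hu
    · simp [y, hu]
    rw [show y = u * ((z : F)⁻¹ * h⁻¹) by simp only [y]; rw [div_eq_mul_inv, mul_inv],
      w.ord_mul hu (mul_ne_zero (inv_ne_zero hzF) (inv_ne_zero hh0)),
      w.ord_mul (inv_ne_zero hzF) (inv_ne_zero hh0), w.ord_inv, w.ord_inv]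
    rcases eq_or_ne w v with rfl | hwv
    · omega
    · rcases huT w hw hwv with h' | h'
      · exact absurd h' hu
      have := Finset.single_le_sum (f := fun w => (w.ord (z : F)).natAbs + (w.ord h).natAbs)
        (fun _ _ => Nat.zero_le _) hw
      omega
  have htr : Algebra.trace L F (h * y) ∈ A := by
    rw [← B.sum_repr y, Finset.mul_sum, map_sum]
    refine sum_mem fun i _ => ?_
    rw [mul_smul_comm, map_smul, smul_eq_mul]
    exact mul_mem (hA.mpr (hcoord y hy i)) (hA.mpr (hh i))
  have htru : Algebra.trace L F u = z * Algebra.trace L F (h * y) := by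
    rw [← smul_eq_mul, ← map_smul]
    congr 1
    rw [Algebra.smul_def]
    show u = (z : F) * (h * y)
    simp only [y]
    field_simp
  have hUtr : (⟨z, hzA⟩ : A) * ⟨_, htr⟩ = U.trace := by
    refine Subtype.ext (htru.symm.trans ?_)
    rw [Algebra.trace_eq_matrix_trace B, ← hUmap]
    exact (AddMonoidHom.map_trace A.subtype.toAddMonoidHom U).symm
  refine trace_ne_zero_of_idem hUb hUb0 ?_
  show (ε.mapMatrix U).trace = 0
  rw [show (ε.mapMatrix U).trace = ε U.trace from
    (AddMonoidHom.map_trace ε.toAddMonoidHom U).symm, ← hUtr, map_mul, hεz, zero_mul]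

end Fermat.Agent.MCurve.MW
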