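/-
The genus in the sense of Riemann is bounded by the ramification of a coordinate.
-/
import Fermat.Agent.MCurve.MW.ReducedBasis
import Fermat.Agent.MCurve.MW.TraceDual
import Fermat.Agent.MCurve.FuncField
import Mathlib.Algebra.Polynomial.Basis

set_option autoImplicit false
set_option linter.unusedSectionVars false
set_option linter.style.haveILetI false

noncomputable section

namespace Fermat.Agent.MCurve.MW

open AlgebraicCurve IntermediateField RR
open scoped Polynomial

variable {K F : Type*} [Field K] [CharZero K] [IsAlgClosed K] [Field F] [Algebra K F]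
  [∀ v : Place K F, v.FiniteResidue] [HasPrincipalDivisors K F] [Nonempty (Place K F)]
  {x : F}

theorem aeval_ne_zero (hx : Transcendental K x) {p : K[X]} (hp : p ≠ 0) :
    Polynomial.aeval x p ≠ 0 := fun h => hp (transcendental_iff.mp hx p h)

theorem sub_C_ne_zero (hx : Transcendental K x) (c : K) : x - algebraMap K F c ≠ 0 := fun h =>
  hx ((sub_eq_zero.mp h).symm ▸ isAlgebraic_algebraMap c)

/-- The value at a zero of `x - c` is unique. -/
theorem value_unique (hx : Transcendental K x) {v : Place K F} {c c' : K}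
    (h : 0 < v.ord (x - algebraMap K F c)) (h' : 0 < v.ord (x - algebraMap K F c')) : c = c' := by
  by_contra hne
  have hk : algebraMap K F (c' - c) ≠ 0 := (map_ne_zero _).mpr (sub_ne_zero.mpr (Ne.symm hne))
  have hlt : v.ord (algebraMap K F (c' - c)) < v.ord (x - algebraMap K F c') := by
    rw [ord_algebraMap]; exact h'
  have := ord_add_eq v hk (sub_C_ne_zero hx c') hlt
  rw [map_sub, show algebraMap K F c' - algebraMap K F c + (x - algebraMap K F c') =
    x - algebraMap K F c by ring, ← map_sub, ord_algebraMap] at this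
  omega

theorem ord_nonneg_of_fibre (hx : Transcendental K x) {v : Place K F} {c : K}
    (h : 0 < v.ord (x - algebraMap K F c)) : 0 ≤ v.ord x :=
  (mem_valuationSubring_iff v).mp (by
    simpa using add_mem ((mem_valuationSubring_iff v).mpr h.le) (v.algebraMap_mem' c))

theorem ord_aeval_nonneg {v : Place K F} (h : 0 ≤ v.ord x) (p : K[X]) :
    0 ≤ v.ord (Polynomial.aeval x p) := by
  rw [← mem_valuationSubring_iff, Polynomial.aeval_eq_sum_range]
  exact sum_mem fun i _ => by
    rw [Algebra.smul_def]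
    exact mul_mem (v.algebraMap_mem' _) (pow_mem ((mem_valuationSubring_iff v).mpr h) i)

/-- A polynomial not vanishing at the value is a unit at the fibre. -/
theorem ord_aeval_eq_zero (hx : Transcendental K x) {v : Place K F} {c : K}
    (h : 0 < v.ord (x - algebraMap K F c)) {q : K[X]} (hq : q.eval c ≠ 0) :
    v.ord (Polynomial.aeval x q) = 0 := by
  obtain ⟨r, hr⟩ := Polynomial.X_sub_C_dvd_sub_C_eval (a := c) (p := q)
  have e : Polynomial.aeval x q = algebraMap K F (q.eval c) +
      (x - algebraMap K F c) * Polynomial.aeval x r := by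
    have := congrArg (Polynomial.aeval x) hr
    simp at this
    rw [← this]; ring
  rcases eq_or_ne (Polynomial.aeval x r) 0 with h0 | h0
  · rw [e, h0, mul_zero, add_zero, ord_algebraMap]
  rw [e, ord_add_eq v ((map_ne_zero _).mpr hq) (mul_ne_zero (sub_C_ne_zero hx c) h0) (by
    rw [ord_algebraMap, v.ord_mul (sub_C_ne_zero hx c) h0]
    have := ord_aeval_nonneg (ord_nonneg_of_fibre hx h) r
    omega), ord_algebraMap]

theorem exists_factor (p : K[X]) (hp : p ≠ 0) (c : K) :
    ∃ (k : ℕ) (q : K[X]), p = (Polynomial.X - Polynomial.C c) ^ k * q ∧ q.eval c ≠ 0 := by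
  obtain ⟨q, hq, hnd⟩ := p.exists_eq_pow_rootMultiplicity_mul_and_not_dvd hp c
  exact ⟨_, q, hq, fun h => hnd (Polynomial.dvd_iff_isRoot.mpr h)⟩

/-- The data of a reduced basis. -/
structure Reduced (x : F) (g : ℕ) [FiniteDimensional K⟮x⟯ F] where
  /-- The weights. -/
  a : Fin (Module.finrank K⟮x⟯ F) → ℕ
  /-- The basis. -/
  b : Module.Basis (Fin (Module.finrank K⟮x⟯ F)) K⟮x⟯ F
  mem : ∀ i, b i ∈ Lx (K := K) x (a i)
  weight : ((∑ i, a i : ℕ) : ℤ) = (g : ℤ) + Module.finrank K⟮x⟯ F - 1
  span : ∀ (s : ℕ), ∀ f ∈ Lx (K := K) x (s : ℤ), ∃ p : Fin (Module.finrank K⟮x⟯ F) → K[X],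
    f = ∑ i, Polynomial.aeval x (p i) * b i ∧ ∀ i, p i ≠ 0 → (p i).natDegree + a i ≤ s

variable [FiniteDimensional K⟮x⟯ F] {g : ℕ} (Q : Reduced (K := K) x g)

/-- The element of `K(x)` given by a polynomial. -/
def polyL (x : F) (p : K[X]) : K⟮x⟯ :=
  ⟨Polynomial.aeval x p, (mem_adjoin_simple_iff _ _).mpr ⟨p, 1, by simp⟩⟩

@[simp] theorem coe_polyL (x : F) (p : K[X]) : (polyL x p : F) = Polynomial.aeval x p := rfl

theorem Reduced.repr_eq (hx : Transcendental K x) {q : K[X]} (hq : q ≠ 0) {s : ℕ} {f : F}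
    (hf : Polynomial.aeval x q * f ∈ Lx (K := K) x (s : ℤ)) :
    ∃ p : Fin (Module.finrank K⟮x⟯ F) → K[X], (∀ i, (Q.b.repr f i : F) =
      Polynomial.aeval x (p i) / Polynomial.aeval x q) ∧
        ∀ i, p i ≠ 0 → (p i).natDegree + Q.a i ≤ s := by
  obtain ⟨p, hp, hd⟩ := Q.span s _ hf
  refine ⟨p, fun i => ?_, hd⟩
  have hq0 := aeval_ne_zero hx hq
  have hf' : f = ∑ i, (polyL x (p i) / polyL x q) • Q.b i := by
    simp only [Algebra.smul_def]
    show f = ∑ i, Polynomial.aeval x (p i) / Polynomial.aeval x q * Q.b i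
    rw [← mul_right_inj' hq0, hp, Finset.mul_sum]
    exact Finset.sum_congr rfl fun i _ => by field_simp
  conv_lhs => rw [hf', Q.b.repr_sum_self]
  rfl

/-- The trace dual basis. -/
def Reduced.dual : Module.Basis (Fin (Module.finrank K⟮x⟯ F)) K⟮x⟯ F :=
  haveI : CharZero K⟮x⟯ := charZero_of_injective_algebraMap (algebraMap K K⟮x⟯).injective
  (Algebra.traceForm K⟮x⟯ F).dualBasis (traceForm_nondegenerate K⟮x⟯ F) Q.b

theorem Reduced.trace_dual (i j : Fin (Module.finrank K⟮x⟯ F)) :
    Algebra.trace K⟮x⟯ F (Q.dual i * Q.b j) = if j = i then 1 else 0 := by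
  haveI : CharZero K⟮x⟯ := charZero_of_injective_algebraMap (algebraMap K K⟮x⟯).injective
  rw [← Algebra.traceForm_apply, Reduced.dual]
  exact LinearMap.BilinForm.apply_dualBasis_left _ Q.b i j

/-- Over a finite value. -/
theorem Reduced.ord_dual_finite (hx : IsFinOver K x) {v : Place K F} {c : K}
    (hv : 0 < v.ord (x - algebraMap K F c)) (i : Fin (Module.finrank K⟮x⟯ F)) :
    LeOrd v (1 - v.ord (x - algebraMap K F c)) (Q.dual i) := by
  classical
  have hxt := hx.transcendental
  obtain ⟨T, hT, -⟩ := hx.exists_zeros c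
  let z : K⟮x⟯ := polyL x (Polynomial.X - Polynomial.C c)
  have hzF : (z : F) = x - algebraMap K F c := by simp [z]
  rw [← hzF]
  refine ord_dual_ge Q.b ((hT v).mpr hv) (fun w hw => hzF ▸ (hT w).mp hw) ?_ ?_ ?_ ?_
  · intro l hl
    obtain ⟨p, q, hpq⟩ := (mem_adjoin_simple_iff K (l : F)).mp l.2
    have hp : p ≠ 0 := fun h => hl (by rw [hpq, h, map_zero, zero_div])
    have hq : q ≠ 0 := fun h => hl (by rw [hpq, h, map_zero, div_zero])
    have key : ∀ {p : K[X]}, p ≠ 0 → ∃ k : ℤ, v.ord (Polynomial.aeval x p) = k * v.ord (z : F) := by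
      intro p hp
      obtain ⟨k, r, rfl, hr⟩ := exists_factor p hp c
      refine ⟨k, ?_⟩
      rw [map_mul, map_pow, map_sub, Polynomial.aeval_X, Polynomial.aeval_C,
        v.ord_mul (pow_ne_zero _ (sub_C_ne_zero hxt c))
          (aeval_ne_zero hxt (fun h => hr (by rw [h]; simp))), ord_pow,
        ord_aeval_eq_zero hxt hv hr, add_zero, hzF]
    obtain ⟨k, hk⟩ := key hp
    obtain ⟨k', hk'⟩ := key hq
    refine ⟨k - k', ?_⟩
    rw [hpq, div_eq_mul_inv, v.ord_mul (aeval_ne_zero hxt hp) (inv_ne_zero (aeval_ne_zero hxt hq)),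
      v.ord_inv, hk, hk', sub_mul]
    ring
  · intro f hf j
    rcases eq_or_ne f 0 with rfl | hf0
    · simp
    obtain ⟨p, hp, m, hm⟩ := exists_clear_poles hxt hf0
    obtain ⟨k, q, rfl, hq⟩ := exists_factor p hp c
    have hq0 : q ≠ 0 := fun h => hq (by rw [h]; simp)
    have hqF := aeval_ne_zero hxt hq0
    have hmem : Polynomial.aeval x q * f ∈ Lx (K := K) x (m : ℤ) := by
      refine mem_Lx.mpr (Or.inr fun w => ?_)
      have hw := ((mem_space_iff.mp hm).resolve_left (mul_ne_zero (aeval_ne_zero hxt hp) hf0)) w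
      rw [Finsupp.smul_apply, poleDiv_apply, nsmul_eq_mul] at hw
      rw [w.ord_mul hqF hf0]
      rw [map_mul, map_pow, map_sub, Polynomial.aeval_X, Polynomial.aeval_C,
        w.ord_mul (mul_ne_zero (pow_ne_zero _ (sub_C_ne_zero hxt c)) hqF) hf0,
        w.ord_mul (pow_ne_zero _ (sub_C_ne_zero hxt c)) hqF, ord_pow] at hw
      rcases lt_or_ge (w.ord x) 0 with hwx | hwx
      · have : w.ord (x - algebraMap K F c) ≤ 0 := not_lt.mp fun h =>
          absurd (ord_nonneg_of_fibre hxt h) (not_le.mpr hwx)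
        have := mul_nonpos_of_nonneg_of_nonpos (Int.natCast_nonneg k) this
        omega
      · rw [max_eq_right (by omega), mul_zero, neg_zero] at hw ⊢
        by_cases hwT : w ∈ T
        · have := hf w hwT
          have := ord_aeval_nonneg hwx q
          omega
        · have : w.ord (x - algebraMap K F c) = 0 := by
            have h1 : ¬ 0 < w.ord (x - algebraMap K F c) := fun h => hwT ((hT w).mpr h)
            have h2 : 0 ≤ w.ord (x - algebraMap K F c) := (mem_valuationSubring_iff w).mp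
              (sub_mem ((mem_valuationSubring_iff w).mpr hwx) (w.algebraMap_mem' c))
            omega
          rw [this, mul_zero, zero_add] at hw
          exact hw
    obtain ⟨P, hP, -⟩ := Q.repr_eq hxt hq0 hmem
    rw [hP j]
    rcases eq_or_ne (P j) 0 with h0 | h0
    · simp [h0]
    rw [div_eq_mul_inv, v.ord_mul (aeval_ne_zero hxt h0) (inv_ne_zero hqF), v.ord_inv,
      ord_aeval_eq_zero hxt hv hq, neg_zero, add_zero]
    exact ord_aeval_nonneg (ord_nonneg_of_fibre hxt hv) _
  · intro j w hw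
    have := ((mem_Lx.mp (Q.mem j)).resolve_left (Q.b.ne_zero j)) w
    rwa [max_eq_right (by have := ord_nonneg_of_fibre hxt ((hT w).mp hw); omega), mul_zero,
      neg_zero] at this
  · intro j
    rw [Q.trace_dual]
    split_ifs <;> simp

/-- Over infinity. -/
theorem Reduced.ord_dual_inf (hx : IsFinOver K x) {v : Place K F} (hv : v.ord x < 0)
    (l : Fin (Module.finrank K⟮x⟯ F)) :
    LeOrd v (1 + v.ord x) (x ^ Q.a l * Q.dual l) := by
  classical
  have hxt := hx.transcendental
  have hx0 : x ≠ 0 := fun h => hxt (h ▸ isAlgebraic_zero)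
  obtain ⟨T, hT, -⟩ := hx.exists_poles
  let xL : K⟮x⟯ := AdjoinSimple.gen K x
  have hX : (xL : F) = x := rfl
  have hX0 : xL ≠ 0 := fun h => hx0 (congrArg Subtype.val h)
  let B := Q.b.unitsSMul fun i => Units.mk0 (xL⁻¹ ^ Q.a i) (pow_ne_zero _ (inv_ne_zero hX0))
  have hB : ∀ i, B i = x⁻¹ ^ Q.a i * Q.b i := fun i => by
    rw [Module.Basis.unitsSMul_apply, Units.smul_def, Units.val_mk0, Algebra.smul_def]
    simp [xL]
  rw [show (1 : ℤ) + v.ord x = 1 - v.ord ((xL⁻¹ : K⟮x⟯) : F) by
    rw [show ((xL⁻¹ : K⟮x⟯) : F) = x⁻¹ from rfl, v.ord_inv]; ring]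
  refine ord_dual_ge B (T := T) ((hT v).mpr hv) (fun w hw => ?_) (fun y hy => ?_) ?_ ?_ ?_
  · show 0 < w.ord x⁻¹
    have := (hT w).mp hw
    rw [w.ord_inv]; omega
  · obtain ⟨d, hd⟩ := exists_ord_adjoin (c := y) (fun h => hy (by rw [h]; rfl))
    exact ⟨-d, by rw [show ((xL⁻¹ : K⟮x⟯) : F) = x⁻¹ from rfl, hd v hv, v.ord_inv]; ring⟩
  · intro f hf i
    rcases eq_or_ne f 0 with rfl | hf0
    · simp
    obtain ⟨q, hq, m, hm⟩ := exists_clear_poles hxt hf0
    have hqF := aeval_ne_zero hxt hq
    have hmem : Polynomial.aeval x q * f ∈ Lx (K := K) x (q.natDegree : ℤ) := by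
      refine mem_Lx.mpr (Or.inr fun w => ?_)
      rcases lt_or_ge (w.ord x) 0 with hwx | hwx
      · rw [w.ord_mul hqF hf0, (ord_aeval_pole hwx hq).2, max_eq_left (by omega)]
        have := hf w ((hT w).mpr hwx)
        rw [mul_neg, neg_neg]
        omega
      · have hw := ((mem_space_iff.mp hm).resolve_left (mul_ne_zero hqF hf0)) w
        rw [Finsupp.smul_apply, poleDiv_apply, max_eq_right (by omega : -w.ord x ≤ 0)] at hw
        rw [max_eq_right (by omega : -w.ord x ≤ 0), mul_zero]
        simpa using hw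
    obtain ⟨P, hP, hPd⟩ := Q.repr_eq hxt hq hmem
    rw [Module.Basis.repr_unitsSMul, Units.smul_def, smul_eq_mul, Units.val_inv_eq_inv_val,
      Units.val_mk0, MulMemClass.coe_mul, hP i]
    rcases eq_or_ne (P i) 0 with h0 | h0
    · simp [h0]
    rw [show (((xL⁻¹ ^ Q.a i)⁻¹ : K⟮x⟯) : F) = x ^ Q.a i by simp [xL],
      v.ord_mul (pow_ne_zero _ hx0) (div_ne_zero (aeval_ne_zero hxt h0) hqF), ord_pow,
      div_eq_mul_inv, v.ord_mul (aeval_ne_zero hxt h0) (inv_ne_zero hqF), v.ord_inv,
      (ord_aeval_pole hv h0).2, (ord_aeval_pole hv hq).2]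
    have h1 : ((P i).natDegree : ℤ) + Q.a i ≤ q.natDegree := by exact_mod_cast hPd i h0
    nlinarith
  · intro j w hw
    have hwx := (hT w).mp hw
    have := ((mem_Lx.mp (Q.mem j)).resolve_left (Q.b.ne_zero j)) w
    rw [max_eq_left (by omega)] at this
    rw [hB, w.ord_mul (pow_ne_zero _ (inv_ne_zero hx0)) (Q.b.ne_zero j), ord_pow, w.ord_inv]
    linarith
  · intro j
    rw [hB, show x ^ Q.a l * Q.dual l * (x⁻¹ ^ Q.a j * Q.b j) =
        (xL ^ Q.a l * xL⁻¹ ^ Q.a j) • (Q.dual l * Q.b j) by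
      rw [Algebra.smul_def, show algebraMap K⟮x⟯ F (xL ^ Q.a l * xL⁻¹ ^ Q.a j) =
        x ^ Q.a l * x⁻¹ ^ Q.a j by simp [xL]]
      ring,
      map_smul, Q.trace_dual]
    rcases eq_or_ne j l with rfl | hne
    · rw [if_pos rfl, smul_eq_mul, mul_one, ← mul_pow, mul_inv_cancel₀ hX0, one_pow]
      simp
    · rw [if_neg hne, smul_zero]
      simp

set_option maxHeartbeats 400000 in
/-- Riemann's genus is bounded by the ramification. -/
theorem two_genus_le {c : ℕ} (hR : IsRiemann K F g c) (hx : IsFinOver K x) {c₁ c₂ : K}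
    (hgen : ∀ d : K, d ≠ c₁ → d ≠ c₂ →
      Nat.card {v : Place K F // 0 < v.ord (x - algebraMap K F d)} = Module.finrank K⟮x⟯ F) :
    2 * g + (Nat.card {v : Place K F // v.ord x < 0} +
      Nat.card {v : Place K F // 0 < v.ord (x - algebraMap K F c₁)} +
      Nat.card {v : Place K F // 0 < v.ord (x - algebraMap K F c₂)}) ≤
        Module.finrank K⟮x⟯ F + 2 := by
  classical
  have hxt := hx.transcendental
  have hx0 : x ≠ 0 := fun h => hxt (h ▸ isAlgebraic_zero)
  set n := Module.finrank K⟮x⟯ F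
  obtain ⟨a, b, hmem, hweight, hdP, hspan⟩ := exists_reduced hR hx
  let Q : Reduced (K := K) x g := ⟨a, b, hmem, hweight, hspan⟩
  obtain ⟨P, hP, hPsum⟩ := hx.exists_poles
  obtain ⟨T₁, hT₁, hT₁sum⟩ := hx.exists_zeros c₁
  obtain ⟨T₂, hT₂, hT₂sum⟩ := hx.exists_zeros c₂
  let R : Divisor K F := ∑ v ∈ P, Finsupp.single v (-v.ord x - 1) +
    ∑ v ∈ T₁, Finsupp.single v (v.ord (x - algebraMap K F c₁) - 1) +
    ∑ v ∈ T₂, Finsupp.single v (v.ord (x - algebraMap K F c₂) - 1)
  have happ : ∀ v, R v = (if v ∈ P then -v.ord x - 1 else 0) +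
      (if v ∈ T₁ then v.ord (x - algebraMap K F c₁) - 1 else 0) +
      (if v ∈ T₂ then v.ord (x - algebraMap K F c₂) - 1 else 0) := fun v => by
    simp only [R, Finsupp.add_apply, Finsupp.finsetSum_apply, Finsupp.single_apply,
      Finset.sum_ite_eq']
  have hdegR : Divisor.degree R = 3 * (n : ℤ) - P.card - T₁.card - T₂.card := by
    simp only [R, map_add, map_sum, Divisor.degree_single, deg_one, Nat.cast_one, mul_one]
    rw [Finset.sum_sub_distrib, Finset.sum_sub_distrib, Finset.sum_sub_distrib, hT₁sum, hT₂sum,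
      hPsum, Finset.sum_const, Finset.sum_const, Finset.sum_const]
    simp only [nsmul_eq_mul, mul_one]
    ring
  -- the candidates
  set m := c with hm
  have hcand : ∀ i (j : ℕ), j ≤ a i + m →
      x ^ j * Q.dual i ∈ riemannRochSpace (R + (m : ℤ) • poleDiv K x) := by
    intro i j hj
    have hd0 : Q.dual i ≠ 0 := Q.dual.ne_zero i
    refine mem_space_iff.mpr (Or.inr fun v => ?_)
    rw [Finsupp.add_apply, Finsupp.smul_apply, poleDiv_apply, smul_eq_mul, happ]
    have h1 : 0 ≤ (if v ∈ T₁ then v.ord (x - algebraMap K F c₁) - 1 else 0) := by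
      split_ifs with h
      · have := (hT₁ v).mp h; omega
      · exact le_rfl
    have h2 : 0 ≤ (if v ∈ T₂ then v.ord (x - algebraMap K F c₂) - 1 else 0) := by
      split_ifs with h
      · have := (hT₂ v).mp h; omega
      · exact le_rfl
    rcases lt_or_ge (v.ord x) 0 with hv | hv
    · rw [if_pos ((hP v).mpr hv), max_eq_left (by omega)]
      have h := (Q.ord_dual_inf hx hv i).resolve_left (mul_ne_zero (pow_ne_zero _ hx0) hd0)
      rw [v.ord_mul (pow_ne_zero _ hx0) hd0, ord_pow] at h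
      rw [v.ord_mul (pow_ne_zero _ hx0) hd0, ord_pow]
      change 1 + v.ord x ≤ (a i : ℤ) * v.ord x + _ at h
      have : ((a i : ℤ) + m) * v.ord x ≤ (j : ℤ) * v.ord x :=
        mul_le_mul_of_nonpos_right (by exact_mod_cast hj) hv.le
      nlinarith
    · rw [if_neg (fun h => absurd ((hP v).mp h) (not_lt.mpr hv)), max_eq_right (by omega), mul_zero]
      haveI : Module.Finite K v.ResidueField := Place.FiniteResidue.finite
      obtain ⟨d, hd | hd⟩ := exists_value v ((mem_valuationSubring_iff v).mpr hv)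
      · exact absurd (sub_eq_zero.mpr hd) (sub_C_ne_zero hxt d)
      have h := (Q.ord_dual_finite hx hd i).resolve_left hd0
      rw [v.ord_mul (pow_ne_zero _ hx0) hd0, ord_pow]
      have hpow : 0 ≤ (j : ℤ) * v.ord x := mul_nonneg (Int.natCast_nonneg j) hv
      by_cases hd1 : d = c₁
      · subst hd1
        rw [if_pos ((hT₁ v).mpr hd)]
        omega
      by_cases hd2 : d = c₂
      · subst hd2
        rw [if_pos ((hT₂ v).mpr hd)] at h2 ⊢
        omega
      obtain ⟨Td, hTd, hTdsum⟩ := hx.exists_zeros d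
      have hcard : Td.card = n := by
        rw [← hgen d hd1 hd2, ← Nat.card_eq_finsetCard]
        exact Nat.card_congr (Equiv.subtypeEquivRight hTd)
      have hall : ∀ u ∈ Td, (1 : ℤ) = u.ord (x - algebraMap K F d) :=
        (Finset.sum_eq_sum_iff_of_le fun u hu => (hTd u).mp hu).mp (by
          rw [hTdsum, Finset.sum_const, hcard, nsmul_eq_mul, mul_one])
      have := hall v ((hTd v).mpr hd)
      omega
  let ι := (i : Fin n) × Fin (a i + m + 1)
  have hli : LinearIndependent K fun q : ι => x ^ (q.2 : ℕ) * Q.dual q.1 := by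
    set M := ∑ i, a i + m + 1
    have hg : LinearIndependent K fun j : Fin M => (AdjoinSimple.gen K x : K⟮x⟯) ^ (j : ℕ) := by
      have ht : Transcendental K (AdjoinSimple.gen K x : K⟮x⟯) :=
        fun h => hxt (h.algHom (K⟮x⟯.val))
      have hl := ((Polynomial.basisMonomials K).linearIndependent.map'
        (Polynomial.aeval (AdjoinSimple.gen K x : K⟮x⟯)).toLinearMap
        (LinearMap.ker_eq_bot.mpr (transcendental_iff_injective.mp ht))).comp _
          (Fin.val_injective (n := M))
      simpa [Function.comp_def] using hl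
    have h := linearIndependent_smul hg Q.dual.linearIndependent
    have hlt : ∀ q : ι, (q.2 : ℕ) < M := fun q => by
      have := Finset.single_le_sum (f := a) (fun _ _ => Nat.zero_le _) (Finset.mem_univ q.1)
      have := q.2.2
      omega
    have h' := h.comp (fun q : ι => ((⟨q.2, hlt q⟩ : Fin M), q.1)) (by
      rintro ⟨i, j⟩ ⟨i', j'⟩ hq
      simp only [Prod.mk.injEq, Fin.mk.injEq] at hq
      obtain ⟨h1, rfl⟩ := hq
      exact Sigma.ext rfl (heq_of_eq (Fin.ext h1)))
    convert h' using 1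
    funext q
    simp [Algebra.smul_def]
  have hle : Fintype.card ι ≤ ell (R + (m : ℤ) • poleDiv K x) := by
    refine LinearIndependent.fintype_card_le_finrank (b := fun q : ι =>
      (⟨_, hcand q.1 q.2 (Nat.lt_succ_iff.mp q.2.2)⟩ : riemannRochSpace _))
      (LinearIndependent.of_comp (riemannRochSpace _).subtype hli)
  have hdeg : Divisor.degree (R + (m : ℤ) • poleDiv K x) = Divisor.degree R + (m : ℤ) * n := by
    rw [map_add, map_zsmul, smul_eq_mul, hdP]
  have hn : 0 < n := Module.finrank_pos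
  have hR0 : 0 ≤ Divisor.degree R := degree_nonneg (Finsupp.le_def.mpr fun v => by
    rw [happ, Finsupp.zero_apply]
    split_ifs with h₀ h₁ h₂ h₂ h₁ h₂ h₂ <;>
      first
      | omega
      | (try have := (hP v).mp ‹_›
         try have := (hT₁ v).mp ‹_›
         try have := (hT₂ v).mp ‹_›
         omega))
  have hell := hR.eq (R + (m : ℤ) • poleDiv K x) (by rw [hdeg, hm]; nlinarith)
  rw [hdeg, hdegR] at hell
  have hcardι : (Fintype.card ι : ℤ) = (g : ℤ) + n - 1 + n * ((m : ℤ) + 1) := by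
    rw [← hweight, Fintype.card_sigma]
    push_cast
    simp only [Fintype.card_fin, Finset.sum_add_distrib, Finset.sum_const, Finset.card_univ,
      nsmul_eq_mul, Nat.cast_add, Nat.cast_one]
    ring
  have cP : Nat.card {v : Place K F // v.ord x < 0} = P.card := by
    rw [← Nat.card_eq_finsetCard]
    exact Nat.card_congr (Equiv.subtypeEquivRight fun v => (hP v).symm)
  have c1 : Nat.card {v : Place K F // 0 < v.ord (x - algebraMap K F c₁)} = T₁.card := by
    rw [← Nat.card_eq_finsetCard]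
    exact Nat.card_congr (Equiv.subtypeEquivRight fun v => (hT₁ v).symm)
  have c2 : Nat.card {v : Place K F // 0 < v.ord (x - algebraMap K F c₂)} = T₂.card := by
    rw [← Nat.card_eq_finsetCard]
    exact Nat.card_congr (Equiv.subtypeEquivRight fun v => (hT₂ v).symm)
  rw [cP, c1, c2]
  have hle' : (Fintype.card ι : ℤ) ≤ ell (R + (m : ℤ) • poleDiv K x) := Int.ofNat_le.mpr hle
  have : (n : ℤ) * ((m : ℤ) + 1) = (m : ℤ) * n + n := by ring
  omega

end Fermat.Agent.MCurve.MW
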