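/-
The genus in the sense of Riemann is at most the dimension of the weight two cusp forms.
-/
import Fermat.Agent.MCurve.Genus
import Fermat.Agent.MCurve.MW.GenusBound
import Fermat.Agent.GalRep.Datum

set_option autoImplicit false

noncomputable section

namespace Fermat.Agent.MCurve.MW

open AlgebraicCurve ModularCurve CongruenceSubgroup RR IntermediateField
open scoped MatrixGroups

variable (N : ℕ) [NeZero N] {g c : ℕ}

theorem genus_le_of_embedding (K : Type*) [Field K] [Algebra K ℂ] [IsAlgClosed K] [CharZero K]
    [Algebra ℚ K] (hR : IsRiemann K (laurentBaseChange K (modularFunctionFieldFull N)) g c) :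
    g ≤ Module.finrank ℂ (CuspForm (Gamma0 N) 2) := by
  obtain ⟨hfin, hn⟩ := bar_isFinOver_and_finrank N K
  rw [Subgroup.index_eq_card] at hn
  haveI := hfin.finite
  obtain ⟨hP, hRes, hNe⟩ := curve_props hfin
  have hgen : ∀ c : K, c ≠ 0 → c ≠ 1728 →
      Nat.card {v : Place K (laurentBaseChange K (modularFunctionFieldFull N)) //
        0 < v.ord (jBar N K - algebraMap K _ c)} =
      Module.finrank K⟮jBar N K⟯ (laurentBaseChange K (modularFunctionFieldFull N)) := by
    intro c h1 h2
    rw [card_bar_fibre, barEquiv_jBar, card_fibre_generic N K c h1 h2, hn]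
  have hdeg := two_genus_le hR hfin (c₁ := (0 : K)) (c₂ := 1728) hgen
  have hpoles : Nat.card {v : Place K (laurentBaseChange K (modularFunctionFieldFull N)) //
        v.ord (jBar N K) < 0} =
      Nat.card {v : Place K (laurentBaseChange K (modularFunctionFieldFull N)) //
        0 < v.ord ((jBar N K)⁻¹ - algebraMap K _ 0)} :=
    Nat.card_congr (Equiv.subtypeEquivRight fun v => by
      rw [map_zero, sub_zero, v.ord_inv, neg_pos])
  have hinv : barEquiv N K (jBar N K)⁻¹ =
      ⟨(jL N K)⁻¹, inv_mem (jL_mem_fixFld N K)⟩ := by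
    rw [map_inv₀, barEquiv_jBar]; rfl
  rw [hpoles, card_bar_fibre, card_bar_fibre, card_bar_fibre, hinv, barEquiv_jBar, ncard_cusps,
    hn] at hdeg
  have hρ := card_fibre_rho N K
  have hI := card_fibre_I N K
  rw [Fermat.Agent.Period.fixCard_ellU, Fermat.Agent.Period.card_coset] at hρ
  rw [Fermat.Agent.Period.fixCard_S, Fermat.Agent.Period.card_coset] at hI
  rw [Fermat.Agent.Period.card_cuspSet,
    show Nat.card (SL(2, ℤ) ⧸ Gamma0 N) = dedekindPsi N from Fermat.Agent.Period.card_coset]
    at hdeg
  have hg := Fermat.Agent.Period.twelve_mul_finrank_cuspForm_two N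
  omega

/-- The genus in the sense of Riemann is at most the dimension of the weight two cusp forms. -/
theorem genus_le_finrank_cuspForm
    (hR : IsRiemann (AlgebraicClosure ℚ) (modularFunctionFieldBar N) g c) :
    g ≤ Module.finrank ℂ (CuspForm (Gamma0 N) 2) := by
  letI : Algebra (AlgebraicClosure ℚ) ℂ := Fermat.Agent.GalRep.qbarToC.toAlgebra
  exact genus_le_of_embedding N (AlgebraicClosure ℚ) hR

end Fermat.Agent.MCurve.MW
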