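/-
Finitely many Galois number fields of bounded degree are unramified outside a finite set of primes.
-/
import Fermat.Agent.EC.Unramified
import Mathlib.NumberTheory.NumberField.Discriminant.Different

set_option autoImplicit false

noncomputable section

namespace Fermat.Agent.MCurve.MW

open Fermat.Agent.Galois Fermat.Agent.EC
open scoped NumberField Pointwise nonZeroDivisors

variable (L : Type*) [Field L] [NumberField L]

/-- Either an element or its inverse has a denominator outside a given prime. -/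
theorem exists_den_or_inv (P : Ideal (𝓞 L)) [P.IsPrime] (hP : P ≠ ⊥) (z : L) :
    (∃ d ∉ P, IsIntegral ℤ ((d : L) * z)) ∨ (z ≠ 0 ∧ ∃ d ∉ P, IsIntegral ℤ ((d : L) * z⁻¹)) := by
  set R := Localization.subalgebra.ofField L P.primeCompl P.primeCompl_le_nonZeroDivisors
  haveI : IsDiscreteValuationRing R :=
    IsLocalization.AtPrime.isDiscreteValuationRing_of_dedekind_domain (𝓞 L) hP R
  have key : ∀ w : L, w ∈ R → ∃ d ∉ P, IsIntegral ℤ ((d : L) * w) := by
    intro w hw
    obtain ⟨⟨a, s⟩, h⟩ := IsLocalization.surj P.primeCompl (⟨w, hw⟩ : R)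
    refine ⟨s, s.2, ?_⟩
    have h' := congrArg Subtype.val h
    simp only [MulMemClass.coe_mul] at h'
    rw [mul_comm]
    exact h' ▸ NumberField.RingOfIntegers.isIntegral_coe a
  by_cases hz : z = 0
  · exact Or.inl (key z (hz ▸ R.zero_mem))
  rcases ValuationRing.isInteger_or_isInteger R z with ⟨w, hw⟩ | ⟨w, hw⟩
  · exact Or.inl (key z (hw ▸ w.2))
  · exact Or.inr ⟨hz, key z⁻¹ (hw ▸ w.2)⟩

/-- The trace dual of the integers is killed by `finrank · ∏ S` when `L` is Galois and unramified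
outside `S`. -/
theorem mul_mem_of_mem_dual [IsGalois ℚ L] (S : Finset ℕ)
    (hur : ∀ q : ℕ, q.Prime → q ∉ S → ¬ (q : ℤ) ∣ NumberField.discr L) {x : L}
    (hx : ∀ a : 𝓞 L, IsIntegral ℤ (Algebra.trace ℚ L (x * a))) :
    IsIntegral ℤ (((Module.finrank ℚ L * ∏ q ∈ S, q : ℕ) : L) * x) := by
  classical
  set n := Module.finrank ℚ L with hn
  set M : ℕ := n * ∏ q ∈ S, q with hM
  have hdisc : IsIntegral ℤ ((NumberField.discr L : L) * x) := by
    have h := isIntegral_discr_mul_of_mem_traceDual (A := ℤ) (K := ℚ) (1 : Submodule (𝓞 L) L)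
      (b := NumberField.integralBasis L)
      (fun i => by rw [NumberField.integralBasis_apply]; exact NumberField.RingOfIntegers.isIntegral_coe _)
      (a := 1) (x := x) (Submodule.one_le.mp le_rfl)
      (Submodule.mem_traceDual_iff_isIntegral.mpr fun y hy => by
        obtain ⟨a, rfl⟩ := Submodule.mem_one.mp hy
        simpa [Algebra.traceForm_apply, mul_comm] using hx a)
    rw [Algebra.smul_def, ← NumberField.coe_discr, map_intCast, mul_assoc, one_mul] at h
    exact h
  let J : Ideal (𝓞 L) :=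
    { carrier := {a | IsIntegral ℤ ((a : L) * ((M : L) * x))}
      add_mem' := fun {a b} ha hb => by
        show IsIntegral ℤ _
        push_cast
        rw [add_mul]
        exact ha.add hb
      zero_mem' := by
        show IsIntegral ℤ _
        simpa using isIntegral_zero
      smul_mem' := fun c a ha => by
        show IsIntegral ℤ _
        rw [smul_eq_mul]
        push_cast
        rw [mul_assoc]
        exact (NumberField.RingOfIntegers.isIntegral_coe c).mul ha }
  suffices hJ : J = ⊤ by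
    have h1 : (1 : 𝓞 L) ∈ J := hJ ▸ Submodule.mem_top
    simpa using (show IsIntegral ℤ (((1 : 𝓞 L) : L) * ((M : L) * x)) from h1)
  by_contra hJ
  obtain ⟨P, hPmax, hJP⟩ := Ideal.exists_le_maximal J hJ
  haveI := hPmax.isPrime
  have hP0 : P ≠ ⊥ := fun h => by
    have hd : ((NumberField.discr L : 𝓞 L)) ∈ J := by
      show IsIntegral ℤ _
      push_cast
      rw [mul_left_comm]
      exact (isIntegral_algebraMap (x := (M : ℤ))).mul hdisc |> fun h => by simpa using h
    have := h ▸ hJP hd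
    rw [Ideal.mem_bot, Int.cast_eq_zero] at this
    exact NumberField.discr_ne_zero L this
  obtain ⟨r, hr, hrP⟩ : ∃ r : ℕ, r.Prime ∧ (r : 𝓞 L) ∈ P := by
    obtain ⟨r, hr⟩ : ∃ r : ℤ, P.under ℤ = Ideal.span {r} :=
      ⟨_, (Ideal.span_singleton_generator _).symm⟩
    have hne : P.under ℤ ≠ ⊥ := Ideal.under_ne_bot (A := ℤ) hP0
    have hr0 : r ≠ 0 := fun h => hne (by rw [hr, h]; simp)
    have hpr : Prime r := (Ideal.span_singleton_prime hr0).mp (hr ▸ Ideal.IsPrime.under ℤ P)
    refine ⟨r.natAbs, Int.prime_iff_natAbs_prime.mp hpr, ?_⟩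
    have hm : ((r.natAbs : ℤ)) ∈ P.under ℤ := by
      rw [hr, Ideal.mem_span_singleton]
      exact Int.dvd_natAbs.mpr dvd_rfl
    rw [Ideal.mem_comap] at hm
    simpa using hm
  haveI : Fact r.Prime := ⟨hr⟩
  have key : ∀ d : 𝓞 L, d ∉ P → ∀ z : L, IsIntegral ℤ ((d : L) * z) →
      (∃ c : 𝓞 L, (M : L) * x = (c : L) * z) → False := by
    intro d hd z hz ⟨c, hc⟩
    refine hd (hJP (show IsIntegral ℤ _ from ?_))
    rw [hc, mul_left_comm]
    exact (NumberField.RingOfIntegers.isIntegral_coe c).mul hz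
  by_cases hrS : r ∈ S
  swap
  · refine key (NumberField.discr L : 𝓞 L) (fun hdP => hur r hr hrS ?_) x (by simpa using hdisc)
      ⟨(M : 𝓞 L), by simp⟩
    have hr' : P.under ℤ = Ideal.span {(r : ℤ)} := by
      refine ((Ideal.IsPrime.isMaximal ((Ideal.span_singleton_prime
        (by exact_mod_cast hr.ne_zero)).mpr (Nat.prime_iff_prime_int.mp hr))
        (by simp [hr.ne_zero])).eq_of_le (Ideal.IsPrime.under ℤ P).ne_top ?_).symm
      rw [Ideal.span_le, Set.singleton_subset_iff, SetLike.mem_coe, Ideal.mem_comap]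
      simpa using hrP
    have hm : NumberField.discr L ∈ P.under ℤ := by
      rw [Ideal.mem_comap]; simpa using hdP
    rwa [hr', Ideal.mem_span_singleton] at hm
  set s := n.factorization r + 1 with hs
  have hn0 : n ≠ 0 := Module.finrank_pos.ne'
  obtain ⟨M', hM'⟩ : r ^ s ∣ M := by
    rw [hs, pow_succ, hM]
    exact mul_dvd_mul (Nat.ordProj_dvd n r) (Finset.dvd_prod_of_mem _ hrS)
  rcases exists_den_or_inv L P hP0 ((r : L) ^ s * x) with ⟨d, hd, hint⟩ | ⟨hz0, d, hd, hint⟩
  · exact key d hd _ hint ⟨(M' : 𝓞 L), by rw [hM']; push_cast; ring⟩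
  -- the element `(r ^ s)⁻¹` would be in the dual
  have hrs : ((r : L) ^ s) ≠ 0 := left_ne_zero_of_mul hz0
  have hx0 : x ≠ 0 := right_ne_zero_of_mul hz0
  let K : Ideal (𝓞 L) :=
    { carrier := {a | ∀ b : 𝓞 L, IsIntegral ℤ (Algebra.trace ℚ L ((a : L) * ((r : L) ^ s)⁻¹ * b))}
      add_mem' := fun {a a'} ha ha' b => by
        push_cast
        rw [add_mul, add_mul, map_add]
        exact (ha b).add (ha' b)
      zero_mem' := fun b => by simpa using isIntegral_zero
      smul_mem' := fun c a ha b => by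
        have := ha (c * b)
        rw [smul_eq_mul]
        push_cast at this ⊢
        rwa [show (c : L) * a * ((r : L) ^ s)⁻¹ * b = a * ((r : L) ^ s)⁻¹ * (c * b) by ring] }
  have hdK : d ∈ K := fun b => by
    obtain ⟨c, hc⟩ : ∃ c : 𝓞 L, algebraMap (𝓞 L) L c = (d : L) * ((r : L) ^ s * x)⁻¹ :=
      ⟨⟨_, hint⟩, rfl⟩
    have h := hx (c * b)
    rwa [show ((c * b : 𝓞 L) : L) = algebraMap (𝓞 L) L c * b from map_mul _ _ _, hc,
      show x * ((d : L) * ((r : L) ^ s * x)⁻¹ * b) = d * ((r : L) ^ s)⁻¹ * b by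
      field_simp] at h
  have hKstab : ∀ (g : L ≃ₐ[ℚ] L) (a : 𝓞 L), a ∈ K → g • a ∈ K := fun g a ha b => by
    have h := ha (g⁻¹ • b)
    rw [← Algebra.trace_eq_of_algEquiv g] at h
    convert h using 2
    rw [map_mul, map_mul, map_inv₀, map_pow, map_natCast]
    congr 1
    exact (g.apply_symm_apply _).symm
  have hK : K = ⊤ := by
    by_contra hK
    obtain ⟨Q, hQmax, hKQ⟩ := Ideal.exists_le_maximal K hK
    haveI := hQmax.isPrime
    have hrQ : (r : 𝓞 L) ∈ Q := by
      refine hQmax.isPrime.mem_of_pow_mem s (hKQ fun b => ?_)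
      push_cast
      rw [mul_inv_cancel₀ hrs, one_mul]
      exact Algebra.isIntegral_trace (NumberField.RingOfIntegers.isIntegral_coe b)
    have hun : ∀ T : Ideal (𝓞 L), T.IsPrime → (r : 𝓞 L) ∈ T → T.under ℤ = Ideal.span {(r : ℤ)} := by
      intro T hT hrT
      haveI := hT
      refine ((Ideal.IsPrime.isMaximal ((Ideal.span_singleton_prime
        (by exact_mod_cast hr.ne_zero)).mpr (Nat.prime_iff_prime_int.mp hr))
        (by simp [hr.ne_zero])).eq_of_le (Ideal.IsPrime.under ℤ T).ne_top ?_).symm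
      rw [Ideal.span_le, Set.singleton_subset_iff, SetLike.mem_coe, Ideal.mem_comap]
      simpa using hrT
    haveI := IsGaloisGroup.of_isFractionRing (L ≃ₐ[ℚ] L) ℤ (𝓞 L) ℚ L
    obtain ⟨g, hg⟩ := Algebra.IsInvariant.exists_smul_of_under_eq ℤ (𝓞 L) (L ≃ₐ[ℚ] L) P Q
      ((hun P inferInstance hrP).trans (hun Q inferInstance hrQ).symm)
    have h1 := hKQ (hKstab g d hdK)
    rw [hg, Ideal.smul_mem_pointwise_smul_iff] at h1
    exact hd h1
  have h1 := (hK ▸ Submodule.mem_top : (1 : 𝓞 L) ∈ K) 1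
  simp only [map_one, one_mul, mul_one] at h1
  rw [show ((r : L) ^ s)⁻¹ = algebraMap ℚ L (((r : ℚ) ^ s)⁻¹) by simp,
    Algebra.trace_algebraMap, ← hn] at h1
  obtain ⟨m, hm⟩ := IsIntegrallyClosed.isIntegral_iff.mp h1
  have h2 : (r : ℤ) ^ s ∣ (n : ℤ) := by
    refine ⟨m, ?_⟩
    have hr0 : ((r : ℚ) ^ s) ≠ 0 := pow_ne_zero _ (Nat.cast_ne_zero.mpr hr.ne_zero)
    rw [nsmul_eq_mul, ← div_eq_mul_inv, eq_div_iff hr0, eq_intCast] at hm
    exact_mod_cast hm.symm.trans (mul_comm _ _)
  exact Nat.pow_succ_factorization_not_dvd hn0 hr (by exact_mod_cast h2)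

/-- The discriminant of a Galois number field unramified outside `S` is bounded. -/
theorem natAbs_discr_le [IsGalois ℚ L] (S : Finset ℕ) (hS : ∀ q ∈ S, q.Prime)
    (hur : ∀ q : ℕ, q.Prime → q ∉ S → ¬ (q : ℤ) ∣ NumberField.discr L) :
    (NumberField.discr L).natAbs ≤
      (Module.finrank ℚ L * ∏ q ∈ S, q) ^ Module.finrank ℚ L := by
  set n := Module.finrank ℚ L with hn
  set M : ℕ := n * ∏ q ∈ S, q with hM
  have hM0 : M ≠ 0 := Nat.mul_ne_zero Module.finrank_pos.ne'
    (Finset.prod_ne_zero_iff.mpr fun q hq => (hS q hq).ne_zero)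
  have hmem : (M : 𝓞 L) ∈ differentIdeal ℤ (𝓞 L) := by
    have h : algebraMap (𝓞 L) L (M : 𝓞 L) ∈
        IsLocalization.coeSubmodule L (differentIdeal ℤ (𝓞 L)) := by
      rw [coeSubmodule_differentIdeal ℤ ℚ, Submodule.mem_div_iff_forall_mul_mem]
      intro y hy
      rw [map_natCast]
      have hy' : ∀ a : 𝓞 L, IsIntegral ℤ (Algebra.trace ℚ L (y * a)) := fun a => by
        have := Submodule.mem_traceDual_iff_isIntegral.mp hy (a : L)
          (Submodule.mem_one.mpr ⟨a, rfl⟩)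
        simpa [Algebra.traceForm_apply] using this
      exact Submodule.mem_one.mpr ⟨⟨_, mul_mem_of_mem_dual L S hur hy'⟩, rfl⟩
    obtain ⟨z, hz, e⟩ := h
    rwa [← NumberField.RingOfIntegers.coe_injective e]
  have hdvd := Ideal.absNorm_dvd_absNorm_of_le
    ((Ideal.span_singleton_le_iff_mem _).mpr hmem)
  rw [NumberField.absNorm_differentIdeal L, Ideal.absNorm_span_singleton, ← map_natCast
    (algebraMap ℤ (𝓞 L)), Algebra.norm_algebraMap, NumberField.RingOfIntegers.rank,
    Int.natAbs_pow, Int.natAbs_natCast] at hdvd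
  exact Nat.le_of_dvd (pow_pos (Nat.pos_of_ne_zero hM0) _) hdvd

/-- Only finitely many Galois fields of bounded degree are unramified outside `S`. -/
theorem finite_unramified_fields (S : Finset ℕ) (hS : ∀ q ∈ S, q.Prime) (B : ℕ) :
    {F : IntermediateField ℚ (AlgebraicClosure ℚ) | ∃ (_ : FiniteDimensional ℚ F),
      IsGalois ℚ F ∧ Module.finrank ℚ F ≤ B ∧ ∀ q : ℕ, q.Prime → q ∉ S →
        ∀ A : ValuationSubring (AlgebraicClosure ℚ), A.LiesOverPrime q →
          A.inertiaSubgroupIn ℚ ≤ F.fixingSubgroup}.Finite := by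
  classical
  set Bd : ℕ := (B * ∏ q ∈ S, q + 1) ^ B
  refine Set.Finite.subset
    ((NumberField.finite_of_discr_bdd (AlgebraicClosure ℚ) Bd).image Subtype.val) ?_
  rintro F ⟨hF, hG, hB, hI⟩
  refine ⟨⟨F, hF⟩, ?_, rfl⟩
  haveI := hG
  haveI : NumberField F := { }
  have hur : ∀ q : ℕ, q.Prime → q ∉ S → ¬ (q : ℤ) ∣ NumberField.discr F := by
    intro q hq hqS
    rw [NumberField.not_dvd_discr_iff_forall_liesOver F (𝓞 F) (Nat.prime_iff_prime_int.mp hq)]
    intro P _ hPover
    haveI := IsGaloisGroup.of_isFractionRing (F ≃ₐ[ℚ] F) ℤ (𝓞 F) ℚ F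
    obtain ⟨A₀, hA₀⟩ := exists_liesOverPrime hq
    set P₀ : Ideal (𝓞 F) := (placeCenter A₀).comap (ringOfIntegersToZBar F) with hP₀
    haveI : P₀.IsPrime := Ideal.IsPrime.comap _
    have hu₀ : P₀.under ℤ = Ideal.span {(q : ℤ)} := by
      ext m
      show ringOfIntegersToZBar F (algebraMap ℤ (𝓞 F) m) ∈ placeCenter A₀ ↔ _
      rw [Ideal.mem_span_singleton, ← intCast_mem_placeCenter hq hA₀, algebraMap_int_eq,
        eq_intCast, map_intCast]
    haveI : (P₀.under ℤ).IsPrime := Ideal.IsPrime.comap _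
    haveI : (Ideal.span {(q : ℤ)}).IsMaximal :=
      Ideal.IsPrime.isMaximal ((Ideal.span_singleton_prime (by exact_mod_cast hq.ne_zero)).mpr
        (Nat.prime_iff_prime_int.mp hq)) (by simp [hq.ne_zero])
    have hbot : P₀.inertia (F ≃ₐ[ℚ] F) = ⊥ := by
      refine (Subgroup.eq_bot_iff_forall _).mpr fun τ hτ => ?_
      obtain ⟨σ, hσ, hστ⟩ := exists_lift_inertia F hq hA₀ τ (fun a => by
        rw [← map_sub]; exact hτ a)
      refine hστ.symm.trans (AlgEquiv.ext fun x => Subtype.ext ?_)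
      exact (AlgEquiv.restrictNormal_commutes σ F x).trans
        (((IntermediateField.mem_fixingSubgroup_iff _ _).1 (hI q hq hqS A₀ hA₀ hσ)) x x.2)
    haveI : P₀.LiesOver (Ideal.span {(q : ℤ)}) := ⟨hu₀.symm⟩
    rw [← Ideal.ramificationIdx_eq_one_iff,
      ← Ideal.ramificationIdxIn_eq_ramificationIdx (Ideal.span {(q : ℤ)}) P (F ≃ₐ[ℚ] F),
      ← Ideal.card_inertia_eq_ramificationIdxIn (G := F ≃ₐ[ℚ] F) (Ideal.span {(q : ℤ)}) P₀, hbot]
    exact Subgroup.card_bot
  show |NumberField.discr F| ≤ Bd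
  rw [Int.abs_eq_natAbs]
  exact_mod_cast (natAbs_discr_le F S hS hur).trans ((Nat.pow_le_pow_left
    ((Nat.mul_le_mul_right _ hB).trans (Nat.le_succ _)) _).trans
    (Nat.pow_le_pow_right (Nat.succ_pos _) hB))

end Fermat.Agent.MCurve.MW
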