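/-
Unit W: the weak Mordell–Weil theorem for `J₀(N)` over `ℚ`.
-/
import Fermat.Agent.MCurve.Spec.Specialization
import Fermat.Agent.MCurve.Spec.Congruence
import Fermat.Agent.MCurve.RiemannRoch.Curve
import Fermat.Agent.MCurve.RiemannRoch.Spaces
import Fermat.Agent.MCurve.MW.Hermite

set_option autoImplicit false

noncomputable section

namespace Fermat.Agent.MCurve.MW

open AlgebraicCurve ModularCurve
open scoped Pointwise

local notation "Q̄" => AlgebraicClosure ℚ
local notation "Γ" => (AlgebraicClosure ℚ ≃ₐ[ℚ] AlgebraicClosure ℚ)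

section Stab

variable (F₀ : IntermediateField ℚ (LaurentSeries ℚ))

/-- Every function is fixed by an open subgroup of the Galois group. -/
theorem exists_open_fix_fun (x : laurentBaseChange Q̄ F₀) :
    ∃ U : Subgroup Γ, IsOpen (U : Set Γ) ∧ ∀ σ ∈ U, arithmeticGalois F₀ σ • x = x := by
  suffices h : ∀ y ∈ laurentBaseChange Q̄ F₀, ∃ U : Subgroup Γ, IsOpen (U : Set Γ) ∧
      ∀ σ ∈ U, coeffMap (σ : Q̄ →+* Q̄) y = y by
    obtain ⟨U, hU, hx⟩ := h x.1 x.2
    exact ⟨U, hU, fun σ hσ => Subtype.ext (hx σ hσ)⟩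
  intro y hy
  induction hy using IntermediateField.adjoin_induction with
  | mem y hy =>
    obtain ⟨x, -, rfl⟩ := hy
    exact ⟨⊤, isOpen_univ, fun σ _ => coeffMap_coeffEmb σ x⟩
  | algebraMap a =>
    refine ⟨MulAction.stabilizer Γ a, stabilizer_isOpen_of_isIntegral a, fun σ hσ => ?_⟩
    rw [coeffMap_algebraMap]
    exact congrArg _ hσ
  | add x y _ _ hx hy =>
    obtain ⟨U, hU, hx⟩ := hx
    obtain ⟨V, hV, hy⟩ := hy
    exact ⟨U ⊓ V, hU.inter hV, fun σ hσ => by rw [map_add, hx σ hσ.1, hy σ hσ.2]⟩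
  | inv x _ hx =>
    obtain ⟨U, hU, hx⟩ := hx
    exact ⟨U, hU, fun σ hσ => by rw [map_inv₀, hx σ hσ]⟩
  | mul x y _ _ hx hy =>
    obtain ⟨U, hU, hx⟩ := hx
    obtain ⟨V, hV, hy⟩ := hy
    exact ⟨U ⊓ V, hU.inter hV, fun σ hσ => by rw [map_mul, hx σ hσ.1, hy σ hσ.2]⟩

end Stab

variable (N : ℕ) [NeZero N]

local notation "𝔽" => modularFunctionFieldBar N

theorem isFinOver_jBar : IsFinOver Q̄ (jBar N Q̄) := by
  letI : Algebra Q̄ ℂ := GalRep.qbarToC.toAlgebra
  exact (bar_isFinOver_and_finrank N Q̄).1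

/-- Every place is fixed by an open subgroup of the Galois group. -/
theorem exists_open_fix_place (P : Place Q̄ 𝔽) :
    ∃ U : Subgroup Γ, IsOpen (U : Set Γ) ∧
      ∀ σ ∈ U, arithmeticGalois (modularFunctionFieldFull N) σ • P = P := by
  classical
  have hx := isFinOver_jBar N
  obtain ⟨h1, h2, h3⟩ := RR.curve_props hx
  haveI := h1
  haveI := h2
  haveI := h3
  obtain ⟨g, c, hR⟩ := RR.exists_isRiemann hx
  obtain ⟨f, hf, hf0, hfP⟩ := hR.exists_ord_eq
    (D := Finsupp.single P ((c : ℤ) + 1)) (by simp [Divisor.degree_single, RR.deg_one]) P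
  obtain ⟨U, hU, hfix⟩ := exists_open_fix_fun (modularFunctionFieldFull N) f
  refine ⟨U, hU, fun σ hσ => ?_⟩
  set γ := arithmeticGalois (modularFunctionFieldFull N) σ
  by_contra hne
  have h4 : (γ • P).ord f = P.ord f := by
    conv_lhs => rw [← hfix σ hσ]
    exact SemilinearAut.ord_smul γ P f
  have h5 := ((RR.mem_space_iff.mp hf).resolve_left hf0) (γ • P)
  rw [Finsupp.single_apply, if_neg (Ne.symm hne)] at h5
  rw [Finsupp.single_eq_same] at hfP
  omega

/-- Every class is fixed by an open subgroup of the Galois group. -/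
theorem exists_open_fix (x : JZero N) :
    ∃ U : Subgroup Γ, IsOpen (U : Set Γ) ∧ ∀ σ ∈ U, σ • x = x := by
  classical
  obtain ⟨D, rfl⟩ := Pic0.mk_surjective x
  choose U hU hfix using exists_open_fix_place N
  refine ⟨⨅ P ∈ (D : Divisor Q̄ 𝔽).support, U P, ?_, fun σ hσ => ?_⟩
  · simp only [Subgroup.coe_iInf]
    exact Set.Finite.isOpen_biInter (Finset.finite_toSet _) fun P _ => hU P
  · show Pic0.mk (SemilinearAut.degZeroSMulHom (arithmeticGalois (modularFunctionFieldFull N) σ) D)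
      = Pic0.mk D
    refine congrArg _ (Subtype.ext ?_)
    rw [SemilinearAut.coe_degZeroSMulHom, SemilinearAut.divisor_smul_def]
    conv_rhs => rw [← Finsupp.mapDomain_id (v := (D : Divisor Q̄ 𝔽))]
    refine Finsupp.mapDomain_congr fun P hP => ?_
    simp only [Subgroup.mem_iInf] at hσ
    exact hfix P σ (hσ P hP)

variable {N}

/-- The classes over `ℚ`. -/
abbrev rat (N : ℕ) [NeZero N] : AddSubgroup (JZero N) :=
  FixedPoints.addSubgroup Γ (JZero N)

variable {ℓ : ℕ}

/-- The subgroup fixing a coset of the `ℓ`-torsion pointwise. -/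
def fixCoset (ℓ : ℕ) (d : JZero N) : Subgroup Γ :=
  ⨅ t : {t : JZero N // ℓ • t = 0}, MulAction.stabilizer Γ (d + t.1)

theorem mem_fixCoset {d : JZero N} {σ : Γ} :
    σ ∈ fixCoset ℓ d ↔ ∀ t : JZero N, ℓ • t = 0 → σ • (d + t) = d + t := by
  simp [fixCoset, Subgroup.mem_iInf, MulAction.mem_stabilizer_iff]

theorem isOpen_fixCoset (htor : Finite {t : JZero N // ℓ • t = 0}) (d : JZero N) :
    IsOpen (fixCoset ℓ d : Set Γ) := by
  haveI := htor
  simp only [fixCoset, Subgroup.coe_iInf]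
  refine isOpen_iInter_of_finite fun t => ?_
  obtain ⟨U, hU, hfix⟩ := exists_open_fix N (d + t.1)
  exact Subgroup.isOpen_mono (fun σ hσ => MulAction.mem_stabilizer_iff.mpr (hfix σ hσ)) hU

theorem nsmul_smul (n : ℕ) (σ : Γ) (x : JZero N) : n • σ • x = σ • (n • x) :=
  (map_nsmul (DistribSMul.toAddMonoidHom (JZero N) σ) n x).symm

theorem smul_sub_self_torsion {d : JZero N} (hd : ℓ • d ∈ rat N) (σ : Γ) {t : JZero N}
    (ht : ℓ • t = 0) : ℓ • (σ • (d + t) - d) = 0 := by
  rw [nsmul_sub, nsmul_smul, nsmul_add, ht, add_zero, hd σ, sub_self]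

theorem fixCoset_normal {d : JZero N} (hd : ℓ • d ∈ rat N) :
    (fixCoset ℓ d).Normal := by
  refine ⟨fun σ hσ g => mem_fixCoset.mpr fun t ht => ?_⟩
  have h := mem_fixCoset.mp hσ _ (smul_sub_self_torsion hd g⁻¹ ht)
  rw [add_sub_cancel] at h
  rw [mul_smul, mul_smul, h, smul_inv_smul]

variable (hℓ : ℓ.Prime)

include hℓ in
/-- The field cut out by the divisions of a rational class is in a finite set. -/
theorem exists_division_field (htor : Finite {t : JZero N // ℓ • t = 0}) {d : JZero N}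
    (hd : ℓ • d ∈ rat N) :
    ∃ F : IntermediateField ℚ Q̄, F.fixingSubgroup ≤ fixCoset ℓ d ∧
      ∃ (_ : FiniteDimensional ℚ F), IsGalois ℚ F ∧
        Module.finrank ℚ F ≤ Nat.card ({t : JZero N // ℓ • t = 0} → {t : JZero N // ℓ • t = 0}) ∧
        ∀ q : ℕ, q.Prime → q ∉ (ℓ * N).primeFactors → ∀ A : ValuationSubring Q̄,
          A.LiesOverPrime q → A.inertiaSubgroupIn ℚ ≤ F.fixingSubgroup := by
  classical
  haveI := htor
  haveI := fixCoset_normal hd
  set U : ClosedSubgroup Γ := ⟨fixCoset ℓ d, Subgroup.isClosed_of_isOpen _ (isOpen_fixCoset htor d)⟩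
  set F := IntermediateField.fixedField (U : Subgroup Γ)
  have hFU : F.fixingSubgroup = fixCoset ℓ d := InfiniteGalois.fixingSubgroup_fixedField U
  have hFfin : FiniteDimensional ℚ F := by
    rw [← InfiniteGalois.isOpen_iff_finite, hFU]
    exact isOpen_fixCoset htor d
  haveI := hFfin
  haveI hFG : IsGalois ℚ F :=
    (InfiniteGalois.normal_iff_isGalois F).mp (hFU ▸ fixCoset_normal hd)
  refine ⟨F, hFU.le, hFfin, hFG, ?_, fun q hq hqS A hA τ hτ => ?_⟩
  · rw [← IsGalois.card_aut_eq_finrank ℚ F]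
    have hsurj := AlgEquiv.restrictNormalHom_surjective (F := ℚ) (K₁ := F) (E := Q̄)
    have hinv : ∀ g, AlgEquiv.restrictNormalHom F (Function.surjInv hsurj g) = g := fun g =>
      Function.surjInv_eq hsurj g
    refine Nat.card_le_card_of_injective
      (fun g => fun t => ⟨Function.surjInv hsurj g • (d + t.1) - d,
        smul_sub_self_torsion hd _ t.2⟩) fun g g' h => ?_
    have h' : ∀ t : JZero N, ℓ • t = 0 → Function.surjInv hsurj g • (d + t) =
        Function.surjInv hsurj g' • (d + t) := fun t ht =>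
      sub_left_injective (congrArg Subtype.val (congrFun h ⟨t, ht⟩))
    have hm : (Function.surjInv hsurj g')⁻¹ * Function.surjInv hsurj g ∈ fixCoset ℓ d :=
      mem_fixCoset.mpr fun t ht => by rw [mul_smul, h' t ht, inv_smul_smul]
    rw [← hFU, ← IntermediateField.restrictNormalHom_ker, MonoidHom.mem_ker, map_mul, map_inv] at hm
    exact (inv_mul_eq_one.mp
      ((congrArg₂ (fun a b => a⁻¹ * b) (hinv g') (hinv g)).symm.trans hm)).symm
  · rw [hFU, mem_fixCoset]
    intro t ht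
    haveI : Fact q.Prime := ⟨hq⟩
    haveI : ∀ P : Place Q̄ 𝔽, Module.Finite Q̄ P.ResidueField := Spec.finite_residue N
    have hdvd : ¬ q ∣ ℓ * N := fun h => hqS (Nat.mem_primeFactors.mpr
      ⟨hq, h, Nat.mul_ne_zero hℓ.ne_zero (NeZero.ne N)⟩)
    have hqN : ¬ q ∣ N := fun h => hdvd (h.mul_left ℓ)
    refine sub_eq_zero.mp (Spec.eq_zero_of_mem_pushKer hqN hA (n := ℓ)
      (fun h => hdvd (h.mul_right N))
      (Spec.inertia_mem_pushKer (fun _ τ' hτ' P => Spec.cen_inertia N hqN hA hτ' P) hτ (d + t)) ?_)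
    rw [nsmul_sub, nsmul_smul, nsmul_add, ht, add_zero, hd τ, sub_self]

theorem finite_quot (N : ℕ) [NeZero N] {ℓ : ℕ} (hℓ : ℓ.Prime)
    (hdiv : Function.Surjective fun x : JZero N => ℓ • x)
    (htor : Finite {t : JZero N // ℓ • t = 0}) :
    Finite (↥(FixedPoints.addSubgroup
        ((AlgebraicClosure ℚ) ≃ₐ[ℚ] (AlgebraicClosure ℚ)) (JZero N)) ⧸
      (nsmulAddMonoidHom (α := ↥(FixedPoints.addSubgroup
        ((AlgebraicClosure ℚ) ≃ₐ[ℚ] (AlgebraicClosure ℚ)) (JZero N))) ℓ).range) := by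
  classical
  haveI := htor
  set H := (nsmulAddMonoidHom (α := ↥(rat N)) ℓ).range
  have hfin := finite_unramified_fields (ℓ * N).primeFactors
    (fun q hq => Nat.prime_of_mem_primeFactors hq)
    (Nat.card ({t : JZero N // ℓ • t = 0} → {t : JZero N // ℓ • t = 0}))
  set 𝓕 : Set (IntermediateField ℚ Q̄) := _
  set U : Subgroup Γ := ⨅ F ∈ 𝓕, F.fixingSubgroup with hUdef
  have hUo : IsOpen (U : Set Γ) := by
    simp only [hUdef, Subgroup.coe_iInf]
    refine hfin.isOpen_biInter fun F hF => ?_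
    obtain ⟨hF', -⟩ := hF
    exact IntermediateField.fixingSubgroup_isOpen F
  haveI : Finite (Γ ⧸ U) := Subgroup.quotient_finite_of_isOpen U hUo
  choose d hd using fun q : ↥(rat N) ⧸ H => hdiv ((Quotient.out q : ↥(rat N)) : JZero N)
  have hd' : ∀ q, ℓ • d q ∈ rat N := fun q => by rw [show ℓ • d q = _ from hd q]; exact Subtype.prop _
  have hU : ∀ q, ∀ u ∈ U, u • d q = d q := fun q u hu => by
    obtain ⟨F, hle, hF, hrest⟩ := exists_division_field hℓ htor (hd' q)
    have hm : u ∈ F.fixingSubgroup := by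
      simp only [hUdef, Subgroup.mem_iInf] at hu
      exact hu F ⟨hF, hrest⟩
    simpa using mem_fixCoset.mp (hle hm) 0 (nsmul_zero ℓ)
  let ξ : ↥(rat N) ⧸ H → (Γ ⧸ U → {t : JZero N // ℓ • t = 0}) := fun q s =>
    ⟨s.out • d q - d q, by simpa using smul_sub_self_torsion (hd' q) s.out (nsmul_zero ℓ)⟩
  refine Finite.of_injective ξ fun q q' h => ?_
  have hfix : ∀ σ : Γ, σ • (d q - d q') = d q - d q' := fun σ => by
    obtain ⟨u, hu⟩ := QuotientGroup.mk_out_eq_mul U σ
    have h' : _ = _ := congrArg Subtype.val (congrFun h (QuotientGroup.mk σ))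
    simp only [ξ, hu, mul_smul, hU q _ u.2, hU q' _ u.2] at h'
    rw [smul_sub]
    linear_combination (norm := abel) h'
  rw [← QuotientAddGroup.out_eq' q, ← QuotientAddGroup.out_eq' q', QuotientAddGroup.eq]
  refine ⟨-(⟨d q - d q', hfix⟩ : ↥(rat N)), Subtype.ext ?_⟩
  show ℓ • -(d q - d q') = -((Quotient.out q : ↥(rat N)) : JZero N) + _
  rw [← hd q, ← hd q']
  simp only [neg_nsmul, nsmul_sub]
  abel

end Fermat.Agent.MCurve.MW
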