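/-
The Mordell–Weil theorem for `J₀(N)` over `ℚ`, assembled from the units.
-/
import Fermat.Agent.MCurve.MW.Galois
import Fermat.Agent.MCurve.MW.Descent
import Fermat.Agent.MCurve.MW.GenusLe
import Fermat.Agent.MCurve.MW.WeakMW
import Fermat.Agent.MCurve.MW.Points
import Fermat.Agent.MCurve.CuspPlace
import Fermat.Agent.MCurve.Flat.KummerSurj
import Fermat.Prelude.Thm_ModularCurve_coeff_jqModC_neg_one

set_option autoImplicit false

noncomputable section

namespace Fermat.Agent.MCurve.MW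

open AlgebraicCurve ModularCurve CongruenceSubgroup RR
open scoped Pointwise

local notation "Q̄" => AlgebraicClosure ℚ
local notation "Γ" => (AlgebraicClosure ℚ ≃ₐ[ℚ] AlgebraicClosure ℚ)

variable (N : ℕ) [NeZero N]

local notation "𝔽" => modularFunctionFieldBar N

/-- The cusp at infinity is a rational place. -/
theorem exists_rational_place : ∃ P : Place Q̄ 𝔽,
    ∀ σ : Γ, arithmeticGalois (modularFunctionFieldFull N) σ • P = P := by
  let : Algebra Q̄ ℂ := GalRep.qbarToC.toAlgebra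
  have hne : ∀ {x : 𝔽}, x ≠ 0 → (x : LaurentSeries Q̄) ≠ 0 := fun hx h =>
    hx (Subtype.ext h)
  have hj : (jBar N Q̄ : LaurentSeries Q̄).order < 0 := by
    rw [coe_jBar]
    have := HahnSeries.order_le_of_coeff_ne_zero (x := jqModC Q̄) (g := (-1 : ℤ))
      (by rw [ModularCurve.coeff_jqModC_neg_one]; exact one_ne_zero)
    omega
  obtain ⟨P, hP, -⟩ := (isFinOver_jBar N).exists_place_of_order (R := 𝔽)
    (fun x => (x : LaurentSeries Q̄).order)
    (fun {a b} ha hb => HahnSeries.order_mul (hne ha) (hne hb))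
    (fun {a b} _ _ hab => HahnSeries.min_order_le_order_add (hne hab))
    (fun c hc => by
      show (algebraMap Q̄ (LaurentSeries Q̄) c).order = 0
      rw [algebraMap_laurentSeries_eq_single, HahnSeries.order_single hc])
    ⟨jBar N Q̄, fun h => by rw [h] at hj; simp at hj, hj.ne⟩
  have hmem : ∀ x : 𝔽, x ≠ 0 → (x ∈ P.toValuationSubring ↔ 0 ≤ (x : LaurentSeries Q̄).order) :=
    fun x hx => by simpa using hP x 1 hx one_ne_zero
  refine ⟨P, fun σ => place_eq_of_le fun z hz => ?_⟩
  rcases eq_or_ne z 0 with rfl | hz0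
  · exact zero_mem _
  rw [SemilinearAut.smul_toValuationSubring,
    ValuationSubring.mem_pointwise_smul_iff_inv_smul_mem] at hz
  have hz1 : (arithmeticGalois (modularFunctionFieldFull N) σ)⁻¹ • z ≠ 0 :=
    fun h => hz0 (by simpa using congrArg (arithmeticGalois (modularFunctionFieldFull N) σ • ·) h)
  rw [hmem _ hz1] at hz
  rw [← map_inv] at hz hz1
  rw [hmem z hz0]
  refine hz.trans (le_of_eq (order_eq_of_coeff_iff (hne hz1) (hne hz0) fun k => ?_))
  rw [coe_arithmeticGalois_smul, coeffMap_coeff]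
  exact map_eq_zero _

/-- Torsion is finite and large. -/
theorem torsion_facts {ℓ : ℕ} (hℓ : ℓ.Prime) :
    Finite {t : JZero N // ℓ • t = 0} ∧
      ℓ ^ (2 * Module.finrank ℂ (CuspForm (Gamma0 N) 2)) ≤ Nat.card {t : JZero N // ℓ • t = 0} := by
  have : NeZero ℓ := ⟨hℓ.ne_zero⟩
  let e : {t : JZero N // ℓ • t = 0} ≃ Submodule.torsionBy ℤ (JZero N) (ℓ : ℤ) :=
    Equiv.subtypeEquivRight fun t => by rw [Submodule.mem_torsionBy_iff, natCast_zsmul]
  have := Flat.finite_torsionBy N ℓ
  exact ⟨Finite.of_equiv _ e.symm, (Flat.pow_le_card_torsionBy N hℓ).trans (Nat.card_congr e).ge⟩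

/-- The Mordell–Weil theorem for `J₀(N)` over `ℚ`. -/
theorem addGroup_fg_rat : AddGroup.FG ↥(FixedPoints.addSubgroup Γ (JZero N)) := by
  classical
  have hx := isFinOver_jBar N
  obtain ⟨h1, h2, h3⟩ := RR.curve_props hx
  have := h1
  have := h2
  have := h3
  obtain ⟨inf, hinf⟩ := exists_rational_place N
  obtain ⟨X, hX⟩ := exists_setup hx inf
  refine X.addGroup_fg _ (fun Q => ?_) (fun ℓ hℓ => ?_) (fun ℓ hℓ => (torsion_facts N hℓ).1)
    fun ℓ hℓ => ?_
  · obtain ⟨Uf, hUf, hf⟩ := exists_open_fix_fun (modularFunctionFieldFull N) X.f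
    choose Ug hUg hg using fun k => exists_open_fix_fun (modularFunctionFieldFull N) (X.gen k)
    choose Up hUp hp using fun i => exists_open_fix_place N (Q i).1
    set U : Subgroup Γ := Uf ⊓ (⨅ k, Ug k) ⊓ (⨅ i, Up i) with hU
    have hUo : IsOpen (U : Set Γ) := by
      simp only [hU, Subgroup.coe_inf, Subgroup.coe_iInf]
      exact (hUf.inter (isOpen_iInter_of_finite hUg)).inter (isOpen_iInter_of_finite hUp)
    set C : ClosedSubgroup Γ := ⟨U, Subgroup.isClosed_of_isOpen _ hUo⟩
    refine ⟨IntermediateField.fixedField U, ?_, fun c hc i σ => ?_⟩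
    · rw [← InfiniteGalois.isOpen_iff_finite, InfiniteGalois.fixingSubgroup_fixedField C]
      exact hUo
    obtain ⟨σ, hσ⟩ := σ
    simp only [hU, Subgroup.mem_inf, Subgroup.mem_iInf] at hσ
    set γ := arithmeticGalois (modularFunctionFieldFull N) σ
    have hγ : X.FixedBy γ := ⟨hX ▸ hinf σ, hf σ hσ.1.1, fun k => hg k σ (hσ.1.2 k)⟩
    have hQ : X.moveT hγ Q = Q := funext fun j => Subtype.ext (hp j σ (hσ.2 j))
    have h := X.xc_smul hγ (c + X.clT Q) i
    rw [smul_add, ← X.clT_moveT hγ, hQ, ← galois_smul_pic0_def, hc σ] at h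
    exact h.symm
  · exact finite_quot N hℓ (@Setup.divisible _ _ _ _ _ _ _ _ _ X ℓ hℓ.pos (torsion_facts N hℓ).1)
      (torsion_facts N hℓ).1
  · refine le_trans (Nat.pow_le_pow_right hℓ.pos ?_) (torsion_facts N hℓ).2
    exact Nat.mul_le_mul_left 2 (genus_le_finrank_cuspForm N X.hR)

end Fermat.Agent.MCurve.MW
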